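/-
S16 (Eisenstein ideal index) support library, block [R] (reduction), part R1:
the quotient of the integral Hecke algebra by the image of the Eisenstein ideal is a cyclic
group `ℤ/m`, where `mℤ` is the set of Eisenstein eigenvalues of the Hecke polynomials acting
as zero on the weight-2 cusp forms of level `p`.
Owner: helper93.  Everything lives in `namespace Fermat.Agent.S16.CyclicQuot`.
-/
import Fermat.Prelude.Def_CuspForm_HeckeLocal
import Fermat.Prelude.Def_CuspForm_HeckeEvalForms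
import Fermat.Prelude.Def_HeckeGalois_EichlerShimura
import Fermat.Prelude.Def_ModularCurve_ModularUnit

set_option autoImplicit false

noncomputable section

namespace Fermat.Agent.S16.CyclicQuot

open ModularCurve CuspForm

/-! ### The abstract statement -/

/-- Let `ψ : R → A` be a surjective ring homomorphism and `ev : R → ℤ` a ring homomorphism.
If the values `ev P`, for `P` in the kernel of `ψ`, are exactly the multiples of `m`, then
`A / ψ(ker ev)` has `m` elements (in the sense of `Nat.card`: it is infinite for `m = 0`). -/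
theorem natCard_quotient_map_ker {R A : Type*} [CommRing R] [CommRing A] (ψ : R →+* A)
    (hψ : Function.Surjective ψ) (ev : R →+* ℤ) (m : ℕ)
    (h : ∀ z : ℤ, (∃ P : R, ψ P = 0 ∧ ev P = z) ↔ (m : ℤ) ∣ z) :
    Nat.card (A ⧸ Ideal.map ψ (RingHom.ker ev)) = m := by
  set J : Ideal A := Ideal.map ψ (RingHom.ker ev) with hJ
  let g : ℤ →+* A ⧸ J := Int.castRingHom (A ⧸ J)
  -- `g` is surjective
  have hg : Function.Surjective g := by
    intro x
    obtain ⟨a, rfl⟩ := Ideal.Quotient.mk_surjective x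
    obtain ⟨P, rfl⟩ := hψ a
    refine ⟨ev P, ?_⟩
    have h1 : P - ((ev P : ℤ) : R) ∈ RingHom.ker ev := by
      rw [RingHom.mem_ker, map_sub, map_intCast, Int.cast_id, sub_self]
    have h2 : ψ (P - ((ev P : ℤ) : R)) ∈ J := Ideal.mem_map_of_mem ψ h1
    have h3 : Ideal.Quotient.mk J (ψ P) = Ideal.Quotient.mk J (ψ ((ev P : ℤ) : R)) := by
      rw [Ideal.Quotient.eq, ← map_sub]
      exact h2
    rw [h3, map_intCast, map_intCast]
    rfl
  -- the kernel of `g`
  have hker : RingHom.ker g = Ideal.span {(m : ℤ)} := by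
    ext z
    rw [RingHom.mem_ker, Ideal.mem_span_singleton, ← h z]
    have hgz : g z = Ideal.Quotient.mk J ((z : ℤ) : A) := by
      rw [map_intCast]
      rfl
    rw [hgz, Ideal.Quotient.eq_zero_iff_mem]
    constructor
    · intro hz
      obtain ⟨Q, hQ, hQz⟩ := (Ideal.mem_map_iff_of_surjective ψ hψ).mp hz
      refine ⟨((z : ℤ) : R) - Q, ?_, ?_⟩
      · rw [map_sub, map_intCast, hQz, sub_self]
      · rw [map_sub, map_intCast, Int.cast_id, (RingHom.mem_ker).mp hQ, sub_zero]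
    · rintro ⟨P, hP, hPz⟩
      have h1 : ((z : ℤ) : R) - P ∈ RingHom.ker ev := by
        rw [RingHom.mem_ker, map_sub, map_intCast, Int.cast_id, hPz, sub_self]
      have h2 : ψ (((z : ℤ) : R) - P) ∈ J := Ideal.mem_map_of_mem ψ h1
      rwa [map_sub, hP, sub_zero, map_intCast] at h2
  -- conclusion
  have e1 : (ℤ ⧸ RingHom.ker g) ≃+* (A ⧸ J) := RingHom.quotientKerEquivOfSurjective hg
  have e2 : (ℤ ⧸ Ideal.span {(m : ℤ)}) ≃+* ZMod m := Int.quotientSpanNatEquivZMod m
  rw [← Nat.card_congr e1.toEquiv, hker, Nat.card_congr e2.toEquiv, Nat.card_zmod]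

/-! ### Surjectivity of the evaluation of Hecke polynomials -/

/-- Every element of the Hecke algebra (no primes removed) is a polynomial in the Hecke
operators `T_ℓ` (`ℓ ∤ N`) and `U_q` (`q ∣ N`). -/
theorem heckeEvalForms_surjective (N : ℕ) [NeZero N] (k : ℤ) :
    Function.Surjective (heckeEvalForms N k) := by
  rintro ⟨t, ht⟩
  let φ : HeckeAlg →ₐ[ℤ] Module.End ℂ (CuspForm (CongruenceSubgroup.Gamma0 N) k) :=
    (heckeAlgebra N k ∅).val.comp (MvPolynomial.aeval (heckeFormsGen N k))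
  have hle : heckeAlgebra N k ∅ ≤ φ.range := by
    unfold heckeAlgebra
    rw [Algebra.adjoin_le_iff]
    rintro T (⟨ℓ, hℓ, hℓN, -, rfl⟩ | ⟨q, hqN, hq, -, rfl⟩)
    · let ℓ' : Nat.Primes := ⟨ℓ, hℓ⟩
      have h1 : heckeEvalForms N k (heckeGen ℓ') = heckeAlgebra.T ℓ'.2 hℓN (Set.notMem_empty _) :=
        heckeEvalForms_heckeGen_of_not_dvd (N := N) (k := k) (ℓ := ℓ') hℓN
      exact ⟨heckeGen ℓ', congrArg Subtype.val h1⟩
    · let q' : Nat.Primes := ⟨q, hq⟩
      have h1 : heckeEvalForms N k (heckeGen q') = heckeAlgebra.U q'.2 hqN (Set.notMem_empty _) :=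
        heckeEvalForms_heckeGen_of_dvd (N := N) (k := k) (q := q') hqN
      exact ⟨heckeGen q', congrArg Subtype.val h1⟩
  obtain ⟨P, hP⟩ := hle ht
  exact ⟨P, Subtype.ext hP⟩

/-! ### The reduction of S16 -/

/-- **Reduction R1.**  Assume the integral cusp forms span (`HasIntegralStructure`, S23).  If the
Eisenstein eigenvalues `ev P` (`T_ℓ ↦ 1 + ℓ` for `ℓ ≠ p`, `U_p ↦ 1`) of the Hecke polynomials `P`
which act as zero on `S₂(Γ₀(p))` are exactly the multiples of `m`, then the quotient of the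
integral Hecke algebra by the image of the Eisenstein ideal has `m` elements. -/
theorem natCard_eq_of_forall (p : ℕ) [Fact p.Prime] (hint : HasIntegralStructure p 2) (m : ℕ)
    (h : ∀ z : ℤ, (∃ P : HeckeAlg, heckeEvalForms p 2 P = 0 ∧
        MvPolynomial.aeval (eisensteinSystem p) P = z) ↔ (m : ℤ) ∣ z) :
    Nat.card (↥(heckeLatticeAlgebra p ∅) ⧸
        Ideal.map ((latticeRestrictHom p ∅).toRingHom.comp (heckeEvalForms p 2))
          (eisensteinIdeal p)) = m := by
  have hbij := latticeRestrictHom_bijective p ∅ hint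
  have hsurj : Function.Surjective
      ((latticeRestrictHom p ∅).toRingHom.comp (heckeEvalForms p 2)) :=
    hbij.2.comp (heckeEvalForms_surjective p 2)
  refine natCard_quotient_map_ker _ hsurj
    (MvPolynomial.aeval (eisensteinSystem p) : HeckeAlg →ₐ[ℤ] ℤ).toRingHom m ?_
  intro z
  rw [← h z]
  constructor
  · rintro ⟨P, hP, hPz⟩
    refine ⟨P, hbij.1 ?_, hPz⟩
    rw [map_zero]
    exact hP
  · rintro ⟨P, hP, hPz⟩
    refine ⟨P, ?_, hPz⟩
    show (latticeRestrictHom p ∅) (heckeEvalForms p 2 P) = 0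
    rw [hP, map_zero]

/-- **Reduction R1, two-inequality form.**  `n ∣ ev P` for every Hecke polynomial `P` acting as
zero on `S₂(Γ₀(p))` (lower bound), and every `m` with this property divides `n` (upper bound). -/
theorem natCard_eq_of_lower_upper (p : ℕ) [Fact p.Prime] (hint : HasIntegralStructure p 2)
    (n : ℕ)
    (hL : ∀ P : HeckeAlg, heckeEvalForms p 2 P = 0 →
      (n : ℤ) ∣ MvPolynomial.aeval (eisensteinSystem p) P)
    (hU : ∀ m : ℕ, (∀ P : HeckeAlg, heckeEvalForms p 2 P = 0 →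
      (m : ℤ) ∣ MvPolynomial.aeval (eisensteinSystem p) P) → m ∣ n) :
    Nat.card (↥(heckeLatticeAlgebra p ∅) ⧸
        Ideal.map ((latticeRestrictHom p ∅).toRingHom.comp (heckeEvalForms p 2))
          (eisensteinIdeal p)) = n := by
  let ev : HeckeAlg →+* ℤ :=
    (MvPolynomial.aeval (eisensteinSystem p) : HeckeAlg →ₐ[ℤ] ℤ).toRingHom
  have hev : Function.Surjective ev := fun z => ⟨MvPolynomial.C z, MvPolynomial.aeval_C _ z⟩
  let J : Ideal ℤ := Ideal.map ev (RingHom.ker (heckeEvalForms p 2))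
  have hJ : ∀ z : ℤ, z ∈ J ↔ ∃ P : HeckeAlg, heckeEvalForms p 2 P = 0 ∧ ev P = z := by
    intro z
    rw [Ideal.mem_map_iff_of_surjective ev hev]
    constructor
    · rintro ⟨P, hP, hPz⟩
      exact ⟨P, (RingHom.mem_ker).mp hP, hPz⟩
    · rintro ⟨P, hP, hPz⟩
      exact ⟨P, (RingHom.mem_ker).mpr hP, hPz⟩
  set m₀ : ℕ := (Submodule.IsPrincipal.generator J).natAbs with hm₀
  have hJm : ∀ z : ℤ, z ∈ J ↔ (m₀ : ℤ) ∣ z := by
    intro z
    rw [hm₀, Int.natAbs_dvd, ← Ideal.mem_span_singleton]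
    have h1 : Ideal.span {Submodule.IsPrincipal.generator J} = J :=
      Submodule.IsPrincipal.span_singleton_generator J
    rw [h1]
  have h1 : n ∣ m₀ := by
    have h2 : (m₀ : ℤ) ∈ J := (hJm _).mpr dvd_rfl
    obtain ⟨P, hP, hPz⟩ := (hJ _).mp h2
    have h3 : (n : ℤ) ∣ ev P := hL P hP
    rw [hPz] at h3
    exact Int.natCast_dvd_natCast.mp h3
  have h2 : m₀ ∣ n := hU m₀ fun P hP => (hJm _).mp ((hJ _).mpr ⟨P, hP, rfl⟩)
  have h3 : m₀ = n := Nat.dvd_antisymm h2 h1
  refine natCard_eq_of_forall p hint n fun z => ?_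
  rw [← h3, ← hJm, hJ]
  rfl

/-! ### Eisenstein characters -/

/-- An *Eisenstein character* mod `m`: a ring homomorphism from the Hecke algebra
`𝕋 ⊆ End_ℂ S₂(Γ₀(p))` to `ℤ/m` sending `T_ℓ ↦ 1 + ℓ` (`ℓ ≠ p`) and `U_p ↦ 1`. -/
def IsEisChar (p : ℕ) [NeZero p] (m : ℕ) (χ : ↥(heckeAlgebra p 2 ∅) →+* ZMod m) : Prop :=
  ∀ ℓ : Nat.Primes, χ (heckeFormsGen p 2 ℓ) = ((eisensteinSystem p ℓ : ℤ) : ZMod m)

/-- An Eisenstein character computes the Eisenstein eigenvalue of every Hecke polynomial. -/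
theorem IsEisChar.apply_heckeEvalForms {p : ℕ} [NeZero p] {m : ℕ}
    {χ : ↥(heckeAlgebra p 2 ∅) →+* ZMod m} (hχ : IsEisChar p m χ) (P : HeckeAlg) :
    χ (heckeEvalForms p 2 P) =
      ((MvPolynomial.aeval (eisensteinSystem p) P : ℤ) : ZMod m) := by
  let f₁ : HeckeAlg →+* ZMod m := χ.comp (heckeEvalForms p 2)
  let f₂ : HeckeAlg →+* ZMod m := (Int.castRingHom (ZMod m)).comp
    (MvPolynomial.aeval (eisensteinSystem p) : HeckeAlg →ₐ[ℤ] ℤ).toRingHom
  have h : f₁ = f₂ := by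
    refine MvPolynomial.ringHom_ext (fun r => ?_) (fun ℓ => ?_)
    · have h1 : f₁.comp MvPolynomial.C = f₂.comp MvPolynomial.C := RingHom.ext_int _ _
      exact RingHom.congr_fun h1 r
    · show χ (heckeEvalForms p 2 (heckeGen ℓ)) =
        ((MvPolynomial.aeval (eisensteinSystem p) (heckeGen ℓ) : ℤ) : ZMod m)
      rw [heckeEvalForms_heckeGen, aeval_heckeGen]
      exact hχ ℓ
  exact RingHom.congr_fun h P

/-- Divisibility of the Eisenstein eigenvalues on the kernel from an Eisenstein character. -/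
theorem IsEisChar.dvd {p : ℕ} [NeZero p] {m : ℕ} {χ : ↥(heckeAlgebra p 2 ∅) →+* ZMod m}
    (hχ : IsEisChar p m χ) (P : HeckeAlg) (hP : heckeEvalForms p 2 P = 0) :
    (m : ℤ) ∣ MvPolynomial.aeval (eisensteinSystem p) P := by
  have h := hχ.apply_heckeEvalForms P
  rw [hP, map_zero] at h
  exact (CharP.intCast_eq_zero_iff (ZMod m) m _).mp h.symm

/-- Conversely, divisibility on the kernel produces an Eisenstein character. -/
theorem exists_isEisChar_of_dvd (p : ℕ) [NeZero p] (m : ℕ)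
    (h : ∀ P : HeckeAlg, heckeEvalForms p 2 P = 0 →
      (m : ℤ) ∣ MvPolynomial.aeval (eisensteinSystem p) P) :
    ∃ χ : ↥(heckeAlgebra p 2 ∅) →+* ZMod m, IsEisChar p m χ := by
  let f₂ : HeckeAlg →+* ZMod m := (Int.castRingHom (ZMod m)).comp
    (MvPolynomial.aeval (eisensteinSystem p) : HeckeAlg →ₐ[ℤ] ℤ).toRingHom
  have hker : RingHom.ker (heckeEvalForms p 2) ≤ RingHom.ker f₂ := by
    intro P hP
    rw [RingHom.mem_ker] at hP ⊢
    exact (CharP.intCast_eq_zero_iff (ZMod m) m _).mpr (h P hP)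
  let χ : ↥(heckeAlgebra p 2 ∅) →+* ZMod m :=
    RingHom.liftOfSurjective (heckeEvalForms p 2) (heckeEvalForms_surjective p 2) ⟨f₂, hker⟩
  have hχ : ∀ P : HeckeAlg, χ (heckeEvalForms p 2 P) = f₂ P := fun P =>
    RingHom.liftOfRightInverse_comp_apply _ _ _ ⟨f₂, hker⟩ P
  refine ⟨χ, fun ℓ => ?_⟩
  rw [← heckeEvalForms_heckeGen, hχ]
  show ((MvPolynomial.aeval (eisensteinSystem p) (heckeGen ℓ) : ℤ) : ZMod m) = _
  rw [aeval_heckeGen]

/-- Explicit description of Eisenstein characters. -/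
theorem isEisChar_iff (p : ℕ) [Fact p.Prime] (m : ℕ) (χ : ↥(heckeAlgebra p 2 ∅) →+* ZMod m) :
    IsEisChar p m χ ↔
      (∀ (q : ℕ) (hq : q.Prime) (hqp : ¬ q ∣ p),
        χ (heckeAlgebra.T hq hqp (Set.notMem_empty _)) = 1 + (q : ZMod m)) ∧
      χ (heckeAlgebra.U (Fact.out : p.Prime) (dvd_refl p) (Set.notMem_empty _)) = 1 := by
  have hp : p.Prime := Fact.out
  constructor
  · intro hχ
    refine ⟨fun q hq hqp => ?_, ?_⟩
    · have h := hχ ⟨q, hq⟩
      rw [heckeFormsGen_of_not_dvd (ℓ := (⟨q, hq⟩ : Nat.Primes)) hqp,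
        eisensteinSystem_of_not_dvd (ℓ := (⟨q, hq⟩ : Nat.Primes)) hqp] at h
      rw [h]
      push_cast
      rfl
    · have h := hχ ⟨p, hp⟩
      rw [heckeFormsGen_of_dvd (q := (⟨p, hp⟩ : Nat.Primes)) (dvd_refl p),
        eisensteinSystem_of_dvd (ℓ := (⟨p, hp⟩ : Nat.Primes)) (dvd_refl p)] at h
      rw [h]
      push_cast
      rfl
  · rintro ⟨hT, hU⟩ ⟨q, hq⟩
    by_cases hqp : q ∣ p
    · obtain rfl : q = p := (Nat.prime_dvd_prime_iff_eq hq hp).mp hqp
      rw [heckeFormsGen_of_dvd (q := (⟨q, hq⟩ : Nat.Primes)) hqp,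
        eisensteinSystem_of_dvd (ℓ := (⟨q, hq⟩ : Nat.Primes)) hqp]
      push_cast
      exact hU
    · rw [heckeFormsGen_of_not_dvd (ℓ := (⟨q, hq⟩ : Nat.Primes)) hqp,
        eisensteinSystem_of_not_dvd (ℓ := (⟨q, hq⟩ : Nat.Primes)) hqp]
      push_cast
      exact hT q hq hqp

/-- **Reduction R1, character form.**  S16 follows from: (L) there is an Eisenstein character
mod `n`; (U) every Eisenstein character mod `m ≥ 1` has `m ∣ n`. -/
theorem natCard_eq_of_eisChar (p : ℕ) [Fact p.Prime] (hint : HasIntegralStructure p 2)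
    (n : ℕ) (hn : 0 < n)
    (hL : ∃ χ : ↥(heckeAlgebra p 2 ∅) →+* ZMod n, IsEisChar p n χ)
    (hU : ∀ m : ℕ, 0 < m →
      (∃ χ : ↥(heckeAlgebra p 2 ∅) →+* ZMod m, IsEisChar p m χ) → m ∣ n) :
    Nat.card (↥(heckeLatticeAlgebra p ∅) ⧸
        Ideal.map ((latticeRestrictHom p ∅).toRingHom.comp (heckeEvalForms p 2))
          (eisensteinIdeal p)) = n := by
  obtain ⟨χ, hχ⟩ := hL
  refine natCard_eq_of_lower_upper p hint n (fun P hP => hχ.dvd P hP) (fun m hm => ?_)
  rcases Nat.eq_zero_or_pos m with rfl | hmpos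
  · -- `m = 0`: the eigenvalues vanish on the kernel, so there are characters mod everything
    exfalso
    have h1 : ∀ P : HeckeAlg, heckeEvalForms p 2 P = 0 →
        ((n + 1 : ℕ) : ℤ) ∣ MvPolynomial.aeval (eisensteinSystem p) P := by
      intro P hP
      have h2 := hm P hP
      rw [Nat.cast_zero, zero_dvd_iff] at h2
      rw [h2]
      exact dvd_zero _
    have h3 : n + 1 ∣ n := hU (n + 1) (Nat.succ_pos n) (exists_isEisChar_of_dvd p (n + 1) h1)
    have h4 := Nat.le_of_dvd hn h3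
    omega
  · exact hU m hmpos (exists_isEisChar_of_dvd p m hm)

end Fermat.Agent.S16.CyclicQuot

end
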