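/-
S16 shared definitions (owner: helper85, captain).  Tiny, FROZEN once landed.

`sigmaP p k = σ'(k) = Σ_{d ∣ k, p ∤ d} d`, and the two interface statements between the
reduction block [R] and the two analytic blocks (U) (upper bound) and (L) (lower bound).
-/
import Mathlib
import Fermat.Prelude.Def_CuspForm_HeckeLocal
import Fermat.Prelude.Def_CuspForm_HeckeEvalForms
import Fermat.Prelude.Def_HeckeGalois_EichlerShimura
import Fermat.Prelude.Def_ModularCurve_ModularUnit

set_option autoImplicit false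

namespace Fermat.Agent.S16

open ModularCurve CuspForm

/-- `σ'(k) = Σ_{d ∣ k, p ∤ d} d`: the `k`-th coefficient (`k ≥ 1`) of the weight-2 Eisenstein
series of level `p`, `E = (p-1)/24 + Σ σ'(k) q^k`. -/
def sigmaP (p k : ℕ) : ℕ := ∑ d ∈ k.divisors with ¬ p ∣ d, d

/-- Interface (U), upper bound: a weight-2 cusp form on `Γ₀(p)` with integral `q`-expansion
`(a k)` that is congruent to the Eisenstein series `Σ σ'(k) q^k` modulo `m ≥ 1` forces
`m ∣ (p-1)/gcd(p-1,12)`. -/
def UpperInput (p : ℕ) : Prop :=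
  ∀ (m : ℕ) (f : CuspForm (CongruenceSubgroup.Gamma0 p) 2) (a : ℕ → ℤ), 0 < m →
    (∀ k : ℕ, ModularFormClass.qCoeff f k = (a k : ℂ)) →
    (∀ k : ℕ, 1 ≤ k → (m : ℤ) ∣ a k - (sigmaP p k : ℤ)) →
    m ∣ eisensteinNumerator p

/-- Interface (L), lower bound: every polynomial in the Hecke operators `T_ℓ` (`ℓ ≠ p`), `U_p`
that kills `S₂(Γ₀(p))` takes a value divisible by `(p-1)/gcd(p-1,12)` at the Eisenstein system
`T_ℓ ↦ 1 + ℓ`, `U_p ↦ 1`. -/
def LowerInput (p : ℕ) [NeZero p] : Prop :=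
  ∀ P : HeckeAlg, heckeEvalForms p 2 P = 0 →
    (eisensteinNumerator p : ℤ) ∣ MvPolynomial.aeval (eisensteinSystem p) P

/-- Alternative form of (L): a cusp form congruent to the Eisenstein series modulo
`(p-1)/gcd(p-1,12)`. The reduction block proves `LowerInputForm p → LowerInput p`. -/
def LowerInputForm (p : ℕ) : Prop :=
  ∃ (f : CuspForm (CongruenceSubgroup.Gamma0 p) 2) (a : ℕ → ℤ),
    (∀ k : ℕ, ModularFormClass.qCoeff f k = (a k : ℂ)) ∧
    ∀ k : ℕ, 1 ≤ k → (eisensteinNumerator p : ℤ) ∣ a k - (sigmaP p k : ℤ)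

end Fermat.Agent.S16
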