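/-
S16, lower bound (L), block [L1]: explicit Hecke operators on `Hom(Γ₀(N), A)`.
Owner: helper22.

For `γ ∈ Γ₀(N)` and the prelude coset representatives `α_x`
(`heckeRep q x`, `x : OnePoint (ZMod q)`, for `T_q`, `q ∤ N`; `heckeMatrix p x.val`, `x : ZMod p`,
for `U_p`, `p ∣ N`) there is a unique `γ'_x ∈ Γ₀(N)` with `α_x γ = γ'_x α_{σ x}`.
The operator is `(T φ)(γ) = ∑ x, φ (γ'_x)`.

* `CosetData Γ ι`, `CosetData.op`: the abstract transfer-type operator and its formal properties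
  (additivity, naturality in the coefficient group);
* `tData N q hqN`, `uData N p hpN`: the two concrete coset data with their defining equations
  `tData_spec`, `uData_spec`;
* `heckeTHom`, `heckeUHom`: the resulting operators on `Additive (Gamma0 N) →+ A`.
-/
import Mathlib
import Fermat.Prelude.Sol.S_ModularForm_heckeT_slash_eq_self_of_mem_Gamma0

set_option autoImplicit false

noncomputable section

namespace Fermat.Agent.S16

open CongruenceSubgroup Matrix.SpecialLinearGroup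
open scoped MatrixGroups
open P2MW.S_ModularForm_heckeT_slash_eq_self_of_mem_Gamma0.ModularForm.HeckeSlashInvariance

/-! ### The abstract operator -/

/-- Coset data for a Hecke operator on `Hom(Γ, A)`: a right action `perm` of `Γ` on the index set
and a compatible "cocycle" `part`. -/
structure CosetData (Γ : Type*) [Group Γ] (ι : Type*) where
  /-- the permutation of the representatives induced by right multiplication by `γ` -/
  perm : Γ → Equiv.Perm ι
  /-- the `Γ`-part of `α_i γ` -/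
  part : Γ → ι → Γ
  perm_mul : ∀ γ δ i, perm (γ * δ) i = perm δ (perm γ i)
  part_mul : ∀ γ δ i, part (γ * δ) i = part γ i * part δ (perm γ i)

namespace CosetData

variable {Γ : Type*} [Group Γ] {ι : Type*} [Fintype ι] (D : CosetData Γ ι)
variable {A B : Type*} [AddCommGroup A] [AddCommGroup B]

/-- The Hecke operator attached to coset data: `(T φ)(γ) = ∑ i, φ (part γ i)`. -/
def op (φ : Additive Γ →+ A) : Additive Γ →+ A :=
  AddMonoidHom.mk' (fun γ => ∑ i, φ (Additive.ofMul (D.part (Additive.toMul γ) i))) (by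
    intro γ δ
    have h : ∀ i, φ (Additive.ofMul (D.part (Additive.toMul (γ + δ)) i)) =
        φ (Additive.ofMul (D.part (Additive.toMul γ) i)) +
          φ (Additive.ofMul (D.part (Additive.toMul δ) (D.perm (Additive.toMul γ) i))) := by
      intro i
      rw [toMul_add, D.part_mul, ofMul_mul, map_add]
    simp only [h, Finset.sum_add_distrib]
    congr 1
    exact Equiv.sum_comp (D.perm (Additive.toMul γ))
      (fun i => φ (Additive.ofMul (D.part (Additive.toMul δ) i))))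

theorem op_apply (φ : Additive Γ →+ A) (γ : Γ) :
    D.op φ (Additive.ofMul γ) = ∑ i, φ (Additive.ofMul (D.part γ i)) := rfl

theorem op_add (φ ψ : Additive Γ →+ A) : D.op (φ + ψ) = D.op φ + D.op ψ := by
  refine AddMonoidHom.ext fun γ => ?_
  obtain ⟨γ, rfl⟩ := Additive.ofMul.surjective γ
  simp only [op_apply, AddMonoidHom.add_apply, Finset.sum_add_distrib]

theorem op_zero : D.op (0 : Additive Γ →+ A) = 0 := by
  refine AddMonoidHom.ext fun γ => ?_
  obtain ⟨γ, rfl⟩ := Additive.ofMul.surjective γ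
  simp only [op_apply, AddMonoidHom.zero_apply, Finset.sum_const_zero]

theorem op_neg (φ : Additive Γ →+ A) : D.op (-φ) = -D.op φ := by
  refine AddMonoidHom.ext fun γ => ?_
  obtain ⟨γ, rfl⟩ := Additive.ofMul.surjective γ
  simp only [op_apply, AddMonoidHom.neg_apply, Finset.sum_neg_distrib]

theorem op_sub (φ ψ : Additive Γ →+ A) : D.op (φ - ψ) = D.op φ - D.op ψ := by
  rw [sub_eq_add_neg, op_add, op_neg, sub_eq_add_neg]

theorem op_nsmul (n : ℕ) (φ : Additive Γ →+ A) : D.op (n • φ) = n • D.op φ := by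
  refine AddMonoidHom.ext fun γ => ?_
  obtain ⟨γ, rfl⟩ := Additive.ofMul.surjective γ
  simp only [op_apply, AddMonoidHom.smul_apply, Finset.smul_sum]

theorem op_zsmul (n : ℤ) (φ : Additive Γ →+ A) : D.op (n • φ) = n • D.op φ := by
  refine AddMonoidHom.ext fun γ => ?_
  obtain ⟨γ, rfl⟩ := Additive.ofMul.surjective γ
  simp only [op_apply, AddMonoidHom.smul_apply, Finset.smul_sum]

/-- The operator as an additive endomorphism of `Hom(Γ, A)`. -/
def opHom : (Additive Γ →+ A) →+ (Additive Γ →+ A) where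
  toFun := D.op
  map_zero' := D.op_zero
  map_add' := D.op_add

@[simp] theorem opHom_apply (φ : Additive Γ →+ A) : D.opHom φ = D.op φ := rfl

/-- Naturality in the coefficient group. -/
theorem op_comp (h : A →+ B) (φ : Additive Γ →+ A) : D.op (h.comp φ) = h.comp (D.op φ) := by
  refine AddMonoidHom.ext fun γ => ?_
  obtain ⟨γ, rfl⟩ := Additive.ofMul.surjective γ
  simp only [op_apply, AddMonoidHom.comp_apply, map_sum]

/-- Scalars of a module structure on the coefficients commute with the operator. -/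
theorem op_smul {R : Type*} [Monoid R] [DistribMulAction R A] (c : R) (φ : Additive Γ →+ A) :
    D.op (c • φ) = c • D.op φ := by
  refine AddMonoidHom.ext fun γ => ?_
  obtain ⟨γ, rfl⟩ := Additive.ofMul.surjective γ
  simp only [op_apply, AddMonoidHom.smul_apply, Finset.smul_sum]

end CosetData

/-! ### Coset data for `T_q`, `q ∤ N` -/

section TData

variable (N : ℕ) (q : ℕ) [Fact q.Prime]

theorem mem_Gamma0_iff_dvd {N : ℕ} {g : SL(2, ℤ)} : g ∈ Gamma0 N ↔ (N : ℤ) ∣ g 1 0 := by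
  rw [Gamma0_mem, ZMod.intCast_zmod_eq_zero_iff_dvd]

/-- `redMatrix` is an anti-homomorphism. -/
theorem redMatrix_mul (g h : SL(2, ℤ)) : redMatrix q (g * h) = redMatrix q h * redMatrix q g := by
  apply Matrix.GeneralLinearGroup.ext
  intro i j
  fin_cases i <;> fin_cases j <;>
    simp [redMatrix, Matrix.mul_apply, Fin.sum_univ_two] <;> ring

variable {N q}

/-- The `Γ₀(N)`-part of `α_x γ`. -/
def tPart (hqN : ¬ q ∣ N) (γ : Gamma0 N) (x : OnePoint (ZMod q)) : Gamma0 N :=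
  ⟨(heckeRep_mul hqN (γ : SL(2, ℤ)) (mem_Gamma0_iff_dvd.mp γ.2) x).choose,
    mem_Gamma0_iff_dvd.mpr (heckeRep_mul hqN (γ : SL(2, ℤ)) (mem_Gamma0_iff_dvd.mp γ.2) x).choose_spec.1⟩

/-- The defining equation `α_x γ = γ'_x α_{σ x}`. -/
theorem tPart_spec (hqN : ¬ q ∣ N) (γ : Gamma0 N) (x : OnePoint (ZMod q)) :
    heckeRep q x * mapGL ℝ (γ : SL(2, ℤ)) =
      mapGL ℝ ((tPart hqN γ x : Gamma0 N) : SL(2, ℤ)) * heckeRep q (redMatrix q (γ : SL(2, ℤ)) • x) :=
  (heckeRep_mul hqN (γ : SL(2, ℤ)) (mem_Gamma0_iff_dvd.mp γ.2) x).choose_spec.2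

/-- Uniqueness of the `Γ₀(N)`-part. -/
theorem tPart_unique (hqN : ¬ q ∣ N) (γ : Gamma0 N) (x : OnePoint (ZMod q)) (g : Gamma0 N)
    (h : heckeRep q x * mapGL ℝ (γ : SL(2, ℤ)) =
      mapGL ℝ (g : SL(2, ℤ)) * heckeRep q (redMatrix q (γ : SL(2, ℤ)) • x)) :
    tPart hqN γ x = g := by
  have h1 := tPart_spec hqN γ x
  rw [h] at h1
  have h2 := mul_right_cancel h1
  exact Subtype.ext ((mapGL_injective (S := ℝ)) h2).symm

variable (N q) in
/-- The coset data of `T_q` on `Γ₀(N)`. -/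
def tData (hqN : ¬ q ∣ N) : CosetData (Gamma0 N) (OnePoint (ZMod q)) where
  perm γ := MulAction.toPerm (redMatrix q (γ : SL(2, ℤ)))
  part γ x := tPart hqN γ x
  perm_mul γ δ x := by
    show redMatrix q ((γ * δ : Gamma0 N) : SL(2, ℤ)) • x =
      redMatrix q (δ : SL(2, ℤ)) • redMatrix q (γ : SL(2, ℤ)) • x
    rw [Subgroup.coe_mul, redMatrix_mul, mul_smul]
  part_mul γ δ x := by
    apply tPart_unique
    have h1 := tPart_spec hqN γ x
    have h2 := tPart_spec hqN δ (redMatrix q (γ : SL(2, ℤ)) • x)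
    rw [Subgroup.coe_mul, map_mul, ← mul_assoc, h1, mul_assoc, h2, ← mul_assoc, Subgroup.coe_mul,
      map_mul, redMatrix_mul, mul_smul]
    rfl

theorem tData_perm (hqN : ¬ q ∣ N) (γ : Gamma0 N) (x : OnePoint (ZMod q)) :
    (tData N q hqN).perm γ x = redMatrix q (γ : SL(2, ℤ)) • x := rfl

/-- The defining equation of the coset data of `T_q`. -/
theorem tData_spec (hqN : ¬ q ∣ N) (γ : Gamma0 N) (x : OnePoint (ZMod q)) :
    heckeRep q x * mapGL ℝ (γ : SL(2, ℤ)) =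
      mapGL ℝ (((tData N q hqN).part γ x : Gamma0 N) : SL(2, ℤ)) *
        heckeRep q ((tData N q hqN).perm γ x) :=
  tPart_spec hqN γ x

end TData

/-! ### Coset data for `U_p`, `p ∣ N` -/

section UData

variable {N : ℕ} {p : ℕ}

theorem uAux_dvd (hpN : p ∣ N) (γ : Gamma0 N) : (p : ℤ) ∣ (γ : SL(2, ℤ)) 1 0 :=
  (Int.natCast_dvd_natCast.mpr hpN).trans (mem_Gamma0_iff_dvd.mp γ.2)

theorem uAux_cast (hpN : p ∣ N) (γ : Gamma0 N) : ((((γ : SL(2, ℤ)) 1 0 : ℤ)) : ZMod p) = 0 :=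
  (ZMod.intCast_zmod_eq_zero_iff_dvd _ _).mpr (uAux_dvd hpN γ)

variable [NeZero p]

/-- The `Γ₀(N)`-part of `α_x γ` for `U_p`. -/
def uPart (hpN : p ∣ N) (γ : Gamma0 N) (x : ZMod p) : Gamma0 N :=
  ⟨(heckeMatrix_mul_of_dvd (γ : SL(2, ℤ)) (uAux_dvd hpN γ) x).choose, by
    rw [mem_Gamma0_iff_dvd,
      (heckeMatrix_mul_of_dvd (γ : SL(2, ℤ)) (uAux_dvd hpN γ) x).choose_spec.1]
    exact Dvd.dvd.mul_left (mem_Gamma0_iff_dvd.mp γ.2) _⟩

theorem uPart_spec (hpN : p ∣ N) (γ : Gamma0 N) (x : ZMod p) :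
    ModularForm.heckeMatrix p x.val * mapGL ℝ (γ : SL(2, ℤ)) =
      mapGL ℝ ((uPart hpN γ x : Gamma0 N) : SL(2, ℤ)) *
        ModularForm.heckeMatrix p (affinePerm (γ : SL(2, ℤ)) (uAux_cast hpN γ) x).val :=
  (heckeMatrix_mul_of_dvd (γ : SL(2, ℤ)) (uAux_dvd hpN γ) x).choose_spec.2

theorem uPart_unique (hpN : p ∣ N) (γ : Gamma0 N) (x : ZMod p) (g : Gamma0 N)
    (h : ModularForm.heckeMatrix p x.val * mapGL ℝ (γ : SL(2, ℤ)) =
      mapGL ℝ (g : SL(2, ℤ)) *
        ModularForm.heckeMatrix p (affinePerm (γ : SL(2, ℤ)) (uAux_cast hpN γ) x).val) :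
    uPart hpN γ x = g := by
  have h1 := uPart_spec hpN γ x
  rw [h] at h1
  have h2 := mul_right_cancel h1
  exact Subtype.ext ((mapGL_injective (S := ℝ)) h2).symm

omit [NeZero p] in
theorem affinePerm_mul (hpN : p ∣ N) (γ δ : Gamma0 N) (x : ZMod p) :
    affinePerm ((γ * δ : Gamma0 N) : SL(2, ℤ)) (uAux_cast hpN (γ * δ)) x =
      affinePerm (δ : SL(2, ℤ)) (uAux_cast hpN δ)
        (affinePerm (γ : SL(2, ℤ)) (uAux_cast hpN γ) x) := by
  have hγ := uAux_cast hpN γ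
  have hδ := uAux_cast hpN δ
  have hu := unit_of_apply_one_zero_eq_zero (γ : SL(2, ℤ)) hγ
  simp only [affinePerm_apply, Subgroup.coe_mul, Matrix.SpecialLinearGroup.coe_mul,
    Matrix.mul_apply, Fin.sum_univ_two]
  push_cast
  rw [hγ]
  linear_combination (((δ : SL(2, ℤ)) 1 1 : ℤ) : ZMod p) * (((δ : SL(2, ℤ)) 0 1 : ℤ) : ZMod p) * hu

variable (N p) in
/-- The coset data of `U_p` on `Γ₀(N)`, `p ∣ N`. -/
def uData (hpN : p ∣ N) : CosetData (Gamma0 N) (ZMod p) where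
  perm γ := affinePerm (γ : SL(2, ℤ)) (uAux_cast hpN γ)
  part γ x := uPart hpN γ x
  perm_mul γ δ x := affinePerm_mul hpN γ δ x
  part_mul γ δ x := by
    apply uPart_unique
    have h1 := uPart_spec hpN γ x
    have h2 := uPart_spec hpN δ (affinePerm (γ : SL(2, ℤ)) (uAux_cast hpN γ) x)
    rw [affinePerm_mul hpN γ δ x, Subgroup.coe_mul, map_mul, ← mul_assoc, h1, mul_assoc, h2,
      ← mul_assoc, Subgroup.coe_mul, map_mul]

theorem uData_perm (hpN : p ∣ N) (γ : Gamma0 N) (x : ZMod p) :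
    (uData N p hpN).perm γ x = affinePerm (γ : SL(2, ℤ)) (uAux_cast hpN γ) x := rfl

/-- The defining equation of the coset data of `U_p`. -/
theorem uData_spec (hpN : p ∣ N) (γ : Gamma0 N) (x : ZMod p) :
    ModularForm.heckeMatrix p x.val * mapGL ℝ (γ : SL(2, ℤ)) =
      mapGL ℝ (((uData N p hpN).part γ x : Gamma0 N) : SL(2, ℤ)) *
        ModularForm.heckeMatrix p ((uData N p hpN).perm γ x).val :=
  uPart_spec hpN γ x

end UData

/-! ### Entries of the `Γ₀(N)`-parts -/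

section Entries

/-- The lower right entry of the representative `α_x` of `T_q`. -/
def tDen (q : ℕ) (x : OnePoint (ZMod q)) : ℕ := x.elim 1 (fun _ => q)

@[simp] theorem tDen_infty (q : ℕ) : tDen q (OnePoint.infty : OnePoint (ZMod q)) = 1 := rfl

@[simp] theorem tDen_coe (q : ℕ) (j : ZMod q) : tDen q (j : OnePoint (ZMod q)) = q := rfl

theorem heckeRep_apply_one_one (q : ℕ) [NeZero q] (x : OnePoint (ZMod q)) :
    (heckeRep q x : GL (Fin 2) ℝ) 1 1 = (tDen q x : ℝ) := by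
  induction x using OnePoint.rec with
  | infty => simp [heckeRep, ModularForm.val_heckeDiagMatrix (NeZero.ne q)]
  | coe j => simp [heckeRep, ModularForm.val_heckeMatrix (NeZero.ne q)]

theorem heckeRep_apply_one_zero' (q : ℕ) [NeZero q] (x : OnePoint (ZMod q)) :
    (heckeRep q x : GL (Fin 2) ℝ) 1 0 = 0 := by
  induction x using OnePoint.rec with
  | infty => simp [heckeRep, ModularForm.val_heckeDiagMatrix (NeZero.ne q)]
  | coe j => simp [heckeRep, ModularForm.val_heckeMatrix (NeZero.ne q)]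

theorem heckeRep_apply_zero_one_int (q : ℕ) [NeZero q] (x : OnePoint (ZMod q)) :
    ∃ b : ℤ, (heckeRep q x : GL (Fin 2) ℝ) 0 1 = (b : ℝ) := by
  induction x using OnePoint.rec with
  | infty => exact ⟨0, by simp [heckeRep, ModularForm.val_heckeDiagMatrix (NeZero.ne q)]⟩
  | coe j => exact ⟨(j.val : ℤ), by simp [heckeRep, ModularForm.val_heckeMatrix (NeZero.ne q)]⟩

/-- Lower right entries for `T_q`: `d(α_x) · d(γ) ≡ d(γ'_x) · d(α_{σ x})` modulo `N`. -/
theorem tData_part_apply_one_one {N q : ℕ} [Fact q.Prime] (hqN : ¬ q ∣ N) (γ : Gamma0 N)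
    (x : OnePoint (ZMod q)) :
    ((tDen q x : ℕ) : ZMod N) * ((((γ : SL(2, ℤ)) 1 1 : ℤ)) : ZMod N) =
      ((((((tData N q hqN).part γ x : Gamma0 N) : SL(2, ℤ)) 1 1 : ℤ)) : ZMod N) *
        ((tDen q ((tData N q hqN).perm γ x) : ℕ) : ZMod N) := by
  have h := tData_spec hqN γ x
  set g' : Gamma0 N := (tData N q hqN).part γ x with hg'
  set y := (tData N q hqN).perm γ x with hy
  obtain ⟨b, hb⟩ := heckeRep_apply_zero_one_int q y
  have h11 := congrArg (fun M : GL (Fin 2) ℝ => (M : Matrix (Fin 2) (Fin 2) ℝ) 1 1) h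
  simp only [Matrix.GeneralLinearGroup.coe_mul, Matrix.mul_apply, Fin.sum_univ_two] at h11
  have e1 := heckeRep_apply_one_one q x
  have e2 := heckeRep_apply_one_zero' q x
  have e3 := heckeRep_apply_one_one q y
  have m1 := mapGL_apply (γ : SL(2, ℤ)) 1 1
  have m2 := mapGL_apply (γ : SL(2, ℤ)) 0 1
  have m3 := mapGL_apply (g' : SL(2, ℤ)) 1 0
  have m4 := mapGL_apply (g' : SL(2, ℤ)) 1 1
  rw [e1, e2, e3, hb, m1, m2, m3, m4] at h11
  have hint : (tDen q x : ℤ) * (γ : SL(2, ℤ)) 1 1 =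
      (g' : SL(2, ℤ)) 1 0 * b + (g' : SL(2, ℤ)) 1 1 * (tDen q y : ℤ) := by
    have : ((0 : ℝ) * (((γ : SL(2, ℤ)) 0 1 : ℤ) : ℝ) + (tDen q x : ℝ) * (((γ : SL(2, ℤ)) 1 1 : ℤ) : ℝ)) =
        ((((g' : SL(2, ℤ)) 1 0 : ℤ) : ℝ) * (b : ℝ) + (((g' : SL(2, ℤ)) 1 1 : ℤ) : ℝ) * (tDen q y : ℝ)) :=
      h11
    have h' : (((tDen q x : ℤ) * (γ : SL(2, ℤ)) 1 1 : ℤ) : ℝ) =
        (((g' : SL(2, ℤ)) 1 0 * b + (g' : SL(2, ℤ)) 1 1 * (tDen q y : ℤ) : ℤ) : ℝ) := by
      push_cast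
      linarith
    exact_mod_cast h'
  have hN : ((((g' : SL(2, ℤ)) 1 0 : ℤ)) : ZMod N) = 0 := Gamma0_mem.mp g'.2
  have hc := congrArg (Int.cast : ℤ → ZMod N) hint
  push_cast at hc
  rw [hN, zero_mul, zero_add] at hc
  exact hc

/-- Upper left entries for `U_p`: `a(γ'_x) = a(γ) + x · c(γ)`. -/
theorem uData_part_apply_zero_zero {N p : ℕ} [NeZero p] (hpN : p ∣ N) (γ : Gamma0 N)
    (x : ZMod p) :
    (((uData N p hpN).part γ x : Gamma0 N) : SL(2, ℤ)) 0 0 =
      (γ : SL(2, ℤ)) 0 0 + (x.val : ℤ) * (γ : SL(2, ℤ)) 1 0 := by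
  have h := uData_spec hpN γ x
  set g' : Gamma0 N := (uData N p hpN).part γ x with hg'
  set y := (uData N p hpN).perm γ x with hy
  have h00 := congrArg (fun M : GL (Fin 2) ℝ => (M : Matrix (Fin 2) (Fin 2) ℝ) 0 0) h
  simp only [Matrix.GeneralLinearGroup.coe_mul, Matrix.mul_apply, Fin.sum_univ_two,
    ModularForm.val_heckeMatrix (NeZero.ne p)] at h00
  have m1 := mapGL_apply (γ : SL(2, ℤ)) 0 0
  have m2 := mapGL_apply (γ : SL(2, ℤ)) 1 0
  have m3 := mapGL_apply (g' : SL(2, ℤ)) 0 0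
  simp only [Matrix.of_apply, Matrix.cons_val_zero, Matrix.cons_val_one, Matrix.cons_val',
    Matrix.cons_val_fin_one, m1, m2, m3] at h00
  have h' : ((((g' : SL(2, ℤ)) 0 0 : ℤ)) : ℝ) =
      (((γ : SL(2, ℤ)) 0 0 + (x.val : ℤ) * (γ : SL(2, ℤ)) 1 0 : ℤ) : ℝ) := by
    push_cast
    linarith
  exact_mod_cast h'

/-- Lower right entries for `U_p`: `d(γ'_x) = d(γ) - (σ x) · c(γ)`. -/
theorem uData_part_apply_one_one {N p : ℕ} [NeZero p] (hpN : p ∣ N) (γ : Gamma0 N)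
    (x : ZMod p) :
    (((uData N p hpN).part γ x : Gamma0 N) : SL(2, ℤ)) 1 1 =
      (γ : SL(2, ℤ)) 1 1 - (((uData N p hpN).perm γ x).val : ℤ) * (γ : SL(2, ℤ)) 1 0 := by
  have h := uData_spec hpN γ x
  set g' : Gamma0 N := (uData N p hpN).part γ x with hg'
  set y := (uData N p hpN).perm γ x with hy
  have hp0 : (p : ℝ) ≠ 0 := Nat.cast_ne_zero.mpr (NeZero.ne p)
  have h10 := congrArg (fun M : GL (Fin 2) ℝ => (M : Matrix (Fin 2) (Fin 2) ℝ) 1 0) h
  have h11 := congrArg (fun M : GL (Fin 2) ℝ => (M : Matrix (Fin 2) (Fin 2) ℝ) 1 1) h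
  simp only [Matrix.GeneralLinearGroup.coe_mul, Matrix.mul_apply, Fin.sum_univ_two,
    ModularForm.val_heckeMatrix (NeZero.ne p)] at h10 h11
  have m1 := mapGL_apply (γ : SL(2, ℤ)) 1 1
  have m2 := mapGL_apply (γ : SL(2, ℤ)) 1 0
  have m3 := mapGL_apply (g' : SL(2, ℤ)) 1 0
  have m4 := mapGL_apply (g' : SL(2, ℤ)) 1 1
  have m5 := mapGL_apply (γ : SL(2, ℤ)) 0 0
  have m6 := mapGL_apply (γ : SL(2, ℤ)) 0 1
  simp only [Matrix.of_apply, Matrix.cons_val_zero, Matrix.cons_val_one, Matrix.cons_val',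
    Matrix.cons_val_fin_one, m1, m2, m3, m4, m5, m6] at h10 h11
  have h' : ((((g' : SL(2, ℤ)) 1 1 : ℤ)) : ℝ) =
      (((γ : SL(2, ℤ)) 1 1 - (y.val : ℤ) * (γ : SL(2, ℤ)) 1 0 : ℤ) : ℝ) := by
    push_cast
    have e1 : (((g' : SL(2, ℤ)) 1 0 : ℤ) : ℝ) = (p : ℝ) * (((γ : SL(2, ℤ)) 1 0 : ℤ) : ℝ) := by
      linarith
    have e2 : (p : ℝ) * ((((g' : SL(2, ℤ)) 1 1 : ℤ)) : ℝ) =
        (p : ℝ) * ((((γ : SL(2, ℤ)) 1 1 : ℤ) : ℝ) - (y.val : ℝ) * (((γ : SL(2, ℤ)) 1 0 : ℤ) : ℝ)) := by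
      rw [e1] at h11
      linarith
    exact mul_left_cancel₀ hp0 e2
  exact_mod_cast h'

end Entries

/-! ### The operators -/

section Operators

variable {A : Type*} [AddCommGroup A]

/-- `T_q` on `Hom(Γ₀(N), A)`, `q ∤ N`. -/
def heckeTHom (N q : ℕ) [Fact q.Prime] (hqN : ¬ q ∣ N) (φ : Additive (Gamma0 N) →+ A) :
    Additive (Gamma0 N) →+ A :=
  (tData N q hqN).op φ

/-- `U_p` on `Hom(Γ₀(N), A)`, `p ∣ N`. -/
def heckeUHom (N p : ℕ) [NeZero p] (hpN : p ∣ N) (φ : Additive (Gamma0 N) →+ A) :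
    Additive (Gamma0 N) →+ A :=
  (uData N p hpN).op φ

theorem heckeTHom_apply (N q : ℕ) [Fact q.Prime] (hqN : ¬ q ∣ N) (φ : Additive (Gamma0 N) →+ A)
    (γ : Gamma0 N) :
    heckeTHom N q hqN φ (Additive.ofMul γ) =
      ∑ x : OnePoint (ZMod q), φ (Additive.ofMul ((tData N q hqN).part γ x)) := rfl

theorem heckeUHom_apply (N p : ℕ) [NeZero p] (hpN : p ∣ N) (φ : Additive (Gamma0 N) →+ A)
    (γ : Gamma0 N) :
    heckeUHom N p hpN φ (Additive.ofMul γ) =
      ∑ x : ZMod p, φ (Additive.ofMul ((uData N p hpN).part γ x)) := rfl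

end Operators

end Fermat.Agent.S16
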