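/-
S16, lower bound (L), block [E2] (B seat, owner: helper37): the Hecke operators `heckeTHom`,
`heckeUHom` on `Hom(Γ₀(N), A)` (S16/HeckeHom.lean) commute with the involution
`charInvolution` (composition with conjugation by `diag(-1, 1)`).

Abstract core (`op_comp_jConj`): if the representatives `α x` of a coset datum satisfy
`J * α x * J = τ x * α (ν x)` (`τ x ∈ Γ₀(N)`, `ν` a permutation of the index set compatible with
the permutation part of the datum), then the `Γ₀(N)`-parts satisfy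
`part (jγ) (ν x) = (τ x)⁻¹ * j (part γ x) * τ (perm γ x)` and the `τ`-terms cancel in the sum.
No hypothesis on the character `φ` is needed.
-/
import Mathlib
import Fermat.Agent.S16.HeckeHom
import Fermat.Prelude.Def_ModularCurve_PeriodHomPair

set_option autoImplicit false

namespace Fermat.Agent.S16.HeckeInvB

open CongruenceSubgroup Matrix.SpecialLinearGroup ModularCurve.Period
open scoped MatrixGroups
open P2MW.S_ModularForm_heckeT_slash_eq_self_of_mem_Gamma0.ModularForm.HeckeSlashInvariance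

/-- The reflection `J = diag(-1, 1)` intertwines `γ` and `jConjSL γ`. -/
theorem J_mul_mapGL (γ : SL(2, ℤ)) :
    UpperHalfPlane.J * (mapGL ℝ γ : GL (Fin 2) ℝ) =
      (mapGL ℝ (jConjSL γ) : GL (Fin 2) ℝ) * UpperHalfPlane.J := by
  apply Units.ext
  ext i j
  fin_cases i <;> fin_cases j <;>
    simp [Matrix.mul_apply, Fin.sum_univ_two, jConjMat]

theorem J_mul_J : UpperHalfPlane.J * UpperHalfPlane.J = 1 := by
  rw [← sq, UpperHalfPlane.J_sq]

theorem J_inv : (UpperHalfPlane.J)⁻¹ = UpperHalfPlane.J :=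
  inv_eq_of_mul_eq_one_left J_mul_J

/-- `jConjSL γ = J γ J⁻¹` in `GL(2, ℝ)`. -/
theorem mapGL_jConjSL (γ : SL(2, ℤ)) :
    (mapGL ℝ (jConjSL γ) : GL (Fin 2) ℝ) =
      UpperHalfPlane.J * (mapGL ℝ γ : GL (Fin 2) ℝ) * (UpperHalfPlane.J)⁻¹ := by
  rw [J_mul_mapGL, mul_assoc, mul_inv_cancel, mul_one]

section Abstract

variable {N : ℕ} {ι : Type*} [Fintype ι] {A : Type*} [AddCommGroup A]

omit [Fintype ι] in
/-- The `Γ₀(N)`-parts of a coset datum whose representatives are permuted by conjugation by `J`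
up to left multiplication by elements of `Γ₀(N)`. -/
theorem part_jConj (D : CosetData (Gamma0 N) ι) (α : ι → GL (Fin 2) ℝ)
    (hspec : ∀ (γ : Gamma0 N) (x : ι), α x * mapGL ℝ (γ : SL(2, ℤ)) =
      mapGL ℝ ((D.part γ x : Gamma0 N) : SL(2, ℤ)) * α (D.perm γ x))
    (ν : Equiv.Perm ι) (τ : ι → Gamma0 N)
    (hτ : ∀ x, UpperHalfPlane.J * α x * UpperHalfPlane.J =
      mapGL ℝ ((τ x : Gamma0 N) : SL(2, ℤ)) * α (ν x))
    (hperm : ∀ (γ : Gamma0 N) (x : ι), D.perm (jConjGamma0 N γ) (ν x) = ν (D.perm γ x))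
    (γ : Gamma0 N) (x : ι) :
    D.part (jConjGamma0 N γ) (ν x) =
      (τ x)⁻¹ * jConjGamma0 N (D.part γ x) * τ (D.perm γ x) := by
  apply Subtype.ext
  apply mapGL_injective (S := ℝ)
  have e1 : ∀ y, α (ν y) = (mapGL ℝ ((τ y : Gamma0 N) : SL(2, ℤ)) : GL (Fin 2) ℝ)⁻¹ *
      (UpperHalfPlane.J * α y * (UpperHalfPlane.J)⁻¹) := by
    intro y
    rw [J_inv, hτ y, inv_mul_cancel_left]
  have h1 := hspec (jConjGamma0 N γ) (ν x)
  rw [hperm γ x] at h1
  have h2 := hspec γ x
  apply mul_right_cancel (b := α (ν (D.perm γ x)))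
  rw [← h1]
  simp only [Subgroup.coe_mul, Subgroup.coe_inv, map_mul, map_inv, jConjGamma0_coe,
    mapGL_jConjSL]
  rw [e1 x, e1 (D.perm γ x)]
  calc (mapGL ℝ ((τ x : Gamma0 N) : SL(2, ℤ)) : GL (Fin 2) ℝ)⁻¹ *
        (UpperHalfPlane.J * α x * (UpperHalfPlane.J)⁻¹) *
        (UpperHalfPlane.J * mapGL ℝ (γ : SL(2, ℤ)) * (UpperHalfPlane.J)⁻¹)
      = (mapGL ℝ ((τ x : Gamma0 N) : SL(2, ℤ)) : GL (Fin 2) ℝ)⁻¹ * UpperHalfPlane.J *
          (α x * mapGL ℝ (γ : SL(2, ℤ))) * (UpperHalfPlane.J)⁻¹ := by group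
    _ = (mapGL ℝ ((τ x : Gamma0 N) : SL(2, ℤ)) : GL (Fin 2) ℝ)⁻¹ * UpperHalfPlane.J *
          (mapGL ℝ ((D.part γ x : Gamma0 N) : SL(2, ℤ)) * α (D.perm γ x)) *
            (UpperHalfPlane.J)⁻¹ := by rw [h2]
    _ = _ := by group

/-- **Abstract commutation**: a Hecke operator given by a coset datum as above commutes with
composition with `jConjGamma0`. -/
theorem op_comp_jConj (D : CosetData (Gamma0 N) ι) (α : ι → GL (Fin 2) ℝ)
    (hspec : ∀ (γ : Gamma0 N) (x : ι), α x * mapGL ℝ (γ : SL(2, ℤ)) =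
      mapGL ℝ ((D.part γ x : Gamma0 N) : SL(2, ℤ)) * α (D.perm γ x))
    (ν : Equiv.Perm ι) (τ : ι → Gamma0 N)
    (hτ : ∀ x, UpperHalfPlane.J * α x * UpperHalfPlane.J =
      mapGL ℝ ((τ x : Gamma0 N) : SL(2, ℤ)) * α (ν x))
    (hperm : ∀ (γ : Gamma0 N) (x : ι), D.perm (jConjGamma0 N γ) (ν x) = ν (D.perm γ x))
    (φ : Additive (Gamma0 N) →+ A) :
    (D.op φ).comp (MonoidHom.toAdditive (jConjGamma0 N)) =
      D.op (φ.comp (MonoidHom.toAdditive (jConjGamma0 N))) := by
  refine AddMonoidHom.ext fun γ => ?_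
  obtain ⟨γ, rfl⟩ := Additive.ofMul.surjective γ
  have hL : ((D.op φ).comp (MonoidHom.toAdditive (jConjGamma0 N))) (Additive.ofMul γ) =
      ∑ x, φ (Additive.ofMul (D.part (jConjGamma0 N γ) x)) := rfl
  have hR : (D.op (φ.comp (MonoidHom.toAdditive (jConjGamma0 N)))) (Additive.ofMul γ) =
      ∑ x, φ (Additive.ofMul (jConjGamma0 N (D.part γ x))) := rfl
  rw [hL, hR, ← Equiv.sum_comp ν (fun x => φ (Additive.ofMul (D.part (jConjGamma0 N γ) x)))]
  have hterm : ∀ x, φ (Additive.ofMul (D.part (jConjGamma0 N γ) (ν x))) =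
      φ (Additive.ofMul (jConjGamma0 N (D.part γ x))) +
        (φ (Additive.ofMul (τ (D.perm γ x))) - φ (Additive.ofMul (τ x))) := by
    intro x
    rw [part_jConj D α hspec ν τ hτ hperm γ x, ofMul_mul, ofMul_mul, ofMul_inv, map_add, map_add,
      map_neg]
    abel
  simp only [hterm, Finset.sum_add_distrib, Finset.sum_sub_distrib]
  rw [Equiv.sum_comp (D.perm γ) (fun x => φ (Additive.ofMul (τ x))), sub_self, add_zero]

end Abstract

/-! ### The representatives under conjugation by `J` -/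

section Reps

variable {N : ℕ}

/-- `J * [[1, j], [0, q]] * J = [[1, -m], [0, 1]] * [[1, -j mod q], [0, q]]`. -/
theorem exists_J_heckeMatrix (q : ℕ) [NeZero q] (j : ZMod q) :
    ∃ t : Gamma0 N, UpperHalfPlane.J * ModularForm.heckeMatrix q j.val * UpperHalfPlane.J =
      (mapGL ℝ ((t : Gamma0 N) : SL(2, ℤ)) : GL (Fin 2) ℝ) * ModularForm.heckeMatrix q (-j).val := by
  obtain ⟨m, hm⟩ : (q : ℤ) ∣ (j.val : ℤ) + ((-j).val : ℤ) := by
    rw [← ZMod.intCast_zmod_eq_zero_iff_dvd]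
    push_cast
    rw [ZMod.natCast_zmod_val, ZMod.natCast_zmod_val, add_neg_cancel]
  have hdet : Matrix.det !![(1 : ℤ), -m; 0, 1] = 1 := by
    rw [Matrix.det_fin_two_of]; ring
  set t : SL(2, ℤ) := ⟨!![(1 : ℤ), -m; 0, 1], hdet⟩ with ht
  have t00 : t 0 0 = 1 := rfl
  have t01 : t 0 1 = -m := rfl
  have t10 : t 1 0 = 0 := rfl
  have t11 : t 1 1 = 1 := rfl
  have hmem : t ∈ Gamma0 N := by
    rw [Gamma0_mem, t10]
    simp
  refine ⟨⟨t, hmem⟩, ?_⟩
  have hq : q ≠ 0 := NeZero.ne q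
  have hmR : ((j.val : ℕ) : ℝ) + (((-j).val : ℕ) : ℝ) = (q : ℝ) * (m : ℝ) := by
    exact_mod_cast hm
  rw [ZMod.natCast_val, ZMod.natCast_val] at hmR
  apply Units.ext
  ext a b
  fin_cases a <;> fin_cases b <;>
    simp [Matrix.mul_apply, Fin.sum_univ_two, ModularForm.val_heckeMatrix hq, t00, t01, t10, t11]
  linarith

theorem J_heckeDiagMatrix (q : ℕ) [NeZero q] :
    UpperHalfPlane.J * ModularForm.heckeDiagMatrix q * UpperHalfPlane.J =
      ModularForm.heckeDiagMatrix q := by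
  have hq : q ≠ 0 := NeZero.ne q
  apply Units.ext
  ext a b
  fin_cases a <;> fin_cases b <;>
    simp [Matrix.mul_apply, Fin.sum_univ_two, ModularForm.val_heckeDiagMatrix hq]

end Reps

/-! ### `T_q` -/

section TOp

variable {N q : ℕ} [Fact q.Prime]

/-- `diag(-1, 1)` over `𝔽_q`. -/
noncomputable def negMat (q : ℕ) [Fact q.Prime] : GL (Fin 2) (ZMod q) :=
  Matrix.GeneralLinearGroup.mkOfDetNeZero !![(-1 : ZMod q), 0; 0, 1] (by
    rw [Matrix.det_fin_two_of]; simp)

theorem negMat_smul_infty :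
    negMat q • (OnePoint.infty : OnePoint (ZMod q)) = OnePoint.infty := by
  rw [OnePoint.smul_infty_eq_ite, if_pos]
  simp [negMat]

theorem negMat_smul_coe (j : ZMod q) :
    negMat q • ((j : ZMod q) : OnePoint (ZMod q)) = ((-j : ZMod q) : OnePoint (ZMod q)) := by
  rw [OnePoint.smul_some_eq_ite, if_neg]
  · simp [negMat]
  · simp [negMat]

theorem redMatrix_jConjSL_mul (g : SL(2, ℤ)) :
    redMatrix q (jConjSL g) * negMat q = negMat q * redMatrix q g := by
  apply Matrix.GeneralLinearGroup.ext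
  intro i j
  fin_cases i <;> fin_cases j <;>
    simp [redMatrix, negMat, Matrix.mul_apply, Fin.sum_univ_two, jConjMat]

theorem exists_J_heckeRep (x : OnePoint (ZMod q)) :
    ∃ t : Gamma0 N, UpperHalfPlane.J * heckeRep q x * UpperHalfPlane.J =
      (mapGL ℝ ((t : Gamma0 N) : SL(2, ℤ)) : GL (Fin 2) ℝ) * heckeRep q (negMat q • x) := by
  induction x using OnePoint.rec with
  | infty =>
    refine ⟨1, ?_⟩
    rw [negMat_smul_infty]
    show UpperHalfPlane.J * ModularForm.heckeDiagMatrix q * UpperHalfPlane.J =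
      (mapGL ℝ (((1 : Gamma0 N) : Gamma0 N) : SL(2, ℤ)) : GL (Fin 2) ℝ) *
        ModularForm.heckeDiagMatrix q
    rw [J_heckeDiagMatrix, OneMemClass.coe_one, map_one, one_mul]
  | coe j =>
    rw [negMat_smul_coe]
    exact exists_J_heckeMatrix q j

variable {A : Type*} [AddCommGroup A]

/-- **`T_q` commutes with composition with `jConjGamma0`.** -/
theorem heckeTHom_comp_jConj (hqN : ¬ q ∣ N) (φ : Additive (Gamma0 N) →+ A) :
    (heckeTHom N q hqN φ).comp (MonoidHom.toAdditive (jConjGamma0 N)) =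
      heckeTHom N q hqN (φ.comp (MonoidHom.toAdditive (jConjGamma0 N))) := by
  choose τ hτ using fun x : OnePoint (ZMod q) => exists_J_heckeRep (N := N) x
  refine op_comp_jConj (tData N q hqN) (heckeRep q) (fun γ x => tData_spec hqN γ x)
    (MulAction.toPerm (negMat q)) τ hτ (fun γ x => ?_) φ
  show redMatrix q ((jConjGamma0 N γ : Gamma0 N) : SL(2, ℤ)) • (negMat q • x) =
    negMat q • (redMatrix q (γ : SL(2, ℤ)) • x)
  rw [← mul_smul, ← mul_smul, jConjGamma0_coe, redMatrix_jConjSL_mul]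

/-- **`T_q` commutes with `charInvolution`.** -/
theorem charInvolution_heckeTHom (hqN : ¬ q ∣ N) (R : Type*) [Semiring R] [Module R A]
    (φ : Additive (Gamma0 N) →+ A) :
    charInvolution N R A (heckeTHom N q hqN φ) =
      heckeTHom N q hqN (charInvolution N R A φ) :=
  heckeTHom_comp_jConj hqN φ

end TOp

/-! ### `U_p` -/

section UOp

variable {N p : ℕ} [NeZero p] {A : Type*} [AddCommGroup A]

/-- **`U_p` commutes with composition with `jConjGamma0`.** -/
theorem heckeUHom_comp_jConj (hpN : p ∣ N) (φ : Additive (Gamma0 N) →+ A) :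
    (heckeUHom N p hpN φ).comp (MonoidHom.toAdditive (jConjGamma0 N)) =
      heckeUHom N p hpN (φ.comp (MonoidHom.toAdditive (jConjGamma0 N))) := by
  choose τ hτ using fun x : ZMod p => exists_J_heckeMatrix (N := N) p x
  refine op_comp_jConj (uData N p hpN) (fun x : ZMod p => ModularForm.heckeMatrix p x.val)
    (fun γ x => uData_spec hpN γ x) (Equiv.neg (ZMod p)) τ hτ (fun γ x => ?_) φ
  show affinePerm ((jConjGamma0 N γ : Gamma0 N) : SL(2, ℤ)) (uAux_cast hpN (jConjGamma0 N γ)) (-x) =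
    -(affinePerm (γ : SL(2, ℤ)) (uAux_cast hpN γ) x)
  rw [affinePerm_apply, affinePerm_apply]
  simp only [jConjGamma0_coe, jConjSL_coe, jConjMat_apply_one_one, jConjMat_apply_zero_one]
  push_cast
  ring

/-- **`U_p` commutes with `charInvolution`.** -/
theorem charInvolution_heckeUHom (hpN : p ∣ N) (R : Type*) [Semiring R] [Module R A]
    (φ : Additive (Gamma0 N) →+ A) :
    charInvolution N R A (heckeUHom N p hpN φ) =
      heckeUHom N p hpN (charInvolution N R A φ) :=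
  heckeUHom_comp_jConj hpN φ

end UOp

end Fermat.Agent.S16.HeckeInvB
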