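/-
S16, lower bound (L), block [L3] (E1): the period map intertwines the Hecke operators on weight two
cusp forms with the explicit operators `heckeTHom`, `heckeUHom` on `Hom(Γ₀(N), ℂ)`.
Owner: helper22.

* `periodMap_coset`: generic statement for coset data `D` with representatives `α_i` of positive
  determinant satisfying `α_i γ = (D.part γ i) α_{D.perm γ i}`: if `g = ∑ i, f ∣[2] α_i` then
  `periodMap N g = D.op (periodMap N f)`.
* `periodMap_heckeTLin`, `periodMap_heckeULin`: the two instances.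
-/
import Fermat.Agent.S16.HeckeHom
import Fermat.Agent.S21.PeriodMap
import Fermat.Agent.S22.Hecke

set_option autoImplicit false

noncomputable section

namespace Fermat.Agent.S16

open UpperHalfPlane CongruenceSubgroup ModularCurve ModularCurve.Period
open Matrix.SpecialLinearGroup
open scoped MatrixGroups ModularForm
open Fermat.Agent.S22 Fermat.Agent.S21
open P2MW.S_ModularForm_heckeT_slash_eq_self_of_mem_Gamma0.ModularForm.HeckeSlashInvariance

/-- The weight two slash action of a matrix of positive determinant. -/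
theorem slash_two_apply_of_det_pos (f : ℍ → ℂ) {A : GL (Fin 2) ℝ} (hA : 0 < A.det.val) (z : ℍ) :
    (f ∣[(2 : ℤ)] A) z = f (A • z) * ((A.det.val : ℝ) : ℂ) / denom A z ^ 2 := by
  rw [ModularForm.slash_apply]
  have hσ : σ A (f (A • z)) = f (A • z) := by
    rw [σ, if_pos hA]; rfl
  have habs : |A.det.val| = A.det.val := abs_of_pos hA
  rw [hσ, habs]
  have e1 : (((A.det.val : ℝ) : ℂ)) ^ ((2 : ℤ) - 1) = ((A.det.val : ℝ) : ℂ) := by
    rw [show (2 : ℤ) - 1 = 1 by norm_num, zpow_one]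
  have e2 : denom A z ^ (-(2 : ℤ)) = (denom A z ^ 2)⁻¹ := by
    rw [zpow_neg]
    rfl
  rw [e1, e2, div_eq_mul_inv]

variable {N : ℕ} [NeZero N]

/-- Generic Hecke equivariance of the period map. -/
theorem periodMap_coset {ι : Type*} [Fintype ι] (D : CosetData (Gamma0 N) ι)
    (α : ι → GL (Fin 2) ℝ) (hdet : ∀ i, 0 < (α i).det.val)
    (hspec : ∀ (γ : Gamma0 N) (i : ι),
      α i * mapGL ℝ (γ : SL(2, ℤ)) = mapGL ℝ ((D.part γ i : Gamma0 N) : SL(2, ℤ)) * α (D.perm γ i))
    (f g : CuspForm (Gamma0 N) 2) (hg : (g : ℍ → ℂ) = ∑ i, (f : ℍ → ℂ) ∣[(2 : ℤ)] α i) :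
    periodMap N g = D.op (periodMap N f) := by
  refine AddMonoidHom.ext fun γ => ?_
  obtain ⟨γ, rfl⟩ := Additive.ofMul.surjective γ
  rw [CosetData.op_apply, periodMap_apply N g γ UpperHalfPlane.I]
  -- the function `G z = ∑ i, prim f (α i • z)` is a primitive of `g`
  have hG : HasDerivH (fun z => ∑ i, prim (f : ℍ → ℂ) (α i • z)) (g : ℍ → ℂ) := by
    have h1 := HasDerivH.sum (Finset.univ : Finset ι)
      (F := fun i z => prim (f : ℍ → ℂ) (α i • z))
      (F' := fun i z => (f : ℍ → ℂ) (α i • z) * (((α i).det.val : ℝ) : ℂ) / denom (α i) z ^ 2)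
      (fun i _ => (prim_hasDerivH f).comp_smul (hdet i))
    refine HasDerivH.congr_deriv h1 fun z => ?_
    rw [hg, Finset.sum_apply]
    exact Finset.sum_congr rfl fun i _ => (slash_two_apply_of_det_pos _ (hdet i) z).symm
  obtain ⟨c, hc⟩ := hG.eq_add_const (prim_hasDerivH g)
  have h2 : prim (g : ℍ → ℂ) ((γ : SL(2, ℤ)) • UpperHalfPlane.I) - prim (g : ℍ → ℂ) UpperHalfPlane.I =
      ∑ i, prim (f : ℍ → ℂ) (α i • ((γ : SL(2, ℤ)) • UpperHalfPlane.I)) -
        ∑ i, prim (f : ℍ → ℂ) (α i • UpperHalfPlane.I) := by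
    rw [hc, hc]; ring
  rw [h2]
  have h3 : ∀ i, prim (f : ℍ → ℂ) (α i • ((γ : SL(2, ℤ)) • UpperHalfPlane.I)) =
      periodMap N f (Additive.ofMul (D.part γ i)) +
        prim (f : ℍ → ℂ) (α (D.perm γ i) • UpperHalfPlane.I) := by
    intro i
    have e : α i • ((γ : SL(2, ℤ)) • UpperHalfPlane.I) =
        ((D.part γ i : Gamma0 N) : SL(2, ℤ)) • (α (D.perm γ i) • UpperHalfPlane.I) := by
      have e1 : (γ : SL(2, ℤ)) • UpperHalfPlane.I = (mapGL ℝ (γ : SL(2, ℤ)) : GL (Fin 2) ℝ) • UpperHalfPlane.I := rfl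
      have e2 : ((D.part γ i : Gamma0 N) : SL(2, ℤ)) • (α (D.perm γ i) • UpperHalfPlane.I) =
          (mapGL ℝ ((D.part γ i : Gamma0 N) : SL(2, ℤ)) : GL (Fin 2) ℝ) •
            (α (D.perm γ i) • UpperHalfPlane.I) := rfl
      rw [e1, e2, ← mul_smul, ← mul_smul, hspec]
    rw [e, periodMap_apply N f (D.part γ i) (α (D.perm γ i) • UpperHalfPlane.I)]
    ring
  simp only [h3, Finset.sum_add_distrib]
  rw [Equiv.sum_comp (D.perm γ) (fun i => prim (f : ℍ → ℂ) (α i • UpperHalfPlane.I))]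
  ring

/-- The period map intertwines `T_q` on cusp forms with `heckeTHom`. -/
theorem periodMap_heckeTLin {q : ℕ} [Fact q.Prime] (hq : q.Prime) (hqN : ¬ q ∣ N)
    (f : CuspForm (Gamma0 N) 2) :
    periodMap N (CuspForm.heckeTLin 2 hq hqN f) = heckeTHom N q hqN (periodMap N f) := by
  have : NeZero q := ⟨hq.ne_zero⟩
  refine periodMap_coset (tData N q hqN) (heckeRep q) (det_heckeRep_pos q)
    (fun γ x => tData_spec hqN γ x) f _ ?_
  rw [CuspForm.coe_heckeTLin_apply]
  exact heckeT_eq_sum_onePoint 2 _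

/-- The period map intertwines `U_p` on cusp forms with `heckeUHom`. -/
theorem periodMap_heckeULin {p : ℕ} [NeZero p] (hpN : p ∣ N)
    (f : CuspForm (Gamma0 N) 2) :
    periodMap N (CuspForm.heckeULin 2 hpN f) = heckeUHom N p hpN (periodMap N f) := by
  refine periodMap_coset (uData N p hpN) (fun x : ZMod p => ModularForm.heckeMatrix p x.val)
    (fun x => ModularForm.det_heckeMatrix_pos p x.val)
    (fun γ x => uData_spec hpN γ x) f _ ?_
  rw [CuspForm.coe_heckeULin_apply]
  exact heckeU_eq_sum_zmod 2 _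

end Fermat.Agent.S16
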