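import Mathlib

set_option autoImplicit false

namespace Fermat.Agent.S16.L2

open Module

section LinAlg

variable (k : Type*) [Field k] {G : Type*} [Group G] {X : Type*} [MulAction G X]

/-- `(dmap g v)(x) = v (g • x) − v x`. -/
def dmap (g : G) : (X → k) →ₗ[k] (X → k) :=
  LinearMap.funLeft k k (fun x : X => g • x) - LinearMap.id

@[simp] theorem dmap_apply (g : G) (v : X → k) (x : X) : dmap k g v x = v (g • x) - v x := rfl

/-! ### (LA-a) -/

/-- Two partial sums of `f` along the forward orbit of `x₀` agree as soon as the two end points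
agree, provided all cycle sums of `f` vanish. -/
theorem la_sum_eq (g : G) (f : X → k)
    (h : ∀ (x : X) (r : ℕ), 0 < r → g ^ r • x = x →
      ∑ i ∈ Finset.range r, f (g ^ i • x) = 0) (x₀ : X) (a b : ℕ)
    (hab : g ^ a • x₀ = g ^ b • x₀) :
    ∑ j ∈ Finset.range a, f (g ^ j • x₀) = ∑ j ∈ Finset.range b, f (g ^ j • x₀) := by
  wlog hle : a ≤ b generalizing a b
  · exact (this b a hab.symm (le_of_not_ge hle)).symm
  obtain ⟨c, rfl⟩ := Nat.exists_eq_add_of_le hle
  rcases Nat.eq_zero_or_pos c with rfl | hc
  · simp
  rw [Finset.sum_range_add]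
  have h1 : g ^ c • (g ^ a • x₀) = g ^ a • x₀ := by
    rw [← mul_smul, ← pow_add, add_comm c a]
    exact hab.symm
  have h2 := h (g ^ a • x₀) c hc h1
  have h3 : ∑ i ∈ Finset.range c, f (g ^ (a + i) • x₀) = 0 := by
    rw [← h2]
    refine Finset.sum_congr rfl fun i _ => ?_
    rw [← mul_smul, ← pow_add, add_comm]
  rw [h3, add_zero]

/-- On a finite set, some positive power of `g` acts trivially. -/
theorem la_exists_pow_smul_eq [Finite X] (g : G) :
    ∃ N : ℕ, 0 < N ∧ ∀ x : X, g ^ N • x = x := by
  classical
  have := Fintype.ofFinite X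
  refine ⟨orderOf (MulAction.toPermHom G X g), orderOf_pos _, fun x => ?_⟩
  have h := pow_orderOf_eq_one (MulAction.toPermHom G X g)
  rw [← map_pow] at h
  have h' := congrArg (fun σ : Equiv.Perm X => σ x) h
  simpa using h'

/-- If `g ^ N` acts trivially then so does `g ^ (N * m)`. -/
theorem la_pow_mul_smul_eq (g : G) (N : ℕ) (hN : ∀ x : X, g ^ N • x = x) (m : ℕ) (x : X) :
    g ^ (N * m) • x = x := by
  induction m with
  | zero => simp
  | succ m ih => rw [Nat.mul_succ, pow_add, mul_smul, hN, ih]

/-- The forward-orbit relation `∃ i : ℕ, g ^ i • x = y` is an equivalence relation on a finite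
set. -/
def la_setoid [Finite X] (g : G) : Setoid X where
  r := fun x y => ∃ i : ℕ, g ^ i • x = y
  iseqv :=
    { refl := fun x => ⟨0, by simp⟩
      symm := by
        rintro x y ⟨i, rfl⟩
        obtain ⟨N, hN, hNx⟩ := la_exists_pow_smul_eq (X := X) g
        refine ⟨i * (N - 1), ?_⟩
        rw [← mul_smul, ← pow_add]
        have e : i * (N - 1) + i = N * i := by
          obtain ⟨M, rfl⟩ : ∃ M, N = M + 1 := ⟨N - 1, by omega⟩
          simp only [Nat.add_sub_cancel]
          ring
        rw [e]
        exact la_pow_mul_smul_eq g N hNx i x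
      trans := by
        rintro x y z ⟨i, rfl⟩ ⟨j, rfl⟩
        exact ⟨j + i, by rw [pow_add, mul_smul]⟩ }

/-- (LA-a) A function all of whose cycle sums along `g` vanish lies in the image of `g − 1`. -/
theorem mem_range_dmap [Finite X] (g : G) (f : X → k)
    (h : ∀ (x : X) (r : ℕ), 0 < r → g ^ r • x = x →
      ∑ i ∈ Finset.range r, f (g ^ i • x) = 0) :
    f ∈ LinearMap.range (dmap k (X := X) g) := by
  classical
  let s : Setoid X := la_setoid (X := X) g
  let rep : X → X := fun x => (Quotient.mk s x).out
  have hrep : ∀ x, ∃ i : ℕ, g ^ i • rep x = x := fun x =>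
    Quotient.exact (Quotient.out_eq (Quotient.mk s x))
  choose idx hidx using hrep
  have hrepg : ∀ x, rep (g • x) = rep x := by
    intro x
    have hq : Quotient.mk s (g • x) = Quotient.mk s x :=
      Quotient.sound (s.symm ⟨1, by simp⟩)
    show (Quotient.mk s (g • x)).out = (Quotient.mk s x).out
    rw [hq]
  let v : X → k := fun x => ∑ j ∈ Finset.range (idx x), f (g ^ j • rep x)
  refine ⟨v, funext fun x => ?_⟩
  rw [dmap_apply]
  have key : v (g • x) = ∑ j ∈ Finset.range (idx x + 1), f (g ^ j • rep x) := by
    show ∑ j ∈ Finset.range (idx (g • x)), f (g ^ j • rep (g • x)) = _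
    have e1 : g ^ idx (g • x) • rep (g • x) = g • x := hidx (g • x)
    rw [hrepg x] at e1 ⊢
    apply la_sum_eq k g f h
    rw [e1, pow_succ', mul_smul, hidx x]
  rw [key, Finset.sum_range_succ, hidx x]
  show ∑ j ∈ Finset.range (idx x), f (g ^ j • rep x) + f x
    - ∑ j ∈ Finset.range (idx x), f (g ^ j • rep x) = f x
  rw [add_sub_cancel_left]

/-! ### (LA-b) -/

/-- (LA-b) `dim (g − 1)V + #(X/⟨g⟩) ≤ #X` (in fact equality), in every characteristic. -/
theorem finrank_range_dmap_add_card_le [Finite X] (g : G) :
    finrank k (LinearMap.range (dmap k (X := X) g))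
      + Nat.card (MulAction.orbitRel.Quotient (Subgroup.zpowers g) X) ≤ Nat.card X := by
  classical
  have := Fintype.ofFinite X
  have hfinΩ : Finite (MulAction.orbitRel.Quotient (Subgroup.zpowers g) X) :=
    Quotient.finite _
  have := Fintype.ofFinite (MulAction.orbitRel.Quotient (Subgroup.zpowers g) X)
  have hrn := LinearMap.finrank_range_add_finrank_ker (dmap k (X := X) g)
  rw [Module.finrank_fintype_fun_eq_card] at hrn
  let q : X → MulAction.orbitRel.Quotient (Subgroup.zpowers g) X := Quotient.mk''
  have hq : Function.Surjective q := Quotient.mk''_surjective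
  have hqg : ∀ x, q (g • x) = q x := by
    intro x
    apply Quotient.sound'
    show MulAction.orbitRel (Subgroup.zpowers g) X (g • x) x
    rw [MulAction.orbitRel_apply, MulAction.mem_orbit_iff]
    exact ⟨⟨g, Subgroup.mem_zpowers g⟩, rfl⟩
  let φ : (MulAction.orbitRel.Quotient (Subgroup.zpowers g) X → k) →ₗ[k]
      LinearMap.ker (dmap k (X := X) g) :=
    LinearMap.codRestrict _ (LinearMap.funLeft k k q) (by
      intro w
      rw [LinearMap.mem_ker]
      funext x
      rw [dmap_apply]
      simp [LinearMap.funLeft_apply, hqg])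
  have hφ : Function.Injective φ := by
    intro w1 w2 h12
    have h' : (LinearMap.funLeft k k q) w1 = (LinearMap.funLeft k k q) w2 :=
      congrArg Subtype.val h12
    funext ω
    obtain ⟨x, rfl⟩ := hq ω
    exact congrFun h' x
  have hle := LinearMap.finrank_le_finrank_of_injective hφ
  rw [Module.finrank_fintype_fun_eq_card] at hle
  rw [Nat.card_eq_fintype_card, Nat.card_eq_fintype_card]
  omega

/-! ### (LA-c) -/

theorem la_dmap_one (v : X → k) : dmap k (X := X) (1 : G) v = 0 := by
  funext x
  simp

theorem la_dmap_mul (g h : G) (v : X → k) :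
    dmap k (g * h) v = dmap k h (fun x => v (g • x)) + dmap k g v := by
  funext x
  simp only [dmap_apply, Pi.add_apply, mul_smul]
  ring

theorem la_dmap_inv (g : G) (v : X → k) :
    dmap k g⁻¹ v = - dmap k g (fun x => v (g⁻¹ • x)) := by
  funext x
  simp only [dmap_apply, Pi.neg_apply, inv_smul_smul]
  ring

theorem la_dmap_inv_single [DecidableEq X] (g : G) (x₀ : X) :
    dmap k g⁻¹ (Pi.single x₀ (1 : k)) = Pi.single (g • x₀) (1 : k) - Pi.single x₀ (1 : k) := by
  funext z
  simp only [dmap_apply, Pi.sub_apply, Pi.single_apply, inv_smul_eq_iff]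

/-- (LA-c) If `a, b` generate `G` and `G` acts transitively on `X`, then `(a − 1)V + (b − 1)V`
has codimension at most one. -/
theorem card_le_finrank_sup_range_dmap_add_one [Finite X] [MulAction.IsPretransitive G X]
    (a b : G) (hgen : Subgroup.closure {a, b} = ⊤) :
    Nat.card X ≤ finrank k (LinearMap.range (dmap k (X := X) a) ⊔
      LinearMap.range (dmap k (X := X) b) : Submodule k (X → k)) + 1 := by
  classical
  have := Fintype.ofFinite X
  generalize hW : (LinearMap.range (dmap k (X := X) a) ⊔
      LinearMap.range (dmap k (X := X) b) : Submodule k (X → k)) = W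
  have hall : ∀ g : G, ∀ v : X → k, dmap k g v ∈ W := by
    let H : Subgroup G :=
      { carrier := {g | ∀ v : X → k, dmap k g v ∈ W}
        mul_mem' := by
          intro g h hg hh v
          rw [la_dmap_mul]
          exact W.add_mem (hh _) (hg _)
        one_mem' := by
          intro v
          rw [la_dmap_one]
          exact W.zero_mem
        inv_mem' := by
          intro g hg v
          rw [la_dmap_inv]
          exact W.neg_mem (hg _) }
    have hH : H = ⊤ := by
      rw [eq_top_iff, ← hgen, Subgroup.closure_le]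
      rintro g (rfl | rfl)
      · intro v
        rw [← hW]
        exact Submodule.mem_sup_left (LinearMap.mem_range_self _ v)
      · intro v
        rw [← hW]
        exact Submodule.mem_sup_right (LinearMap.mem_range_self _ v)
    intro g
    have hg : g ∈ H := hH ▸ Subgroup.mem_top g
    exact hg
  rcases isEmpty_or_nonempty X with hX | ⟨⟨x₀⟩⟩
  · rw [Nat.card_of_isEmpty]
    exact Nat.zero_le _
  have hdiff : ∀ y : X, Pi.single y (1 : k) - Pi.single x₀ (1 : k) ∈ W := by
    intro y
    obtain ⟨g, rfl⟩ := MulAction.exists_smul_eq G x₀ y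
    rw [← la_dmap_inv_single]
    exact hall _ _
  have htop : (⊤ : Submodule k (X → k)) ≤
      W ⊔ Submodule.span k {(Pi.single x₀ (1 : k) : X → k)} := by
    rw [← (Pi.basisFun k X).span_eq, Submodule.span_le]
    rintro _ ⟨y, rfl⟩
    rw [Pi.basisFun_apply]
    have e : (Pi.single y (1 : k) : X → k) =
        ((Pi.single y (1 : k) : X → k) - (Pi.single x₀ (1 : k) : X → k))
          + (Pi.single x₀ (1 : k) : X → k) := by
      rw [sub_add_cancel]
    rw [e]
    exact Submodule.add_mem _ (Submodule.mem_sup_left (hdiff y))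
      (Submodule.mem_sup_right (Submodule.subset_span rfl))
  have h1 : finrank k (X → k) ≤
      finrank k (W ⊔ Submodule.span k {(Pi.single x₀ (1 : k) : X → k)} :
        Submodule k (X → k)) := by
    rw [← finrank_top k (X → k)]
    exact Submodule.finrank_mono htop
  have h2 := Submodule.finrank_add_le_finrank_add_finrank W
    (Submodule.span k {(Pi.single x₀ (1 : k) : X → k)})
  have h3 : finrank k (Submodule.span k {(Pi.single x₀ (1 : k) : X → k)} :
      Submodule k (X → k)) ≤ 1 := by
    have h4 := finrank_span_le_card (R := k) ({(Pi.single x₀ (1 : k) : X → k)} : Set (X → k))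
    simpa using h4
  rw [Module.finrank_fintype_fun_eq_card] at h1
  rw [Nat.card_eq_fintype_card]
  omega

/-! ### (LA-d) -/

/-- (LA-d) The counting lemma. -/
theorem finrank_le_of_maps {E V : Type*} [AddCommGroup E] [Module k E] [AddCommGroup V]
    [Module k V] [Module.Finite k V]
    (DS DT : E →ₗ[k] V) (lam : E →ₗ[k] k) (AS AT AU : Submodule k V)
    (hS : ∀ p, DS p ∈ AS) (hT : ∀ p, DT p ∈ AT) (hU : ∀ p, DT p = 0 → DS p ∈ AU)
    (hinj : ∀ p, DS p = 0 → DT p = 0 → lam p = 0 → p = 0) :
    Module.Finite k E ∧
      finrank k E ≤ finrank k AT + 1 + finrank k (AS ⊓ AU : Submodule k V) := by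
  have hfin : Module.Finite k E := by
    have hΦ : Function.Injective (DS.prod (DT.prod lam)) := by
      rw [← LinearMap.ker_eq_bot, LinearMap.ker_eq_bot']
      intro p hp
      have h1 : DS p = 0 := congrArg Prod.fst hp
      have h2 : DT p = 0 := congrArg (fun z : V × V × k => z.2.1) hp
      have h3 : lam p = 0 := congrArg (fun z : V × V × k => z.2.2) hp
      exact hinj p h1 h2 h3
    exact FiniteDimensional.of_injective _ hΦ
  refine ⟨hfin, ?_⟩
  have hrn := LinearMap.finrank_range_add_finrank_ker DT
  have hr : finrank k (LinearMap.range DT) ≤ finrank k AT := by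
    apply Submodule.finrank_mono
    rintro _ ⟨p, rfl⟩
    exact hT p
  have hΨ : Function.Injective
      (LinearMap.prod
        (LinearMap.codRestrict (AS ⊓ AU) (DS.comp (LinearMap.ker DT).subtype)
          (fun p => ⟨hS p, hU p (LinearMap.mem_ker.mp p.2)⟩))
        (lam.comp (LinearMap.ker DT).subtype)) := by
    rw [← LinearMap.ker_eq_bot, LinearMap.ker_eq_bot']
    intro p hp
    have h1 : DS (p : E) = 0 := congrArg (fun z : (AS ⊓ AU : Submodule k V) × k => (z.1 : V)) hp
    have h3 : lam (p : E) = 0 := congrArg (fun z : (AS ⊓ AU : Submodule k V) × k => z.2) hp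
    exact Subtype.ext (hinj p h1 (LinearMap.mem_ker.mp p.2) h3)
  have hk : finrank k (LinearMap.ker DT) ≤ finrank k (AS ⊓ AU : Submodule k V) + 1 := by
    have hle := LinearMap.finrank_le_finrank_of_injective hΨ
    rw [Module.finrank_prod, Module.finrank_self] at hle
    exact hle
  omega

end LinAlg

end Fermat.Agent.S16.L2
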