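/-
S16, lower bound (L): shared definitions.

`IsCircHom Γ φ`: the additive character `φ` of `Γ ≤ SL(2,ℤ)` kills every parabolic element
(`trace² = 4`; this includes `±1`) and every element with `γ¹² = 1` (all elliptic elements).
-/
import Fermat.Prelude.Def_ModularCurve_PeriodHomPair

set_option autoImplicit false

open scoped MatrixGroups
open ModularCurve.Period

namespace Fermat.Agent.S16

/-- `φ` kills every `γ ∈ Γ` with `trace² = 4` and every `γ ∈ Γ` with `γ ^ 12 = 1`. -/
def IsCircHom (Γ : Subgroup SL(2, ℤ)) {A : Type*} [AddCommGroup A] (φ : Additive Γ →+ A) : Prop :=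
  ∀ γ : Γ, (((γ : SL(2, ℤ)) : Matrix (Fin 2) (Fin 2) ℤ).trace ^ 2 = 4 ∨ γ ^ 12 = 1) →
    φ (Additive.ofMul γ) = 0

/-- The submodule of characters killing parabolic elements and elements of order dividing `12`. -/
def circHoms (R : Type*) [Semiring R] (Γ : Subgroup SL(2, ℤ)) (A : Type*) [AddCommGroup A]
    [Module R A] : Submodule R (Additive Γ →+ A) where
  carrier := {φ | IsCircHom Γ φ}
  zero_mem' := fun _ _ => rfl
  add_mem' := by
    intro φ ψ hφ hψ γ hγ
    show φ (Additive.ofMul γ) + ψ (Additive.ofMul γ) = 0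
    rw [hφ γ hγ, hψ γ hγ, add_zero]
  smul_mem' := by
    intro c φ hφ γ hγ
    show c • φ (Additive.ofMul γ) = 0
    rw [hφ γ hγ, smul_zero]

theorem mem_circHoms_iff {R : Type*} [Semiring R] {Γ : Subgroup SL(2, ℤ)} {A : Type*}
    [AddCommGroup A] [Module R A] {φ : Additive Γ →+ A} :
    φ ∈ circHoms R Γ A ↔ IsCircHom Γ φ :=
  Iff.rfl

theorem IsCircHom.isParabolicHom {Γ : Subgroup SL(2, ℤ)} {A : Type*} [AddCommGroup A]
    {φ : Additive Γ →+ A} (h : IsCircHom Γ φ) : IsParabolicHom Γ φ :=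
  fun γ hγ => h γ (Or.inl hγ)

/-- In a group without `12`-torsion (e.g. `ℤ`, `ℂ`), a parabolic character is a circ character. -/
theorem isCircHom_of_isParabolicHom {Γ : Subgroup SL(2, ℤ)} {A : Type*} [AddCommGroup A]
    {φ : Additive Γ →+ A} (h : IsParabolicHom Γ φ) (htf : ∀ a : A, (12 : ℕ) • a = 0 → a = 0) :
    IsCircHom Γ φ := by
  rintro γ (hγ | hγ)
  · exact h γ hγ
  · apply htf
    have h12 : (12 : ℕ) • φ (Additive.ofMul γ) = φ (Additive.ofMul (γ ^ 12)) := by
      rw [ofMul_pow, map_nsmul]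
    rw [h12, hγ]
    exact map_zero φ

theorem circHoms_complex_eq (Γ : Subgroup SL(2, ℤ)) :
    circHoms ℂ Γ ℂ = parabolicHoms ℂ Γ ℂ := by
  apply le_antisymm
  · intro φ hφ
    exact IsCircHom.isParabolicHom hφ
  · intro φ hφ
    refine isCircHom_of_isParabolicHom hφ fun a ha => ?_
    rw [nsmul_eq_mul] at ha
    rcases mul_eq_zero.mp ha with h | h
    · norm_num at h
    · exact h

theorem isCircHom_int_iff {Γ : Subgroup SL(2, ℤ)} {φ : Additive Γ →+ ℤ} :
    IsCircHom Γ φ ↔ IsParabolicHom Γ φ :=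
  ⟨IsCircHom.isParabolicHom, fun h => isCircHom_of_isParabolicHom h fun a ha => by
    rw [nsmul_eq_mul] at ha
    rcases mul_eq_zero.mp ha with h | h
    · norm_num at h
    · exact h⟩

end Fermat.Agent.S16
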