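import Mathlib
import Fermat.Prelude.Def_ModularCurve_PeriodMap
import Fermat.Agent.S16.LDefs
import Fermat.Agent.S16.L2LinAlg

/-!
# Characteristic-free upper bound for `Hom°(Γ, k)`  (S16, block [L2a])

For `Γ ≤ SL(2, ℤ)` of finite index, `X = SL(2, ℤ) ⧸ Γ` and EVERY field `k`:

`dim_k Hom°(Γ, k) + #(X/⟨S⟩) + #(X/⟨S*T⟩) + #(X/⟨T⟩) ≤ [SL(2, ℤ) : Γ] + 2`,

where `Hom°(Γ, k)` are the homomorphisms killing the elements of trace `±2` and the elements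
`γ` with `γ ^ 12 = 1` (`Fermat.Agent.S16.circHoms`).  The proof only uses that `S, T` generate
`SL(2, ℤ)`; no averaging, so it works in characteristic `2` and `3`.
-/

set_option autoImplicit false

open scoped MatrixGroups
open ModularCurve.Period ModularGroup Module

namespace Fermat.Agent.S16.L2

variable (Γ : Subgroup SL(2, ℤ))

section Shapiro

variable {A : Type*} [AddCommGroup A]

/-- extension by zero of a homomorphism on `Γ` -/
noncomputable def ext0 (φ : Additive Γ →+ A) (g : SL(2, ℤ)) : A :=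
  open Classical in if h : g ∈ Γ then φ (Additive.ofMul ⟨g, h⟩) else 0

theorem ext0_of_mem (φ : Additive Γ →+ A) {g : SL(2, ℤ)} (h : g ∈ Γ) :
    ext0 Γ φ g = φ (Additive.ofMul ⟨g, h⟩) := by
  unfold ext0
  rw [dif_pos h]

theorem ext0_mul (φ : Additive Γ →+ A) {g h : SL(2, ℤ)} (hg : g ∈ Γ) (hh : h ∈ Γ) :
    ext0 Γ φ (g * h) = ext0 Γ φ g + ext0 Γ φ h := by
  rw [ext0_of_mem Γ φ hg, ext0_of_mem Γ φ hh, ext0_of_mem Γ φ (Γ.mul_mem hg hh), ← map_add]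
  rfl

theorem ext0_add (φ ψ : Additive Γ →+ A) (g : SL(2, ℤ)) :
    ext0 Γ (φ + ψ) g = ext0 Γ φ g + ext0 Γ ψ g := by
  by_cases h : g ∈ Γ
  · rw [ext0_of_mem Γ _ h, ext0_of_mem Γ _ h, ext0_of_mem Γ _ h]; rfl
  · unfold ext0; rw [dif_neg h, dif_neg h, dif_neg h, add_zero]

theorem ext0_zero (g : SL(2, ℤ)) : ext0 Γ (0 : Additive Γ →+ A) g = 0 := by
  by_cases h : g ∈ Γ
  · rw [ext0_of_mem Γ _ h]; rfl
  · unfold ext0; rw [dif_neg h]

/-- `F₀(g) = φ(r(gΓ)⁻¹ g)` -/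
noncomputable def lift0 (φ : Additive Γ →+ A) (g : SL(2, ℤ)) : A :=
  ext0 Γ φ ((g : SL(2, ℤ) ⧸ Γ).out⁻¹ * g)

theorem out_inv_mul_mem (g : SL(2, ℤ)) : (g : SL(2, ℤ) ⧸ Γ).out⁻¹ * g ∈ Γ := by
  rw [← QuotientGroup.eq]; exact QuotientGroup.out_eq' _

theorem lift0_mul_right (φ : Additive Γ →+ A) (g : SL(2, ℤ)) {γ : SL(2, ℤ)} (hγ : γ ∈ Γ) :
    lift0 Γ φ (g * γ) = lift0 Γ φ g + ext0 Γ φ γ := by
  unfold lift0
  rw [QuotientGroup.mk_mul_of_mem g hγ, ← mul_assoc, ext0_mul Γ φ (out_inv_mul_mem Γ g) hγ]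

theorem lift0_add (φ ψ : Additive Γ →+ A) (g : SL(2, ℤ)) :
    lift0 Γ (φ + ψ) g = lift0 Γ φ g + lift0 Γ ψ g := ext0_add Γ φ ψ _

theorem lift0_zero (g : SL(2, ℤ)) : lift0 Γ (0 : Additive Γ →+ A) g = 0 := ext0_zero Γ _

/-- The function `F = F_φ + v ∘ π` on `SL(2, ℤ)` attached to a pair `(φ, v)`. -/
noncomputable def bigF (p : (Additive Γ →+ A) × ((SL(2, ℤ) ⧸ Γ) → A)) (g : SL(2, ℤ)) : A :=
  lift0 Γ p.1 g + p.2 (g : SL(2, ℤ) ⧸ Γ)

theorem bigF_add (p q : (Additive Γ →+ A) × ((SL(2, ℤ) ⧸ Γ) → A)) (g : SL(2, ℤ)) :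
    bigF Γ (p + q) g = bigF Γ p g + bigF Γ q g := by
  unfold bigF
  rw [Prod.fst_add, Prod.snd_add, lift0_add, Pi.add_apply]
  abel

theorem bigF_mul_right (p : (Additive Γ →+ A) × ((SL(2, ℤ) ⧸ Γ) → A)) (g : SL(2, ℤ))
    {γ : SL(2, ℤ)} (hγ : γ ∈ Γ) :
    bigF Γ p (g * γ) = bigF Γ p g + ext0 Γ p.1 γ := by
  unfold bigF
  rw [lift0_mul_right Γ p.1 g hγ, QuotientGroup.mk_mul_of_mem g hγ]
  abel

/-- The difference function `D_h(p)(gΓ) = F_p(h g) − F_p(g)` on the coset space. -/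
noncomputable def dF (h : SL(2, ℤ)) (p : (Additive Γ →+ A) × ((SL(2, ℤ) ⧸ Γ) → A))
    (x : SL(2, ℤ) ⧸ Γ) : A :=
  bigF Γ p (h * x.out) - bigF Γ p x.out

theorem dF_mk (h : SL(2, ℤ)) (p : (Additive Γ →+ A) × ((SL(2, ℤ) ⧸ Γ) → A)) (g : SL(2, ℤ)) :
    dF Γ h p (g : SL(2, ℤ) ⧸ Γ) = bigF Γ p (h * g) - bigF Γ p g := by
  have hmem : g⁻¹ * (g : SL(2, ℤ) ⧸ Γ).out ∈ Γ := by
    rw [← QuotientGroup.eq]; exact (QuotientGroup.out_eq' _).symm
  have e1 : (g : SL(2, ℤ) ⧸ Γ).out = g * (g⁻¹ * (g : SL(2, ℤ) ⧸ Γ).out) := by group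
  unfold dF
  rw [e1, ← mul_assoc h, bigF_mul_right Γ p (h * g) hmem, bigF_mul_right Γ p g hmem]
  abel

theorem dF_add (h : SL(2, ℤ)) (p q : (Additive Γ →+ A) × ((SL(2, ℤ) ⧸ Γ) → A)) :
    dF Γ h (p + q) = dF Γ h p + dF Γ h q := by
  funext x
  simp only [dF, bigF_add, Pi.add_apply]
  abel

/-- The cocycle relation. -/
theorem dF_mul (h₁ h₂ : SL(2, ℤ)) (p : (Additive Γ →+ A) × ((SL(2, ℤ) ⧸ Γ) → A))
    (x : SL(2, ℤ) ⧸ Γ) :
    dF Γ (h₁ * h₂) p x = dF Γ h₁ p (h₂ • x) + dF Γ h₂ p x := by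
  obtain ⟨g, rfl⟩ := QuotientGroup.mk_surjective x
  have e : h₂ • (g : SL(2, ℤ) ⧸ Γ) = ((h₂ * g : SL(2, ℤ)) : SL(2, ℤ) ⧸ Γ) := rfl
  rw [e, dF_mk, dF_mk, dF_mk, mul_assoc]
  abel

/-- Telescoping sums of `D_h` along an `h`-orbit. -/
theorem sum_dF_pow (h : SL(2, ℤ)) (p : (Additive Γ →+ A) × ((SL(2, ℤ) ⧸ Γ) → A))
    (g : SL(2, ℤ)) (r : ℕ) :
    ∑ i ∈ Finset.range r, dF Γ h p (h ^ i • (g : SL(2, ℤ) ⧸ Γ))
      = bigF Γ p (h ^ r * g) - bigF Γ p g := by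
  induction r with
  | zero => simp
  | succ r ih =>
    rw [Finset.sum_range_succ, ih]
    have e : h ^ r • (g : SL(2, ℤ) ⧸ Γ) = ((h ^ r * g : SL(2, ℤ)) : SL(2, ℤ) ⧸ Γ) := rfl
    rw [e, dF_mk, ← mul_assoc, ← pow_succ']
    abel

/-- If `h ^ r` fixes the coset `gΓ`, the `r`-fold cycle sum of `D_h(p)` is the value of `φ` on
the conjugate `g⁻¹ h ^ r g ∈ Γ`. -/
theorem sum_dF_pow_of_fixed (h : SL(2, ℤ)) (p : (Additive Γ →+ A) × ((SL(2, ℤ) ⧸ Γ) → A))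
    (g : SL(2, ℤ)) (r : ℕ) (hfix : h ^ r • (g : SL(2, ℤ) ⧸ Γ) = (g : SL(2, ℤ) ⧸ Γ)) :
    ∃ hmem : g⁻¹ * h ^ r * g ∈ Γ,
      ∑ i ∈ Finset.range r, dF Γ h p (h ^ i • (g : SL(2, ℤ) ⧸ Γ))
        = p.1 (Additive.ofMul ⟨g⁻¹ * h ^ r * g, hmem⟩) := by
  have hmem : g⁻¹ * h ^ r * g ∈ Γ := by
    have e : h ^ r • (g : SL(2, ℤ) ⧸ Γ) = ((h ^ r * g : SL(2, ℤ)) : SL(2, ℤ) ⧸ Γ) := rfl
    rw [e, eq_comm, QuotientGroup.eq, ← mul_assoc] at hfix
    exact hfix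
  refine ⟨hmem, ?_⟩
  rw [sum_dF_pow]
  have e2 : h ^ r * g = g * (g⁻¹ * h ^ r * g) := by group
  rw [e2, bigF_mul_right Γ p g hmem, ext0_of_mem Γ p.1 hmem]
  abel

end Shapiro

section Smul

variable {R : Type*} [Semiring R] {A : Type*} [AddCommGroup A] [Module R A]

theorem ext0_smul (c : R) (φ : Additive Γ →+ A) (g : SL(2, ℤ)) :
    ext0 Γ (c • φ) g = c • ext0 Γ φ g := by
  by_cases h : g ∈ Γ
  · rw [ext0_of_mem Γ _ h, ext0_of_mem Γ _ h]; rfl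
  · unfold ext0; rw [dif_neg h, dif_neg h, smul_zero]

theorem bigF_smul (c : R) (p : (Additive Γ →+ A) × ((SL(2, ℤ) ⧸ Γ) → A)) (g : SL(2, ℤ)) :
    bigF Γ (c • p) g = c • bigF Γ p g := by
  unfold bigF lift0
  rw [Prod.smul_fst, Prod.smul_snd, ext0_smul, Pi.smul_apply, smul_add]

theorem dF_smul (h : SL(2, ℤ)) (c : R) (p : (Additive Γ →+ A) × ((SL(2, ℤ) ⧸ Γ) → A)) :
    dF Γ h (c • p) = c • dF Γ h p := by
  funext x
  simp only [dF, bigF_smul, Pi.smul_apply, smul_sub]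

end Smul

section Inj

variable {A : Type*} [AddCommGroup A]

/-- If `F_p` is left invariant under `S` and `T` and vanishes at `1`, then `p = 0`. -/
theorem eq_zero_of_dF_eq_zero (p : (Additive Γ →+ A) × ((SL(2, ℤ) ⧸ Γ) → A))
    (hS : dF Γ S p = 0) (hT : dF Γ T p = 0) (h1 : bigF Γ p 1 = 0) : p = 0 := by
  have hS' : ∀ g : SL(2, ℤ), bigF Γ p (S * g) = bigF Γ p g := by
    intro g
    have h := dF_mk Γ S p g
    rw [hS] at h
    exact (sub_eq_zero.mp h.symm)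
  have hT' : ∀ g : SL(2, ℤ), bigF Γ p (T * g) = bigF Γ p g := by
    intro g
    have h := dF_mk Γ T p g
    rw [hT] at h
    exact (sub_eq_zero.mp h.symm)
  let H : Subgroup SL(2, ℤ) :=
    { carrier := {h | ∀ g, bigF Γ p (h * g) = bigF Γ p g}
      mul_mem' := by
        intro a b ha hb g
        rw [mul_assoc, ha, hb]
      one_mem' := by intro g; rw [one_mul]
      inv_mem' := by
        intro a ha g
        have := ha (a⁻¹ * g)
        rw [mul_inv_cancel_left] at this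
        exact this.symm }
  have hH : H = ⊤ := by
    rw [eq_top_iff, ← SpecialLinearGroup.SL2Z_generators, Subgroup.closure_le]
    intro g hg
    rcases hg with rfl | hg
    · exact hS'
    · rw [Set.mem_singleton_iff] at hg
      subst hg
      exact hT'
  have hF : ∀ g : SL(2, ℤ), bigF Γ p g = 0 := by
    intro g
    have hg : g ∈ H := by rw [hH]; trivial
    have := hg 1
    rw [mul_one] at this
    rw [this, h1]
  have hφ0 : p.1 = 0 := by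
    refine AddMonoidHom.ext fun γ => ?_
    have h2 := bigF_mul_right Γ p 1 (Additive.toMul γ).2
    rw [hF, hF, zero_add, ext0_of_mem Γ p.1 (Additive.toMul γ).2] at h2
    exact h2.symm
  have hw0 : p.2 = 0 := by
    funext x
    obtain ⟨g, rfl⟩ := QuotientGroup.mk_surjective x
    have h2 := hF g
    unfold bigF at h2
    rw [hφ0, lift0_zero, zero_add] at h2
    exact h2
  exact Prod.ext hφ0 hw0

end Inj

section Orbits

variable {G : Type*} [Group G] {X : Type*} [MulAction G X]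

/-- Conjugate elements have the same number of orbits. -/
theorem card_orbits_conj (s t : G) :
    Nat.card (MulAction.orbitRel.Quotient (Subgroup.zpowers (t * s)) X)
      = Nat.card (MulAction.orbitRel.Quotient (Subgroup.zpowers (s * t)) X) := by
  have key : ∀ (n : ℤ) (x : X), s • ((t * s) ^ n • x) = (s * t) ^ n • (s • x) := by
    intro n x
    have e : s * (t * s) ^ n = (s * t) ^ n * s := by
      have h1 : (s * t) ^ n = s * (t * s) ^ n * s⁻¹ := by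
        rw [← conj_zpow]
        congr 1
        group
      rw [h1, inv_mul_cancel_right]
    rw [← mul_smul, e, mul_smul]
  refine Nat.card_congr (Quotient.congr (MulAction.toPerm s) ?_)
  intro x y
  change (MulAction.orbitRel (Subgroup.zpowers (t * s)) X) x y ↔
    (MulAction.orbitRel (Subgroup.zpowers (s * t)) X) (s • x) (s • y)
  rw [MulAction.orbitRel_apply, MulAction.orbitRel_apply, MulAction.mem_orbit_iff,
    MulAction.mem_orbit_iff]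
  constructor
  · rintro ⟨⟨g, hg⟩, rfl⟩
    obtain ⟨n, rfl⟩ := Subgroup.mem_zpowers_iff.mp hg
    refine ⟨⟨(s * t) ^ n, Subgroup.zpow_mem_zpowers _ n⟩, ?_⟩
    exact (key n y).symm
  · rintro ⟨⟨g, hg⟩, h⟩
    obtain ⟨n, rfl⟩ := Subgroup.mem_zpowers_iff.mp hg
    refine ⟨⟨(t * s) ^ n, Subgroup.zpow_mem_zpowers _ n⟩, ?_⟩
    have h' : (s * t) ^ n • s • y = s • x := h
    rw [← key n y] at h'
    exact smul_left_cancel s h'

end Orbits

theorem closure_S_TS : Subgroup.closure {S, T * S} = (⊤ : Subgroup SL(2, ℤ)) := by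
  rw [eq_top_iff, ← SpecialLinearGroup.SL2Z_generators, Subgroup.closure_le]
  intro g hg
  rcases hg with rfl | hg
  · exact Subgroup.subset_closure (Set.mem_insert _ _)
  · rw [Set.mem_singleton_iff] at hg
    subst hg
    have hS : S ∈ Subgroup.closure {S, T * S} := Subgroup.subset_closure (Set.mem_insert _ _)
    have hTS : T * S ∈ Subgroup.closure {S, T * S} :=
      Subgroup.subset_closure (Set.mem_insert_of_mem _ rfl)
    have := Subgroup.mul_mem _ hTS (Subgroup.inv_mem _ hS)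
    rwa [mul_inv_cancel_right] at this

theorem trace_conj_T_pow (m : ℕ) (g : SL(2, ℤ)) :
    ((g⁻¹ * T ^ m * g : SL(2, ℤ)) : Matrix (Fin 2) (Fin 2) ℤ).trace = 2 := by
  rw [Matrix.SpecialLinearGroup.coe_mul, Matrix.trace_mul_comm,
    ← Matrix.SpecialLinearGroup.coe_mul, mul_inv_cancel_left, ← zpow_natCast, coe_T_zpow,
    Matrix.trace_fin_two_of]
  norm_num

theorem conj_pow_pow_eq_one {h : SL(2, ℤ)} {n : ℕ} (hh : h ^ n = 1) (g : SL(2, ℤ)) (r : ℕ)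
    (hmem : g⁻¹ * h ^ r * g ∈ Γ) : (⟨g⁻¹ * h ^ r * g, hmem⟩ : Γ) ^ n = 1 := by
  refine Subtype.ext ?_
  show (g⁻¹ * h ^ r * g) ^ n = 1
  have e : g⁻¹ * h ^ r * g = g⁻¹ * h ^ r * g⁻¹⁻¹ := by rw [inv_inv]
  rw [e, conj_pow, ← pow_mul, mul_comm r n, pow_mul, hh, one_pow, mul_one, mul_inv_cancel]

theorem S_pow_twelve : (S : SL(2, ℤ)) ^ 12 = 1 := by decide

theorem TS_pow_twelve : (T * S : SL(2, ℤ)) ^ 12 = 1 := by decide

section Main

variable (k : Type*) [Field k]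

/-- `D_h` as a linear map. -/
noncomputable def dFL (h : SL(2, ℤ)) :
    ((Additive Γ →+ k) × ((SL(2, ℤ) ⧸ Γ) → k)) →ₗ[k] ((SL(2, ℤ) ⧸ Γ) → k) where
  toFun p := dF Γ h p
  map_add' p q := dF_add Γ h p q
  map_smul' c p := dF_smul Γ h c p

/-- `p ↦ F_p(1)` as a linear map. -/
noncomputable def lamL : ((Additive Γ →+ k) × ((SL(2, ℤ) ⧸ Γ) → k)) →ₗ[k] k where
  toFun p := bigF Γ p 1
  map_add' p q := bigF_add Γ p q 1
  map_smul' c p := bigF_smul Γ c p 1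

/-- `D_h(p)` lies in the image of `h − 1` as soon as `φ` kills all `g⁻¹ h ^ r g ∈ Γ`, `r > 0`. -/
theorem dF_mem_range_dmap [Γ.FiniteIndex] (h : SL(2, ℤ))
    (p : (Additive Γ →+ k) × ((SL(2, ℤ) ⧸ Γ) → k))
    (hp : ∀ (g : SL(2, ℤ)) (r : ℕ), 0 < r → ∀ hmem : g⁻¹ * h ^ r * g ∈ Γ,
      p.1 (Additive.ofMul ⟨g⁻¹ * h ^ r * g, hmem⟩) = 0) :
    dF Γ h p ∈ LinearMap.range (dmap k (X := SL(2, ℤ) ⧸ Γ) h) := by
  refine mem_range_dmap k h _ ?_
  intro x r hr hfix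
  obtain ⟨g, rfl⟩ := QuotientGroup.mk_surjective x
  obtain ⟨hmem, hsum⟩ := sum_dF_pow_of_fixed Γ h p g r hfix
  rw [hsum]
  exact hp g r hr hmem

/-- **Characteristic-free upper bound**, definition-agnostic form: for every field `k`, every
finite index subgroup `Γ ≤ SL(2, ℤ)` and every subspace `H` of `Hom(Γ, k)` consisting of
homomorphisms killing the parabolic elements and the elements with `γ ^ 12 = 1`,
`dim H + #(X/⟨S⟩) + #(X/⟨S*T⟩) + #(X/⟨T⟩) ≤ [SL(2, ℤ) : Γ] + 2`. -/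
theorem finrank_add_le [Γ.FiniteIndex] (H : Submodule k (Additive Γ →+ k))
    (hpar : ∀ φ ∈ H, IsParabolicHom Γ φ)
    (hfin : ∀ φ ∈ H, ∀ γ : Γ, γ ^ 12 = 1 → φ (Additive.ofMul γ) = 0) :
    Module.Finite k H ∧
    finrank k H
      + Nat.card (MulAction.orbitRel.Quotient (Subgroup.zpowers S) (SL(2, ℤ) ⧸ Γ))
      + Nat.card (MulAction.orbitRel.Quotient (Subgroup.zpowers (S * T)) (SL(2, ℤ) ⧸ Γ))
      + Nat.card (MulAction.orbitRel.Quotient (Subgroup.zpowers T) (SL(2, ℤ) ⧸ Γ))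
      ≤ Γ.index + 2 := by
  classical
  have hfinX : Finite (SL(2, ℤ) ⧸ Γ) := Subgroup.finite_quotient_of_finiteIndex
  have := Fintype.ofFinite (SL(2, ℤ) ⧸ Γ)
  -- the inclusion of `H × V` into `Hom × V`
  let ι : (H × ((SL(2, ℤ) ⧸ Γ) → k)) →ₗ[k] ((Additive Γ →+ k) × ((SL(2, ℤ) ⧸ Γ) → k)) :=
    LinearMap.prodMap H.subtype LinearMap.id
  have hι : ∀ p, ι p = ((p.1 : Additive Γ →+ k), p.2) := fun p => rfl
  let DS := (dFL Γ k S).comp ι
  let DT := (dFL Γ k T).comp ι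
  let lam := (lamL Γ k).comp ι
  let AS := LinearMap.range (dmap k (X := SL(2, ℤ) ⧸ Γ) S)
  let AT := LinearMap.range (dmap k (X := SL(2, ℤ) ⧸ Γ) T)
  let AU := LinearMap.range (dmap k (X := SL(2, ℤ) ⧸ Γ) (T * S))
  have hS : ∀ p, DS p ∈ AS := by
    intro p
    refine dF_mem_range_dmap Γ k S (ι p) ?_
    intro g r _ hmem
    exact hfin _ p.1.2 _ (conj_pow_pow_eq_one Γ S_pow_twelve g r hmem)
  have hT : ∀ p, DT p ∈ AT := by
    intro p
    refine dF_mem_range_dmap Γ k T (ι p) ?_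
    intro g r _ hmem
    refine hpar _ p.1.2 ⟨_, hmem⟩ ?_
    show ((g⁻¹ * T ^ r * g : SL(2, ℤ)) : Matrix (Fin 2) (Fin 2) ℤ).trace ^ 2 = 4
    rw [trace_conj_T_pow]; norm_num
  have hTS : ∀ p, dF Γ (T * S) (ι p) ∈ AU := by
    intro p
    refine dF_mem_range_dmap Γ k (T * S) (ι p) ?_
    intro g r _ hmem
    exact hfin _ p.1.2 _ (conj_pow_pow_eq_one Γ TS_pow_twelve g r hmem)
  have hU : ∀ p, DT p = 0 → DS p ∈ AU := by
    intro p hp
    have e : dF Γ (T * S) (ι p) = DS p := by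
      funext x
      have h0 : dF Γ T (ι p) = 0 := hp
      rw [dF_mul, h0]
      simp only [Pi.zero_apply, zero_add]
      rfl
    rw [← e]
    exact hTS p
  have hinj : ∀ p, DS p = 0 → DT p = 0 → lam p = 0 → p = 0 := by
    intro p h1 h2 h3
    have h4 := eq_zero_of_dF_eq_zero Γ (ι p) h1 h2 h3
    rw [hι] at h4
    have h5 : (p.1 : Additive Γ →+ k) = 0 := congrArg Prod.fst h4
    have h6 : p.2 = 0 := congrArg Prod.snd h4
    exact Prod.ext (Subtype.ext h5) h6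
  obtain ⟨hE, hcount⟩ := finrank_le_of_maps k (E := ↥H × ((SL(2, ℤ) ⧸ Γ) → k))
    (V := (SL(2, ℤ) ⧸ Γ) → k) DS DT lam AS AT AU hS hT hU hinj
  have hHfin : Module.Finite k H := by
    haveI := hE
    exact Module.Finite.of_surjective (LinearMap.fst k H ((SL(2, ℤ) ⧸ Γ) → k))
      LinearMap.fst_surjective
  have hHfree : Module.Free k H := Module.Free.of_divisionRing k H
  refine ⟨hHfin, ?_⟩
  have hpre : MulAction.IsPretransitive SL(2, ℤ) (SL(2, ℤ) ⧸ Γ) := inferInstance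
  have h1 : finrank k AS
      + Nat.card (MulAction.orbitRel.Quotient (Subgroup.zpowers S) (SL(2, ℤ) ⧸ Γ))
      ≤ Nat.card (SL(2, ℤ) ⧸ Γ) := finrank_range_dmap_add_card_le k (X := SL(2, ℤ) ⧸ Γ) S
  have h2 : finrank k AT
      + Nat.card (MulAction.orbitRel.Quotient (Subgroup.zpowers T) (SL(2, ℤ) ⧸ Γ))
      ≤ Nat.card (SL(2, ℤ) ⧸ Γ) := finrank_range_dmap_add_card_le k (X := SL(2, ℤ) ⧸ Γ) T
  have h3 : finrank k AU
      + Nat.card (MulAction.orbitRel.Quotient (Subgroup.zpowers (S * T)) (SL(2, ℤ) ⧸ Γ))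
      ≤ Nat.card (SL(2, ℤ) ⧸ Γ) := by
    have h := finrank_range_dmap_add_card_le k (X := SL(2, ℤ) ⧸ Γ) (T * S)
    rw [card_orbits_conj (X := SL(2, ℤ) ⧸ Γ) S T] at h
    exact h
  have h4 : Nat.card (SL(2, ℤ) ⧸ Γ) ≤ finrank k (AS ⊔ AU : Submodule k ((SL(2, ℤ) ⧸ Γ) → k)) + 1 :=
    card_le_finrank_sup_range_dmap_add_one k (X := SL(2, ℤ) ⧸ Γ) S (T * S) closure_S_TS
  have h5 := Submodule.finrank_sup_add_finrank_inf_eq AS AU
  have h6 : Γ.index = Nat.card (SL(2, ℤ) ⧸ Γ) := Subgroup.index_eq_card Γ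
  have hcount' : finrank k H + Nat.card (SL(2, ℤ) ⧸ Γ)
      ≤ finrank k AT + 1 + finrank k (AS ⊓ AU : Submodule k ((SL(2, ℤ) ⧸ Γ) → k)) := by
    have h := hcount
    rw [Module.finrank_prod, Module.finrank_fintype_fun_eq_card, ← Nat.card_eq_fintype_card] at h
    exact h
  rw [h6]
  omega

/-- Variant of `finrank_add_le` with the hypothesis "kills all finite order elements". -/
theorem finrank_add_le_of_isOfFinOrder [Γ.FiniteIndex] (H : Submodule k (Additive Γ →+ k))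
    (hpar : ∀ φ ∈ H, IsParabolicHom Γ φ)
    (hfin : ∀ φ ∈ H, ∀ γ : Γ, IsOfFinOrder γ → φ (Additive.ofMul γ) = 0) :
    Module.Finite k H ∧
    finrank k H
      + Nat.card (MulAction.orbitRel.Quotient (Subgroup.zpowers S) (SL(2, ℤ) ⧸ Γ))
      + Nat.card (MulAction.orbitRel.Quotient (Subgroup.zpowers (S * T)) (SL(2, ℤ) ⧸ Γ))
      + Nat.card (MulAction.orbitRel.Quotient (Subgroup.zpowers T) (SL(2, ℤ) ⧸ Γ))
      ≤ Γ.index + 2 :=
  finrank_add_le Γ k H hpar fun φ hφ γ hγ =>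
    hfin φ hφ γ (isOfFinOrder_iff_pow_eq_one.mpr ⟨12, by norm_num, hγ⟩)

/-- The bound for `Fermat.Agent.S16.circHoms`. -/
theorem finrank_circHoms_add_le [Γ.FiniteIndex] :
    finrank k (circHoms k Γ k)
      + Nat.card (MulAction.orbitRel.Quotient (Subgroup.zpowers S) (SL(2, ℤ) ⧸ Γ))
      + Nat.card (MulAction.orbitRel.Quotient (Subgroup.zpowers (S * T)) (SL(2, ℤ) ⧸ Γ))
      + Nat.card (MulAction.orbitRel.Quotient (Subgroup.zpowers T) (SL(2, ℤ) ⧸ Γ))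
      ≤ Γ.index + 2 :=
  (finrank_add_le Γ k (circHoms k Γ k) (fun _ hφ => IsCircHom.isParabolicHom hφ)
    (fun _ hφ γ hγ => hφ γ (Or.inr hγ))).2

theorem finite_circHoms [Γ.FiniteIndex] : Module.Finite k (circHoms k Γ k) :=
  (finrank_add_le Γ k (circHoms k Γ k) (fun _ hφ => IsCircHom.isParabolicHom hφ)
    (fun _ hφ γ hγ => hφ γ (Or.inr hγ))).1

end Main

end Fermat.Agent.S16.L2
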