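/-
S16, block (L)/[L2a] (owner: helper21): the abstract lifting lemma.

Let `G` be a finitely generated group and `K ⊆ G`.  Write `Hom_K(G, A)` for the homomorphisms
`G → A` killing `K`.  If there are `d` `ℂ`-linearly independent elements of `Hom_K(G, ℂ)` and, for
every prime `ℓ`, every `𝔽_ℓ`-linearly independent family in `Hom_K(G, 𝔽_ℓ)` has at most `d`
elements, then for every `n ≥ 1` every element of `Hom_K(G, ℤ/n)` is the reduction of an element
of `Hom_K(G, ℤ)`.

Mathlib only.
-/
import Mathlib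

set_option autoImplicit false

namespace Fermat.Agent.S16.LiftLemma

variable {G : Type*} [Group G]

/-- Two homomorphisms on `Additive G` agreeing on a generating set are equal. -/
theorem hom_ext_of_closure {A : Type*} [AddCommGroup A] {S : Set G}
    (hS : Subgroup.closure S = ⊤) {φ ψ : Additive G →+ A}
    (h : ∀ s ∈ S, φ (Additive.ofMul s) = ψ (Additive.ofMul s)) : φ = ψ := by
  let H : Subgroup G :=
    { carrier := {g | φ (Additive.ofMul g) = ψ (Additive.ofMul g)}
      mul_mem' := by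
        intro a b ha hb
        show φ (Additive.ofMul (a * b)) = ψ (Additive.ofMul (a * b))
        rw [ofMul_mul, map_add, map_add, ha, hb]
      one_mem' := by
        show φ (Additive.ofMul 1) = ψ (Additive.ofMul 1)
        rw [ofMul_one, map_zero, map_zero]
      inv_mem' := by
        intro a ha
        show φ (Additive.ofMul a⁻¹) = ψ (Additive.ofMul a⁻¹)
        rw [ofMul_inv, map_neg, map_neg, ha] }
  have hH : H = ⊤ := by
    rw [eq_top_iff, ← hS, Subgroup.closure_le]
    exact h
  refine AddMonoidHom.ext fun x => ?_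
  have hx : Additive.toMul x ∈ H := by rw [hH]; trivial
  exact hx

/-- The integral homomorphisms killing `K`, as a `ℤ`-submodule. -/
def killHoms (K : Set G) : Submodule ℤ (Additive G →+ ℤ) where
  carrier := {φ | ∀ g ∈ K, φ (Additive.ofMul g) = 0}
  zero_mem' := fun _ _ => rfl
  add_mem' := by
    intro φ ψ hφ hψ g hg
    show φ (Additive.ofMul g) + ψ (Additive.ofMul g) = 0
    rw [hφ g hg, hψ g hg, add_zero]
  smul_mem' := by
    intro c φ hφ g hg
    show c • φ (Additive.ofMul g) = 0
    rw [hφ g hg, smul_zero]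

theorem mem_killHoms {K : Set G} {φ : Additive G →+ ℤ} :
    φ ∈ killHoms K ↔ ∀ g ∈ K, φ (Additive.ofMul g) = 0 := Iff.rfl

/-- `Hom(G, ℤ)` is a noetherian `ℤ`-module when `G` is finitely generated. -/
theorem isNoetherian_hom [Group.FG G] : IsNoetherian ℤ (Additive G →+ ℤ) := by
  obtain ⟨S, hS, hSfin⟩ := Group.fg_iff.mp (inferInstance : Group.FG G)
  have : Finite S := hSfin
  let res : (Additive G →+ ℤ) →ₗ[ℤ] (S → ℤ) :=
    { toFun := fun φ s => φ (Additive.ofMul (s : G))
      map_add' := fun _ _ => rfl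
      map_smul' := fun _ _ => rfl }
  have hres : Function.Injective res := by
    intro φ ψ h
    refine hom_ext_of_closure hS fun s hs => ?_
    exact congrFun h ⟨s, hs⟩
  exact isNoetherian_of_injective res hres

theorem finite_killHoms [Group.FG G] (K : Set G) : Module.Finite ℤ (killHoms K) := by
  have := isNoetherian_hom (G := G)
  infer_instance

theorem isTorsionFree_killHoms (K : Set G) : Module.IsTorsionFree ℤ (killHoms K) := by
  refine Module.IsTorsionFree.of_smul_eq_zero fun r m h => ?_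
  by_cases hr : r = 0
  · exact Or.inl hr
  · right
    apply Subtype.ext
    refine AddMonoidHom.ext fun x => ?_
    have h1 : (r • (m : Additive G →+ ℤ)) x = 0 := by
      have := congrArg (fun y : killHoms K => (y : Additive G →+ ℤ) x) h
      simpa using this
    have h2 : r * (m : Additive G →+ ℤ) x = 0 := by
      simpa using h1
    rcases mul_eq_zero.mp h2 with h3 | h3
    · exact absurd h3 hr
    · exact h3

/-- Integer division of an integral homomorphism all of whose values are divisible by `ℓ`. -/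
def divHom (ℓ : ℤ) (ψ : Additive G →+ ℤ) (h : ∀ x, ℓ ∣ ψ x) : Additive G →+ ℤ where
  toFun x := ψ x / ℓ
  map_zero' := by simp
  map_add' x y := by rw [map_add, Int.add_ediv_of_dvd_left (h x)]

theorem mul_divHom (ℓ : ℤ) (ψ : Additive G →+ ℤ) (h : ∀ x, ℓ ∣ ψ x) (x : Additive G) :
    ℓ * divHom ℓ ψ h x = ψ x :=
  Int.mul_ediv_cancel' (h x)

theorem divHom_mem {K : Set G} (ℓ : ℤ) (ψ : Additive G →+ ℤ) (h : ∀ x, ℓ ∣ ψ x)
    (hψ : ψ ∈ killHoms K) : divHom ℓ ψ h ∈ killHoms K := by
  intro g hg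
  show ψ (Additive.ofMul g) / ℓ = 0
  rw [hψ g hg, Int.zero_ediv]

/-- Reduction of an integral homomorphism modulo `n`. -/
def red (n : ℕ) (ψ : Additive G →+ ℤ) : Additive G →+ ZMod n :=
  (Int.castAddHom (ZMod n)).comp ψ

@[simp] theorem red_apply (n : ℕ) (ψ : Additive G →+ ℤ) (x : Additive G) :
    red n ψ x = ((ψ x : ℤ) : ZMod n) := rfl

/-- Complexification of an integral homomorphism. -/
def toC (ψ : Additive G →+ ℤ) : Additive G →+ ℂ :=
  (Int.castAddHom ℂ).comp ψ

@[simp] theorem toC_apply (ψ : Additive G →+ ℤ) (x : Additive G) :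
    toC ψ x = ((ψ x : ℤ) : ℂ) := rfl

theorem sum_zsmul_apply {ι : Type*} (s : Finset ι) (e : ι → ℤ) (b : ι → (Additive G →+ ℤ))
    (x : Additive G) : (∑ j ∈ s, e j • b j) x = ∑ j ∈ s, e j * b j x := by
  rw [AddMonoidHom.finsetSum_apply]
  refine Finset.sum_congr rfl fun j _ => ?_
  simp

theorem coe_sum_zsmul {K : Set G} {ι : Type*} (s : Finset ι) (e : ι → ℤ) (b : ι → killHoms K) :
    ((∑ j ∈ s, e j • b j : killHoms K) : Additive G →+ ℤ)
      = ∑ j ∈ s, e j • (b j : Additive G →+ ℤ) := by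
  simp

/-- Every complex homomorphism killing `K` is a `ℂ`-combination of complexifications of integral
homomorphisms killing `K`. -/
theorem mem_span_toC [Group.FG G] (K : Set G) (φ : Additive G →+ ℂ)
    (hφ : ∀ g ∈ K, φ (Additive.ofMul g) = 0) :
    φ ∈ Submodule.span ℂ ((fun ψ : Additive G →+ ℤ => toC ψ) '' (killHoms K : Set _)) := by
  classical
  -- the image of `φ` is a finitely generated torsion-free group, hence free
  have hfg : AddGroup.FG φ.range := AddGroup.fg_of_surjective φ.rangeRestrict_surjective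
  have hfin : Module.Finite ℤ φ.range := Module.Finite.iff_addGroup_fg.mpr hfg
  have htf : Module.IsTorsionFree ℤ φ.range :=
    Function.Injective.moduleIsTorsionFree (fun x : φ.range => (x : ℂ)) Subtype.val_injective
      (fun r m => by simp)
  have hfree : Module.Free ℤ φ.range := Module.free_of_finite_type_torsion_free'
  let c := Module.finBasis ℤ φ.range
  let φj : Fin (Module.finrank ℤ φ.range) → (Additive G →+ ℤ) := fun j =>
    (c.coord j).toAddMonoidHom.comp φ.rangeRestrict
  have hφj : ∀ j, φj j ∈ killHoms K := by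
    intro j g hg
    show c.coord j (φ.rangeRestrict (Additive.ofMul g)) = 0
    have h0 : φ.rangeRestrict (Additive.ofMul g) = 0 := Subtype.ext (hφ g hg)
    rw [h0, map_zero]
  have hsum : φ = ∑ j, ((c j : φ.range) : ℂ) • toC (φj j) := by
    refine AddMonoidHom.ext fun x => ?_
    have h1 := c.sum_repr (φ.rangeRestrict x)
    have h2 : φ x = ((φ.rangeRestrict x : φ.range) : ℂ) := rfl
    rw [h2, ← h1, AddMonoidHom.finsetSum_apply]
    rw [AddSubgroup.val_finsetSum]
    refine Finset.sum_congr rfl fun j _ => ?_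
    show ((c.repr (φ.rangeRestrict x) j • c j : φ.range) : ℂ)
      = ((c j : φ.range) : ℂ) * ((c.coord j (φ.rangeRestrict x) : ℤ) : ℂ)
    rw [AddSubgroup.coe_zsmul, zsmul_eq_mul, mul_comm]
    rfl
  rw [hsum]
  refine Submodule.sum_mem _ fun j _ => Submodule.smul_mem _ _ (Submodule.subset_span ?_)
  exact ⟨φj j, hφj j, rfl⟩

section Main

variable [Group.FG G] (K : Set G)

/-- Step A: a `ℂ`-linearly independent family of complex homomorphisms killing `K` has at most
`rank_ℤ Hom_K(G, ℤ)` elements. -/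
theorem card_le_finrank_killHoms (d : ℕ) (v : Fin d → (Additive G →+ ℂ))
    (hv : LinearIndependent ℂ v) (hvK : ∀ i, ∀ g ∈ K, v i (Additive.ofMul g) = 0) :
    d ≤ Module.finrank ℤ (killHoms K) := by
  classical
  have hfin := finite_killHoms K
  have htf := isTorsionFree_killHoms K
  have hfree : Module.Free ℤ (killHoms K) := Module.free_of_finite_type_torsion_free'
  let b := Module.finBasis ℤ (killHoms K)
  let w : Fin (Module.finrank ℤ (killHoms K)) → (Additive G →+ ℂ) := fun j =>
    toC (b j : Additive G →+ ℤ)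
  let W : Submodule ℂ (Additive G →+ ℂ) := Submodule.span ℂ (Set.range w)
  have hW : ∀ ψ ∈ killHoms K, toC ψ ∈ W := by
    intro ψ hψ
    have h1 := b.sum_repr ⟨ψ, hψ⟩
    have h2 : ψ = ∑ j, b.repr ⟨ψ, hψ⟩ j • (b j : Additive G →+ ℤ) := by
      have := congrArg (fun y : killHoms K => (y : Additive G →+ ℤ)) h1
      simp only [coe_sum_zsmul] at this
      exact this.symm
    have h3 : toC ψ = ∑ j, ((b.repr ⟨ψ, hψ⟩ j : ℤ) : ℂ) • w j := by
      refine AddMonoidHom.ext fun x => ?_
      rw [toC_apply, AddMonoidHom.finsetSum_apply]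
      conv_lhs => rw [h2]
      rw [sum_zsmul_apply]
      push_cast
      rfl
    rw [h3]
    exact Submodule.sum_mem _ fun j _ => Submodule.smul_mem _ _ (Submodule.subset_span ⟨j, rfl⟩)
  have hvW : ∀ i, v i ∈ W := by
    intro i
    have h := mem_span_toC K (v i) (hvK i)
    refine Submodule.span_le.mpr ?_ h
    rintro _ ⟨ψ, hψ, rfl⟩
    exact hW ψ hψ
  let v' : Fin d → W := fun i => ⟨v i, hvW i⟩
  have hv' : LinearIndependent ℂ v' := by
    refine LinearIndependent.of_comp W.subtype ?_
    exact hv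
  have hWfin : Module.Finite ℂ W := FiniteDimensional.span_of_finite ℂ (Set.finite_range w)
  have h1 := hv'.fintype_card_le_finrank
  have h2 : Module.finrank ℂ W ≤ Fintype.card (Fin (Module.finrank ℤ (killHoms K))) :=
    finrank_range_le_card w
  simp only [Fintype.card_fin] at h1 h2
  exact h1.trans h2

omit [Group.FG G] in
/-- Step B: the reductions modulo `ℓ` of a `ℤ`-basis of `Hom_K(G, ℤ)` are linearly independent
over `ℤ/ℓ`. -/
theorem linearIndependent_red_basis (ℓ : ℕ) {s : ℕ}
    (b : Module.Basis (Fin s) ℤ (killHoms K)) :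
    LinearIndependent (ZMod ℓ) (fun j => red ℓ (b j : Additive G →+ ℤ)) := by
  classical
  rw [Fintype.linearIndependent_iff]
  intro g hg j
  choose e he using fun j => ZMod.intCast_surjective (g j)
  set ψ : killHoms K := ∑ j, e j • b j with hψ
  have hψx : ∀ x, ((ℓ : ℕ) : ℤ) ∣ (ψ : Additive G →+ ℤ) x := by
    intro x
    rw [← ZMod.intCast_zmod_eq_zero_iff_dvd, hψ, coe_sum_zsmul, sum_zsmul_apply]
    have h1 := congrArg (fun f : Additive G →+ ZMod ℓ => f x) hg
    simp only [AddMonoidHom.finsetSum_apply, AddMonoidHom.zero_apply] at h1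
    rw [← h1]
    push_cast
    refine Finset.sum_congr rfl fun j _ => ?_
    rw [he j]
    rfl
  set ψ' : killHoms K := ⟨divHom (ℓ : ℤ) ψ hψx, divHom_mem _ _ hψx ψ.2⟩ with hψ'
  have h2 : ψ = (ℓ : ℤ) • ψ' := by
    apply Subtype.ext
    refine AddMonoidHom.ext fun x => ?_
    show (ψ : Additive G →+ ℤ) x = (ℓ : ℤ) • divHom (ℓ : ℤ) ψ hψx x
    rw [smul_eq_mul, mul_divHom]
  have h3 : b.repr ψ j = e j := by
    rw [hψ, b.repr_sum_self]
  have h4 : b.repr ψ j = (ℓ : ℤ) * b.repr ψ' j := by
    rw [h2, map_smul]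
    rfl
  rw [← he j, ← h3, h4]
  push_cast
  rw [ZMod.natCast_self, zero_mul]

/-- Step C: under the two dimension hypotheses, every homomorphism `G → 𝔽_ℓ` killing `K` lifts
to an integral homomorphism killing `K`. -/
theorem exists_lift_prime (d : ℕ)
    (hC : ∃ v : Fin d → (Additive G →+ ℂ), LinearIndependent ℂ v ∧
      ∀ i, ∀ g ∈ K, v i (Additive.ofMul g) = 0)
    (hℓ : ∀ ℓ : ℕ, ℓ.Prime → ∀ (m : ℕ) (v : Fin m → (Additive G →+ ZMod ℓ)),
      LinearIndependent (ZMod ℓ) v → (∀ i, ∀ g ∈ K, v i (Additive.ofMul g) = 0) → m ≤ d)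
    (ℓ : ℕ) (hp : ℓ.Prime) (φ : Additive G →+ ZMod ℓ)
    (hφ : ∀ g ∈ K, φ (Additive.ofMul g) = 0) :
    ∃ φ' ∈ killHoms K, ∀ x, ((φ' x : ℤ) : ZMod ℓ) = φ x := by
  classical
  have : Fact ℓ.Prime := ⟨hp⟩
  have hfin := finite_killHoms K
  have htf := isTorsionFree_killHoms K
  have hfree : Module.Free ℤ (killHoms K) := Module.free_of_finite_type_torsion_free'
  obtain ⟨v, hv, hvK⟩ := hC
  have hds := card_le_finrank_killHoms K d v hv hvK
  let b := Module.finBasis ℤ (killHoms K)
  have hind := linearIndependent_red_basis K ℓ b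
  have hrK : ∀ j, ∀ g ∈ K, red ℓ (b j : Additive G →+ ℤ) (Additive.ofMul g) = 0 := by
    intro j g hg
    rw [red_apply, (b j).2 g hg, Int.cast_zero]
  have hmem : φ ∈ Submodule.span (ZMod ℓ)
      (Set.range fun j => red ℓ (b j : Additive G →+ ℤ)) := by
    by_contra hnot
    have hcons := hind.finCons hnot
    have := hℓ ℓ hp _ _ hcons (by
      intro i
      refine Fin.cases ?_ (fun j => ?_) i
      · simpa using hφ
      · simpa using hrK j)
    omega
  obtain ⟨c, hc⟩ := (Submodule.mem_span_range_iff_exists_fun (ZMod ℓ)).mp hmem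
  choose e he using fun j => ZMod.intCast_surjective (c j)
  refine ⟨((∑ j, e j • b j : killHoms K) : Additive G →+ ℤ), SetLike.coe_mem _, fun x => ?_⟩
  rw [coe_sum_zsmul, sum_zsmul_apply, ← hc, AddMonoidHom.finsetSum_apply]
  push_cast
  refine Finset.sum_congr rfl fun j _ => ?_
  rw [he j]
  rfl

/-- Step D (dévissage): quasi-homomorphisms modulo `n` killing `K` modulo `n` are congruent to
integral homomorphisms killing `K`. -/
theorem exists_lift_quasi (d : ℕ)
    (hC : ∃ v : Fin d → (Additive G →+ ℂ), LinearIndependent ℂ v ∧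
      ∀ i, ∀ g ∈ K, v i (Additive.ofMul g) = 0)
    (hℓ : ∀ ℓ : ℕ, ℓ.Prime → ∀ (m : ℕ) (v : Fin m → (Additive G →+ ZMod ℓ)),
      LinearIndependent (ZMod ℓ) v → (∀ i, ∀ g ∈ K, v i (Additive.ofMul g) = 0) → m ≤ d)
    (n : ℕ) (hn : n ≠ 0) :
    ∀ f : G → ℤ, (∀ g h, (n : ℤ) ∣ f (g * h) - f g - f h) → (∀ g ∈ K, (n : ℤ) ∣ f g) →
      ∃ φ' ∈ killHoms K, ∀ g, (n : ℤ) ∣ f g - φ' (Additive.ofMul g) := by
  induction n using Nat.strong_induction_on with
  | _ n ih =>
    intro f hf hfK
    rcases Nat.lt_or_ge n 2 with hlt | hge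
    · have h1 : n = 1 := by omega
      subst h1
      exact ⟨0, Submodule.zero_mem _, fun g => by simp⟩
    · set ℓ := n.minFac with hℓdef
      have hp : ℓ.Prime := Nat.minFac_prime (by omega)
      obtain ⟨m, hm⟩ : ℓ ∣ n := Nat.minFac_dvd n
      have hm0 : m ≠ 0 := by
        rintro rfl
        simp at hm
        exact hn hm
      have hmlt : m < n := by
        have := hp.two_le
        nlinarith [Nat.pos_of_ne_zero hm0]
      have hℓ0 : (ℓ : ℤ) ≠ 0 := by exact_mod_cast hp.ne_zero
      have hℓn : (ℓ : ℤ) ∣ (n : ℤ) := by exact_mod_cast Nat.minFac_dvd n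
      -- the homomorphism modulo `ℓ`
      have hf1 : (ℓ : ℤ) ∣ f 1 := by
        have := hℓn.trans (hf 1 1)
        have e : f (1 * 1) - f 1 - f 1 = -f 1 := by rw [one_mul]; ring
        rw [e] at this
        exact (Int.dvd_neg).mp this
      let φℓ : Additive G →+ ZMod ℓ :=
        { toFun := fun x => ((f (Additive.toMul x) : ℤ) : ZMod ℓ)
          map_zero' := by
            show ((f 1 : ℤ) : ZMod ℓ) = 0
            rw [ZMod.intCast_zmod_eq_zero_iff_dvd]
            exact hf1
          map_add' := by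
            intro x y
            show ((f (Additive.toMul x * Additive.toMul y) : ℤ) : ZMod ℓ)
              = ((f (Additive.toMul x) : ℤ) : ZMod ℓ) + ((f (Additive.toMul y) : ℤ) : ZMod ℓ)
            have := hℓn.trans (hf (Additive.toMul x) (Additive.toMul y))
            rw [← ZMod.intCast_zmod_eq_zero_iff_dvd] at this
            push_cast at this
            linear_combination this }
      have hφℓK : ∀ g ∈ K, φℓ (Additive.ofMul g) = 0 := by
        intro g hg
        show ((f g : ℤ) : ZMod ℓ) = 0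
        rw [ZMod.intCast_zmod_eq_zero_iff_dvd]
        exact hℓn.trans (hfK g hg)
      obtain ⟨φ₁, hφ₁K, hφ₁⟩ := exists_lift_prime K d hC hℓ ℓ hp φℓ hφℓK
      have hdiv : ∀ g, (ℓ : ℤ) ∣ f g - φ₁ (Additive.ofMul g) := by
        intro g
        rw [← ZMod.intCast_zmod_eq_zero_iff_dvd]
        push_cast
        rw [hφ₁ (Additive.ofMul g)]
        show ((f g : ℤ) : ZMod ℓ) - ((f g : ℤ) : ZMod ℓ) = 0
        rw [sub_self]
      choose f₂ hf₂ using hdiv
      have hnm : (n : ℤ) = (ℓ : ℤ) * (m : ℤ) := by exact_mod_cast hm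
      have hf₂hom : ∀ g h, (m : ℤ) ∣ f₂ (g * h) - f₂ g - f₂ h := by
        intro g h
        have h1 := hf g h
        rw [hnm] at h1
        have e : f (g * h) - f g - f h = (ℓ : ℤ) * (f₂ (g * h) - f₂ g - f₂ h) := by
          have e1 := hf₂ (g * h)
          have e2 := hf₂ g
          have e3 := hf₂ h
          have e4 : φ₁ (Additive.ofMul (g * h))
              = φ₁ (Additive.ofMul g) + φ₁ (Additive.ofMul h) := by
            rw [ofMul_mul, map_add]
          linear_combination e1 - e2 - e3 + e4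
        rw [e] at h1
        exact Int.dvd_of_mul_dvd_mul_left hℓ0 h1
      have hf₂K : ∀ g ∈ K, (m : ℤ) ∣ f₂ g := by
        intro g hg
        have h1 := hfK g hg
        rw [hnm] at h1
        have e : f g = (ℓ : ℤ) * f₂ g := by
          have e2 := hf₂ g
          rw [hφ₁K g hg] at e2
          linear_combination e2
        rw [e] at h1
        exact Int.dvd_of_mul_dvd_mul_left hℓ0 h1
      obtain ⟨φ₂, hφ₂K, hφ₂⟩ := ih m hmlt hm0 f₂ hf₂hom hf₂K
      refine ⟨φ₁ + (ℓ : ℤ) • φ₂, Submodule.add_mem _ hφ₁K (Submodule.smul_mem _ _ hφ₂K), ?_⟩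
      intro g
      have e : f g - (φ₁ + (ℓ : ℤ) • φ₂) (Additive.ofMul g)
          = (ℓ : ℤ) * (f₂ g - φ₂ (Additive.ofMul g)) := by
        have e2 := hf₂ g
        show f g - (φ₁ (Additive.ofMul g) + (ℓ : ℤ) • φ₂ (Additive.ofMul g)) = _
        rw [smul_eq_mul]
        linear_combination e2
      rw [e, hnm]
      exact mul_dvd_mul_left _ (hφ₂ g)

/-- **The lifting lemma.** Let `G` be a finitely generated group and `K ⊆ G`.  If there are `d`
linearly independent complex homomorphisms killing `K`, and for every prime `ℓ` every linearly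
independent family of homomorphisms `G → 𝔽_ℓ` killing `K` has at most `d` elements, then for
every `n ≠ 0` every homomorphism `G → ℤ/n` killing `K` is the reduction of a homomorphism
`G → ℤ` killing `K`. -/
theorem exists_int_lift (d : ℕ)
    (hC : ∃ v : Fin d → (Additive G →+ ℂ), LinearIndependent ℂ v ∧
      ∀ i, ∀ g ∈ K, v i (Additive.ofMul g) = 0)
    (hℓ : ∀ ℓ : ℕ, ℓ.Prime → ∀ (m : ℕ) (v : Fin m → (Additive G →+ ZMod ℓ)),
      LinearIndependent (ZMod ℓ) v → (∀ i, ∀ g ∈ K, v i (Additive.ofMul g) = 0) → m ≤ d)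
    (n : ℕ) (hn : n ≠ 0) (φ : Additive G →+ ZMod n)
    (hφ : ∀ g ∈ K, φ (Additive.ofMul g) = 0) :
    ∃ φ' : Additive G →+ ℤ, (∀ g ∈ K, φ' (Additive.ofMul g) = 0) ∧
      ∀ x, ((φ' x : ℤ) : ZMod n) = φ x := by
  have : NeZero n := ⟨hn⟩
  choose f hf using fun g : G => ZMod.intCast_surjective (φ (Additive.ofMul g))
  have h1 : ∀ g h, (n : ℤ) ∣ f (g * h) - f g - f h := by
    intro g h
    rw [← ZMod.intCast_zmod_eq_zero_iff_dvd]
    push_cast
    rw [hf, hf, hf, ofMul_mul, map_add]
    ring
  have h2 : ∀ g ∈ K, (n : ℤ) ∣ f g := by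
    intro g hg
    rw [← ZMod.intCast_zmod_eq_zero_iff_dvd, hf, hφ g hg]
  obtain ⟨φ', hφ'K, hφ'⟩ := exists_lift_quasi K d hC hℓ n hn f h1 h2
  refine ⟨φ', hφ'K, fun x => ?_⟩
  have h3 := hφ' (Additive.toMul x)
  rw [← ZMod.intCast_zmod_eq_zero_iff_dvd] at h3
  push_cast at h3
  rw [hf] at h3
  have h4 : φ (Additive.ofMul (Additive.toMul x)) = φ x := rfl
  have h5 : φ' (Additive.ofMul (Additive.toMul x)) = φ' x := rfl
  rw [h4, h5] at h3
  exact (sub_eq_zero.mp h3).symm

end Main

end Fermat.Agent.S16.LiftLemma
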