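import Mathlib
import Fermat.Prelude.Def_ModularCurve_GenusNumerics
import Fermat.Agent.S16.LDefs
import Fermat.Agent.S16.L2Bound
import Fermat.Agent.S16.LiftLemma
import Fermat.Agent.S20
import Fermat.Agent.S21
import Fermat.Agent.S22.GammaFG

/-!
# S16, block [L2]: lifting circ characters of `Γ₀(N)` to parabolic integral characters

* `finrank_circHoms_Gamma0_le` : for every field `k`,
  `dim_k Hom°(Γ₀(N), k) ≤ 2 g(N)` (characteristic-free; `g(N)` the genus formula).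
* `finrank_parabolicHoms_Gamma0` : `dim_ℂ Hom_par(Γ₀(N), ℂ) = 2 dim S₂(Γ₀(N))` (from S21).
* `exists_parabolic_lift` : every `ψ : Γ₀(N) → ℤ/n` killing the parabolic elements and the
  elements with `γ ^ 12 = 1` is the reduction of a parabolic homomorphism `Γ₀(N) → ℤ`.
-/

set_option autoImplicit false

open scoped MatrixGroups
open ModularCurve ModularCurve.Period ModularGroup Module CongruenceSubgroup

namespace Fermat.Agent.S16.L2

/-- The integer form of the characteristic-free bound for `Γ₀(N)`: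
`6·dim + 6·c + 3·ν₂ + 4·ν₃ ≤ ψ(N) + 12`. -/
theorem six_mul_finrank_circHoms_add_le (N : ℕ) [NeZero N] (k : Type*) [Field k] :
    6 * finrank k (circHoms k (Gamma0 N) k) + 6 * cuspCount N + 3 * nuTwo N
      + 4 * nuThree N ≤ dedekindPsi N + 12 := by
  have hneg := Fermat.Agent.S21.neg_one_mem_Gamma0 N
  have h := finrank_circHoms_add_le (Gamma0 N) k
  have h2 := Fermat.Agent.S21.two_mul_card_orbits_S (Gamma0 N) hneg
  have h3 := Fermat.Agent.S21.three_mul_card_orbits_ST (Gamma0 N) hneg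
  rw [Subgroup.index_eq_card, Fermat.Agent.S20.card_Q, Fermat.Agent.S20.card_orbits_T] at h
  rw [Fermat.Agent.S20.card_Q, Fermat.Agent.S20.card_fixedBy_S] at h2
  rw [Fermat.Agent.S20.card_Q, Fermat.Agent.S20.card_fixedBy_ST] at h3
  omega

/-- `dim_k Hom°(Γ₀(N), k) ≤ 2 g(N)` for every field `k`. -/
theorem finrank_circHoms_Gamma0_le (N : ℕ) [NeZero N] (k : Type*) [Field k] :
    (finrank k (circHoms k (Gamma0 N) k) : ℚ) ≤ 2 * genusFormula N := by
  have h := six_mul_finrank_circHoms_add_le N k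
  have h' : (6 * (finrank k (circHoms k (Gamma0 N) k) : ℚ) + 6 * (cuspCount N : ℚ)
      + 3 * (nuTwo N : ℚ) + 4 * (nuThree N : ℚ)) ≤ (dedekindPsi N : ℚ) + 12 := by
    exact_mod_cast h
  unfold genusFormula
  linarith

/-- `dim_ℂ Hom_par(Γ₀(N), ℂ) = 2 dim S₂(Γ₀(N))` (Eichler–Shimura, S21). -/
theorem finrank_parabolicHoms_Gamma0 (N : ℕ) [NeZero N] :
    finrank ℂ (parabolicHoms ℂ (Gamma0 N) ℂ) = 2 * finrank ℂ (CuspForm (Gamma0 N) 2) := by
  obtain ⟨hinj, hrange⟩ := Fermat.Agent.S21.result N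
  have hfin : Module.Finite ℂ (CuspForm (Gamma0 N) 2) := Fermat.Agent.S21.finite_cuspForm_Gamma0 N
  rw [← hrange, LinearMap.finrank_range_of_inj hinj, Module.finrank_prod]
  ring

/-- For every field `k`: `dim_k Hom°(Γ₀(N), k) ≤ dim_ℂ Hom_par(Γ₀(N), ℂ)`. -/
theorem finrank_circHoms_Gamma0_le_finrank_parabolicHoms (N : ℕ) [NeZero N] (k : Type*)
    [Field k] :
    finrank k (circHoms k (Gamma0 N) k) ≤ finrank ℂ (parabolicHoms ℂ (Gamma0 N) ℂ) := by
  have h1 := finrank_circHoms_Gamma0_le N k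
  have h2 := Fermat.Agent.S20.result N
  rw [finrank_parabolicHoms_Gamma0]
  have h3 : (finrank k (circHoms k (Gamma0 N) k) : ℚ)
      ≤ ((2 * finrank ℂ (CuspForm (Gamma0 N) 2) : ℕ) : ℚ) := by
    push_cast
    rw [h2]
    exact h1
  exact_mod_cast h3

/-- **[L2]** Every homomorphism `ψ : Γ₀(N) → ℤ/n` killing the parabolic elements and the
elements with `γ ^ 12 = 1` lifts to a parabolic homomorphism `Γ₀(N) → ℤ`. -/
theorem exists_parabolic_lift (N : ℕ) [NeZero N] (n : ℕ) [NeZero n]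
    (ψ : Additive (Gamma0 N) →+ ZMod n) (hψ : IsCircHom (Gamma0 N) ψ) :
    ∃ φ : Additive (Gamma0 N) →+ ℤ, IsParabolicHom (Gamma0 N) φ ∧
      ∀ γ, ((φ γ : ℤ) : ZMod n) = ψ γ := by
  classical
  haveI : Group.FG (Gamma0 N) := Fermat.Agent.S22.gamma0_fg N
  set K : Set (Gamma0 N) :=
    {γ | (((γ : SL(2, ℤ)) : Matrix (Fin 2) (Fin 2) ℤ).trace ^ 2 = 4 ∨ γ ^ 12 = 1)} with hK
  set d : ℕ := finrank ℂ (parabolicHoms ℂ (Gamma0 N) ℂ) with hd
  -- the complex side: a basis of `Hom_par(Γ, ℂ)`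
  have hC : ∃ v : Fin d → (Additive (Gamma0 N) →+ ℂ), LinearIndependent ℂ v ∧
      ∀ i, ∀ g ∈ K, v i (Additive.ofMul g) = 0 := by
    haveI : Module.Finite ℂ (parabolicHoms ℂ (Gamma0 N) ℂ) :=
      Fermat.Agent.S21.finite_parabolicHoms_Gamma0 N
    let b := Module.finBasis ℂ (parabolicHoms ℂ (Gamma0 N) ℂ)
    refine ⟨fun i => ((b i : parabolicHoms ℂ (Gamma0 N) ℂ) : Additive (Gamma0 N) →+ ℂ), ?_, ?_⟩
    · have hli := b.linearIndependent
      exact hli.map' (parabolicHoms ℂ (Gamma0 N) ℂ).subtype (Submodule.ker_subtype _)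
    · intro i g hg
      have hmem : ((b i : parabolicHoms ℂ (Gamma0 N) ℂ) : Additive (Gamma0 N) →+ ℂ)
          ∈ circHoms ℂ (Gamma0 N) ℂ := by
        rw [circHoms_complex_eq]
        exact (b i).2
      exact hmem g hg
  -- the mod `ℓ` side: the characteristic-free bound
  have hℓ : ∀ ℓ : ℕ, ℓ.Prime → ∀ (m : ℕ) (v : Fin m → (Additive (Gamma0 N) →+ ZMod ℓ)),
      LinearIndependent (ZMod ℓ) v → (∀ i, ∀ g ∈ K, v i (Additive.ofMul g) = 0) → m ≤ d := by
    intro ℓ hℓ m v hv hvK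
    haveI : Fact ℓ.Prime := ⟨hℓ⟩
    haveI : Module.Finite (ZMod ℓ) (circHoms (ZMod ℓ) (Gamma0 N) (ZMod ℓ)) :=
      finite_circHoms (Gamma0 N) (ZMod ℓ)
    let v' : Fin m → circHoms (ZMod ℓ) (Gamma0 N) (ZMod ℓ) := fun i => ⟨v i, fun g hg => hvK i g hg⟩
    have hv' : LinearIndependent (ZMod ℓ) v' := by
      refine LinearIndependent.of_comp (circHoms (ZMod ℓ) (Gamma0 N) (ZMod ℓ)).subtype ?_
      exact hv
    have h1 := hv'.fintype_card_le_finrank
    rw [Fintype.card_fin] at h1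
    exact h1.trans (finrank_circHoms_Gamma0_le_finrank_parabolicHoms N (ZMod ℓ))
  obtain ⟨φ, hφK, hφ⟩ := Fermat.Agent.S16.LiftLemma.exists_int_lift K d hC hℓ n (NeZero.ne n) ψ
    (fun g hg => hψ g hg)
  exact ⟨φ, fun γ hγ => hφK γ (Or.inl hγ), hφ⟩

end Fermat.Agent.S16.L2
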