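/-
S16, lower bound (L): the algebraic core.

If the Hecke generators act on `S₂(Γ₀(p)) × S₂(Γ₀(p))` compatibly (via `periodHomPair`) with
operators `Tℤ ℓ` on integer valued characters of `Γ₀(p)`, and `ψ : Γ₀(p) → ℤ/n` is a surjective
character on which these operators act through the scalars `e ℓ`, and `ψ` lifts to an integral
character `φ₀` in the range of `periodHomPair`, then every polynomial `P` in the Hecke operators
that kills `S₂(Γ₀(p))` satisfies `n ∣ P(e)`.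
-/
import Mathlib
import Fermat.Prelude.Def_CuspForm_HeckeEvalForms
import Fermat.Prelude.Def_ModularCurve_PeriodHomPair

set_option autoImplicit false

open scoped MatrixGroups
open ModularCurve ModularCurve.Period CongruenceSubgroup CuspForm

namespace Fermat.Agent.S16.LCore

variable {p : ℕ} [NeZero p] {n : ℕ}

/-- The endomorphism of `S₂(Γ₀(p))` attached to a Hecke polynomial. -/
noncomputable def evEnd (p : ℕ) [NeZero p] (P : HeckeAlg) :
    Module.End ℂ (CuspForm (Gamma0 p) 2) :=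
  ((heckeEvalForms p 2 P : heckeAlgebra p 2 ∅) : Module.End ℂ (CuspForm (Gamma0 p) 2))

theorem evEnd_C (a : ℤ) (f : CuspForm (Gamma0 p) 2) : evEnd p (MvPolynomial.C a) f = (a : ℂ) • f := by
  unfold evEnd
  rw [heckeEvalForms_C]
  have : ((algebraMap ℤ (heckeAlgebra p 2 ∅) a : heckeAlgebra p 2 ∅) :
      Module.End ℂ (CuspForm (Gamma0 p) 2)) = algebraMap ℤ _ a := rfl
  rw [this, Algebra.algebraMap_eq_smul_one, LinearMap.smul_apply]
  exact (Int.cast_smul_eq_zsmul ℂ a f).symm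

theorem evEnd_add (P Q : HeckeAlg) (f : CuspForm (Gamma0 p) 2) :
    evEnd p (P + Q) f = evEnd p P f + evEnd p Q f := by
  unfold evEnd
  rw [map_add]
  rfl

theorem evEnd_mul_X (P : HeckeAlg) (ℓ : Nat.Primes) (f : CuspForm (Gamma0 p) 2) :
    evEnd p (P * MvPolynomial.X ℓ) f =
      ((heckeFormsGen p 2 ℓ : heckeAlgebra p 2 ∅) : Module.End ℂ (CuspForm (Gamma0 p) 2))
        (evEnd p P f) := by
  unfold evEnd
  have h : heckeEvalForms p 2 (P * MvPolynomial.X ℓ) =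
      heckeFormsGen p 2 ℓ * heckeEvalForms p 2 P := by
    rw [map_mul, mul_comm]
    congr 1
    exact heckeEvalForms_heckeGen p 2 ℓ
  rw [h]
  rfl

/-- The invariant of the induction. -/
def Good (p : ℕ) [NeZero p] {n : ℕ} (ψ : Additive (Gamma0 p) →+ ZMod n)
    (x : CuspForm (Gamma0 p) 2 × CuspForm (Gamma0 p) 2) (c : ZMod n) : Prop :=
  ∃ φ : Additive (Gamma0 p) →+ ℤ,
    periodHomPair p x = (Int.castAddHom ℂ).comp φ ∧ ∀ γ, ((φ γ : ℤ) : ZMod n) = c * ψ γ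

theorem good_of_poly
    (Tℤ : Nat.Primes → (Additive (Gamma0 p) →+ ℤ) → (Additive (Gamma0 p) →+ ℤ))
    (Tℂ : Nat.Primes → (Additive (Gamma0 p) →+ ℂ) → (Additive (Gamma0 p) →+ ℂ))
    (hℂ : ∀ ℓ (φ : Additive (Gamma0 p) →+ ℤ),
      Tℂ ℓ ((Int.castAddHom ℂ).comp φ) = (Int.castAddHom ℂ).comp (Tℤ ℓ φ))
    (hK : ∀ ℓ (f g : CuspForm (Gamma0 p) 2),
      periodHomPair p
          (((heckeFormsGen p 2 ℓ : heckeAlgebra p 2 ∅) : Module.End ℂ (CuspForm (Gamma0 p) 2)) f,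
           ((heckeFormsGen p 2 ℓ : heckeAlgebra p 2 ∅) : Module.End ℂ (CuspForm (Gamma0 p) 2)) g)
        = Tℂ ℓ (periodHomPair p (f, g)))
    (ψ : Additive (Gamma0 p) →+ ZMod n) (e : Nat.Primes → ℤ)
    (hψ : ∀ ℓ (φ : Additive (Gamma0 p) →+ ℤ) (c : ZMod n),
      (∀ γ, ((φ γ : ℤ) : ZMod n) = c * ψ γ) →
        ∀ γ, ((Tℤ ℓ φ γ : ℤ) : ZMod n) = c * (e ℓ : ZMod n) * ψ γ)
    (P : HeckeAlg) :
    ∀ (x : CuspForm (Gamma0 p) 2 × CuspForm (Gamma0 p) 2) (c : ZMod n), Good p ψ x c →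
      Good p ψ (evEnd p P x.1, evEnd p P x.2) (c * ((MvPolynomial.aeval e P : ℤ) : ZMod n)) := by
  induction P using MvPolynomial.induction_on with
  | C a =>
    rintro ⟨f, g⟩ c ⟨φ, hφ, hφn⟩
    refine ⟨a • φ, ?_, ?_⟩
    · rw [evEnd_C, evEnd_C]
      have h1 : ((a : ℂ) • f, (a : ℂ) • g) = (a : ℂ) • ((f, g) :
          CuspForm (Gamma0 p) 2 × CuspForm (Gamma0 p) 2) := rfl
      rw [h1, map_smul, hφ]
      refine AddMonoidHom.ext fun γ => ?_
      simp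
    · intro γ
      rw [MvPolynomial.aeval_C]
      simp only [AddMonoidHom.smul_apply, smul_eq_mul, Int.cast_mul, hφn γ]
      simp only [algebraMap_int_eq, eq_intCast, Int.cast_id]
      ring
  | add P Q hP hQ =>
    rintro ⟨f, g⟩ c hx
    obtain ⟨φ₁, h₁, h₁n⟩ := hP (f, g) c hx
    obtain ⟨φ₂, h₂, h₂n⟩ := hQ (f, g) c hx
    refine ⟨φ₁ + φ₂, ?_, ?_⟩
    · rw [evEnd_add, evEnd_add]
      have h1 : (evEnd p P f + evEnd p Q f, evEnd p P g + evEnd p Q g) =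
          ((evEnd p P f, evEnd p P g) + (evEnd p Q f, evEnd p Q g) :
            CuspForm (Gamma0 p) 2 × CuspForm (Gamma0 p) 2) := rfl
      rw [h1, map_add, h₁, h₂]
      refine AddMonoidHom.ext fun γ => ?_
      simp
    · intro γ
      rw [map_add]
      simp only [AddMonoidHom.add_apply, Int.cast_add, h₁n γ, h₂n γ]
      ring
  | mul_X P ℓ hP =>
    rintro ⟨f, g⟩ c hx
    obtain ⟨φ, h₁, h₁n⟩ := hP (f, g) c hx
    refine ⟨Tℤ ℓ φ, ?_, ?_⟩
    · rw [evEnd_mul_X, evEnd_mul_X, hK, h₁, hℂ]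
    · intro γ
      rw [map_mul, MvPolynomial.aeval_X, hψ ℓ φ _ h₁n γ]
      push_cast
      ring

/-- The core of the lower bound. -/
theorem dvd_aeval_of_kills
    (Tℤ : Nat.Primes → (Additive (Gamma0 p) →+ ℤ) → (Additive (Gamma0 p) →+ ℤ))
    (Tℂ : Nat.Primes → (Additive (Gamma0 p) →+ ℂ) → (Additive (Gamma0 p) →+ ℂ))
    (hℂ : ∀ ℓ (φ : Additive (Gamma0 p) →+ ℤ),
      Tℂ ℓ ((Int.castAddHom ℂ).comp φ) = (Int.castAddHom ℂ).comp (Tℤ ℓ φ))
    (hK : ∀ ℓ (f g : CuspForm (Gamma0 p) 2),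
      periodHomPair p
          (((heckeFormsGen p 2 ℓ : heckeAlgebra p 2 ∅) : Module.End ℂ (CuspForm (Gamma0 p) 2)) f,
           ((heckeFormsGen p 2 ℓ : heckeAlgebra p 2 ∅) : Module.End ℂ (CuspForm (Gamma0 p) 2)) g)
        = Tℂ ℓ (periodHomPair p (f, g)))
    (ψ : Additive (Gamma0 p) →+ ZMod n) (hψsurj : Function.Surjective ψ) (e : Nat.Primes → ℤ)
    (hψ : ∀ ℓ (φ : Additive (Gamma0 p) →+ ℤ) (c : ZMod n),
      (∀ γ, ((φ γ : ℤ) : ZMod n) = c * ψ γ) →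
        ∀ γ, ((Tℤ ℓ φ γ : ℤ) : ZMod n) = c * (e ℓ : ZMod n) * ψ γ)
    (φ₀ : Additive (Gamma0 p) →+ ℤ) (hlift : ∀ γ, ((φ₀ γ : ℤ) : ZMod n) = ψ γ)
    (x₀ : CuspForm (Gamma0 p) 2 × CuspForm (Gamma0 p) 2)
    (hx₀ : periodHomPair p x₀ = (Int.castAddHom ℂ).comp φ₀)
    (P : HeckeAlg) (hP : heckeEvalForms p 2 P = 0) :
    (n : ℤ) ∣ MvPolynomial.aeval e P := by
  have h0 : Good p ψ x₀ 1 := ⟨φ₀, hx₀, fun γ => by rw [hlift γ, one_mul]⟩
  obtain ⟨φ, hφ, hφn⟩ := good_of_poly Tℤ Tℂ hℂ hK ψ e hψ P x₀ 1 h0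
  have hev : evEnd p P = 0 := by
    unfold evEnd
    rw [hP]
    rfl
  rw [hev] at hφ
  have hφ0 : φ = 0 := by
    refine AddMonoidHom.ext fun γ => ?_
    have h1 : periodHomPair p ((0 : Module.End ℂ (CuspForm (Gamma0 p) 2)) x₀.1,
        (0 : Module.End ℂ (CuspForm (Gamma0 p) 2)) x₀.2) γ = 0 := by
      have : (((0 : Module.End ℂ (CuspForm (Gamma0 p) 2)) x₀.1,
          (0 : Module.End ℂ (CuspForm (Gamma0 p) 2)) x₀.2) :
          CuspForm (Gamma0 p) 2 × CuspForm (Gamma0 p) 2) = 0 := rfl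
      rw [this, map_zero]
      rfl
    rw [hφ] at h1
    have h2 : ((φ γ : ℤ) : ℂ) = 0 := h1
    exact_mod_cast h2
  obtain ⟨γ, hγ⟩ := hψsurj 1
  have h3 := hφn γ
  rw [hφ0, hγ, one_mul, mul_one] at h3
  have h4 : ((MvPolynomial.aeval e P : ℤ) : ZMod n) = 0 := by
    rw [← h3]
    simp
  exact (ZMod.intCast_zmod_eq_zero_iff_dvd _ n).mp h4

end Fermat.Agent.S16.LCore
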