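/-
S16 block [L1-psi]: the Shimura character `psi p : Additive Γ₀(p) →+ ZMod n`,
`n = eisensteinNumerator p = (p - 1) / gcd (p - 1, 12)`.

`psi p` is `lam ∘ (lower right entry mod p)`, with `lam : (ZMod p)ˣ →* ZMod n` surjective.
It kills every element of trace `t` with `t ^ 2 ≤ 4` (parabolic and elliptic elements, `±1`),
it is surjective, and it is an eigenvector of the double coset operators:
`∑ x, psi (γ' x) = (1 + q) • psi γ` for `T_q` (`q ≠ p`), `∑ x, psi (γ' x) = psi γ` for `U_p`.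
-/
import Mathlib
import Fermat.Prelude.Def_ModularCurve_PeriodMap
import Fermat.Prelude.Def_ModularCurve_ModularUnit
import Fermat.Prelude.Sol.S_ModularForm_heckeT_slash_eq_self_of_mem_Gamma0

set_option autoImplicit false

open scoped MatrixGroups
open CongruenceSubgroup ModularCurve

namespace Fermat.Agent.S16.Psi

/-! ### Arithmetic of `ZMod` -/

theorem cast_eq_zero_of_twelve_nsmul {m : ℕ} (hm : 0 < m) (x : ZMod m) (hx : 12 • x = 0)
    (h : m / Nat.gcd m 12 ∣ m) :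
    ZMod.castHom h (ZMod (m / Nat.gcd m 12)) x = 0 := by
  have : NeZero m := ⟨hm.ne'⟩
  have hx' : ((12 * x.val : ℕ) : ZMod m) = 0 := by
    rw [Nat.cast_mul, ZMod.natCast_zmod_val]
    simpa [nsmul_eq_mul] using hx
  have hdvd : m ∣ 12 * x.val := (ZMod.natCast_eq_zero_iff _ _).mp hx'
  set r := Nat.gcd m 12 with hr
  have hr0 : 0 < r := Nat.gcd_pos_of_pos_left _ hm
  obtain ⟨s, hs⟩ : r ∣ 12 := Nat.gcd_dvd_right m 12
  have hm' : m = m / r * r := (Nat.div_mul_cancel (Nat.gcd_dvd_left m 12)).symm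
  have hcop : Nat.Coprime (m / r) s := by
    have h1 := Nat.coprime_div_gcd_div_gcd (m := m) (n := 12) hr0
    have h2 : 12 / r = s := by
      rw [hs]; exact Nat.mul_div_cancel_left s hr0
    rwa [← hr, h2] at h1
  have h3 : m / r * r ∣ r * (s * x.val) := by
    rw [← hm', ← mul_assoc, ← hs]; exact hdvd
  have h4 : m / r ∣ s * x.val := by
    rw [mul_comm (m / r) r] at h3
    exact Nat.dvd_of_mul_dvd_mul_left hr0 h3
  have h5 : m / r ∣ x.val := hcop.dvd_of_dvd_mul_left h4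
  have hx2 : x = ((x.val : ℕ) : ZMod m) := (ZMod.natCast_zmod_val x).symm
  rw [hx2, map_natCast]
  exact (ZMod.natCast_eq_zero_iff _ _).mpr h5

variable (p : ℕ) [Fact p.Prime]

theorem card_units_zmod : Nat.card (ZMod p)ˣ = p - 1 := by
  rw [Nat.card_eq_fintype_card, ZMod.card_units]

theorem eisensteinNumerator_eq :
    eisensteinNumerator p = Nat.card (ZMod p)ˣ / Nat.gcd (Nat.card (ZMod p)ˣ) 12 := by
  rw [card_units_zmod]; rfl

theorem eisensteinNumerator_dvd_card : eisensteinNumerator p ∣ Nat.card (ZMod p)ˣ := by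
  rw [card_units_zmod]; exact eisensteinNumerator_dvd p

theorem natCast_self_eq_one : ((p : ℕ) : ZMod (eisensteinNumerator p)) = 1 := by
  have hp : 1 ≤ p := (Fact.out : p.Prime).one_lt.le
  have h : ((p - 1 : ℕ) : ZMod (eisensteinNumerator p)) = 0 :=
    (ZMod.natCast_eq_zero_iff _ _).mpr (eisensteinNumerator_dvd p)
  rw [Nat.cast_sub hp, Nat.cast_one, sub_eq_zero] at h
  exact h

/-! ### The character `lam` of `(ZMod p)ˣ` -/

/-- The surjection `(ZMod p)ˣ → ZMod n` (discrete logarithm reduced mod `n`). -/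
noncomputable def lam : (ZMod p)ˣ →* Multiplicative (ZMod (eisensteinNumerator p)) :=
  (AddMonoidHom.toMultiplicative
      (ZMod.castHom (eisensteinNumerator_dvd_card p)
        (ZMod (eisensteinNumerator p))).toAddMonoidHom).comp
    (zmodCyclicMulEquiv (inferInstance : IsCyclic (ZMod p)ˣ)).symm.toMonoidHom

theorem lam_surjective : Function.Surjective (lam p) := by
  intro y
  obtain ⟨x, hx⟩ := ZMod.castHom_surjective (eisensteinNumerator_dvd_card p) y.toAdd
  refine ⟨zmodCyclicMulEquiv (inferInstance : IsCyclic (ZMod p)ˣ) (Multiplicative.ofAdd x), ?_⟩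
  simp only [lam, MonoidHom.coe_comp, Function.comp_apply, MulEquiv.coe_toMonoidHom,
    MulEquiv.symm_apply_apply]
  exact congrArg Multiplicative.ofAdd hx

theorem lam_eq_one_of_pow_twelve (u : (ZMod p)ˣ) (hu : u ^ 12 = 1) : lam p u = 1 := by
  set e := (zmodCyclicMulEquiv (inferInstance : IsCyclic (ZMod p)ˣ)).symm with he
  have h1 : (e u) ^ 12 = 1 := by rw [← map_pow, hu, map_one]
  have h2 : 12 • (e u).toAdd = 0 := congrArg Multiplicative.toAdd h1
  have hm : 0 < Nat.card (ZMod p)ˣ := Nat.card_pos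
  have hdvd : Nat.card (ZMod p)ˣ / Nat.gcd (Nat.card (ZMod p)ˣ) 12 ∣ Nat.card (ZMod p)ˣ :=
    Nat.div_dvd_of_dvd (Nat.gcd_dvd_left _ _)
  have h3 := cast_eq_zero_of_twelve_nsmul hm (e u).toAdd h2 hdvd
  have key : ∀ (n : ℕ) (hn : n = Nat.card (ZMod p)ˣ / Nat.gcd (Nat.card (ZMod p)ˣ) 12)
      (h : n ∣ Nat.card (ZMod p)ˣ), ZMod.castHom h (ZMod n) (e u).toAdd = 0 := by
    intro n hn h
    subst hn
    exact h3
  have h4 := key (eisensteinNumerator p) (eisensteinNumerator_eq p)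
    (eisensteinNumerator_dvd_card p)
  change Multiplicative.ofAdd ((ZMod.castHom (eisensteinNumerator_dvd_card p)
    (ZMod (eisensteinNumerator p))) (e u).toAdd) = 1
  rw [h4]; rfl

/-! ### The lower right entry -/

/-- The lower right entry mod `p`, as a unit. -/
noncomputable def lr : Gamma0 p →* (ZMod p)ˣ := (Gamma0Map p).toHomUnits

theorem coe_lr (γ : Gamma0 p) :
    ((lr p γ : (ZMod p)ˣ) : ZMod p) = (((γ : SL(2, ℤ)) 1 1 : ℤ) : ZMod p) := rfl

theorem lr_mk (γ : SL(2, ℤ)) (hγ : γ ∈ Gamma0 p) :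
    ((lr p ⟨γ, hγ⟩ : (ZMod p)ˣ) : ZMod p) = ((γ 1 1 : ℤ) : ZMod p) := rfl

theorem diag_mul_eq_one (γ : SL(2, ℤ)) (hγ : γ ∈ Gamma0 p) :
    ((γ 0 0 : ℤ) : ZMod p) * ((γ 1 1 : ℤ) : ZMod p) = 1 := by
  have h0 : ((γ 1 0 : ℤ) : ZMod p) = 0 := Gamma0_mem.mp hγ
  have := congrArg (Int.cast : ℤ → ZMod p) (Matrix.SpecialLinearGroup.det_coe γ)
  rw [Matrix.det_fin_two] at this
  push_cast at this
  linear_combination this + ((γ 0 1 : ℤ) : ZMod p) * h0

theorem lr_surjective : Function.Surjective (lr p) := by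
  intro u
  have hp : (p : ℤ) ≠ 0 := by exact_mod_cast (Fact.out : p.Prime).ne_zero
  set d : ℤ := ((u : ZMod p).val : ℤ) with hd
  set a : ℤ := (((u⁻¹ : (ZMod p)ˣ) : ZMod p).val : ℤ) with ha
  have hd' : ((d : ℤ) : ZMod p) = (u : ZMod p) := by
    rw [hd, Int.cast_natCast, ZMod.natCast_zmod_val]
  have ha' : ((a : ℤ) : ZMod p) = ((u⁻¹ : (ZMod p)ˣ) : ZMod p) := by
    rw [ha, Int.cast_natCast, ZMod.natCast_zmod_val]
  have h1 : (((a * d - 1 : ℤ)) : ZMod p) = 0 := by
    push_cast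
    rw [ha', hd', Units.inv_mul, sub_self]
  obtain ⟨k, hk⟩ := (ZMod.intCast_zmod_eq_zero_iff_dvd _ _).mp h1
  let g : SL(2, ℤ) := ⟨!![a, k; (p : ℤ), d], by
    rw [Matrix.det_fin_two_of]; linarith⟩
  have hg : g ∈ Gamma0 p := by
    rw [Gamma0_mem]
    change (((p : ℤ)) : ZMod p) = 0
    simp
  refine ⟨⟨g, hg⟩, Units.ext ?_⟩
  rw [lr_mk]
  exact hd'

theorem lr_pow_twelve (γ : SL(2, ℤ)) (hγ : γ ∈ Gamma0 p)
    (ht : (γ : Matrix (Fin 2) (Fin 2) ℤ).trace ^ 2 ≤ 4) : (lr p ⟨γ, hγ⟩) ^ 12 = 1 := by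
  apply Units.ext
  rw [Units.val_pow_eq_pow_val, lr_mk, Units.val_one]
  have had := diag_mul_eq_one p γ hγ
  rw [Matrix.trace_fin_two] at ht
  set a : ZMod p := ((γ 0 0 : ℤ) : ZMod p) with ha
  set d : ZMod p := ((γ 1 1 : ℤ) : ZMod p) with hd
  have hbound : -2 ≤ γ 0 0 + γ 1 1 ∧ γ 0 0 + γ 1 1 ≤ 2 := by
    constructor <;> nlinarith
  obtain ⟨t, ht'⟩ : ∃ t : ℤ, γ 0 0 + γ 1 1 = t := ⟨_, rfl⟩
  have hsum : a + d = (t : ZMod p) := by
    rw [ha, hd, ← Int.cast_add, ht']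
  rw [ht'] at hbound
  obtain ⟨hlo, hhi⟩ := hbound
  interval_cases t
  · -- t = -2
    have h1 : (d + 1) ^ 2 = 0 := by
      push_cast at hsum
      linear_combination (-1 : ZMod p) * had + d * hsum
    have h2 : d = -1 := by
      have := pow_eq_zero_iff (two_ne_zero) |>.mp h1
      linear_combination this
    rw [h2]; ring
  · -- t = -1
    have h1 : d ^ 2 + d + 1 = 0 := by
      push_cast at hsum
      linear_combination (-1 : ZMod p) * had + d * hsum
    linear_combination (d ^ 6 + 1) * (d ^ 4 - d ^ 3 + d - 1) * h1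
  · -- t = 0
    have h1 : d ^ 2 + 1 = 0 := by
      push_cast at hsum
      linear_combination (-1 : ZMod p) * had + d * hsum
    linear_combination (d ^ 10 - d ^ 8 + d ^ 6 - d ^ 4 + d ^ 2 - 1) * h1
  · -- t = 1
    have h1 : d ^ 2 - d + 1 = 0 := by
      push_cast at hsum
      linear_combination (-1 : ZMod p) * had + d * hsum
    linear_combination (d ^ 6 + 1) * (d ^ 4 + d ^ 3 - d - 1) * h1
  · -- t = 2
    have h1 : (d - 1) ^ 2 = 0 := by
      push_cast at hsum
      linear_combination (-1 : ZMod p) * had + d * hsum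
    have h2 : d = 1 := by
      have := pow_eq_zero_iff (two_ne_zero) |>.mp h1
      linear_combination this
    rw [h2]; ring

/-! ### The character `psi` -/

/-- The Shimura character `Γ₀(p) → ZMod n`. -/
noncomputable def psi : Additive (Gamma0 p) →+ ZMod (eisensteinNumerator p) :=
  MonoidHom.toAdditiveLeft ((lam p).comp (lr p))

theorem psi_apply (γ : Gamma0 p) :
    psi p (Additive.ofMul γ) = (lam p (lr p γ)).toAdd := rfl

theorem psi_surjective : Function.Surjective (psi p) := by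
  intro y
  obtain ⟨u, hu⟩ := lam_surjective p (Multiplicative.ofAdd y)
  obtain ⟨γ, hγ⟩ := lr_surjective p u
  refine ⟨Additive.ofMul γ, ?_⟩
  rw [psi_apply, hγ, hu]; rfl

theorem exists_psi_eq_one : ∃ γ : Gamma0 p, psi p (Additive.ofMul γ) = 1 := by
  obtain ⟨x, hx⟩ := psi_surjective p 1
  exact ⟨Additive.toMul x, hx⟩

/-- `psi` kills every element whose trace `t` satisfies `t ^ 2 ≤ 4` (parabolic elements, elliptic
elements, `±1`). -/
theorem psi_eq_zero_of_trace_sq_le (γ : Gamma0 p)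
    (ht : ((γ : SL(2, ℤ)) : Matrix (Fin 2) (Fin 2) ℤ).trace ^ 2 ≤ 4) :
    psi p (Additive.ofMul γ) = 0 := by
  obtain ⟨g, hg⟩ := γ
  rw [psi_apply, lam_eq_one_of_pow_twelve p _ (lr_pow_twelve p g hg ht)]; rfl

theorem psi_isParabolicHom : ModularCurve.Period.IsParabolicHom (Gamma0 p) (psi p) := by
  intro γ hγ
  exact psi_eq_zero_of_trace_sq_le p γ hγ.le

theorem psi_mem_parabolicHoms :
    psi p ∈ ModularCurve.Period.parabolicHoms ℤ (Gamma0 p) (ZMod (eisensteinNumerator p)) :=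
  psi_isParabolicHom p

/-- `psi` only depends on the lower right entry mod `p`. -/
theorem psi_eq_of_lr_eq {γ γ' : Gamma0 p} (h : lr p γ = lr p γ') :
    psi p (Additive.ofMul γ) = psi p (Additive.ofMul γ') := by
  rw [psi_apply, psi_apply, h]

theorem psi_eq_of_entry_eq {γ γ' : Gamma0 p}
    (h : ((((γ : SL(2, ℤ)) 1 1 : ℤ)) : ZMod p) = ((((γ' : SL(2, ℤ)) 1 1 : ℤ)) : ZMod p)) :
    psi p (Additive.ofMul γ) = psi p (Additive.ofMul γ') :=
  psi_eq_of_lr_eq p (Units.ext h)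

/-! ### Double coset operators -/

section Hecke

open P2MW.S_ModularForm_heckeT_slash_eq_self_of_mem_Gamma0.ModularForm.HeckeSlashInvariance
open Matrix.SpecialLinearGroup (mapGL)

/-- Core computation: if `A γ = γ' A'` with `A, A'` upper triangular integral and `γ, γ' ∈ Γ₀(p)`,
then the diagonal entries multiply mod `p`. -/
theorem entries_of_mul_eq (γ g' : SL(2, ℤ)) (hγ : γ ∈ Gamma0 p) (hg' : g' ∈ Gamma0 p)
    (A A' : GL (Fin 2) ℝ) (a b d a' b' d' : ℤ)
    (hA : (A : Matrix (Fin 2) (Fin 2) ℝ) = !![(a : ℝ), (b : ℝ); 0, (d : ℝ)])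
    (hA' : (A' : Matrix (Fin 2) (Fin 2) ℝ) = !![(a' : ℝ), (b' : ℝ); 0, (d' : ℝ)])
    (h : A * mapGL ℝ γ = mapGL ℝ g' * A') :
    ((d : ℤ) : ZMod p) * ((γ 1 1 : ℤ) : ZMod p) = ((g' 1 1 : ℤ) : ZMod p) * ((d' : ℤ) : ZMod p) ∧
    ((a : ℤ) : ZMod p) * ((γ 0 0 : ℤ) : ZMod p) = ((g' 0 0 : ℤ) : ZMod p) * ((a' : ℤ) : ZMod p) := by
  have h0 : ((γ 1 0 : ℤ) : ZMod p) = 0 := Gamma0_mem.mp hγ
  have h0' : ((g' 1 0 : ℤ) : ZMod p) = 0 := Gamma0_mem.mp hg'
  have hM : (A : Matrix (Fin 2) (Fin 2) ℝ) * ((mapGL ℝ γ : GL (Fin 2) ℝ) : Matrix (Fin 2) (Fin 2) ℝ)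
      = ((mapGL ℝ g' : GL (Fin 2) ℝ) : Matrix (Fin 2) (Fin 2) ℝ) * (A' : Matrix (Fin 2) (Fin 2) ℝ) := by
    have := congrArg (fun M : GL (Fin 2) ℝ => (M : Matrix (Fin 2) (Fin 2) ℝ)) h
    simpa only [Matrix.GeneralLinearGroup.coe_mul] using this
  rw [hA, hA', Matrix.SpecialLinearGroup.mapGL_coe_matrix,
    Matrix.SpecialLinearGroup.mapGL_coe_matrix] at hM
  have e11 := congrFun (congrFun hM 1) 1
  have e00 := congrFun (congrFun hM 0) 0
  simp only [Matrix.mul_apply, Fin.sum_univ_two, Matrix.of_apply, Matrix.cons_val_zero,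
    Matrix.cons_val_one, Matrix.cons_val', Matrix.empty_val', Matrix.cons_val_fin_one,
    RingHom.mapMatrix_apply, Matrix.map_apply, algebraMap_int_eq, Int.coe_castRingHom,
    Matrix.SpecialLinearGroup.map_apply_coe] at e11 e00
  have e11' : d * γ 1 1 = g' 1 0 * b' + g' 1 1 * d' := by
    have : ((d * γ 1 1 : ℤ) : ℝ) = ((g' 1 0 * b' + g' 1 1 * d' : ℤ) : ℝ) := by
      push_cast; linarith
    exact_mod_cast this
  have e00' : a * γ 0 0 + b * γ 1 0 = g' 0 0 * a' := by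
    have : ((a * γ 0 0 + b * γ 1 0 : ℤ) : ℝ) = ((g' 0 0 * a' : ℤ) : ℝ) := by
      push_cast; linarith
    exact_mod_cast this
  constructor
  · have := congrArg (Int.cast : ℤ → ZMod p) e11'
    push_cast at this
    rw [this, h0', zero_mul, zero_add]
  · have := congrArg (Int.cast : ℤ → ZMod p) e00'
    push_cast at this
    rw [← this, h0, mul_zero, add_zero]

/-- `U_p`: if `[1, j; 0, p] γ = γ' [1, j'; 0, p]` then `psi γ' = psi γ`. -/
theorem psi_heckeU_apply (γ g' : SL(2, ℤ)) (hγ : γ ∈ Gamma0 p) (hg' : g' ∈ Gamma0 p) (j j' : ℕ)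
    (h : ModularForm.heckeMatrix p j * mapGL ℝ γ = mapGL ℝ g' * ModularForm.heckeMatrix p j') :
    psi p (Additive.ofMul ⟨g', hg'⟩) = psi p (Additive.ofMul ⟨γ, hγ⟩) := by
  have hp : p ≠ 0 := (Fact.out : p.Prime).ne_zero
  have key := (entries_of_mul_eq p γ g' hγ hg' _ _ 1 j p 1 j' p
    (by rw [ModularForm.val_heckeMatrix hp]; simp)
    (by rw [ModularForm.val_heckeMatrix hp]; simp) h).2
  simp only [Int.cast_one, one_mul, mul_one] at key
  apply psi_eq_of_entry_eq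
  change ((g' 1 1 : ℤ) : ZMod p) = ((γ 1 1 : ℤ) : ZMod p)
  have h1 := diag_mul_eq_one p γ hγ
  have h2 := diag_mul_eq_one p g' hg'
  linear_combination (-((g' 1 1 : ℤ) : ZMod p)) * h1 + ((γ 1 1 : ℤ) : ZMod p) * h2
    + ((g' 1 1 : ℤ) : ZMod p) * ((γ 1 1 : ℤ) : ZMod p) * key

/-- `U_p ψ = ψ`: for any coset data of `U_p` at `γ`, the sum of `psi` over the `p` transported
elements is `psi γ`. -/
theorem psi_sum_heckeU (γ : SL(2, ℤ)) (hγ : γ ∈ Gamma0 p) (g' : ZMod p → SL(2, ℤ))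
    (hg' : ∀ x, g' x ∈ Gamma0 p) (σ : ZMod p → ZMod p)
    (h : ∀ x : ZMod p, ModularForm.heckeMatrix p x.val * mapGL ℝ γ =
      mapGL ℝ (g' x) * ModularForm.heckeMatrix p (σ x).val) :
    ∑ x : ZMod p, psi p (Additive.ofMul ⟨g' x, hg' x⟩) = psi p (Additive.ofMul ⟨γ, hγ⟩) := by
  have : NeZero p := ⟨(Fact.out : p.Prime).ne_zero⟩
  rw [Finset.sum_congr rfl fun x _ => psi_heckeU_apply p γ (g' x) hγ (hg' x) _ _ (h x)]
  rw [Finset.sum_const, Finset.card_univ, ZMod.card, nsmul_eq_mul, natCast_self_eq_one, one_mul]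

variable (q : ℕ) [Fact q.Prime]

/-- The weight attached to a coset representative of `T_q`: `0` for `[q, 0; 0, 1]` and
`lam q` for `[1, j; 0, q]`. -/
noncomputable def heckeWeight (hqp : q ≠ p) : OnePoint (ZMod q) → ZMod (eisensteinNumerator p) :=
  fun x => x.elim 0 (fun _ => (lam p (ZMod.unitOfCoprime q
    ((Nat.coprime_primes (Fact.out : q.Prime) (Fact.out : p.Prime)).mpr hqp))).toAdd)

/-- `T_q` pointwise: if `α_x γ = γ' α_y` then `psi γ' + w y = psi γ + w x`. -/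
theorem psi_heckeT_apply (hqp : q ≠ p) (γ g' : SL(2, ℤ)) (hγ : γ ∈ Gamma0 p) (hg' : g' ∈ Gamma0 p)
    (x y : OnePoint (ZMod q))
    (h : heckeRep q x * mapGL ℝ γ = mapGL ℝ g' * heckeRep q y) :
    psi p (Additive.ofMul ⟨g', hg'⟩) + heckeWeight p q hqp y =
      psi p (Additive.ofMul ⟨γ, hγ⟩) + heckeWeight p q hqp x := by
  have hq : q ≠ 0 := (Fact.out : q.Prime).ne_zero
  have hcop : Nat.Coprime q p := (Nat.coprime_primes (Fact.out : q.Prime) (Fact.out : p.Prime)).mpr hqp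
  set uq : (ZMod p)ˣ := ZMod.unitOfCoprime q hcop with huq
  have huq' : ((uq : (ZMod p)ˣ) : ZMod p) = ((q : ℤ) : ZMod p) := by
    rw [huq, ZMod.coe_unitOfCoprime]; simp
  -- the unit attached to a representative
  have key : ∀ (dx dy : (ZMod p)ˣ) (d d' : ℤ), ((dx : (ZMod p)ˣ) : ZMod p) = ((d : ℤ) : ZMod p) →
      ((dy : (ZMod p)ˣ) : ZMod p) = ((d' : ℤ) : ZMod p) →
      ((d : ℤ) : ZMod p) * ((γ 1 1 : ℤ) : ZMod p) = ((g' 1 1 : ℤ) : ZMod p) * ((d' : ℤ) : ZMod p) →
      psi p (Additive.ofMul ⟨g', hg'⟩) + (lam p dy).toAdd =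
        psi p (Additive.ofMul ⟨γ, hγ⟩) + (lam p dx).toAdd := by
    intro dx dy d d' hdx hdy hrel
    have hu : lr p ⟨g', hg'⟩ * dy = lr p ⟨γ, hγ⟩ * dx := by
      apply Units.ext
      rw [Units.val_mul, Units.val_mul, lr_mk, lr_mk, hdx, hdy, ← hrel, mul_comm]
    have := congrArg (fun u => (lam p u).toAdd) hu
    simpa only [map_mul, toAdd_mul, psi_apply] using this
  induction x using OnePoint.rec with
  | infty =>
    induction y using OnePoint.rec with
    | infty =>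
      have e := (entries_of_mul_eq p γ g' hγ hg' _ _ q 0 1 q 0 1
        (by rw [heckeRep_infty, ModularForm.val_heckeDiagMatrix hq]; simp)
        (by rw [heckeRep_infty, ModularForm.val_heckeDiagMatrix hq]; simp) h).1
      have := key 1 1 1 1 (by simp) (by simp) e
      simpa [heckeWeight] using this
    | coe j' =>
      have e := (entries_of_mul_eq p γ g' hγ hg' _ _ q 0 1 1 j'.val q
        (by rw [heckeRep_infty, ModularForm.val_heckeDiagMatrix hq]; simp)
        (by rw [heckeRep_coe, ModularForm.val_heckeMatrix hq]; simp) h).1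
      have := key 1 uq 1 q (by simp) huq' e
      simpa [heckeWeight] using this
  | coe j =>
    induction y using OnePoint.rec with
    | infty =>
      have e := (entries_of_mul_eq p γ g' hγ hg' _ _ 1 j.val q q 0 1
        (by rw [heckeRep_coe, ModularForm.val_heckeMatrix hq]; simp)
        (by rw [heckeRep_infty, ModularForm.val_heckeDiagMatrix hq]; simp) h).1
      have := key uq 1 q 1 huq' (by simp) e
      simpa [heckeWeight] using this
    | coe j' =>
      have e := (entries_of_mul_eq p γ g' hγ hg' _ _ 1 j.val q 1 j'.val q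
        (by rw [heckeRep_coe, ModularForm.val_heckeMatrix hq]; simp)
        (by rw [heckeRep_coe, ModularForm.val_heckeMatrix hq]; simp) h).1
      have := key uq uq q q huq' huq' e
      simpa [heckeWeight] using this

/-- `T_q ψ = (1 + q) ψ`: for any coset data of `T_q` at `γ` (with `σ` the induced permutation of
the representatives), the sum of `psi` over the `q + 1` transported elements is
`(q + 1) • psi γ`. -/
theorem psi_sum_heckeT (hqp : q ≠ p) (γ : SL(2, ℤ)) (hγ : γ ∈ Gamma0 p)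
    (g' : OnePoint (ZMod q) → SL(2, ℤ)) (hg' : ∀ x, g' x ∈ Gamma0 p)
    (σ : Equiv.Perm (OnePoint (ZMod q)))
    (h : ∀ x, heckeRep q x * mapGL ℝ γ = mapGL ℝ (g' x) * heckeRep q (σ x)) :
    ∑ x : OnePoint (ZMod q), psi p (Additive.ofMul ⟨g' x, hg' x⟩) =
      ((q + 1 : ℕ) : ZMod (eisensteinNumerator p)) * psi p (Additive.ofMul ⟨γ, hγ⟩) := by
  have : NeZero q := ⟨(Fact.out : q.Prime).ne_zero⟩
  have h1 : ∀ x, psi p (Additive.ofMul ⟨g' x, hg' x⟩) =
      psi p (Additive.ofMul ⟨γ, hγ⟩) + heckeWeight p q hqp x - heckeWeight p q hqp (σ x) := by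
    intro x
    have := psi_heckeT_apply p q hqp γ (g' x) hγ (hg' x) x (σ x) (h x)
    linear_combination this
  rw [Finset.sum_congr rfl fun x _ => h1 x, Finset.sum_sub_distrib, Finset.sum_add_distrib,
    Equiv.sum_comp σ (heckeWeight p q hqp), add_sub_cancel_right, Finset.sum_const,
    Finset.card_univ, nsmul_eq_mul]
  congr 2
  change Fintype.card (Option (ZMod q)) = q + 1
  rw [Fintype.card_option, ZMod.card]

end Hecke

end Fermat.Agent.S16.Psi
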