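/-
S16 (L), block [Lψ] (helper31): the Shimura character with the pinned interface of the (L) table.

Thin wrapper around `Fermat.Agent.S16.Psi` (the character `λ ∘ (lower right entry mod p)`, which is
the negative of `λ ∘ (upper left entry mod p)`; all statements below are linear in `psi`),
stated against `LDefs.IsCircHom` and the coset data `tData`, `uData` of `HeckeHom`.
-/
import Fermat.Agent.S16.Psi
import Fermat.Agent.S16.LDefs
import Fermat.Agent.S16.HeckeHom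

set_option autoImplicit false

open scoped MatrixGroups
open CongruenceSubgroup ModularCurve ModularCurve.Period
open Matrix.SpecialLinearGroup (mapGL)
open P2MW.S_ModularForm_heckeT_slash_eq_self_of_mem_Gamma0.ModularForm.HeckeSlashInvariance

namespace Fermat.Agent.S16.LPsiA

instance neZero_eisensteinNumerator (p : ℕ) [Fact p.Prime] : NeZero (eisensteinNumerator p) := by
  refine ⟨?_⟩
  have hp : 0 < p - 1 := Nat.sub_pos_of_lt (Fact.out : p.Prime).one_lt
  have hg : 0 < Nat.gcd (p - 1) 12 := Nat.gcd_pos_of_pos_left _ hp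
  exact (Nat.div_pos (Nat.le_of_dvd hp (Nat.gcd_dvd_left _ _)) hg).ne'

/-- The Shimura character `Γ₀(p) → ZMod n`, `n = eisensteinNumerator p`. -/
noncomputable def psi (p : ℕ) [Fact p.Prime] :
    Additive (Gamma0 p) →+ ZMod (eisensteinNumerator p) :=
  Psi.psi p

theorem psi_eq (p : ℕ) [Fact p.Prime] : psi p = Psi.psi p := rfl

theorem psi_isCircHom (p : ℕ) [Fact p.Prime] : IsCircHom (Gamma0 p) (psi p) := by
  rintro γ (hγ | hγ)
  · exact Psi.psi_eq_zero_of_trace_sq_le p γ hγ.le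
  · change Psi.psi p (Additive.ofMul γ) = 0
    rw [Psi.psi_apply, Psi.lam_eq_one_of_pow_twelve p _ (by rw [← map_pow, hγ, map_one])]
    rfl

theorem psi_surjective (p : ℕ) [Fact p.Prime] : Function.Surjective (psi p) :=
  Psi.psi_surjective p

theorem psi_ord (p : ℕ) [Fact p.Prime] (c : ℤ)
    (h : ∀ γ, (c : ZMod (eisensteinNumerator p)) * psi p γ = 0) :
    ((eisensteinNumerator p : ℕ) : ℤ) ∣ c := by
  obtain ⟨γ, hγ⟩ := psi_surjective p 1
  have := h γ
  rw [hγ, mul_one] at this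
  exact (ZMod.intCast_zmod_eq_zero_iff_dvd c _).mp this

/-- General transfer relation: for a finite family `α` of integral upper triangular matrices
whose upper left entries are prime to `p`, and any `γ' i ∈ Γ₀(p)`, `σ` with
`α i * γ = γ' i * α (σ i)`: `∑ i, psi (γ' i) = card ι • psi γ`. -/
theorem psi_transfer (p : ℕ) [Fact p.Prime] {ι : Type*} [Fintype ι] (α : ι → GL (Fin 2) ℝ)
    (hα : ∀ i a b, ∃ m : ℤ, (α i) a b = (m : ℝ)) (hα0 : ∀ i, (α i) 1 0 = 0)
    (hαp : ∀ i, ∀ m : ℤ, (α i) 0 0 = (m : ℝ) → ¬ (p : ℤ) ∣ m)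
    (γ : Gamma0 p) (γ' : ι → Gamma0 p) (σ : Equiv.Perm ι)
    (h : ∀ i, α i * mapGL ℝ (γ : SL(2, ℤ)) = mapGL ℝ (γ' i : SL(2, ℤ)) * α (σ i)) :
    ∑ i, psi p (Additive.ofMul (γ' i)) = Fintype.card ι • psi p (Additive.ofMul γ) := by
  choose a ha using fun i => hα i 0 0
  choose b hb using fun i => hα i 0 1
  choose d hd using fun i => hα i 1 1
  have hA : ∀ i, ((α i : GL (Fin 2) ℝ) : Matrix (Fin 2) (Fin 2) ℝ) =
      !![(a i : ℝ), (b i : ℝ); 0, (d i : ℝ)] := by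
    intro i
    ext r c
    fin_cases r <;> fin_cases c
    · simpa using ha i
    · simpa using hb i
    · simpa using hα0 i
    · simpa using hd i
  have hne : ∀ i, ((a i : ℤ) : ZMod p) ≠ 0 := fun i hi =>
    hαp i (a i) (ha i) ((ZMod.intCast_zmod_eq_zero_iff_dvd _ _).mp hi)
  let u : ι → (ZMod p)ˣ := fun i => Units.mk0 _ (hne i)
  let w : ι → ZMod (eisensteinNumerator p) := fun i => (Psi.lam p (u i)).toAdd
  have key : ∀ i, psi p (Additive.ofMul (γ' i)) + w i = psi p (Additive.ofMul γ) + w (σ i) := by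
    intro i
    have e := (Psi.entries_of_mul_eq p (γ : SL(2, ℤ)) (γ' i : SL(2, ℤ)) γ.2 (γ' i).2 (α i)
      (α (σ i)) (a i) (b i) (d i) (a (σ i)) (b (σ i)) (d (σ i)) (hA i) (hA (σ i)) (h i)).2
    have h1 := Psi.diag_mul_eq_one p (γ : SL(2, ℤ)) γ.2
    have h2 := Psi.diag_mul_eq_one p (γ' i : SL(2, ℤ)) (γ' i).2
    have hu : Psi.lr p (γ' i) * u i = Psi.lr p γ * u (σ i) := by
      apply Units.ext
      rw [Units.val_mul, Units.val_mul, Psi.coe_lr, Psi.coe_lr]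
      change ((((γ' i : SL(2, ℤ)) 1 1 : ℤ)) : ZMod p) * ((a i : ℤ) : ZMod p) =
        ((((γ : SL(2, ℤ)) 1 1 : ℤ)) : ZMod p) * ((a (σ i) : ℤ) : ZMod p)
      linear_combination
        ((((γ : SL(2, ℤ)) 1 1 : ℤ)) : ZMod p) * ((((γ' i : SL(2, ℤ)) 1 1 : ℤ)) : ZMod p) * e
        - ((((γ' i : SL(2, ℤ)) 1 1 : ℤ)) : ZMod p) * ((a i : ℤ) : ZMod p) * h1
        + ((((γ : SL(2, ℤ)) 1 1 : ℤ)) : ZMod p) * ((a (σ i) : ℤ) : ZMod p) * h2
    have := congrArg (fun v => (Psi.lam p v).toAdd) hu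
    change Psi.psi p (Additive.ofMul (γ' i)) + (Psi.lam p (u i)).toAdd =
      Psi.psi p (Additive.ofMul γ) + (Psi.lam p (u (σ i))).toAdd
    simpa only [map_mul, toAdd_mul, Psi.psi_apply] using this
  have h1 : ∀ i, psi p (Additive.ofMul (γ' i)) = psi p (Additive.ofMul γ) + w (σ i) - w i := by
    intro i
    linear_combination key i
  rw [Finset.sum_congr rfl fun i _ => h1 i, Finset.sum_sub_distrib, Finset.sum_add_distrib,
    Equiv.sum_comp σ w, add_sub_cancel_right, Finset.sum_const, Finset.card_univ]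

/-- `T_ℓ`, spec form. -/
theorem psi_heckeT (p : ℕ) [Fact p.Prime] {ℓ : ℕ} [Fact ℓ.Prime] (hℓ : ℓ ≠ p) (γ : Gamma0 p)
    (γ' : OnePoint (ZMod ℓ) → Gamma0 p) (σ : Equiv.Perm (OnePoint (ZMod ℓ)))
    (h : ∀ x, heckeRep ℓ x * mapGL ℝ (γ : SL(2, ℤ)) = mapGL ℝ (γ' x : SL(2, ℤ)) * heckeRep ℓ (σ x)) :
    ∑ x, psi p (Additive.ofMul (γ' x)) =
      ((1 + ℓ : ℕ) : ZMod (eisensteinNumerator p)) * psi p (Additive.ofMul γ) := by
  have := Psi.psi_sum_heckeT p ℓ hℓ (γ : SL(2, ℤ)) γ.2 (fun x => (γ' x : SL(2, ℤ)))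
    (fun x => (γ' x).2) σ h
  rw [add_comm 1 ℓ]
  exact this

/-- `U_p`, spec form. -/
theorem psi_heckeU (p : ℕ) [Fact p.Prime] (γ : Gamma0 p) (γ' : ZMod p → Gamma0 p)
    (σ : Equiv.Perm (ZMod p))
    (h : ∀ x : ZMod p, ModularForm.heckeMatrix p x.val * mapGL ℝ (γ : SL(2, ℤ)) =
      mapGL ℝ (γ' x : SL(2, ℤ)) * ModularForm.heckeMatrix p (σ x).val) :
    ∑ x, psi p (Additive.ofMul (γ' x)) = psi p (Additive.ofMul γ) :=
  Psi.psi_sum_heckeU p (γ : SL(2, ℤ)) γ.2 (fun x => (γ' x : SL(2, ℤ))) (fun x => (γ' x).2) σ h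

/-! ### Against the coset data of `HeckeHom` -/

/-- Transfer sum of `psi` for `T_q` (`q ≠ p`), with the coset data `tData` of `HeckeHom`. -/
theorem psi_tData (p : ℕ) [Fact p.Prime] (q : ℕ) [Fact q.Prime] (hqp : ¬ q ∣ p) (γ : Gamma0 p) :
    ∑ x, psi p (Additive.ofMul ((tData p q hqp).part γ x)) =
      ((1 + q : ℕ) : ZMod (eisensteinNumerator p)) * psi p (Additive.ofMul γ) := by
  have hne : q ≠ p := fun h => hqp (h ▸ dvd_rfl)
  exact psi_heckeT p hne γ (fun x => (tData p q hqp).part γ x) ((tData p q hqp).perm γ)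
    (fun x => tData_spec hqp γ x)

/-- Transfer sum of `psi` for `U_p`, with the coset data `uData` of `HeckeHom`. -/
theorem psi_uData (p : ℕ) [Fact p.Prime] (γ : Gamma0 p) :
    ∑ x, psi p (Additive.ofMul ((uData p p dvd_rfl).part γ x)) = psi p (Additive.ofMul γ) :=
  psi_heckeU p γ (fun x => (uData p p dvd_rfl).part γ x) ((uData p p dvd_rfl).perm γ)
    (fun x => uData_spec dvd_rfl γ x)

/-- `T_q ψ = (1 + q) ψ` on `Hom(Γ₀(p), ZMod n)`. -/
theorem heckeTHom_psi (p : ℕ) [Fact p.Prime] (q : ℕ) [Fact q.Prime] (hqp : ¬ q ∣ p) :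
    heckeTHom p q hqp (psi p) = (1 + q) • psi p := by
  refine AddMonoidHom.ext fun γ => ?_
  have := psi_tData p q hqp (Additive.toMul γ)
  rw [AddMonoidHom.nsmul_apply, nsmul_eq_mul]
  exact this

/-- `U_p ψ = ψ` on `Hom(Γ₀(p), ZMod n)`. -/
theorem heckeUHom_psi (p : ℕ) [Fact p.Prime] :
    heckeUHom p p dvd_rfl (psi p) = psi p := by
  refine AddMonoidHom.ext fun γ => ?_
  exact psi_uData p (Additive.toMul γ)

end Fermat.Agent.S16.LPsiA
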