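/-
S16, lower bound (L): every polynomial in the Hecke operators that kills `S₂(Γ₀(p))` takes a
value divisible by `n = (p-1)/gcd(p-1,12)` at the Eisenstein system.

Assembly of: the Shimura character `ψ` (`Psi`, `LPsiA`), its integral parabolic lift (`L2Lift`),
the Hecke operators on `Hom(Γ₀(p), A)` (`HeckeHom`) and their compatibility with the period map
(`HeckePeriod`) and with the involution (`HeckeInvB`), Eichler–Shimura (`S21`), and the
polynomial induction (`LCore`).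
-/
import Fermat.Agent.S16.Defs
import Fermat.Agent.S16.LCore
import Fermat.Agent.S16.LPsiA
import Fermat.Agent.S16.HeckePeriod
import Fermat.Agent.S16.HeckeInvB
import Fermat.Agent.S16.L2Lift
import Fermat.Agent.S21

set_option autoImplicit false

open scoped MatrixGroups
open ModularCurve ModularCurve.Period CongruenceSubgroup CuspForm

namespace Fermat.Agent.S16

namespace Lower

/-- `periodHomPair` intertwines `T_q × T_q` with `heckeTHom`. -/
theorem periodHomPair_heckeTLin {N q : ℕ} [NeZero N] [Fact q.Prime] (hq : q.Prime) (hqN : ¬ q ∣ N)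
    (f g : CuspForm (Gamma0 N) 2) :
    periodHomPair N (CuspForm.heckeTLin 2 hq hqN f, CuspForm.heckeTLin 2 hq hqN g) =
      heckeTHom N q hqN (periodHomPair N (f, g)) := by
  rw [S21.periodHomPair_apply N (S21.existsPeriodMapLinear N),
    S21.periodHomPair_apply N (S21.existsPeriodMapLinear N), ← map_add, ← map_sub,
    periodMap_heckeTLin, periodMap_heckeTLin, HeckeInvB.charInvolution_heckeTHom]
  exact ((tData N q hqN).op_add _ _).symm

/-- `periodHomPair` intertwines `U_p × U_p` with `heckeUHom`. -/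
theorem periodHomPair_heckeULin {N p : ℕ} [NeZero N] [NeZero p] (hpN : p ∣ N)
    (f g : CuspForm (Gamma0 N) 2) :
    periodHomPair N (CuspForm.heckeULin 2 hpN f, CuspForm.heckeULin 2 hpN g) =
      heckeUHom N p hpN (periodHomPair N (f, g)) := by
  rw [S21.periodHomPair_apply N (S21.existsPeriodMapLinear N),
    S21.periodHomPair_apply N (S21.existsPeriodMapLinear N), ← map_add, ← map_sub,
    periodMap_heckeULin, periodMap_heckeULin, HeckeInvB.charInvolution_heckeUHom]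
  exact ((uData N p hpN).op_add _ _).symm

variable (p : ℕ) [Fact p.Prime]

/-- The cohomological Hecke operator attached to the prime `ℓ` on `Hom(Γ₀(p), A)`:
`U_p` if `ℓ ∣ p`, and `T_ℓ` otherwise. -/
noncomputable def cohGen {A : Type*} [AddCommGroup A] (ℓ : Nat.Primes)
    (φ : Additive (Gamma0 p) →+ A) : Additive (Gamma0 p) →+ A :=
  haveI : Fact (ℓ : ℕ).Prime := ⟨ℓ.2⟩
  haveI : NeZero (ℓ : ℕ) := ⟨ℓ.2.ne_zero⟩
  if h : (ℓ : ℕ) ∣ p then heckeUHom p ℓ h φ else heckeTHom p ℓ h φ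

omit [Fact p.Prime] in
theorem cohGen_comp [NeZero p] {A B : Type*} [AddCommGroup A] [AddCommGroup B] (h : A →+ B) (ℓ : Nat.Primes)
    (φ : Additive (Gamma0 p) →+ A) : cohGen p ℓ (h.comp φ) = h.comp (cohGen p ℓ φ) := by
  have : Fact (ℓ : ℕ).Prime := ⟨ℓ.2⟩
  have : NeZero (ℓ : ℕ) := ⟨ℓ.2.ne_zero⟩
  unfold cohGen
  split_ifs with hℓ
  · exact CosetData.op_comp _ h φ
  · exact CosetData.op_comp _ h φ

theorem periodHomPair_heckeFormsGen (ℓ : Nat.Primes) (f g : CuspForm (Gamma0 p) 2) :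
    periodHomPair p
        (((heckeFormsGen p 2 ℓ : heckeAlgebra p 2 ∅) : Module.End ℂ (CuspForm (Gamma0 p) 2)) f,
         ((heckeFormsGen p 2 ℓ : heckeAlgebra p 2 ∅) : Module.End ℂ (CuspForm (Gamma0 p) 2)) g)
      = cohGen p ℓ (periodHomPair p (f, g)) := by
  have : Fact (ℓ : ℕ).Prime := ⟨ℓ.2⟩
  have : NeZero (ℓ : ℕ) := ⟨ℓ.2.ne_zero⟩
  unfold cohGen
  split_ifs with hℓ
  · rw [heckeFormsGen_of_dvd hℓ, heckeAlgebra.coe_U]
    exact periodHomPair_heckeULin hℓ f g
  · rw [heckeFormsGen_of_not_dvd hℓ, heckeAlgebra.coe_T]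
    exact periodHomPair_heckeTLin ℓ.2 hℓ f g

/-- The operators act on `ψ` through the Eisenstein system. -/
theorem cohGen_psi (ℓ : Nat.Primes) (φ : Additive (Gamma0 p) →+ ℤ)
    (c : ZMod (eisensteinNumerator p))
    (hφ : ∀ γ, ((φ γ : ℤ) : ZMod (eisensteinNumerator p)) = c * LPsiA.psi p γ) :
    ∀ γ, ((cohGen p ℓ φ γ : ℤ) : ZMod (eisensteinNumerator p)) =
      c * ((eisensteinSystem p ℓ : ℤ) : ZMod (eisensteinNumerator p)) * LPsiA.psi p γ := by
  have : Fact (ℓ : ℕ).Prime := ⟨ℓ.2⟩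
  have : NeZero (ℓ : ℕ) := ⟨ℓ.2.ne_zero⟩
  intro γ
  obtain ⟨γ, rfl⟩ := Additive.ofMul.surjective γ
  unfold cohGen
  split_ifs with hℓ
  · -- `ℓ = p`
    have hℓp : (ℓ : ℕ) = p := (Nat.prime_dvd_prime_iff_eq ℓ.2 (Fact.out : p.Prime)).mp hℓ
    rw [eisensteinSystem_of_dvd hℓ, heckeUHom_apply, Int.cast_sum]
    simp only [hφ]
    rw [← Finset.mul_sum]
    have key : ∑ x : ZMod (ℓ : ℕ), LPsiA.psi p (Additive.ofMul ((uData p ℓ hℓ).part γ x)) =
        LPsiA.psi p (Additive.ofMul γ) := by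
      obtain ⟨ℓ, hℓprime⟩ := ℓ
      simp only at hℓp hℓ ⊢
      subst hℓp
      exact LPsiA.psi_uData ℓ γ
    rw [key]
    push_cast
    ring
  · rw [eisensteinSystem_of_not_dvd hℓ, heckeTHom_apply, Int.cast_sum]
    simp only [hφ]
    rw [← Finset.mul_sum, LPsiA.psi_tData p ℓ hℓ γ]
    push_cast
    ring

end Lower

open Lower in
/-- **Lower bound (L).** -/
theorem lowerInput (p : ℕ) [Fact p.Prime] : LowerInput p := by
  intro P hP
  obtain ⟨φ₀, hpar, hlift⟩ := L2.exists_parabolic_lift p (eisensteinNumerator p) (LPsiA.psi p)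
    (LPsiA.psi_isCircHom p)
  have hmem : (Int.castAddHom ℂ).comp φ₀ ∈ parabolicHoms ℂ (Gamma0 p) ℂ := by
    intro γ hγ
    show ((φ₀ (Additive.ofMul γ) : ℤ) : ℂ) = 0
    rw [hpar γ hγ, Int.cast_zero]
  rw [← (S21.result p).2] at hmem
  obtain ⟨x₀, hx₀⟩ := hmem
  exact LCore.dvd_aeval_of_kills (fun ℓ => cohGen p ℓ) (fun ℓ => cohGen p ℓ)
    (fun ℓ φ => cohGen_comp p (Int.castAddHom ℂ) ℓ φ)
    (fun ℓ f g => periodHomPair_heckeFormsGen p ℓ f g)
    (LPsiA.psi p) (LPsiA.psi_surjective p) (eisensteinSystem p)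
    (fun ℓ φ c hφ => cohGen_psi p ℓ φ c hφ) φ₀ hlift x₀ hx₀ P hP

end Fermat.Agent.S16
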