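import Mathlib
import Fermat.Agent.S23.Basic
import Fermat.Agent.S23.Distinct
import Fermat.Agent.S24.AnBridge
import Fermat.Agent.S16.Defs
import Fermat.Prelude.Def_ModularForm_HeckeOperator

/-!
# S16 block [E]: the weight 2 Eisenstein series `E₂(z) - p E₂(p z)` on `Γ₀(p)`

OWNER: helper16 (only the owner edits this file).
-/

set_option autoImplicit false

namespace Fermat.Agent.S16

open UpperHalfPlane ModularForm EisensteinSeries Filter
open scoped MatrixGroups ModularForm Manifold Topology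

/-- The function `z ↦ E₂(z) - N E₂(N z)`. -/
noncomputable def eisFun (N : ℕ) [NeZero N] : ℍ → ℂ :=
  fun z => E2 z - (N : ℂ) * E2 (S23.mulN N z)

theorem eisFun_apply (N : ℕ) [NeZero N] (z : ℍ) :
    eisFun N z = E2 z - (N : ℂ) * E2 (S23.mulN N z) := rfl

/-- `E₂` evaluated at `γ • z`. -/
theorem eisE_E2_smul (γ : SL(2, ℤ)) (z : ℍ) :
    E2 (γ • z) = (E2 z - (1 / (2 * riemannZeta 2)) * D2 γ z) * denom γ z ^ (2 : ℤ) := by
  have h := congrFun (E2_slash_action γ) z
  rw [SL_slash_apply] at h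
  simp only [Pi.sub_apply, Pi.smul_apply, smul_eq_mul] at h
  rw [← h, mul_assoc, ← zpow_add₀ (denom_ne_zero _ _)]
  norm_num

/-- The key computation: `eisFun N ∣[2] γ` in terms of the Hermite decomposition. -/
theorem eisFun_slash_apply_of_hermite (N : ℕ) [NeZero N] (γ γ' : SL(2, ℤ)) (a b d : ℤ)
    (ha : 0 < a) (hd : 0 < d) (had : a * d = N)
    (hmat : !![(N:ℤ), 0; 0, 1] * (γ : Matrix (Fin 2) (Fin 2) ℤ) =
        (γ' : Matrix (Fin 2) (Fin 2) ℤ) * !![a, b; 0, d]) (τ : ℍ) :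
    (eisFun N ∣[(2 : ℤ)] γ) τ =
      E2 τ - ((a : ℂ) / (d : ℂ)) * E2 (S23.affPt a b d ha hd τ) := by
  -- the four entry equations
  have e00 : (N : ℤ) * γ 0 0 = γ' 0 0 * a := by
    have := congrFun (congrFun hmat 0) 0
    simpa [Matrix.mul_apply, Fin.sum_univ_two] using this
  have e01 : (N : ℤ) * γ 0 1 = γ' 0 0 * b + γ' 0 1 * d := by
    have := congrFun (congrFun hmat 0) 1
    simpa [Matrix.mul_apply, Fin.sum_univ_two] using this
  have e10 : γ 1 0 = γ' 1 0 * a := by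
    have := congrFun (congrFun hmat 1) 0
    simpa [Matrix.mul_apply, Fin.sum_univ_two] using this
  have e11 : γ 1 1 = γ' 1 0 * b + γ' 1 1 * d := by
    have := congrFun (congrFun hmat 1) 1
    simpa [Matrix.mul_apply, Fin.sum_univ_two] using this
  have c00 : (N : ℂ) * (γ 0 0 : ℂ) = (γ' 0 0 : ℂ) * a := by exact_mod_cast e00
  have c01 : (N : ℂ) * (γ 0 1 : ℂ) = (γ' 0 0 : ℂ) * b + (γ' 0 1 : ℂ) * d := by exact_mod_cast e01
  have c10 : (γ 1 0 : ℂ) = (γ' 1 0 : ℂ) * a := by exact_mod_cast e10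
  have c11 : (γ 1 1 : ℂ) = (γ' 1 0 : ℂ) * b + (γ' 1 1 : ℂ) * d := by exact_mod_cast e11
  have cad : (N : ℂ) = (a : ℂ) * d := by exact_mod_cast had.symm
  have hdc : (d : ℂ) ≠ 0 := by exact_mod_cast hd.ne'
  set z₁ := S23.affPt a b d ha hd τ with hz₁
  have hz₁c : (z₁ : ℂ) = ((a : ℂ) * (τ : ℂ) + (b : ℂ)) / (d : ℂ) := rfl
  -- denominators
  have hden : denom γ' z₁ = denom γ τ / d := by
    rw [ModularGroup.denom_apply, ModularGroup.denom_apply, hz₁c]
    rw [c10, c11]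
    field_simp
    ring
  have hden0 : denom γ τ ≠ 0 := denom_ne_zero _ _
  have hden1 : denom γ' z₁ ≠ 0 := denom_ne_zero _ _
  -- the points
  have hpt : S23.mulN N (γ • τ) = γ' • z₁ := by
    apply UpperHalfPlane.ext
    rw [S23.coe_mulN, UpperHalfPlane.coe_specialLinearGroup_apply,
      UpperHalfPlane.coe_specialLinearGroup_apply]
    have hd0 : ((γ 1 0 : ℤ) : ℂ) * (τ : ℂ) + ((γ 1 1 : ℤ) : ℂ) ≠ 0 := by
      have := hden0
      rw [ModularGroup.denom_apply] at this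
      exact this
    have hd1 : ((γ' 1 0 : ℤ) : ℂ) * (z₁ : ℂ) + ((γ' 1 1 : ℤ) : ℂ) ≠ 0 := by
      have := hden1
      rw [ModularGroup.denom_apply] at this
      exact this
    simp only [algebraMap_int_eq, Int.coe_castRingHom, Complex.ofReal_intCast]
    rw [mul_div_assoc', div_eq_div_iff hd0 hd1, hz₁c]
    rw [hz₁c] at hd1
    field_simp
    linear_combination
      ((γ' 1 0 : ℂ) * (a * τ + b) + (γ' 1 1 : ℂ) * d) * ((τ : ℂ) * c00 + c01)
        - ((γ' 0 0 : ℂ) * (a * τ + b) + (γ' 0 1 : ℂ) * d) * ((τ : ℂ) * c10 + c11)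
  rw [SL_slash_apply, eisFun_apply, hpt, eisE_E2_smul γ τ, eisE_E2_smul γ' z₁, hden]
  simp only [D2]
  rw [hden, c10, cad]
  have h2 : denom γ τ ^ (2 : ℤ) ≠ 0 := zpow_ne_zero _ hden0
  rw [zpow_neg, div_zpow]
  have hz2 : ∀ x : ℂ, x ^ (2 : ℤ) = x ^ 2 := fun x => by norm_cast
  rw [hz2, hz2] at *
  field_simp
  ring

/-- `E₂` is invariant under integer translations. -/
theorem eisE_E2_smul_of_lower_zero (γ : SL(2, ℤ)) (h : γ 1 0 = 0) (h1 : γ 1 1 = 1) (z : ℍ) :
    E2 (γ • z) = E2 z := by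
  rw [eisE_E2_smul]
  simp [D2, h, ModularGroup.denom_apply, h1]

/-- Slash invariance of `eisFun N` under `Γ₀(N)`. -/
theorem eisFun_slash_of_mem_Gamma0 (N : ℕ) [NeZero N] (γ : SL(2, ℤ))
    (hγ : γ ∈ CongruenceSubgroup.Gamma0 N) : eisFun N ∣[(2 : ℤ)] γ = eisFun N := by
  have hN : N ≠ 0 := NeZero.ne N
  rw [CongruenceSubgroup.Gamma0_mem] at hγ
  have hdvd : (N : ℤ) ∣ γ 1 0 := (ZMod.intCast_zmod_eq_zero_iff_dvd _ _).mp hγ
  obtain ⟨c, hc⟩ := hdvd
  have hdet := γ.det_coe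
  rw [Matrix.det_fin_two] at hdet
  have hdet' : (!![γ 0 0, N * γ 0 1; c, γ 1 1] : Matrix (Fin 2) (Fin 2) ℤ).det = 1 := by
    rw [Matrix.det_fin_two_of]
    rw [hc] at hdet
    linarith
  obtain ⟨γ', h00, h01, h10, h11⟩ : ∃ γ' : SL(2, ℤ), γ' 0 0 = γ 0 0 ∧ γ' 0 1 = N * γ 0 1 ∧
      γ' 1 0 = c ∧ γ' 1 1 = γ 1 1 :=
    ⟨⟨!![γ 0 0, N * γ 0 1; c, γ 1 1], hdet'⟩, rfl, rfl, rfl, rfl⟩
  have hNpos : (0 : ℤ) < N := by exact_mod_cast NeZero.pos N
  have hmat : !![(N:ℤ), 0; 0, 1] * (γ : Matrix (Fin 2) (Fin 2) ℤ) =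
      (γ' : Matrix (Fin 2) (Fin 2) ℤ) * !![(N : ℤ), 0; 0, 1] := by
    ext i j
    fin_cases i <;> fin_cases j <;>
      simp [Matrix.mul_apply, Fin.sum_univ_two, h00, h01, h10, h11, hc, mul_comm]
  ext τ
  rw [eisFun_slash_apply_of_hermite N γ γ' N 0 1 hNpos one_pos (by ring) hmat τ, eisFun_apply]
  have hpt : S23.affPt N 0 1 hNpos one_pos τ = S23.mulN N τ := by
    apply UpperHalfPlane.ext
    rw [S23.coe_affPt, S23.coe_mulN]
    simp
  rw [hpt]
  simp

/-- Every `SL(2, ℤ)`-translate of `eisFun N` is bounded at `i∞`. -/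
theorem eisFun_slash_isBoundedAtImInfty (N : ℕ) [NeZero N] (γ : SL(2, ℤ)) :
    IsBoundedAtImInfty (eisFun N ∣[(2 : ℤ)] γ) := by
  obtain ⟨γ', a, b, d, ha, hd, had, -, hmat⟩ := S23.exists_hermite N γ
  have hfun : eisFun N ∣[(2 : ℤ)] γ =
      fun τ => E2 τ - ((a : ℂ) / (d : ℂ)) * E2 (S23.affPt a b d ha hd τ) := by
    ext τ
    exact eisFun_slash_apply_of_hermite N γ γ' a b d ha hd had hmat τ
  rw [hfun]
  have h1 : IsBoundedAtImInfty E2 := isBoundedAtImInfty_E2
  have h2 : IsBoundedAtImInfty (fun τ => E2 (S23.affPt a b d ha hd τ)) :=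
    h1.comp_tendsto (S23.tendsto_affPt_atImInfty a b d ha hd)
  have h3 : IsBoundedAtImInfty (fun τ : ℍ => ((a : ℂ) / (d : ℂ)) * E2 (S23.affPt a b d ha hd τ)) :=
    (Filter.const_boundedAtFilter _ ((a : ℂ) / (d : ℂ))).mul h2
  exact h1.sub h3

/-- `E₂` is `1`-periodic. -/
theorem eisE_E2_periodic : Function.Periodic (E2 ∘ ofComplex) 1 := by
  intro w
  by_cases hw : 0 < w.im
  · have hw1 : 0 < (w + 1).im := by simpa using hw
    simp only [Function.comp_apply, ofComplex_apply_of_im_pos hw1, ofComplex_apply_of_im_pos hw]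
    have h := eisE_E2_smul_of_lower_zero ModularGroup.T (by simp [ModularGroup.T])
      (by simp [ModularGroup.T]) ⟨w, hw⟩
    rw [← h]
    congr 1
    apply UpperHalfPlane.ext
    rw [UpperHalfPlane.modular_T_smul]
    simp [add_comm]
  · have hw1 : (w + 1).im ≤ 0 := by simpa using not_lt.mp hw
    simp only [Function.comp_apply, ofComplex_apply_of_im_nonpos hw1,
      ofComplex_apply_of_im_nonpos (not_lt.mp hw)]

theorem eisE_E2_mem_niceSub : E2 ∈ S23.niceSub :=
  ⟨eisE_E2_periodic, E2_mdifferentiable, isBoundedAtImInfty_E2⟩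

theorem eisFun_mem_niceSub (N : ℕ) [NeZero N] : eisFun N ∈ S23.niceSub := by
  have h1 := eisE_E2_mem_niceSub
  have h2 := S24.AnBridge.scale_mem_niceSub N h1
  have h3 : eisFun N = E2 - algebraMap ℂ (ℍ → ℂ) (N : ℂ) * (fun z => E2 (S23.mulN N z)) := by
    ext z
    simp [eisFun_apply]
  rw [h3]
  exact S23.niceSub.sub_mem h1 (S23.niceSub.mul_mem (S23.niceSub.algebraMap_mem _) h2)

/-- `z ↦ E₂(z) - N E₂(N z)` as a modular form of weight `2` on `Γ₀(N)`. -/
noncomputable def eisForm (N : ℕ) [NeZero N] : ModularForm (CongruenceSubgroup.Gamma0 N) 2 where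
  toFun := eisFun N
  slash_action_eq' := by
    rintro _ ⟨γ, hγ, rfl⟩
    exact eisFun_slash_of_mem_Gamma0 N γ hγ
  holo' := (eisFun_mem_niceSub N).2.1
  bdd_at_cusps' := by
    intro c hc
    have hle : ((CongruenceSubgroup.Gamma0 N : Subgroup SL(2, ℤ)) : Subgroup (GL (Fin 2) ℝ)) ≤ 𝒮ℒ := by
      rintro _ ⟨γ, -, rfl⟩
      exact ⟨γ, rfl⟩
    rw [OnePoint.isBoundedAt_iff_forall_SL2Z (hc.mono hle)]
    intro γ _
    exact eisFun_slash_isBoundedAtImInfty N γ

@[simp] theorem coe_eisForm (N : ℕ) [NeZero N] : (eisForm N : ℍ → ℂ) = eisFun N := rfl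

theorem eisForm_apply (N : ℕ) [NeZero N] (z : ℍ) :
    eisForm N z = E2 z - (N : ℂ) * E2 (S23.mulN N z) := rfl

/-! ### The `q`-expansion -/

/-- Uniqueness of `q`-expansion coefficients, for plain functions. -/
theorem eisE_qExpansion_coeff_unique {f : ℍ → ℂ} {c : ℕ → ℂ}
    (hfanalytic : AnalyticAt ℂ (cuspFunction 1 f) 0)
    (hf : ∀ τ : ℍ, HasSum (fun m ↦ c m • Function.Periodic.qParam 1 τ ^ m) (f τ)) (m : ℕ) :
    c m = (qExpansion 1 f).coeff m := by
  have h1 := (hasFPowerSeriesOnBall_cuspFunction one_pos hfanalytic hf).hasFPowerSeriesAt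
  have h2 : HasFPowerSeriesAt (cuspFunction 1 f)
      (FormalMultilinearSeries.ofScalars ℂ fun m ↦ (qExpansion 1 f).coeff m) 0 := by
    simpa [qExpansion_coeff, div_eq_mul_inv, mul_comm] using hfanalytic.hasFPowerSeriesAt
  have h3 := congr_arg (FormalMultilinearSeries.coeff · m) (h1.eq_formalMultilinearSeries h2)
  simpa [FormalMultilinearSeries.coeff_ofScalars] using h3

/-- The `q`-expansion coefficients of `E₂`. -/
theorem eisE_qExpansion_E2_coeff (m : ℕ) :
    (qExpansion 1 E2).coeff m = if m = 0 then 1 else -24 * ((ArithmeticFunction.sigma 1 m : ℕ) : ℂ) := by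
  have h := eisE_qExpansion_coeff_unique (f := E2)
    (c := fun m : ℕ => (if m = 0 then 1 else -24 * ((ArithmeticFunction.sigma 1 m : ℕ) : ℂ)))
    (S23.analyticAt_cuspFunction_of_mem_niceSub eisE_E2_mem_niceSub)
    (fun τ => by
      simpa only [Function.Periodic.qParam, Complex.ofReal_one, div_one]
        using hasSum_qExpansion_E2 (z := τ)) m
  exact h.symm

theorem sigmaP_add (N : ℕ) [NeZero N] (n : ℕ) :
    sigmaP N n + (if N ∣ n then N * ArithmeticFunction.sigma 1 (n / N) else 0) =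
      ArithmeticFunction.sigma 1 n := by
  have hN : 0 < N := NeZero.pos N
  rw [ArithmeticFunction.sigma_one_apply n, sigmaP,
    ← Finset.sum_filter_not_add_sum_filter n.divisors (fun d => N ∣ d) (fun d => d)]
  congr 1
  split_ifs with h
  · obtain ⟨m, rfl⟩ := h
    rw [Nat.mul_div_cancel_left m hN, ArithmeticFunction.sigma_one_apply, Finset.mul_sum]
    rcases Nat.eq_zero_or_pos m with rfl | hm
    · simp
    · apply Finset.sum_nbij' (fun e => N * e) (fun d => d / N)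
      · intro e he
        simp only [Nat.mem_divisors, Finset.mem_filter] at he ⊢
        exact ⟨⟨Nat.mul_dvd_mul_left N he.1, by positivity⟩, dvd_mul_right N e⟩
      · intro d hd
        simp only [Nat.mem_divisors, Finset.mem_filter] at hd ⊢
        obtain ⟨⟨hd1, -⟩, k, rfl⟩ := hd
        rw [Nat.mul_div_cancel_left _ hN]
        exact ⟨(Nat.mul_dvd_mul_iff_left hN).mp hd1, hm.ne'⟩
      · intro e _
        exact Nat.mul_div_cancel_left _ hN
      · intro d hd
        simp only [Nat.mem_divisors, Finset.mem_filter] at hd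
        exact Nat.mul_div_cancel' hd.2
      · intro e _
        rfl
  · symm
    apply Finset.sum_eq_zero
    intro d hd
    simp only [Nat.mem_divisors, Finset.mem_filter] at hd
    exact absurd (hd.2.trans hd.1.1) h

/-- The `q`-expansion of `eisFun N`. -/
theorem qExpansion_eisFun (N : ℕ) [NeZero N] :
    qExpansion 1 (eisFun N) = qExpansion 1 E2 -
      (N : ℂ) • qExpansion 1 (fun z => E2 (S23.mulN N z)) := by
  have h1 := eisE_E2_mem_niceSub
  have h2 := S24.AnBridge.scale_mem_niceSub N h1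
  have h3 : eisFun N = E2 - (N : ℂ) • (fun z => E2 (S23.mulN N z)) := by
    ext z
    simp [eisFun_apply]
  have a1 := S23.analyticAt_cuspFunction_of_mem_niceSub h1
  have a2 := S23.analyticAt_cuspFunction_of_mem_niceSub h2
  have a3 : AnalyticAt ℂ (cuspFunction 1 ((N : ℂ) • (fun z => E2 (S23.mulN N z)))) 0 := by
    rw [cuspFunction_smul a2.continuousAt]
    exact a2.const_smul
  rw [h3, qExpansion_sub a1 a3, qExpansion_smul a2]

theorem qExpansion_eisFun_coeff_zero (N : ℕ) [NeZero N] :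
    (qExpansion 1 (eisFun N)).coeff 0 = 1 - (N : ℂ) := by
  rw [qExpansion_eisFun, map_sub, PowerSeries.coeff_smul,
    S24.AnBridge.qExpansion_scale_coeff N eisE_E2_mem_niceSub, if_pos (dvd_zero N),
    Nat.zero_div, eisE_qExpansion_E2_coeff]
  simp

theorem qExpansion_eisFun_coeff (N : ℕ) [NeZero N] {n : ℕ} (hn : 0 < n) :
    (qExpansion 1 (eisFun N)).coeff n = -24 * (sigmaP N n : ℂ) := by
  have hN : 0 < N := NeZero.pos N
  rw [qExpansion_eisFun, map_sub, PowerSeries.coeff_smul,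
    S24.AnBridge.qExpansion_scale_coeff N eisE_E2_mem_niceSub, eisE_qExpansion_E2_coeff,
    if_neg hn.ne']
  have hadd := sigmaP_add N n
  by_cases h : N ∣ n
  · rw [if_pos h] at hadd ⊢
    have hq : 0 < n / N := Nat.div_pos (Nat.le_of_dvd hn h) hN
    rw [eisE_qExpansion_E2_coeff, if_neg hq.ne', ← hadd]
    push_cast
    simp only [smul_eq_mul]
    ring
  · rw [if_neg h] at hadd ⊢
    rw [← hadd]
    simp

/-! ### The modular form and its normalisation -/

theorem qExpansion_eisForm_coeff_zero (N : ℕ) [NeZero N] :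
    (qExpansion 1 (eisForm N)).coeff 0 = 1 - (N : ℂ) :=
  qExpansion_eisFun_coeff_zero N

theorem qExpansion_eisForm_coeff (N : ℕ) [NeZero N] {n : ℕ} (hn : 0 < n) :
    (qExpansion 1 (eisForm N)).coeff n = -24 * (sigmaP N n : ℂ) :=
  qExpansion_eisFun_coeff N hn

/-- The normalised Eisenstein series `E = (N - 1)/24 + ∑_{n ≥ 1} σ'(n) qⁿ` of weight `2` on
`Γ₀(N)`, i.e. `-(E₂(z) - N E₂(N z))/24`. -/
noncomputable def eisNorm (N : ℕ) [NeZero N] : ModularForm (CongruenceSubgroup.Gamma0 N) 2 :=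
  (-(1 / 24) : ℂ) • eisForm N

theorem coe_eisNorm (N : ℕ) [NeZero N] :
    (eisNorm N : ℍ → ℂ) = (-(1 / 24) : ℂ) • eisFun N := rfl

theorem eisNorm_apply (N : ℕ) [NeZero N] (z : ℍ) :
    eisNorm N z = -(1 / 24) * (E2 z - (N : ℂ) * E2 (S23.mulN N z)) := rfl

theorem eisNorm_mem_niceSub (N : ℕ) [NeZero N] : (eisNorm N : ℍ → ℂ) ∈ S23.niceSub := by
  rw [coe_eisNorm]
  exact S23.niceSub.smul_mem (eisFun_mem_niceSub N) _

theorem qExpansion_eisNorm (N : ℕ) [NeZero N] :
    qExpansion 1 (eisNorm N) = (-(1 / 24) : ℂ) • qExpansion 1 (eisFun N) := by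
  rw [coe_eisNorm,
    qExpansion_smul (S23.analyticAt_cuspFunction_of_mem_niceSub (eisFun_mem_niceSub N))]

/-- Constant term of the normalised Eisenstein series: `(N - 1)/24`. -/
theorem qCoeff_eisNorm_zero (N : ℕ) [NeZero N] :
    ModularFormClass.qCoeff (eisNorm N) 0 = ((N : ℂ) - 1) / 24 := by
  rw [ModularFormClass.qCoeff, qExpansion_eisNorm, PowerSeries.coeff_smul,
    qExpansion_eisFun_coeff_zero, smul_eq_mul]
  ring

/-- Higher coefficients of the normalised Eisenstein series: `σ'(n)`. -/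
theorem qCoeff_eisNorm (N : ℕ) [NeZero N] {n : ℕ} (hn : 1 ≤ n) :
    ModularFormClass.qCoeff (eisNorm N) n = (sigmaP N n : ℂ) := by
  rw [ModularFormClass.qCoeff, qExpansion_eisNorm, PowerSeries.coeff_smul,
    qExpansion_eisFun_coeff N hn, smul_eq_mul]
  ring

end Fermat.Agent.S16
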