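/-
S16 block [R], leaf (D3) (owner: helper57).  Pure `ℕ` identities for
`sigmaP p k = Σ_{d ∣ k, p ∤ d} d` (defined in `S16/Defs.lean`): the Hecke recursions of the
coefficients of the weight-2 Eisenstein series of level `p`.
-/
import Fermat.Agent.S16.Defs

set_option autoImplicit false

namespace Fermat.Agent.S16

/-- `σ'(1) = 1`. -/
theorem sigmaP_one {p : ℕ} (hp : p.Prime) : sigmaP p 1 = 1 := by
  have h1 : ¬ p ∣ 1 := hp.one_lt.ne' ∘ Nat.dvd_one.mp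
  simp [sigmaP, Finset.filter_singleton, h1]

/-- `σ'(m p) = σ'(m)` (the `U_p`-eigenvalue of the Eisenstein series is `1`). -/
theorem sigmaP_mul_self {p : ℕ} (hp : p.Prime) (m : ℕ) : sigmaP p (m * p) = sigmaP p m := by
  rcases Nat.eq_zero_or_pos m with rfl | hm
  · simp
  unfold sigmaP
  congr 1
  ext d
  simp only [Finset.mem_filter, Nat.mem_divisors]
  constructor
  · rintro ⟨⟨hd, -⟩, hpd⟩
    refine ⟨⟨?_, hm.ne'⟩, hpd⟩
    have hcop : Nat.Coprime d p := ((Nat.Prime.coprime_iff_not_dvd hp).2 hpd).symm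
    exact hcop.dvd_of_dvd_mul_right hd
  · rintro ⟨⟨hd, -⟩, hpd⟩
    exact ⟨⟨Dvd.dvd.mul_right hd p, Nat.mul_ne_zero hm.ne' hp.ne_zero⟩, hpd⟩

/-- `σ'(m ℓ) + [ℓ ∣ m] ℓ σ'(m / ℓ) = (1 + ℓ) σ'(m)` for a prime `ℓ ≠ p` (the `T_ℓ`-eigenvalue
of the Eisenstein series is `1 + ℓ`). -/
theorem sigmaP_mul_prime {p : ℕ} (hp : p.Prime) {ℓ : ℕ} (hℓ : ℓ.Prime) (hℓp : ℓ ≠ p) {m : ℕ}
    (hm : 0 < m) :
    sigmaP p (m * ℓ) + (if ℓ ∣ m then ℓ * sigmaP p (m / ℓ) else 0) = (1 + ℓ) * sigmaP p m := by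
  classical
  have hpℓ : ¬ p ∣ ℓ := fun h => hℓp ((Nat.prime_dvd_prime_iff_eq hp hℓ).1 h).symm
  have hmℓ : m * ℓ ≠ 0 := Nat.mul_ne_zero hm.ne' hℓ.ne_zero
  -- the three index sets
  set D : Finset ℕ := m.divisors.filter (fun d => ¬ p ∣ d) with hD
  set D₁ : Finset ℕ := D.filter (fun d => ℓ * d ∣ m) with hD₁
  set D₂ : Finset ℕ := D.filter (fun d => ¬ ℓ * d ∣ m) with hD₂
  have hsplitD : ∑ d ∈ D, d = ∑ d ∈ D₁, d + ∑ d ∈ D₂, d :=
    (Finset.sum_filter_add_sum_filter_not D (fun d => ℓ * d ∣ m) (fun d => d)).symm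
  -- the divisors of `m ℓ` prime to `p`
  have hA : (m * ℓ).divisors.filter (fun d => ¬ p ∣ d) = D ∪ D₂.image (fun d => ℓ * d) := by
    ext d
    simp only [hD, hD₂, Finset.mem_filter, Nat.mem_divisors, Finset.mem_union, Finset.mem_image]
    constructor
    · rintro ⟨⟨hd, -⟩, hpd⟩
      by_cases hdm : d ∣ m
      · exact Or.inl ⟨⟨hdm, hm.ne'⟩, hpd⟩
      · right
        have hℓd : ℓ ∣ d := by
          by_contra hnd
          have hcop : Nat.Coprime d ℓ := ((Nat.Prime.coprime_iff_not_dvd hℓ).2 hnd).symm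
          exact hdm (hcop.dvd_of_dvd_mul_right hd)
        obtain ⟨d', rfl⟩ := hℓd
        have hd'm : d' ∣ m := by
          rw [mul_comm m ℓ] at hd
          exact (Nat.mul_dvd_mul_iff_left hℓ.pos).1 hd
        exact ⟨d', ⟨⟨⟨hd'm, hm.ne'⟩, fun h => hpd (Dvd.dvd.mul_left h ℓ)⟩, hdm⟩, rfl⟩
    · rintro (⟨⟨hd, -⟩, hpd⟩ | ⟨d', ⟨⟨⟨hd'm, -⟩, hpd'⟩, -⟩, rfl⟩)
      · exact ⟨⟨Dvd.dvd.mul_right hd ℓ, hmℓ⟩, hpd⟩
      · refine ⟨⟨?_, hmℓ⟩, fun h => ?_⟩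
        · rw [mul_comm m ℓ]
          exact Nat.mul_dvd_mul_left ℓ hd'm
        · rcases (Nat.Prime.dvd_mul hp).1 h with h | h
          · exact hpℓ h
          · exact hpd' h
  have hdisj : Disjoint D (D₂.image (fun d => ℓ * d)) := by
    rw [Finset.disjoint_left]
    intro d hdD hd2
    simp only [hD₂, Finset.mem_image, Finset.mem_filter] at hd2
    obtain ⟨d', ⟨-, hnd⟩, rfl⟩ := hd2
    simp only [hD, Finset.mem_filter, Nat.mem_divisors] at hdD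
    exact hnd hdD.1.1
  have hinj : Set.InjOn (fun d => ℓ * d) (D₂ : Set ℕ) := fun a _ b _ hab =>
    Nat.eq_of_mul_eq_mul_left hℓ.pos hab
  have hLHS : sigmaP p (m * ℓ) = ∑ d ∈ D, d + ℓ * ∑ d ∈ D₂, d := by
    unfold sigmaP
    rw [hA, Finset.sum_union hdisj, Finset.sum_image hinj, Finset.mul_sum]
  -- the correction term
  have hcorr : (if ℓ ∣ m then ℓ * sigmaP p (m / ℓ) else 0) = ℓ * ∑ d ∈ D₁, d := by
    split_ifs with hℓm
    · congr 1
      unfold sigmaP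
      congr 1
      ext d
      have hmℓ0 : m / ℓ ≠ 0 := by
        obtain ⟨c, rfl⟩ := hℓm
        rw [Nat.mul_div_cancel_left c hℓ.pos]
        rintro rfl
        simp at hm
      simp only [hD₁, hD, Finset.mem_filter, Nat.mem_divisors]
      rw [Nat.dvd_div_iff_mul_dvd hℓm]
      constructor
      · rintro ⟨⟨hd, -⟩, hpd⟩
        exact ⟨⟨⟨(Dvd.intro_left ℓ rfl).trans hd, hm.ne'⟩, hpd⟩, hd⟩
      · rintro ⟨⟨-, hpd⟩, hd⟩
        exact ⟨⟨hd, hmℓ0⟩, hpd⟩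
    · have hempty : D₁ = ∅ := by
        rw [hD₁, Finset.filter_eq_empty_iff]
        intro d _ hd
        exact hℓm ((Dvd.intro d rfl).trans hd)
      rw [hempty, Finset.sum_empty, mul_zero]
  have hR : sigmaP p m = ∑ d ∈ D, d := rfl
  rw [hLHS, hcorr, hR, hsplitD]
  ring

end Fermat.Agent.S16
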