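import Mathlib

/-!
# S16, upper bound (U): the arithmetic case split (block [Arith] of board post 541)

If `m ∤ n := (p-1)/gcd(p-1,12)` (`p ≥ 5` prime, `m ≥ 1`), there are a prime `ℓ` and an exponent
`s` such that `(p, ℓ, s)` is in one of the six cases of the `(U)` table and
`ℓ ^ (s + v_ℓ(p-1)) ∣ 24 * m`; consequently every number `24 * m * c / (p - 1)` (`c : ℤ`) is
`ℓ ^ s` times an `ℓ`-integral rational number.  Pure arithmetic, Mathlib only.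
-/

set_option autoImplicit false

namespace Fermat.Agent.S16.UArith

/-- The six cases of the `(U)` reduction:
(B1) `ℓ ≥ 5, s = 1`; (B2) `ℓ = 3, s = 2`; (C1) `ℓ = 3, s = 1, p ≡ 1 mod 3`;
(C2) `ℓ = 2, s = 2, p ≡ 1 mod 4`; (C3) `ℓ = 2, s = 3, p ≡ 3 mod 8`;
(D') `ℓ = 2, s = 3, p ≡ 7 mod 8`. -/
def UCase (p ℓ s : ℕ) : Prop :=
  (5 ≤ ℓ ∧ s = 1) ∨ (ℓ = 3 ∧ s = 2) ∨ (ℓ = 3 ∧ s = 1 ∧ p % 3 = 1) ∨
  (ℓ = 2 ∧ s = 2 ∧ p % 4 = 1) ∨ (ℓ = 2 ∧ s = 3 ∧ p % 8 = 3) ∨ (ℓ = 2 ∧ s = 3 ∧ p % 8 = 7)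

theorem uCase_pos {p ℓ s : ℕ} (h : UCase p ℓ s) : 1 ≤ s := by
  rcases h with h | h | h | h | h | h <;> omega

private theorem padic_le_of_not_dvd {ℓ a j : ℕ} [Fact ℓ.Prime] (ha : a ≠ 0)
    (h : ¬ ℓ ^ (j + 1) ∣ a) : padicValNat ℓ a ≤ j := by
  by_contra hlt
  exact h ((padicValNat_dvd_iff_le ha).2 (by omega))

private theorem le_padic_of_dvd {ℓ a j : ℕ} [Fact ℓ.Prime] (ha : a ≠ 0)
    (h : ℓ ^ j ∣ a) : j ≤ padicValNat ℓ a :=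
  (padicValNat_dvd_iff_le ha).1 h

/-- **Case split** (`p ≥ 3` odd, not necessarily prime). If `m ∤ (p-1)/gcd(p-1,12)` then some
prime `ℓ` and exponent `s` in one of the six cases satisfy `ℓ ^ (s + v_ℓ(p-1)) ∣ 24 * m`. -/
theorem exists_case_of_odd {p m : ℕ} (hp3 : 3 ≤ p) (hpodd : p % 2 = 1) (hm : 0 < m)
    (hmn : ¬ m ∣ (p - 1) / Nat.gcd (p - 1) 12) :
    ∃ ℓ s : ℕ, ℓ.Prime ∧ UCase p ℓ s ∧ ℓ ^ (s + padicValNat ℓ (p - 1)) ∣ 24 * m := by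
  set g := Nat.gcd (p - 1) 12 with hg
  set n := (p - 1) / g with hn
  have hp1 : p - 1 ≠ 0 := by omega
  have hg0 : g ≠ 0 := Nat.gcd_ne_zero_left hp1
  have hgdvd : g ∣ p - 1 := Nat.gcd_dvd_left _ _
  have hg12 : g ∣ 12 := Nat.gcd_dvd_right _ _
  have hng : n * g = p - 1 := Nat.div_mul_cancel hgdvd
  have hn0 : n ≠ 0 := by
    rintro h0
    rw [h0, zero_mul] at hng
    exact hp1 hng.symm
  have hm0 : m ≠ 0 := hm.ne'
  -- a prime power dividing `m` but not `n`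
  obtain ⟨ℓ, k, hℓ, hkm, hkn⟩ : ∃ ℓ k : ℕ, ℓ.Prime ∧ ℓ ^ k ∣ m ∧ ¬ ℓ ^ k ∣ n := by
    by_contra hcon
    apply hmn
    rw [Nat.dvd_iff_prime_pow_dvd_dvd]
    intro q k hq hqk
    by_contra hqn
    exact hcon ⟨q, k, hq, hqk, hqn⟩
  have : Fact ℓ.Prime := ⟨hℓ⟩
  have hvm : k ≤ padicValNat ℓ m := le_padic_of_dvd hm0 hkm
  have hvn : padicValNat ℓ n < k := by
    by_contra hle
    exact hkn ((padicValNat_dvd_iff_le hn0).2 (by omega))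
  have hv : padicValNat ℓ (p - 1) = padicValNat ℓ n + padicValNat ℓ g := by
    rw [← hng, padicValNat.mul hn0 hg0]
  have h24m : padicValNat ℓ (24 * m) = padicValNat ℓ 24 + padicValNat ℓ m :=
    padicValNat.mul (by norm_num) hm0
  -- it suffices to bound `s + v_ℓ(g) ≤ v_ℓ(24) + 1`
  have key : ∀ s : ℕ, s + padicValNat ℓ g ≤ padicValNat ℓ 24 + 1 →
      ℓ ^ (s + padicValNat ℓ (p - 1)) ∣ 24 * m := by
    intro s hs
    rw [padicValNat_dvd_iff_le (Nat.mul_ne_zero (by norm_num) hm0), h24m, hv]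
    omega
  -- the three kinds of primes
  have hℓ2 : 2 ≤ ℓ := hℓ.two_le
  rcases Nat.lt_or_ge ℓ 5 with hlt | hge
  · -- ℓ ∈ {2, 3}
    have hℓ23 : ℓ = 2 ∨ ℓ = 3 := by
      interval_cases ℓ
      · exact Or.inl rfl
      · exact Or.inr rfl
      · exact absurd hℓ (by decide)
    rcases hℓ23 with rfl | rfl
    · -- ℓ = 2
      have h24 : 3 ≤ padicValNat 2 24 := le_padic_of_dvd (by norm_num) (by norm_num)
      rcases Nat.lt_or_ge (p % 4) 2 with h4 | h4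
      · -- p ≡ 1 mod 4
        have hp4 : p % 4 = 1 := by omega
        have hw : padicValNat 2 g ≤ 2 := by
          apply padic_le_of_not_dvd hg0
          intro h8
          have : 2 ^ (2 + 1) ∣ 12 := h8.trans hg12
          omega
        exact ⟨2, 2, hℓ, Or.inr (Or.inr (Or.inr (Or.inl ⟨rfl, rfl, hp4⟩))), key 2 (by omega)⟩
      · -- p ≡ 3 mod 4
        have hp4 : p % 4 = 3 := by omega
        have hw : padicValNat 2 g ≤ 1 := by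
          apply padic_le_of_not_dvd hg0
          intro h4'
          have : 2 ^ (1 + 1) ∣ p - 1 := h4'.trans hgdvd
          omega
        rcases Nat.lt_or_ge (p % 8) 4 with h8 | h8
        · have hp8 : p % 8 = 3 := by omega
          exact ⟨2, 3, hℓ, Or.inr (Or.inr (Or.inr (Or.inr (Or.inl ⟨rfl, rfl, hp8⟩)))),
            key 3 (by omega)⟩
        · have hp8 : p % 8 = 7 := by omega
          exact ⟨2, 3, hℓ, Or.inr (Or.inr (Or.inr (Or.inr (Or.inr ⟨rfl, rfl, hp8⟩)))),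
            key 3 (by omega)⟩
    · -- ℓ = 3
      have h24 : 1 ≤ padicValNat 3 24 := le_padic_of_dvd (by norm_num) (by norm_num)
      by_cases hp3' : p % 3 = 1
      · -- p ≡ 1 mod 3
        have hw : padicValNat 3 g ≤ 1 := by
          apply padic_le_of_not_dvd hg0
          intro h9
          have : 3 ^ (1 + 1) ∣ 12 := h9.trans hg12
          omega
        exact ⟨3, 1, hℓ, Or.inr (Or.inr (Or.inl ⟨rfl, rfl, hp3'⟩)), key 1 (by omega)⟩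
      · -- p ≢ 1 mod 3
        have hw : padicValNat 3 g ≤ 0 := by
          apply padic_le_of_not_dvd hg0
          intro h3'
          have : 3 ^ (0 + 1) ∣ p - 1 := h3'.trans hgdvd
          omega
        exact ⟨3, 2, hℓ, Or.inr (Or.inl ⟨rfl, rfl⟩), key 2 (by omega)⟩
  · -- ℓ ≥ 5
    have hw : padicValNat ℓ g ≤ 0 := by
      apply padic_le_of_not_dvd hg0
      intro hℓg
      have hℓ12 : ℓ ∣ 12 := by
        have : ℓ ^ (0 + 1) ∣ 12 := hℓg.trans hg12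
        simpa using this
      have hle : ℓ ≤ 12 := Nat.le_of_dvd (by norm_num) hℓ12
      interval_cases ℓ <;> first | omega | exact absurd hℓ (by norm_num)
    exact ⟨ℓ, 1, hℓ, Or.inl ⟨hge, rfl⟩, key 1 (by omega)⟩

/-- **Case split**, for a prime `p ≥ 5` (the shape of board post 541). -/
theorem exists_case {p m : ℕ} (hp : p.Prime) (hp5 : 5 ≤ p) (hm : 0 < m)
    (hmn : ¬ m ∣ (p - 1) / Nat.gcd (p - 1) 12) :
    ∃ ℓ s : ℕ, ℓ.Prime ∧ UCase p ℓ s ∧ ℓ ^ (s + padicValNat ℓ (p - 1)) ∣ 24 * m := by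
  refine exists_case_of_odd (by omega) ?_ hm hmn
  rcases hp.eq_two_or_odd with h | h
  · omega
  · exact h

/-- **Integrality.** If `ℓ ^ (s + v_ℓ(p-1)) ∣ 24 * m` then `24 * m * c / (p - 1)` is `ℓ ^ s` times
an `ℓ`-integral rational number `y` (i.e. `d * y = a` with `a : ℤ`, `d` prime to `ℓ`). -/
theorem exists_integral_quot {p m ℓ s : ℕ} (hp2 : 2 ≤ p) (hℓ : ℓ.Prime)
    (h : ℓ ^ (s + padicValNat ℓ (p - 1)) ∣ 24 * m) (c : ℤ) :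
    ∃ y : ℂ, (∃ (a : ℤ) (d : ℕ), d.Coprime ℓ ∧ (d : ℂ) * y = (a : ℂ)) ∧
      (24 * (m : ℂ) * (c : ℂ)) / ((p : ℂ) - 1) = (ℓ : ℂ) ^ s * y := by
  have : Fact ℓ.Prime := ⟨hℓ⟩
  have hp1 : p - 1 ≠ 0 := by omega
  set v := padicValNat ℓ (p - 1) with hv
  obtain ⟨d, hd⟩ : ℓ ^ v ∣ p - 1 := pow_padicValNat_dvd
  have hd0 : d ≠ 0 := by
    rintro rfl
    rw [mul_zero] at hd
    exact hp1 hd
  have hcop : d.Coprime ℓ := by
    rw [Nat.coprime_comm, Nat.Prime.coprime_iff_not_dvd hℓ]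
    rintro ⟨d', rfl⟩
    have hdvd : ℓ ^ (v + 1) ∣ p - 1 := ⟨d', by rw [hd]; ring⟩
    exact pow_succ_padicValNat_not_dvd hp1 hdvd
  obtain ⟨e, he⟩ := h
  have hℓ0 : (ℓ : ℂ) ≠ 0 := Nat.cast_ne_zero.2 hℓ.ne_zero
  have hdC : (d : ℂ) ≠ 0 := Nat.cast_ne_zero.2 hd0
  have hpC : (p : ℂ) - 1 = (ℓ : ℂ) ^ v * (d : ℂ) := by
    have h1 : ((p - 1 : ℕ) : ℂ) = (p : ℂ) - 1 := by
      rw [Nat.cast_sub (by omega)]; simp
    rw [← h1, hd]; push_cast; ring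
  have h24 : (24 : ℂ) * (m : ℂ) = (ℓ : ℂ) ^ (s + v) * (e : ℂ) := by
    have : ((24 * m : ℕ) : ℂ) = ((ℓ ^ (s + v) * e : ℕ) : ℂ) := by rw [he]
    push_cast at this
    exact this
  refine ⟨((e : ℂ) * (c : ℂ)) / (d : ℂ), ⟨(e : ℤ) * c, d, hcop, ?_⟩, ?_⟩
  · push_cast
    field_simp
  · rw [h24, hpC, pow_add]
    field_simp

/-- The shape used for the coefficients of `H = 24 (E - f) / (p - 1)`: if `m ∣ a - b`
(`a = a_n(f)`, `b = σ'(n)`) then `24 / (p - 1) * (b - a)` is `ℓ ^ s` times an `ℓ`-integral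
rational number. -/
theorem exists_integral_coeff {p m ℓ s : ℕ} (hp2 : 2 ≤ p) (hℓ : ℓ.Prime)
    (h : ℓ ^ (s + padicValNat ℓ (p - 1)) ∣ 24 * m) {a b : ℤ} (hab : (m : ℤ) ∣ a - b) :
    ∃ y : ℂ, (∃ (a' : ℤ) (d : ℕ), d.Coprime ℓ ∧ (d : ℂ) * y = (a' : ℂ)) ∧
      24 / ((p : ℂ) - 1) * ((b : ℂ) - (a : ℂ)) = (ℓ : ℂ) ^ s * y := by
  obtain ⟨t, ht⟩ := hab
  obtain ⟨y, hy, hy'⟩ := exists_integral_quot hp2 hℓ h (-t)
  refine ⟨y, hy, ?_⟩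
  rw [← hy']
  have hba : (b : ℂ) - (a : ℂ) = (m : ℂ) * ((-t : ℤ) : ℂ) := by
    have : ((a - b : ℤ) : ℂ) = (((m : ℤ) * t : ℤ) : ℂ) := by rw [ht]
    push_cast at this ⊢
    linear_combination -this
  rw [hba]
  ring

/-- **Uniform denominator** (the input shape of `congOne_of_denominator`): there is one `d ≠ 0`
prime to `ℓ` such that `d * (24 / (p - 1) * (b - a)) ∈ ℓ ^ s • ℤ` whenever `m ∣ a - b`. -/
theorem exists_denominator {p m ℓ s : ℕ} (hp2 : 2 ≤ p) (hℓ : ℓ.Prime)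
    (h : ℓ ^ (s + padicValNat ℓ (p - 1)) ∣ 24 * m) :
    ∃ d : ℕ, d ≠ 0 ∧ d.Coprime ℓ ∧ ∀ a b : ℤ, (m : ℤ) ∣ a - b →
      ∃ c : ℤ, (d : ℂ) * (24 / ((p : ℂ) - 1) * ((b : ℂ) - (a : ℂ))) = (ℓ : ℂ) ^ s * (c : ℂ) := by
  have : Fact ℓ.Prime := ⟨hℓ⟩
  have hp1 : p - 1 ≠ 0 := by omega
  set v := padicValNat ℓ (p - 1) with hv
  obtain ⟨d, hd⟩ : ℓ ^ v ∣ p - 1 := pow_padicValNat_dvd
  have hd0 : d ≠ 0 := by
    rintro rfl
    rw [mul_zero] at hd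
    exact hp1 hd
  have hcop : d.Coprime ℓ := by
    rw [Nat.coprime_comm, Nat.Prime.coprime_iff_not_dvd hℓ]
    rintro ⟨d', rfl⟩
    have hdvd : ℓ ^ (v + 1) ∣ p - 1 := ⟨d', by rw [hd]; ring⟩
    exact pow_succ_padicValNat_not_dvd hp1 hdvd
  obtain ⟨e, he⟩ := h
  have hℓ0 : (ℓ : ℂ) ≠ 0 := Nat.cast_ne_zero.2 hℓ.ne_zero
  have hdC : (d : ℂ) ≠ 0 := Nat.cast_ne_zero.2 hd0
  have hpC : (p : ℂ) - 1 = (ℓ : ℂ) ^ v * (d : ℂ) := by
    have h1 : ((p - 1 : ℕ) : ℂ) = (p : ℂ) - 1 := by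
      rw [Nat.cast_sub (by omega)]; simp
    rw [← h1, hd]; push_cast; ring
  have h24 : (24 : ℂ) * (m : ℂ) = (ℓ : ℂ) ^ (s + v) * (e : ℂ) := by
    have : ((24 * m : ℕ) : ℂ) = ((ℓ ^ (s + v) * e : ℕ) : ℂ) := by rw [he]
    push_cast at this
    exact this
  refine ⟨d, hd0, hcop, ?_⟩
  rintro a b ⟨t, ht⟩
  refine ⟨-((e : ℤ) * t), ?_⟩
  have hba : (b : ℂ) - (a : ℂ) = -((m : ℂ) * (t : ℂ)) := by
    have : ((a - b : ℤ) : ℂ) = (((m : ℤ) * t : ℤ) : ℂ) := by rw [ht]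
    push_cast at this
    linear_combination -this
  have h24' : (24 : ℂ) * ((b : ℂ) - (a : ℂ)) = -((ℓ : ℂ) ^ (s + v) * (e : ℂ) * (t : ℂ)) := by
    rw [hba, ← h24]; ring
  rw [hpC]
  push_cast
  field_simp
  rw [h24', pow_add]
  ring

/-- **The arithmetic of the `(U)` reduction, in abstract form.** `C ℓ s` stands for
"`H = 24 (E - f) / (p - 1)` has `ℓ`-integral `q`-expansion `≡ 1 mod ℓ ^ s`".  Given the
implication `hC` (from `exists_denominator`) and the four leaves, `m ∣ (p-1)/gcd(p-1,12)`. -/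
theorem dvd_of_leaves {p m : ℕ} (hp3 : 3 ≤ p) (hpodd : p % 2 = 1) (hm : 0 < m)
    (C : ℕ → ℕ → Prop)
    (hC : ∀ ℓ s : ℕ, ℓ.Prime → ℓ ^ (s + padicValNat ℓ (p - 1)) ∣ 24 * m → C ℓ s)
    (hB : ∀ ℓ : ℕ, ℓ.Prime → 5 ≤ ℓ → ¬ C ℓ 1)
    (hB3 : ¬ C 3 2)
    (hCl : ∀ ℓ s : ℕ, ℓ.Prime → ℓ ≠ p → 1 ≤ s → C ℓ s → ℓ ^ s ∣ p + 1)
    (hD : p % 8 = 7 → ¬ C 2 3) :
    m ∣ (p - 1) / Nat.gcd (p - 1) 12 := by
  by_contra hmn
  obtain ⟨ℓ, s, hℓ, hcase, hdvd⟩ := exists_case_of_odd hp3 hpodd hm hmn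
  have hCls : C ℓ s := hC ℓ s hℓ hdvd
  rcases hcase with ⟨h5, rfl⟩ | ⟨rfl, rfl⟩ | ⟨rfl, rfl, h3⟩ | ⟨rfl, rfl, h4⟩ | ⟨rfl, rfl, h8⟩ |
    ⟨rfl, rfl, h8⟩
  · exact hB ℓ hℓ h5 hCls
  · exact hB3 hCls
  · have h := hCl 3 1 hℓ (by rintro rfl; omega) le_rfl hCls
    omega
  · have h := hCl 2 2 hℓ (by rintro rfl; omega) (by norm_num) hCls
    omega
  · have h := hCl 2 3 hℓ (by rintro rfl; omega) (by norm_num) hCls
    omega
  · exact hD h8 hCls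

end Fermat.Agent.S16.UArith
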