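import Mathlib

/-!
# S16, upper bound: the abstract `T_r`-trick (pure power-series algebra)

`uOp r`, `vOp r` are the formal operators `U_r`, `V_r` on power series.  The main result
`false_of_trace_congruence` is the abstract form of the "`T_r`-trick" (board post 476, (B)):
a family `S w` of "level one, weight `w`" submodules of `𝒪⟦X⟧` which is stable under the formal
Hecke operator `T_r = U_r + r^(w-1) V_r`, satisfies the Sturm bound modulo `ℓ`, is `ℓ`-saturated,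
and for which `p^k V_p F - U_p F` is congruent modulo `ℓ^s` to an element of `S (k+2)` for every
`F ∈ S k`, cannot contain an `F` with `a_p(F)` a unit modulo `ℓ` (as soon as
`r^2 - 1 = ℓ^(s-1) * unit`).
-/

set_option autoImplicit false

namespace Fermat.Agent.S16.TrTrick

open PowerSeries

variable {𝒪 : Type*} [CommRing 𝒪]

/-- `U_r` on formal power series: `a_n(U_r f) = a_{nr}(f)`. -/
noncomputable def uOp (r : ℕ) : 𝒪⟦X⟧ →ₗ[𝒪] 𝒪⟦X⟧ where
  toFun f := PowerSeries.mk fun n => coeff (n * r) f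
  map_add' f g := by ext n; simp
  map_smul' c f := by ext n; simp

/-- `V_r` on formal power series: `a_n(V_r f) = a_{n/r}(f)` if `r ∣ n`, else `0`. -/
noncomputable def vOp (r : ℕ) : 𝒪⟦X⟧ →ₗ[𝒪] 𝒪⟦X⟧ where
  toFun f := PowerSeries.mk fun n => if r ∣ n then coeff (n / r) f else 0
  map_add' f g := by ext n; by_cases h : r ∣ n <;> simp [h]
  map_smul' c f := by ext n; by_cases h : r ∣ n <;> simp [h]

@[simp] theorem coeff_uOp (r n : ℕ) (f : 𝒪⟦X⟧) : coeff n (uOp r f) = coeff (n * r) f := by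
  simp [uOp]

@[simp] theorem coeff_vOp (r n : ℕ) (f : 𝒪⟦X⟧) :
    coeff n (vOp r f) = if r ∣ n then coeff (n / r) f else 0 := by
  simp [vOp]

theorem uOp_vOp {r : ℕ} (hr : 0 < r) (f : 𝒪⟦X⟧) : uOp r (vOp r f) = f := by
  ext n
  simp [Nat.mul_div_cancel _ hr]

theorem uOp_uOp_comm (p r : ℕ) (f : 𝒪⟦X⟧) : uOp p (uOp r f) = uOp r (uOp p f) := by
  ext n
  simp [mul_assoc, mul_comm p r]

theorem vOp_vOp_comm {p r : ℕ} (hp : 0 < p) (hr : 0 < r) (f : 𝒪⟦X⟧) :
    vOp p (vOp r f) = vOp r (vOp p f) := by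
  ext n
  simp only [coeff_vOp]
  by_cases h1 : p ∣ n
  · by_cases h2 : r ∣ n
    · obtain ⟨a, rfl⟩ := h1
      obtain ⟨b, hb⟩ := h2
      have e1 : p * a / p = a := Nat.mul_div_cancel_left _ hp
      have e2 : p * a / r = b := by rw [hb]; exact Nat.mul_div_cancel_left _ hr
      rw [if_pos (Dvd.intro _ rfl), if_pos (Dvd.intro _ hb.symm), e1, e2]
      by_cases h3 : r ∣ a
      · obtain ⟨c, rfl⟩ := h3
        have hbc : b = p * c := by
          have : r * b = r * (p * c) := by rw [← hb]; ring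
          exact Nat.eq_of_mul_eq_mul_left hr this
        rw [if_pos (Dvd.intro _ rfl), if_pos ⟨c, hbc⟩, hbc, Nat.mul_div_cancel_left _ hr,
          Nat.mul_div_cancel_left _ hp]
      · have h4 : ¬ p ∣ b := by
          rintro ⟨c, rfl⟩
          apply h3
          refine ⟨c, ?_⟩
          have : p * a = p * (r * c) := by rw [hb]; ring
          exact Nat.eq_of_mul_eq_mul_left hp this
        rw [if_neg h3, if_neg h4]
    · rw [if_pos h1, if_neg h2]
      have : ¬ r ∣ n / p := by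
        intro h
        apply h2
        obtain ⟨a, rfl⟩ := h1
        rw [Nat.mul_div_cancel_left _ hp] at h
        exact Dvd.dvd.mul_left h p
      rw [if_neg this]
  · rw [if_neg h1]
    by_cases h2 : r ∣ n
    · rw [if_pos h2]
      have : ¬ p ∣ n / r := by
        intro h
        apply h1
        obtain ⟨a, rfl⟩ := h2
        rw [Nat.mul_div_cancel_left _ hr] at h
        exact Dvd.dvd.mul_left h r
      rw [if_neg this]
    · rw [if_neg h2]

theorem uOp_vOp_comm {p r : ℕ} (h : Nat.Coprime r p) (f : 𝒪⟦X⟧) :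
    uOp p (vOp r f) = vOp r (uOp p f) := by
  ext n
  simp only [coeff_uOp, coeff_vOp]
  by_cases h1 : r ∣ n
  · rw [if_pos h1, if_pos (Dvd.dvd.mul_right h1 p)]
    congr 1
    exact Nat.div_mul_right_comm h1 p |>.symm ▸ rfl
  · have : ¬ r ∣ n * p := fun h2 => h1 (h.dvd_of_dvd_mul_right h2)
    rw [if_neg h1, if_neg this]


theorem coeff_vOp_iterate {r : ℕ} (hr : 0 < r) (j n : ℕ) (g : 𝒪⟦X⟧) :
    coeff n ((vOp r)^[j] g) = if r ^ j ∣ n then coeff (n / r ^ j) g else 0 := by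
  induction j generalizing n with
  | zero => simp
  | succ j ih =>
    rw [Function.iterate_succ_apply', coeff_vOp]
    by_cases h1 : r ∣ n
    · obtain ⟨a, rfl⟩ := h1
      rw [if_pos (Dvd.intro _ rfl), Nat.mul_div_cancel_left _ hr, ih]
      have e : r ^ (j + 1) ∣ r * a ↔ r ^ j ∣ a := by
        rw [pow_succ']
        exact Nat.mul_dvd_mul_iff_left hr
      by_cases h2 : r ^ j ∣ a
      · rw [if_pos h2, if_pos (e.mpr h2), pow_succ', Nat.mul_div_mul_left _ _ hr]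
      · rw [if_neg h2, if_neg (fun h => h2 (e.mp h))]
    · rw [if_neg h1, if_neg]
      intro h
      exact h1 (Dvd.dvd.trans (dvd_pow_self r (Nat.succ_ne_zero j)) h)

/-- Power series all of whose coefficients are divisible by `a`. -/
def congSub (a : 𝒪) : Submodule 𝒪 𝒪⟦X⟧ where
  carrier := {g | ∀ n, a ∣ coeff n g}
  add_mem' hf hg n := by simpa using dvd_add (hf n) (hg n)
  zero_mem' n := by simp
  smul_mem' c g hg n := by simpa using Dvd.dvd.mul_left (hg n) c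

theorem mem_congSub {a : 𝒪} {g : 𝒪⟦X⟧} : g ∈ congSub a ↔ ∀ n, a ∣ coeff n g := Iff.rfl

theorem congSub_mono {a b : 𝒪} (h : a ∣ b) : congSub b ≤ congSub a :=
  fun _ hg n => h.trans (hg n)

theorem uOp_mem_congSub {a : 𝒪} (r : ℕ) {g : 𝒪⟦X⟧} (hg : g ∈ congSub a) :
    uOp r g ∈ congSub a := fun n => by simpa using hg (n * r)

theorem vOp_mem_congSub {a : 𝒪} (r : ℕ) {g : 𝒪⟦X⟧} (hg : g ∈ congSub a) :
    vOp r g ∈ congSub a := fun n => by
  rw [coeff_vOp]
  split_ifs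
  · exact hg _
  · exact dvd_zero a

/-- If `c` is invertible modulo `a` and `c • g ∈ N ⊇ congSub a`, then `g ∈ N`. -/
theorem mem_of_smul_mem {a c c' : 𝒪} (h : a ∣ c * c' - 1) {N : Submodule 𝒪 𝒪⟦X⟧}
    (hN : congSub a ≤ N) {g : 𝒪⟦X⟧} (hg : c • g ∈ N) : g ∈ N := by
  have h1 : (c * c' - 1) • g ∈ N := hN (fun n => by simpa using Dvd.dvd.mul_right h _)
  have h2 : g = c' • (c • g) - (c * c' - 1) • g := by
    rw [smul_smul, sub_smul, one_smul, mul_comm c' c]; abel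
  rw [h2]
  exact N.sub_mem (N.smul_mem _ hg) h1

theorem mem_of_pow_smul_mem {a c c' : 𝒪} (h : a ∣ c * c' - 1) {N : Submodule 𝒪 𝒪⟦X⟧}
    (hN : congSub a ≤ N) (m : ℕ) {g : 𝒪⟦X⟧} (hg : c ^ m • g ∈ N) : g ∈ N := by
  induction m with
  | zero => simpa using hg
  | succ m ih =>
    apply ih
    apply mem_of_smul_mem h hN
    rwa [smul_smul, ← pow_succ']

/-- The formal weight-`w` Hecke operator preserves `S ⊔ congSub a` if it preserves `S`. -/
theorem hecke_mem_sup {a : 𝒪} {r : ℕ} {c : 𝒪} {S : Submodule 𝒪 𝒪⟦X⟧}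
    (hT : ∀ f ∈ S, uOp r f + c • vOp r f ∈ S) {g : 𝒪⟦X⟧} (hg : g ∈ S ⊔ congSub a) :
    uOp r g + c • vOp r g ∈ S ⊔ congSub a := by
  obtain ⟨X, hX, e, he, rfl⟩ := Submodule.mem_sup.mp hg
  have : uOp r (X + e) + c • vOp r (X + e) =
      (uOp r X + c • vOp r X) + (uOp r e + c • vOp r e) := by
    rw [map_add, map_add, smul_add]; abel
  rw [this]
  exact Submodule.add_mem_sup (hT X hX)
    ((congSub a).add_mem (uOp_mem_congSub r he) ((congSub a).smul_mem _ (vOp_mem_congSub r he)))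

/-- Saturation descent: if `ℓ^m • g ∈ S ⊔ congSub (ℓ^(m+1))` and `S` is `ℓ`-saturated then
`g ∈ S ⊔ congSub ℓ`. -/
theorem mem_sup_of_pow_smul_mem [IsDomain 𝒪] {l : 𝒪} (hl : l ≠ 0) {S : Submodule 𝒪 𝒪⟦X⟧}
    (hsat : ∀ f : 𝒪⟦X⟧, l • f ∈ S → f ∈ S) (m : ℕ) {g : 𝒪⟦X⟧}
    (hg : l ^ m • g ∈ S ⊔ congSub (l ^ (m + 1))) : g ∈ S ⊔ congSub l := by
  obtain ⟨X, hX, e, he, hXe⟩ := Submodule.mem_sup.mp hg
  have hdiv : ∀ n, l ^ m ∣ coeff n X := by
    intro n
    have h1 : coeff n X = l ^ m * coeff n g - coeff n e := by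
      have := congrArg (coeff n) hXe
      simp only [map_add, map_smul, smul_eq_mul] at this
      rw [← this]; ring
    rw [h1]
    exact dvd_sub (Dvd.intro _ rfl) ((Dvd.intro _ (pow_succ l m).symm).trans (he n))
  choose q hq using hdiv
  have hX' : X = l ^ m • PowerSeries.mk q := by
    ext n
    simp [hq n]
  have hsatm : ∀ (j : ℕ) (f : 𝒪⟦X⟧), l ^ j • f ∈ S → f ∈ S := by
    intro j
    induction j with
    | zero => intro f hf; simpa using hf
    | succ j ih =>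
      intro f hf
      apply ih
      apply hsat
      rwa [smul_smul, ← pow_succ']
  have hmk : PowerSeries.mk q ∈ S := hsatm m _ (hX' ▸ hX)
  have hdiff : g - PowerSeries.mk q ∈ congSub l := by
    intro n
    obtain ⟨d, hd⟩ := he n
    have h1 : l ^ m * (coeff n g - q n) = l ^ m * (l * d) := by
      have := congrArg (coeff n) hXe
      simp only [map_add, map_smul, smul_eq_mul] at this
      rw [hq n] at this
      rw [mul_sub, ← this, hd]; ring
    have h2 := mul_left_cancel₀ (pow_ne_zero m hl) h1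
    simp only [map_sub, coeff_mk]
    exact ⟨d, h2⟩
  have : g = PowerSeries.mk q + (g - PowerSeries.mk q) := by abel
  rw [this]
  exact Submodule.add_mem_sup hmk hdiff

/-- **The abstract `T_r`-trick.** -/
theorem false_of_trace_congruence [IsDomain 𝒪] {l u r' u' : 𝒪} {r p s k : ℕ}
    (hr : 1 < r) (hp : 1 < p) (hrp : Nat.Coprime r p) (hl : l ≠ 0) (hs : 1 ≤ s)
    (hru : (r : 𝒪) ^ 2 - 1 = l ^ (s - 1) * u)
    (hr' : l ∣ (r : 𝒪) * r' - 1) (hu' : l ∣ u * u' - 1)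
    (S : ℕ → Submodule 𝒪 𝒪⟦X⟧)
    (hsat : ∀ w (f : 𝒪⟦X⟧), l • f ∈ S w → f ∈ S w)
    (hT : ∀ w, 1 ≤ w → ∀ f ∈ S w, uOp r f + (r : 𝒪) ^ (w - 1) • vOp r f ∈ S w)
    (hSturm : ∀ w, ∀ f ∈ S w, (∀ n, 12 * n ≤ w → l ∣ coeff n f) → ∀ n, l ∣ coeff n f)
    (hA : ∀ F ∈ S k, ∃ X ∈ S (k + 2),
      ∀ n, l ^ s ∣ coeff n (X - ((p : 𝒪) ^ k • vOp p F - uOp p F)))
    (hk : 1 ≤ k) (F : 𝒪⟦X⟧) (hF : F ∈ S k) (hFp : ¬ l ∣ coeff p F) : False := by
  have hr0 : 0 < r := by omega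
  have hp0 : 0 < p := by omega
  -- the operator Φ
  set Φ : 𝒪⟦X⟧ →ₗ[𝒪] 𝒪⟦X⟧ := (p : 𝒪) ^ k • vOp p - uOp p with hΦdef
  have hΦapp : ∀ G, Φ G = (p : 𝒪) ^ k • vOp p G - uOp p G := fun G => rfl
  have hΦ : ∀ G ∈ S k, Φ G ∈ S (k + 2) ⊔ congSub (l ^ s) := by
    intro G hG
    obtain ⟨X, hX, hXc⟩ := hA G hG
    have : Φ G = X + -(X - Φ G) := by abel
    rw [this]
    exact Submodule.add_mem_sup hX
      ((congSub (l ^ s)).neg_mem (show X - Φ G ∈ congSub (l ^ s) from hXc))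
  have hcu : ∀ G, Φ (uOp r G) = uOp r (Φ G) := by
    intro G
    rw [hΦapp, hΦapp, map_sub, map_smul, uOp_vOp_comm hrp.symm, uOp_uOp_comm]
  have hcv : ∀ G, Φ (vOp r G) = vOp r (Φ G) := by
    intro G
    rw [hΦapp, hΦapp, map_sub, map_smul, vOp_vOp_comm hp0 hr0, uOp_vOp_comm hrp]
  set Ns := S (k + 2) ⊔ congSub (l ^ s) with hNs
  set N1 := S (k + 2) ⊔ congSub l with hN1
  have hle : Ns ≤ N1 :=
    sup_le_sup_left (congSub_mono (dvd_pow_self l (by omega))) _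
  have hc1 : congSub l ≤ N1 := le_sup_right
  have hTk2 := hT (k + 2) (by omega)
  have hk2 : k + 2 - 1 = k + 1 := by omega
  rw [hk2] at hTk2
  -- Step 1–3
  have h0 : Φ F ∈ Ns := hΦ F hF
  have h1 : uOp r (Φ F) + (r : 𝒪) ^ (k - 1) • vOp r (Φ F) ∈ Ns := by
    have := hΦ _ (hT k hk F hF)
    rwa [map_add, map_smul, hcu, hcv] at this
  have h2 : uOp r (Φ F) + (r : 𝒪) ^ (k + 1) • vOp r (Φ F) ∈ Ns := hecke_mem_sup hTk2 h0
  have h3 : l ^ (s - 1) • (u • ((r : 𝒪) ^ (k - 1) • vOp r (Φ F))) ∈ Ns := by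
    have h4 := Ns.sub_mem h2 h1
    have e : uOp r (Φ F) + (r : 𝒪) ^ (k + 1) • vOp r (Φ F) -
        (uOp r (Φ F) + (r : 𝒪) ^ (k - 1) • vOp r (Φ F)) =
        l ^ (s - 1) • (u • ((r : 𝒪) ^ (k - 1) • vOp r (Φ F))) := by
      have e2 : (r : 𝒪) ^ (k + 1) = (r : 𝒪) ^ (k - 1) * (r : 𝒪) ^ 2 := by
        rw [← pow_add]; congr 1; omega
      rw [smul_smul, smul_smul, ← hru, e2]
      have : ((r : 𝒪) ^ 2 - 1) * (r : 𝒪) ^ (k - 1) =
          (r : 𝒪) ^ (k - 1) * (r : 𝒪) ^ 2 - (r : 𝒪) ^ (k - 1) := by ring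
      rw [this, sub_smul]; abel
    rwa [e] at h4
  have hs1 : s - 1 + 1 = s := by omega
  have h5 : u • ((r : 𝒪) ^ (k - 1) • vOp r (Φ F)) ∈ N1 := by
    apply mem_sup_of_pow_smul_mem hl (hsat (k + 2)) (s - 1)
    rw [hs1]
    exact h3
  have hW : vOp r (Φ F) ∈ N1 :=
    mem_of_pow_smul_mem hr' hc1 (k - 1) (mem_of_smul_mem hu' hc1 h5)
  -- Step 4
  have hΨ : ∀ j, (vOp r)^[j] (Φ F) ∈ N1 ∧ (vOp r)^[j + 1] (Φ F) ∈ N1 := by
    intro j
    induction j with
    | zero => exact ⟨hle h0, hW⟩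
    | succ j ih =>
      refine ⟨ih.2, ?_⟩
      have h6 := hecke_mem_sup (a := l) hTk2 ih.2
      rw [← hN1] at h6
      have e : uOp r ((vOp r)^[j + 1] (Φ F)) = (vOp r)^[j] (Φ F) := by
        rw [Function.iterate_succ_apply', uOp_vOp hr0]
      rw [e] at h6
      have h7 : (r : 𝒪) ^ (k + 1) • vOp r ((vOp r)^[j + 1] (Φ F)) ∈ N1 := by
        have := N1.sub_mem h6 ih.1
        rwa [add_sub_cancel_left] at this
      rw [Function.iterate_succ_apply' (n := j + 1)]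
      exact mem_of_pow_smul_mem hr' hc1 (k + 1) h7
  -- Step 5: Sturm
  have hSt : ∀ g ∈ N1, (∀ n, 12 * n ≤ k + 2 → l ∣ coeff n g) → ∀ n, l ∣ coeff n g := by
    intro g hg hsmall
    obtain ⟨X, hX, e, he, rfl⟩ := Submodule.mem_sup.mp hg
    have hX' : ∀ n, l ∣ coeff n X := by
      apply hSturm (k + 2) X hX
      intro n hn
      have := dvd_sub (hsmall n hn) (he n)
      simpa using this
    intro n
    simpa using dvd_add (hX' n) (he n)
  set j := k + 2 with hj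
  have hjlt : k + 2 < r ^ j := lt_of_lt_of_le (Nat.lt_pow_self hr) le_rfl
  have hfin := hSt _ (N1.sub_mem (hΨ j).1 (hΨ j).2) (by
    intro n hn
    rw [map_sub, coeff_vOp_iterate hr0, coeff_vOp_iterate hr0]
    rcases Nat.eq_zero_or_pos n with rfl | hn0
    · simp
    · have hnlt : n < r ^ j := by omega
      have hnlt' : n < r ^ (j + 1) :=
        lt_of_lt_of_le hnlt (Nat.pow_le_pow_right hr0 (Nat.le_succ j))
      rw [if_neg (Nat.not_dvd_of_pos_of_lt hn0 hnlt), if_neg (Nat.not_dvd_of_pos_of_lt hn0 hnlt')]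
      simp) (r ^ j)
  rw [map_sub, coeff_vOp_iterate hr0, coeff_vOp_iterate hr0, if_pos dvd_rfl,
    Nat.div_self (Nat.pow_pos hr0), if_neg, sub_zero, hΦapp] at hfin
  · apply hFp
    have hp1 : ¬ p ∣ 1 := by
      intro h
      have := Nat.le_of_dvd one_pos h
      omega
    simp only [map_sub, map_smul, coeff_vOp, if_neg hp1, smul_zero, coeff_uOp, one_mul,
      zero_sub] at hfin
    exact (dvd_neg.mp hfin)
  · intro h
    have h1 := Nat.le_of_dvd (Nat.pow_pos hr0) h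
    have h2 : r ^ j < r ^ (j + 1) := Nat.pow_lt_pow_right hr (Nat.lt_succ_self j)
    omega

end Fermat.Agent.S16.TrTrick
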