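import Mathlib
import Fermat.Agent.S16.TrTrick

/-!
# S16, upper bound: the abstract core of case (D') (`ℓ = 2`, `p ≡ 7 mod 8`, `H ≡ 1 mod 8`)

Board post 524.  Pure power-series algebra, in the setting of `TrTrick.lean` (`𝒪` a domain of
characteristic zero, "level one of weight `w`" = a `2`-saturated submodule `S` of `𝒪⟦X⟧`
satisfying the Sturm bound modulo `2`).

For `H = 1 + 8x`, `E₄ = 1 + 240 A`, `E₆ = 1 - 504 (A + 4 C)` the `b`-invariants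
`B₄ = (H² - E₄)/24 = 2 b4`, `B₆ = (H³ - 3 H E₄ + 2 E₆)/432 = 4 b6`,
`B₈ = (H B₆ - B₄²)/4 = b8` are integral and `b8 ≡ Δ mod 2` (`1728 Δ = E₄³ - E₆²`).  The same
holds at the other cusp for `(x', V A, V C)` and `V Δ`.  If `p + 1 = 2^t u` with `u` odd, the
trace `b8^(2^t) + p U(b8'^(2^t))` is `2^t (Δ^(2^t) + 2 (…))`, which contradicts Sturm in
weight `8 · 2^t` as soon as the trace lies in `S`.
-/

set_option autoImplicit false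

namespace Fermat.Agent.S16.DPrime

open PowerSeries
open Fermat.Agent.S16.TrTrick (uOp vOp)

section Ring

variable {R : Type*} [CommRing R]

/-- `B₄ / 2`, where `B₄ = (H² - E₄)/24`, `H = 1 + 8x`, `E₄ = 1 + 240 A`; `i3 = 1/3`. -/
def b4 (i3 x A : R) : R := i3 * (x + 4 * x ^ 2 - 15 * A)

/-- `B₆ / 4`, where `B₆ = (H³ - 3 H E₄ + 2 E₆)/432`, `E₆ = 1 - 504 (A + 4 C)`. -/
def b6 (i3 x A Cc : R) : R :=
  i3 ^ 2 * x ^ 2 + 8 * i3 ^ 3 * x ^ 3 - A - 10 * i3 * (x * A) - 7 * i3 * Cc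

/-- `B₈ = (H B₆ - B₄²)/4`. -/
def b8 (i3 x A Cc : R) : R := (1 + 8 * x) * b6 i3 x A Cc - b4 i3 x A ^ 2

theorem b4_rel {i3 : R} (h3 : 3 * i3 = 1) (x A : R) :
    24 * (2 * b4 i3 x A) = (1 + 8 * x) ^ 2 - (1 + 240 * A) := by
  unfold b4
  linear_combination (16 * (x + 4 * x ^ 2 - 15 * A)) * h3

theorem b6_rel {i3 : R} (h3 : 3 * i3 = 1) (x A Cc : R) :
    432 * (4 * b6 i3 x A Cc) =
      (1 + 8 * x) ^ 3 - 3 * (1 + 8 * x) * (1 + 240 * A) + 2 * (1 - 504 * (A + 4 * Cc)) := by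
  have h9 : 9 * i3 ^ 2 = 1 := by linear_combination (3 * i3 + 1) * h3
  have h27 : 27 * i3 ^ 3 = 1 := by linear_combination (9 * i3 ^ 2 + 3 * i3 + 1) * h3
  unfold b6
  linear_combination (192 * x ^ 2) * h9 + (512 * x ^ 3) * h27 +
    (-5760 * x * A - 4032 * Cc) * h3

theorem b8_rel (i3 x A Cc : R) :
    4 * b8 i3 x A Cc = (1 + 8 * x) * (4 * b6 i3 x A Cc) - (2 * b4 i3 x A) ^ 2 := by
  unfold b8
  ring

/-- `6912 · B₈` as a polynomial in `H`, `E₄`, `E₆` (isobaric of weight `8`). -/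
def b8n (H E4 E6 : R) : R := H ^ 4 - 6 * H ^ 2 * E4 + 8 * H * E6 - 3 * E4 ^ 2

theorem b8n_eq {i3 : R} (h3 : 3 * i3 = 1) (x A Cc : R) :
    b8n (1 + 8 * x) (1 + 240 * A) (1 - 504 * (A + 4 * Cc)) = 6912 * b8 i3 x A Cc := by
  have r4 := b4_rel h3 x A
  have r6 := b6_rel h3 x A Cc
  have r8 := b8_rel i3 x A Cc
  unfold b8n
  linear_combination (-4 * (1 + 8 * x)) * r6 +
    (3 * (24 * (2 * b4 i3 x A) + ((1 + 8 * x) ^ 2 - (1 + 240 * A)))) * r4 - 1728 * r8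

theorem map_b8n {R' : Type*} [CommRing R'] (φ : R →+* R') (H E4 E6 : R) :
    φ (b8n H E4 E6) = b8n (φ H) (φ E4) (φ E6) := by
  simp only [b8n, map_sub, map_add, map_mul, map_pow, map_ofNat]

theorem e4_eq {i3 : R} (h3 : 3 * i3 = 1) (x A : R) :
    1 + 240 * A = (1 + 8 * x) ^ 2 - 48 * b4 i3 x A := by
  linear_combination (b4_rel h3 x A)

theorem e6_eq {i3 : R} (h3 : 3 * i3 = 1) (x A Cc : R) :
    1 - 504 * (A + 4 * Cc) =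
      (1 + 8 * x) ^ 3 - 72 * (1 + 8 * x) * b4 i3 x A + 864 * b6 i3 x A Cc := by
  have h9 : 9 * i3 ^ 2 = 1 := by linear_combination (3 * i3 + 1) * h3
  have h27 : 27 * i3 ^ 3 = 1 := by linear_combination (9 * i3 ^ 2 + 3 * i3 + 1) * h3
  unfold b4 b6
  linear_combination (-96 * x ^ 2) * h9 + (-256 * x ^ 3) * h27 +
    (2880 * x * A + 2016 * Cc + 24 * (1 + 8 * x) * (x + 4 * x ^ 2 - 15 * A)) * h3

/-- The discriminant identity `E₄³ - E₆² = 1728 (-b₂² b₈ - 8 b₄³ - 27 b₆² + 9 b₂ b₄ b₆)`. -/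
theorem disc_identity {i3 : R} (h3 : 3 * i3 = 1) (x A Cc : R) :
    (1 + 240 * A) ^ 3 - (1 - 504 * (A + 4 * Cc)) ^ 2 =
      1728 * (-(1 + 8 * x) ^ 2 * b8 i3 x A Cc - 64 * b4 i3 x A ^ 3 - 432 * b6 i3 x A Cc ^ 2 +
        72 * (1 + 8 * x) * b4 i3 x A * b6 i3 x A Cc) := by
  have e4 := e4_eq h3 x A
  have e6 := e6_eq h3 x A Cc
  unfold b8
  linear_combination
    ((1 + 240 * A) ^ 2 + (1 + 240 * A) * ((1 + 8 * x) ^ 2 - 48 * b4 i3 x A) +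
      ((1 + 8 * x) ^ 2 - 48 * b4 i3 x A) ^ 2) * e4 -
    ((1 - 504 * (A + 4 * Cc)) +
      ((1 + 8 * x) ^ 3 - 72 * (1 + 8 * x) * b4 i3 x A + 864 * b6 i3 x A Cc)) * e6

/-- `b8 ≡ Δ mod 2`. -/
theorem b8_cong {i3 : R} (h3 : 3 * i3 = 1) (hcancel : ∀ a b : R, 1728 * a = 1728 * b → a = b)
    (x A Cc Δ : R) (hΔ : 1728 * Δ = (1 + 240 * A) ^ 3 - (1 - 504 * (A + 4 * Cc)) ^ 2) :
    ∃ Z : R, b8 i3 x A Cc = Δ + 2 * Z := by
  have h := hcancel _ _ (hΔ.trans (disc_identity h3 x A Cc))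
  refine ⟨-Δ - 32 * b4 i3 x A ^ 3 - 216 * b6 i3 x A Cc ^ 2 +
    36 * (1 + 8 * x) * b4 i3 x A * b6 i3 x A Cc - (8 * x + 32 * x ^ 2) * b8 i3 x A Cc, ?_⟩
  linear_combination h

/-- `y ≡ y' mod 2 ⇒ y^(2^t) ≡ y'^(2^t) mod 2^(t+1)`. -/
theorem pow_two_pow_cong (y z : R) (t : ℕ) :
    ∃ Z : R, (y + 2 * z) ^ 2 ^ t = y ^ 2 ^ t + 2 ^ (t + 1) * Z := by
  induction t with
  | zero => exact ⟨z, by ring⟩
  | succ t ih =>
    obtain ⟨Z, hZ⟩ := ih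
    refine ⟨y ^ 2 ^ t * Z + 2 ^ t * Z ^ 2, ?_⟩
    rw [pow_succ 2 t, pow_mul, hZ, pow_mul]
    ring

end Ring

section PS

variable {𝒪 : Type*} [CommRing 𝒪]

theorem vOp_eq_expand {p : ℕ} (hp : p ≠ 0) (f : 𝒪⟦X⟧) : vOp p f = PowerSeries.expand p hp f := by
  ext n
  rw [TrTrick.coeff_vOp, PowerSeries.coeff_expand]

theorem uOp_vOp_pow {p : ℕ} (hp : p ≠ 0) (f : 𝒪⟦X⟧) (m : ℕ) :
    uOp p (vOp p f ^ m) = f ^ m := by
  rw [vOp_eq_expand hp, ← map_pow, ← vOp_eq_expand hp, TrTrick.uOp_vOp (Nat.pos_of_ne_zero hp)]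

theorem vOp_disc {p : ℕ} (hp : p ≠ 0) {A Cc Δ : 𝒪⟦X⟧}
    (hΔ : 1728 * Δ = (1 + 240 * A) ^ 3 - (1 - 504 * (A + 4 * Cc)) ^ 2) :
    1728 * vOp p Δ = (1 + 240 * vOp p A) ^ 3 - (1 - 504 * (vOp p A + 4 * vOp p Cc)) ^ 2 := by
  have h := congrArg (PowerSeries.expand p hp) hΔ
  simp only [map_mul, map_sub, map_add, map_pow, map_one, map_ofNat] at h
  rw [vOp_eq_expand hp, vOp_eq_expand hp, vOp_eq_expand hp]
  exact h

theorem coeff_pow_of_lt {Δ : 𝒪⟦X⟧} (hΔ0 : coeff 0 Δ = 0) (m n : ℕ) (hn : n < m) :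
    coeff n (Δ ^ m) = 0 := by
  have h := PowerSeries.eq_shift_mul_X_add_const Δ
  rw [← PowerSeries.coeff_zero_eq_constantCoeff_apply, hΔ0, map_zero, add_zero] at h
  rw [h, mul_pow, PowerSeries.coeff_mul_X_pow', if_neg (by omega)]

theorem coeff_pow_self {Δ : 𝒪⟦X⟧} (hΔ0 : coeff 0 Δ = 0) (hΔ1 : coeff 1 Δ = 1) (m : ℕ) :
    coeff m (Δ ^ m) = 1 := by
  have h := PowerSeries.eq_shift_mul_X_add_const Δ
  rw [← PowerSeries.coeff_zero_eq_constantCoeff_apply, hΔ0, map_zero, add_zero] at h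
  rw [h, mul_pow, PowerSeries.coeff_mul_X_pow', if_pos le_rfl, Nat.sub_self,
    PowerSeries.coeff_zero_eq_constantCoeff_apply, map_pow,
    ← PowerSeries.coeff_zero_eq_constantCoeff_apply, PowerSeries.coeff_mk]
  simp [hΔ1]

/-- **Abstract core of (D').**  `S` plays the role of the `𝒪`-integral `q`-expansions of
level-one forms of weight `8 · 2^t`. -/
theorem false_of_trace_mem [IsDomain 𝒪] [CharZero 𝒪] {p t u : ℕ} (hp : p ≠ 0)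
    (hpu : p + 1 = 2 ^ t * u) (hu : Odd u) {i3 : 𝒪} (h3 : 3 * i3 = 1) (h2 : ¬ (2 : 𝒪) ∣ 1)
    (A Cc Δ x x' : 𝒪⟦X⟧)
    (hΔ : 1728 * Δ = (1 + 240 * A) ^ 3 - (1 - 504 * (A + 4 * Cc)) ^ 2)
    (hΔ0 : coeff 0 Δ = 0) (hΔ1 : coeff 1 Δ = 1)
    (S : Submodule 𝒪 𝒪⟦X⟧) (hsat : ∀ f : 𝒪⟦X⟧, (2 : 𝒪) • f ∈ S → f ∈ S)
    (hSturm : ∀ f ∈ S, (∀ n, 12 * n ≤ 8 * 2 ^ t → (2 : 𝒪) ∣ coeff n f) →
      ∀ n, (2 : 𝒪) ∣ coeff n f)
    (hT : b8 (C i3) x A Cc ^ 2 ^ t +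
      (p : 𝒪) • uOp p (b8 (C i3) x' (vOp p A) (vOp p Cc) ^ 2 ^ t) ∈ S) : False := by
  have h3' : (3 : 𝒪⟦X⟧) * C i3 = 1 := by
    rw [← map_ofNat (C (R := 𝒪)) 3, ← map_mul, h3, map_one]
  have h1728 : (1728 : 𝒪⟦X⟧) ≠ 0 := by
    rw [← map_ofNat (C (R := 𝒪)) 1728]
    intro h
    have := (PowerSeries.C_injective (R := 𝒪)) (h.trans (map_zero _).symm)
    exact (OfNat.ofNat_ne_zero 1728) this
  have hcancel : ∀ a b : 𝒪⟦X⟧, 1728 * a = 1728 * b → a = b :=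
    fun a b h => mul_left_cancel₀ h1728 h
  obtain ⟨Z1, hZ1⟩ := b8_cong h3' hcancel x A Cc Δ hΔ
  obtain ⟨Z2, hZ2⟩ := b8_cong h3' hcancel x' (vOp p A) (vOp p Cc) (vOp p Δ) (vOp_disc hp hΔ)
  obtain ⟨W1, hW1⟩ := pow_two_pow_cong Δ Z1 t
  obtain ⟨W2, hW2⟩ := pow_two_pow_cong (vOp p Δ) Z2 t
  obtain ⟨u', hu'⟩ := hu
  -- the trace is `2^t • Y`
  set Y' : 𝒪⟦X⟧ := (u' : 𝒪) • Δ ^ 2 ^ t + W1 + (p : 𝒪) • uOp p W2 with hY'
  have hTeq : b8 (C i3) x A Cc ^ 2 ^ t +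
      (p : 𝒪) • uOp p (b8 (C i3) x' (vOp p A) (vOp p Cc) ^ 2 ^ t) =
      ((2 : 𝒪) ^ t) • (Δ ^ 2 ^ t + (2 : 𝒪) • Y') := by
    have e2 : (2 : 𝒪⟦X⟧) ^ (t + 1) * W2 = ((2 : 𝒪) ^ (t + 1)) • W2 := by
      rw [PowerSeries.smul_eq_C_mul, map_pow, map_ofNat]
    have hpu' : (p : 𝒪) + 1 = 2 ^ t * (2 * u' + 1) := by
      have := congrArg (Nat.cast (R := 𝒪)) hpu
      rw [hu'] at this
      push_cast at this
      exact this
    rw [hZ1, hW1, hZ2, hW2, map_add, uOp_vOp_pow hp, e2, map_smul, hY']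
    simp only [PowerSeries.smul_eq_C_mul, map_pow, map_ofNat, map_natCast]
    have hpu'' : (p : 𝒪⟦X⟧) + 1 = 2 ^ t * (2 * (u' : 𝒪⟦X⟧) + 1) := by
      have := congrArg (C (R := 𝒪)) hpu'
      simp only [map_add, map_mul, map_pow, map_natCast, map_one, map_ofNat] at this
      exact this
    linear_combination (Δ ^ 2 ^ t) * hpu''
  rw [hTeq] at hT
  have hsat' : ∀ (j : ℕ) (f : 𝒪⟦X⟧), ((2 : 𝒪) ^ j) • f ∈ S → f ∈ S := by
    intro j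
    induction j with
    | zero => intro f hf; simpa using hf
    | succ j ih =>
      intro f hf
      apply ih
      apply hsat
      rwa [smul_smul, ← pow_succ']
  have hY := hsat' t _ hT
  have hdvd := hSturm _ hY (by
    intro n hn
    have hlt : n < 2 ^ t := by
      have : 0 < 2 ^ t := Nat.pos_of_ne_zero (by positivity)
      omega
    rw [map_add, coeff_pow_of_lt hΔ0 _ _ hlt, zero_add, PowerSeries.coeff_smul]
    exact Dvd.intro _ rfl) (2 ^ t)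
  rw [map_add, coeff_pow_self hΔ0 hΔ1, PowerSeries.coeff_smul] at hdvd
  apply h2
  have := dvd_sub hdvd (Dvd.intro (coeff (2 ^ t) Y') rfl)
  simpa using this

end PS

end Fermat.Agent.S16.DPrime
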