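/-
S16 (U), block [M] = W3 + level-one Sturm: a level-one modular form of weight `k` whose first
`⌊k/12⌋ + 1` `q`-expansion coefficients lie in an additive subgroup `A ⊆ ℂ` is an isobaric
polynomial in `E₄`, `E₆`, `Δ` with coefficients in `A`, and ALL its `q`-coefficients lie in `A`.
Owner: helper17.  Imports Mathlib + S24/JFormal (q-expansion of `Δ`).
All names live in the namespace `Fermat.Agent.S16.LevelOneInt`.
-/
import Mathlib
import Fermat.Agent.S24.JFormal

set_option autoImplicit false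

noncomputable section

namespace Fermat.Agent.S16.LevelOneInt

open UpperHalfPlane ModularForm EisensteinSeries CongruenceSubgroup
open scoped MatrixGroups ModularForm Manifold ArithmeticFunction.sigma

/-! ### Integral models of the `q`-expansions of `E₄`, `E₆`, `Δ` -/

/-- `1 + 240 ∑ σ₃(n) qⁿ`. -/
def E4Z : PowerSeries ℤ := PowerSeries.mk fun m => if m = 0 then 1 else 240 * (σ 3 m : ℤ)

/-- `1 - 504 ∑ σ₅(n) qⁿ`. -/
def E6Z : PowerSeries ℤ := PowerSeries.mk fun m => if m = 0 then 1 else -504 * (σ 5 m : ℤ)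

/-- `q ∏ (1 - qⁿ)^24`. -/
def DeltaZ : PowerSeries ℤ := PowerSeries.X * ModularCurve.dedekindEtaUnit

theorem coeff_E4Z (m : ℕ) :
    PowerSeries.coeff m E4Z = if m = 0 then 1 else 240 * (σ 3 m : ℤ) := by
  rw [E4Z, PowerSeries.coeff_mk]

theorem coeff_E6Z (m : ℕ) :
    PowerSeries.coeff m E6Z = if m = 0 then 1 else -504 * (σ 5 m : ℤ) := by
  rw [E6Z, PowerSeries.coeff_mk]

theorem constantCoeff_E4Z : PowerSeries.constantCoeff E4Z = 1 := by
  rw [← PowerSeries.coeff_zero_eq_constantCoeff_apply, coeff_E4Z, if_pos rfl]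

theorem constantCoeff_E6Z : PowerSeries.constantCoeff E6Z = 1 := by
  rw [← PowerSeries.coeff_zero_eq_constantCoeff_apply, coeff_E6Z, if_pos rfl]

theorem E4_qExpansion_coeff (m : ℕ) :
    (qExpansion 1 (⇑E₄ : ℍ → ℂ)).coeff m = if m = 0 then 1 else 240 * (σ 3 m : ℂ) := by
  rw [E_qExpansion_coeff (by norm_num : 3 ≤ 4) ⟨2, rfl⟩ m]
  by_cases hm : m = 0
  · simp [hm]
  · rw [if_neg hm, if_neg hm, show bernoulli 4 = -1 / 30 by decide +kernel]
    push_cast
    ring

theorem E6_qExpansion_coeff (m : ℕ) :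
    (qExpansion 1 (⇑E₆ : ℍ → ℂ)).coeff m = if m = 0 then 1 else -504 * (σ 5 m : ℂ) := by
  rw [E_qExpansion_coeff (by norm_num : 3 ≤ 6) ⟨3, rfl⟩ m]
  by_cases hm : m = 0
  · simp [hm]
  · rw [if_neg hm, if_neg hm, show bernoulli 6 = 1 / 42 by decide +kernel]
    push_cast
    ring

/-- `E₄ = 1 + 240 ∑ σ₃(n) qⁿ`. -/
theorem qExpansion_E4 : qExpansion 1 (⇑E₄ : ℍ → ℂ) = E4Z.map (Int.castRingHom ℂ) := by
  ext m
  rw [E4_qExpansion_coeff, PowerSeries.coeff_map, coeff_E4Z]
  split_ifs <;> simp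

/-- `E₆ = 1 - 504 ∑ σ₅(n) qⁿ`. -/
theorem qExpansion_E6 : qExpansion 1 (⇑E₆ : ℍ → ℂ) = E6Z.map (Int.castRingHom ℂ) := by
  ext m
  rw [E6_qExpansion_coeff, PowerSeries.coeff_map, coeff_E6Z]
  split_ifs <;> simp

/-- `Δ = q ∏ (1 - qⁿ)^24`. -/
theorem qExpansion_Delta :
    qExpansion 1 (ModularForm.discriminant : ℍ → ℂ) = DeltaZ.map (Int.castRingHom ℂ) := by
  rw [S24.JFormal.qExpansion_discriminant, DeltaZ, map_mul, PowerSeries.map_X]

/-! ### Power series whose first coefficients lie in an additive subgroup -/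

/-- All coefficients of index `≤ N` lie in `A`. -/
def CoeffMem (A : AddSubgroup ℂ) (N : ℕ) (P : PowerSeries ℂ) : Prop :=
  ∀ n ≤ N, PowerSeries.coeff n P ∈ A

variable {A : AddSubgroup ℂ} {N : ℕ}

theorem CoeffMem.mono {P : PowerSeries ℂ} {M : ℕ} (h : CoeffMem A N P) (hM : M ≤ N) :
    CoeffMem A M P := fun n hn => h n (hn.trans hM)

theorem CoeffMem.add {P Q : PowerSeries ℂ} (hP : CoeffMem A N P) (hQ : CoeffMem A N Q) :
    CoeffMem A N (P + Q) := fun n hn => by
  rw [map_add]
  exact add_mem (hP n hn) (hQ n hn)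

theorem CoeffMem.sub {P Q : PowerSeries ℂ} (hP : CoeffMem A N P) (hQ : CoeffMem A N Q) :
    CoeffMem A N (P - Q) := fun n hn => by
  rw [map_sub]
  exact sub_mem (hP n hn) (hQ n hn)

theorem coeffMem_zero : CoeffMem A N 0 := fun n _ => by
  rw [map_zero]
  exact zero_mem A

/-- Multiplication by an integral power series preserves `CoeffMem`. -/
theorem CoeffMem.int_mul {P : PowerSeries ℂ} (hP : CoeffMem A N P) (Z : PowerSeries ℤ) :
    CoeffMem A N (Z.map (Int.castRingHom ℂ) * P) := fun n hn => by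
  rw [PowerSeries.coeff_mul]
  refine sum_mem (fun ij hij => ?_)
  have hj : ij.2 ≤ N := by
    have := Finset.HasAntidiagonal.mem_antidiagonal.mp hij
    omega
  rw [PowerSeries.coeff_map, eq_intCast, ← zsmul_eq_mul]
  exact zsmul_mem (hP ij.2 hj) _

/-- An element of `A` times an integral power series has all coefficients in `A`. -/
theorem coeffMem_smul_int {c : ℂ} (hc : c ∈ A) (Z : PowerSeries ℤ) :
    CoeffMem A N (c • Z.map (Int.castRingHom ℂ)) := fun n _ => by
  rw [PowerSeries.coeff_smul, PowerSeries.coeff_map, eq_intCast, smul_eq_mul, mul_comm,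
    ← zsmul_eq_mul]
  exact zsmul_mem hc _

/-- Division by `Δ`: the first `N + 1` coefficients of `B` are integral combinations of the
first `N + 2` coefficients of `Δ * B`. -/
theorem CoeffMem.of_discriminant_mul {Q B : PowerSeries ℂ} (hQ : CoeffMem A (N + 1) Q)
    (h : Q = qExpansion 1 (ModularForm.discriminant : ℍ → ℂ) * B) : CoeffMem A N B := by
  have hU : ModularCurve.dedekindEtaUnitInv.map (Int.castRingHom ℂ) *
      ModularCurve.dedekindEtaUnit.map (Int.castRingHom ℂ) = 1 := by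
    rw [← map_mul, mul_comm, ModularCurve.dedekindEtaUnit_mul_inv, map_one]
  have hXB : PowerSeries.X * B = ModularCurve.dedekindEtaUnitInv.map (Int.castRingHom ℂ) * Q := by
    rw [h, S24.JFormal.qExpansion_discriminant]
    calc PowerSeries.X * B
        = (ModularCurve.dedekindEtaUnitInv.map (Int.castRingHom ℂ) *
            ModularCurve.dedekindEtaUnit.map (Int.castRingHom ℂ)) * (PowerSeries.X * B) := by
          rw [hU, one_mul]
      _ = _ := by ring
  have hmem : CoeffMem A (N + 1) (PowerSeries.X * B) := by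
    rw [hXB]
    exact hQ.int_mul _
  intro n hn
  have := hmem (n + 1) (Nat.succ_le_succ hn)
  rwa [PowerSeries.coeff_succ_X_mul] at this

theorem CoeffMem.discriminant_mul {B : PowerSeries ℂ} (hB : CoeffMem A N B) :
    CoeffMem A N (qExpansion 1 (ModularForm.discriminant : ℍ → ℂ) * B) := by
  rw [qExpansion_Delta]
  exact hB.int_mul _

/-- The weights of `E₄`, `E₆`, `Δ`. -/
def wtVec : Fin 3 → ℕ := ![4, 6, 12]

/-- The point `(E₄ z, E₆ z, Δ z)`. -/
def genVec (z : ℍ) : Fin 3 → ℂ := ![E₄ z, E₆ z, ModularForm.discriminant z]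

theorem wtVec_zero : wtVec 0 = 4 := rfl
theorem wtVec_one : wtVec 1 = 6 := rfl
theorem wtVec_two : wtVec 2 = 12 := rfl
theorem genVec_zero (z : ℍ) : genVec z 0 = E₄ z := rfl
theorem genVec_one (z : ℍ) : genVec z 1 = E₆ z := rfl
theorem genVec_two (z : ℍ) : genVec z 2 = ModularForm.discriminant z := rfl

theorem exists_weights {k : ℤ} (hk0 : 0 ≤ k) (hodd : ¬ Odd k) (h2 : k ≠ 2) :
    ∃ a b : ℕ, (a : ℤ) * 4 + (b : ℤ) * 6 = k := by
  obtain ⟨K, rfl⟩ := Int.eq_ofNat_of_zero_le hk0
  have hev : Even K := by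
    rw [← Nat.not_odd_iff_even]
    intro h
    exact hodd (by exact_mod_cast h)
  have hK2 : K ≠ 2 := fun h => h2 (by rw [h]; rfl)
  obtain ⟨m, hm⟩ := hev
  refine ⟨if K % 4 = 0 then K / 4 else (K - 6) / 4, if K % 4 = 0 then 0 else 1, ?_⟩
  split_ifs with h4
  · push_cast
    omega
  · push_cast
    omega

/-- The conclusion of the core induction. -/
def Concl (A : AddSubgroup ℂ) (k : ℤ) (f : ℍ → ℂ) : Prop :=
  (∃ P : MvPolynomial (Fin 3) ℂ, (∀ d, P.coeff d ∈ A) ∧
      MvPolynomial.IsWeightedHomogeneous wtVec P k.toNat ∧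
      ∀ z : ℍ, f z = MvPolynomial.eval (genVec z) P) ∧
    ∀ n, (qExpansion 1 f).coeff n ∈ A

theorem concl_zero (A : AddSubgroup ℂ) (k : ℤ) {f : ℍ → ℂ} (hf : f = 0) : Concl A k f := by
  subst hf
  refine ⟨⟨0, fun d => ?_, MvPolynomial.isWeightedHomogeneous_zero _ _ _, fun z => ?_⟩,
    fun n => ?_⟩
  · rw [MvPolynomial.coeff_zero]
    exact zero_mem A
  · rw [map_zero]
    rfl
  · rw [qExpansion_zero, map_zero]
    exact zero_mem A

/-- Core induction for W3 / level-one Sturm. -/
theorem core (A : AddSubgroup ℂ) : ∀ (n : ℕ) (k : ℤ), k < 12 * (n : ℤ) →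
    ∀ f : ModularForm 𝒮ℒ k,
    (∀ m : ℕ, 12 * (m : ℤ) ≤ k → (qExpansion 1 (⇑f : ℍ → ℂ)).coeff m ∈ A) →
    Concl A k (⇑f : ℍ → ℂ) := by
  intro n
  induction n with
  | zero =>
    intro k hk f _
    have hk' : k < 0 := by simpa using hk
    exact concl_zero A k (ModularFormClass.levelOne_neg_weight_eq_zero hk' f)
  | succ n ih =>
    intro k hk f hf
    by_cases hneg : k < 0
    · exact concl_zero A k (ModularFormClass.levelOne_neg_weight_eq_zero hneg f)
    by_cases hodd : Odd k
    · exact concl_zero A k (by rw [ModularForm.levelOne_odd_weight_eq_zero hodd f]; rfl)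
    by_cases h2 : k = 2
    · subst h2
      have h0 : f = 0 :=
        (rank_zero_iff_forall_zero.mp ModularForm.levelOne_weight_two_rank_zero) f
      exact concl_zero A 2 (by rw [h0]; rfl)
    have hk0 : 0 ≤ k := not_lt.mp hneg
    obtain ⟨a, b, hab⟩ := exists_weights hk0 hodd h2
    set G : ModularForm 𝒮ℒ k := ModularForm.mcast hab ((E₄.pow a).mul (E₆.pow b)) with hG
    have hGz : ∀ z : ℍ, G z = E₄ z ^ a * E₆ z ^ b := by
      intro z
      rw [hG, ModularForm.mcast_apply]
      show ((E₄.pow a).mul (E₆.pow b)) z = _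
      rw [ModularForm.coe_mul, Pi.mul_apply, ModularForm.coe_pow, ModularForm.coe_pow]
      rfl
    have hGq : qExpansion 1 (⇑G : ℍ → ℂ) = (E4Z ^ a * E6Z ^ b).map (Int.castRingHom ℂ) := by
      rw [hG, ModularForm.qExpansion_mcast,
        ModularForm.qExpansion_mul one_pos one_mem_strictPeriods_SL,
        ModularForm.qExpansion_pow one_pos one_mem_strictPeriods_SL,
        ModularForm.qExpansion_pow one_pos one_mem_strictPeriods_SL, qExpansion_E4,
        qExpansion_E6, map_mul, map_pow, map_pow]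
    have hG0 : (qExpansion 1 (⇑G : ℍ → ℂ)).coeff 0 = 1 := by
      rw [hGq, PowerSeries.coeff_map, PowerSeries.coeff_zero_eq_constantCoeff_apply, map_mul,
        map_pow, map_pow, constantCoeff_E4Z, constantCoeff_E6Z, one_pow, one_pow, one_mul]
      exact map_one _
    set c : ℂ := (qExpansion 1 (⇑f : ℍ → ℂ)).coeff 0 with hc
    have hcA : c ∈ A := hf 0 (by simpa using hk0)
    set g' : ModularForm 𝒮ℒ k := f - c • G with hg'
    have hg'q : qExpansion 1 (⇑g' : ℍ → ℂ)
        = qExpansion 1 (⇑f : ℍ → ℂ) - c • qExpansion 1 (⇑G : ℍ → ℂ) := by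
      rw [hg', FunLike.coe_sub, ModularForm.qExpansion_sub one_pos one_mem_strictPeriods_SL,
        FunLike.coe_smul, ModularForm.qExpansion_smul one_pos one_mem_strictPeriods_SL]
    have hfq : qExpansion 1 (⇑f : ℍ → ℂ)
        = qExpansion 1 (⇑g' : ℍ → ℂ) + c • qExpansion 1 (⇑G : ℍ → ℂ) := by
      rw [hg'q, sub_add_cancel]
    have hcusp : (qExpansion 1 (⇑g' : ℍ → ℂ)).coeff 0 = 0 := by
      rw [hg'q, map_sub, PowerSeries.coeff_smul, hG0, smul_eq_mul, mul_one, sub_self]
    set h : ModularForm 𝒮ℒ (k - 12) := CuspForm.discriminantEquiv (toCuspForm g' hcusp) with hh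
    have hhz : ∀ z : ℍ, ModularForm.discriminant z * h z = f z - c * (E₄ z ^ a * E₆ z ^ b) := by
      intro z
      rw [hh, ModularForm.discriminant_mul_discriminantEquiv_apply]
      show g' z = _
      rw [hg']
      simp [hGz]
    have hq : qExpansion 1 (⇑g' : ℍ → ℂ)
        = qExpansion 1 (ModularForm.discriminant : ℍ → ℂ) * qExpansion 1 (⇑h : ℍ → ℂ) :=
      ModularForm.qExpansion_eq_qExpansion_discriminant_mul g' hcusp
    -- the monomial `c * E₄^a * E₆^b`
    have hmono : MvPolynomial.IsWeightedHomogeneous wtVec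
        (MvPolynomial.monomial (Finsupp.single 0 a + Finsupp.single 1 b) c :
          MvPolynomial (Fin 3) ℂ) k.toNat := by
      refine MvPolynomial.isWeightedHomogeneous_monomial _ _ _ ?_
      rw [map_add, Finsupp.weight_single, Finsupp.weight_single, wtVec_zero, wtVec_one,
        smul_eq_mul, smul_eq_mul]
      omega
    have hmonoz : ∀ z : ℍ, MvPolynomial.eval (genVec z)
        (MvPolynomial.monomial (Finsupp.single 0 a + Finsupp.single 1 b) c :
          MvPolynomial (Fin 3) ℂ) = c * (E₄ z ^ a * E₆ z ^ b) := by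
      intro z
      rw [MvPolynomial.eval_monomial, Finsupp.prod_add_index' (fun _ => pow_zero _)
        (fun _ _ _ => pow_add _ _ _)]
      simp only [Finsupp.prod_single_index, pow_zero, genVec_zero, genVec_one]
    have hmonoA : ∀ d, (MvPolynomial.monomial (Finsupp.single 0 a + Finsupp.single 1 b) c :
          MvPolynomial (Fin 3) ℂ).coeff d ∈ A := by
      intro d
      classical
      rw [MvPolynomial.coeff_monomial]
      split_ifs
      · exact hcA
      · exact zero_mem A
    by_cases hk12 : k < 12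
    · have hh0 : (⇑h : ℍ → ℂ) = 0 :=
        ModularFormClass.levelOne_neg_weight_eq_zero (by omega) h
      have hg'0 : qExpansion 1 (⇑g' : ℍ → ℂ) = 0 := by
        rw [hq, hh0, qExpansion_zero, mul_zero]
      refine ⟨⟨_, hmonoA, hmono, fun z => ?_⟩, fun m => ?_⟩
      · have := hhz z
        rw [congrFun hh0 z, Pi.zero_apply, mul_zero] at this
        rw [hmonoz z]
        linear_combination -this
      · rw [hfq, hg'0, zero_add, hGq]
        exact coeffMem_smul_int hcA _ m le_rfl
    · -- the first coefficients of `g'` and of `h` lie in `A`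
      have hg'A : ∀ m : ℕ, 12 * (m : ℤ) ≤ k → (qExpansion 1 (⇑g' : ℍ → ℂ)).coeff m ∈ A := by
        intro m hm
        rw [hg'q, map_sub]
        refine sub_mem (hf m hm) ?_
        rw [hGq]
        exact coeffMem_smul_int hcA _ m le_rfl
      have hhA : ∀ m : ℕ, 12 * (m : ℤ) ≤ k - 12 → (qExpansion 1 (⇑h : ℍ → ℂ)).coeff m ∈ A := by
        intro m hm
        have hQ : CoeffMem A (m + 1) (qExpansion 1 (⇑g' : ℍ → ℂ)) := by
          intro j hj
          refine hg'A j ?_
          have : (j : ℤ) ≤ (m : ℤ) + 1 := by exact_mod_cast hj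
          omega
        exact hQ.of_discriminant_mul hq m le_rfl
      obtain ⟨⟨P, hPA, hPw, hP⟩, hhall⟩ := ih (k - 12) (by push_cast at hk ⊢; omega) h hhA
      refine ⟨⟨MvPolynomial.monomial (Finsupp.single 0 a + Finsupp.single 1 b) c
        + MvPolynomial.X 2 * P, fun d => ?_, ?_, fun z => ?_⟩, fun m => ?_⟩
      · rw [MvPolynomial.coeff_add]
        refine add_mem (hmonoA d) ?_
        classical
        rw [MvPolynomial.coeff_X_mul']
        split_ifs
        · exact hPA _
        · exact zero_mem A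
      · refine hmono.add ?_
        have h1 := (MvPolynomial.isWeightedHomogeneous_X (R := ℂ) wtVec (2 : Fin 3)).mul hPw
        have e : wtVec 2 + (k - 12).toNat = k.toNat := by
          rw [wtVec_two]
          omega
        rw [e] at h1
        exact h1
      · rw [map_add, hmonoz z, map_mul, MvPolynomial.eval_X, genVec_two, ← hP z]
        have := hhz z
        linear_combination -this
      · rw [hfq, hq, hGq]
        have h1 : CoeffMem A m (qExpansion 1 (ModularForm.discriminant : ℍ → ℂ)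
            * qExpansion 1 (⇑h : ℍ → ℂ)) :=
          CoeffMem.discriminant_mul (fun j _ => hhall j)
        exact (h1.add (coeffMem_smul_int hcA _)) m le_rfl

/-- **W3 + level-one Sturm, additive-subgroup form.**  If the `q`-expansion coefficients `aₘ`
of a level-one form `f` of weight `k` lie in the additive subgroup `A ⊆ ℂ` for all `m` with
`12 m ≤ k`, then `f` is an isobaric polynomial of weight `k` in `E₄`, `E₆`, `Δ` all of whose
coefficients lie in `A`, and ALL `q`-expansion coefficients of `f` lie in `A`. -/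
theorem exists_isobaric_of_coeff_mem (A : AddSubgroup ℂ) (k : ℤ) (f : ModularForm 𝒮ℒ k)
    (hf : ∀ m : ℕ, 12 * (m : ℤ) ≤ k → (qExpansion 1 (⇑f : ℍ → ℂ)).coeff m ∈ A) :
    (∃ P : MvPolynomial (Fin 3) ℂ, (∀ d, P.coeff d ∈ A) ∧
      MvPolynomial.IsWeightedHomogeneous wtVec P k.toNat ∧
      ∀ z : ℍ, f z = MvPolynomial.eval (genVec z) P) ∧
    ∀ n, (qExpansion 1 (⇑f : ℍ → ℂ)).coeff n ∈ A :=
  core A (k.toNat + 1) k (by omega) f hf

/-- **Level-one Sturm bound modulo an additive subgroup.** -/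
theorem sturm_levelOne_mem (A : AddSubgroup ℂ) (k : ℤ) (f : ModularForm 𝒮ℒ k)
    (hf : ∀ m : ℕ, 12 * (m : ℤ) ≤ k → (qExpansion 1 (⇑f : ℍ → ℂ)).coeff m ∈ A) (n : ℕ) :
    (qExpansion 1 (⇑f : ℍ → ℂ)).coeff n ∈ A :=
  (exists_isobaric_of_coeff_mem A k f hf).2 n

/-- **W3, subring form.**  A level-one modular form of weight `k` whose `q`-expansion has all
coefficients in the subring `𝒪` is an isobaric polynomial of weight `k` in `E₄`, `E₆`, `Δ` with
coefficients in `𝒪`. -/
theorem exists_isobaric_of_qExpansion_mem (𝒪 : Subring ℂ) (k : ℤ) (f : ModularForm 𝒮ℒ k)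
    (hf : ∀ n, (qExpansion 1 (⇑f : ℍ → ℂ)).coeff n ∈ 𝒪) :
    ∃ P : MvPolynomial (Fin 3) 𝒪, MvPolynomial.IsWeightedHomogeneous wtVec P k.toNat ∧
      ∀ z : ℍ, f z = MvPolynomial.eval₂ 𝒪.subtype (genVec z) P := by
  obtain ⟨⟨P, hPA, hPw, hP⟩, -⟩ :=
    exists_isobaric_of_coeff_mem 𝒪.toAddSubgroup k f (fun m _ => hf m)
  set P' : MvPolynomial (Fin 3) 𝒪 :=
    ∑ d ∈ P.support, MvPolynomial.monomial d (⟨P.coeff d, hPA d⟩ : 𝒪) with hP'
  have hmap : MvPolynomial.map 𝒪.subtype P' = P := by
    rw [hP', map_sum]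
    simp only [MvPolynomial.map_monomial, Subring.coe_subtype]
    exact MvPolynomial.support_sum_monomial_coeff P
  refine ⟨P', ?_, fun z => ?_⟩
  · intro d hd
    refine hPw ?_
    rw [← hmap, MvPolynomial.coeff_map]
    intro h0
    exact hd (Subtype.ext h0)
  · rw [MvPolynomial.eval₂_eq_eval_map, hmap]
    exact hP z

end Fermat.Agent.S16.LevelOneInt
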