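/-
S16 (U): shared definitions of the upper-bound half.  OWNER: helper45 (only the owner edits).
Tiny and FROZEN once landed.

* `HasQ f a`     : `f τ = ∑ a_n q^n` for every `τ` in the upper half plane (`q = exp (2 π i τ)`).
* `LQ w`         : the set of `q`-expansions of level-one modular forms of weight `w`.
* `IsPair p w b bh` : `b`, `bh` are the expansions at the two cusps of a weight `w` modular form
  `B` on `Γ₀(p)`: `b` is the `q`-expansion of `B` and `bh` that of `z ↦ (B ∣[w] S) (p z)`.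
* `Zl ℓ`         : the subring of `ℂ` of `ℓ`-integral rational numbers.

The formal `q`-series operators are `TrTrick.uOp`, `TrTrick.vOp` (file `S16/TrTrick.lean`).
-/
import Mathlib
import Fermat.Agent.S20.Defs
import Fermat.Agent.S23.Basic
import Fermat.Agent.S16.TrTrick

set_option autoImplicit false

namespace Fermat.Agent.S16

open UpperHalfPlane ModularForm
open scoped MatrixGroups ModularForm

/-- `f τ = ∑ a_n q^n` on the whole upper half plane. -/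
def HasQ (f : ℍ → ℂ) (a : PowerSeries ℂ) : Prop :=
  ∀ τ : ℍ, HasSum (fun n : ℕ => PowerSeries.coeff n a * Function.Periodic.qParam 1 τ ^ n) (f τ)

/-- The `q`-expansions of the level-one modular forms of weight `w`. -/
def LQ (w : ℤ) : Set (PowerSeries ℂ) :=
  {a | ∃ F : ModularForm 𝒮ℒ w, qExpansion 1 F = a}

/-- `b`, `bh` are the expansions at the two cusps of a modular form `B` of weight `w` on
`Γ₀(p)`: `b` is the `q`-expansion of `B`, and `bh` is the `q`-expansion of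
`z ↦ (B ∣[w] S) (p z)`. -/
def IsPair (p : ℕ) [NeZero p] (w : ℤ) (b bh : PowerSeries ℂ) : Prop :=
  ∃ B ∈ S20.MF p w, HasQ B b ∧
    HasQ (fun z : ℍ => (B ∣[w] ModularGroup.S) (S23.mulN p z)) bh

/-- The `ℓ`-integral rational numbers, as a subring of `ℂ`. -/
def Zl (ℓ : ℕ) : Subring ℂ where
  carrier := {x | ∃ (a : ℤ) (m : ℕ), m.Coprime ℓ ∧ (m : ℂ) * x = a}
  mul_mem' := by
    rintro x y ⟨a, m, hm, hx⟩ ⟨b, n, hn, hy⟩
    refine ⟨a * b, m * n, Nat.Coprime.mul_left hm hn, ?_⟩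
    push_cast
    rw [← hx, ← hy]; ring
  one_mem' := ⟨1, 1, Nat.coprime_one_left ℓ, by simp⟩
  add_mem' := by
    rintro x y ⟨a, m, hm, hx⟩ ⟨b, n, hn, hy⟩
    refine ⟨a * n + b * m, m * n, Nat.Coprime.mul_left hm hn, ?_⟩
    push_cast
    rw [← hx, ← hy]; ring
  zero_mem' := ⟨0, 1, Nat.coprime_one_left ℓ, by simp⟩
  neg_mem' := by
    rintro x ⟨a, m, hm, hx⟩
    refine ⟨-a, m, hm, ?_⟩
    push_cast
    rw [← hx]; ring

theorem mem_Zl {ℓ : ℕ} {x : ℂ} :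
    x ∈ Zl ℓ ↔ ∃ (a : ℤ) (m : ℕ), m.Coprime ℓ ∧ (m : ℂ) * x = a := Iff.rfl

theorem intCast_mem_Zl (ℓ : ℕ) (a : ℤ) : (a : ℂ) ∈ Zl ℓ :=
  ⟨a, 1, Nat.coprime_one_left ℓ, by simp⟩

theorem natCast_mem_Zl (ℓ : ℕ) (a : ℕ) : (a : ℂ) ∈ Zl ℓ :=
  ⟨a, 1, Nat.coprime_one_left ℓ, by simp⟩

/-- `1 / m ∈ ℤ_(ℓ)` for `m` prime to `ℓ`. -/
theorem inv_natCast_mem_Zl {ℓ m : ℕ} (hm : m.Coprime ℓ) (hm0 : m ≠ 0) : ((m : ℂ))⁻¹ ∈ Zl ℓ :=
  ⟨1, m, hm, by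
    have : (m : ℂ) ≠ 0 := by exact_mod_cast hm0
    simp [mul_inv_cancel₀ this]⟩

/-- `a / m ∈ ℤ_(ℓ)` for `m` prime to `ℓ`. -/
theorem div_mem_Zl {ℓ m : ℕ} (hm : m.Coprime ℓ) (hm0 : m ≠ 0) (a : ℤ) :
    (a : ℂ) / (m : ℂ) ∈ Zl ℓ := by
  rw [div_eq_mul_inv]
  exact (Zl ℓ).mul_mem (intCast_mem_Zl ℓ a) (inv_natCast_mem_Zl hm hm0)

/-- An integer that is `ℓ^s` times an element of `ℤ_(ℓ)` is divisible by `ℓ^s`. -/
theorem dvd_of_eq_pow_mul_mem_Zl {ℓ : ℕ} (s : ℕ) {c : ℤ} {y : ℂ}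
    (hy : y ∈ Zl ℓ) (h : (c : ℂ) = (ℓ : ℂ) ^ s * y) : ((ℓ : ℤ) ^ s) ∣ c := by
  obtain ⟨a, m, hm, hx⟩ := hy
  have h1 : ((m : ℤ) * c : ℤ) = (ℓ : ℤ) ^ s * a := by
    have : ((m : ℂ) * (c : ℂ)) = (ℓ : ℂ) ^ s * (a : ℂ) := by
      rw [h, ← hx]; ring
    exact_mod_cast this
  have hcop : IsCoprime ((ℓ : ℤ) ^ s) (m : ℤ) := by
    apply IsCoprime.pow_left
    exact (Nat.isCoprime_iff_coprime.mpr hm.symm)
  exact hcop.dvd_of_dvd_mul_left ⟨a, h1⟩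

/-- `1` is not `ℓ` times an `ℓ`-integral number. -/
theorem one_ne_prime_mul_mem_Zl {ℓ : ℕ} (hℓ : ℓ.Prime) {y : ℂ} (hy : y ∈ Zl ℓ) :
    (1 : ℂ) ≠ (ℓ : ℂ) * y := by
  intro h
  have := dvd_of_eq_pow_mul_mem_Zl 1 (c := 1) hy (by simpa using h)
  rw [pow_one] at this
  have h2 : (ℓ : ℤ) ∣ 1 := this
  have h3 : ℓ ∣ 1 := by exact_mod_cast h2
  exact hℓ.one_lt.ne' (Nat.dvd_one.mp h3)

end Fermat.Agent.S16
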