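import Mathlib
import Fermat.Agent.S16.UDefs
import Fermat.Prelude.Def_ModularForm_HeckeOperator

/-!
# S16 (U), block [HasQ], auxiliary file (owner: helper50)

The operators `V_p` (`z ↦ f (p z)`) and `U_p` (`ModularForm.heckeU`) on functions with a
`q`-expansion on the whole upper half plane (`HasQ` of `S16/UDefs.lean`).
-/

set_option autoImplicit false

namespace Fermat.Agent.S16.HasQAux

open UpperHalfPlane ModularForm Function.Periodic
open scoped MatrixGroups ModularForm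

/-- `q (p τ) = q(τ) ^ p`. -/
theorem qParam_mulN (p : ℕ) [NeZero p] (τ : ℍ) :
    qParam 1 (S23.mulN p τ) = qParam 1 τ ^ p := by
  simp only [qParam, S23.coe_mulN, ← Complex.exp_nat_mul]
  congr 1
  ring

/-- `V_p`: substitution `z ↦ p z`. -/
theorem comp_mulN (p : ℕ) [NeZero p] {f : ℍ → ℂ} {a : PowerSeries ℂ} (hf : HasQ f a) :
    HasQ (fun z => f (S23.mulN p z)) (TrTrick.vOp p a) := by
  intro τ
  have hp : 0 < p := NeZero.pos p
  have h := hf (S23.mulN p τ)
  have hinj : Function.Injective (fun m : ℕ => m * p) := fun m n hmn =>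
    Nat.eq_of_mul_eq_mul_right hp hmn
  rw [← hinj.hasSum_iff]
  · convert h using 1
    ext m
    simp only [Function.comp_apply]
    rw [TrTrick.coeff_vOp, if_pos (dvd_mul_left p m), Nat.mul_div_cancel m hp, qParam_mulN,
      ← pow_mul, mul_comm m p]
  · intro n hn
    have hpn : ¬ p ∣ n := by
      rintro ⟨m, rfl⟩
      exact hn ⟨m, mul_comm m p⟩
    simp [TrTrick.coeff_vOp, hpn]

/-- `q ((τ + j) / p)` is `exp (2 π i τ / p)` times the `j`-th power of a primitive `p`-th root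
of unity. -/
theorem qParam_heckeMatrix {p : ℕ} (hp : p ≠ 0) (j : ℕ) (τ : ℍ) :
    qParam 1 (heckeMatrix p j • τ : ℍ) =
      Complex.exp (2 * Real.pi * Complex.I * (τ : ℂ) / p) *
        Complex.exp (2 * Real.pi * Complex.I / p) ^ j := by
  have hp' : (p : ℂ) ≠ 0 := Nat.cast_ne_zero.mpr hp
  rw [qParam, coe_heckeMatrix_smul hp, ← Complex.exp_nat_mul, ← Complex.exp_add]
  congr 1
  push_cast
  field_simp

/-- Orthogonality of the `p`-th roots of unity. -/
theorem sum_pow_of_isPrimitiveRoot {ζ : ℂ} {p : ℕ} (hζ : IsPrimitiveRoot ζ p) (n : ℕ) :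
    ∑ j ∈ Finset.range p, (ζ ^ j) ^ n = if p ∣ n then (p : ℂ) else 0 := by
  have e : ∀ j : ℕ, (ζ ^ j) ^ n = (ζ ^ n) ^ j := fun j => by
    rw [← pow_mul, ← pow_mul, mul_comm j n]
  simp only [e]
  split_ifs with h
  · have h1 : ζ ^ n = 1 := (hζ.pow_eq_one_iff_dvd n).mpr h
    simp [h1]
  · have h1 : ζ ^ n ≠ 1 := fun h1 => h ((hζ.pow_eq_one_iff_dvd n).mp h1)
    have h2 : (ζ ^ n) ^ p = 1 := by
      rw [← pow_mul, mul_comm, pow_mul, hζ.pow_eq_one, one_pow]
    have h3 := mul_geom_sum (ζ ^ n) p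
    rw [h2, sub_self] at h3
    rcases mul_eq_zero.mp h3 with h4 | h4
    · exact absurd (sub_eq_zero.mp h4) h1
    · exact h4

/-- `U_p`: the prelude operator `heckeU` (weight-independent at function level). -/
theorem heckeU (k : ℤ) {p : ℕ} (hp : p ≠ 0) {f : ℍ → ℂ} {a : PowerSeries ℂ}
    (hf : HasQ f a) : HasQ (ModularForm.heckeU k p f) (TrTrick.uOp p a) := by
  intro τ
  have hp' : (p : ℂ) ≠ 0 := Nat.cast_ne_zero.mpr hp
  have hppos : 0 < p := Nat.pos_of_ne_zero hp
  rw [heckeU_apply k hp]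
  obtain ⟨w, hw⟩ : ∃ w : ℂ, w = Complex.exp (2 * Real.pi * Complex.I * (τ : ℂ) / p) := ⟨_, rfl⟩
  obtain ⟨ζ, hζ⟩ : ∃ ζ : ℂ, ζ = Complex.exp (2 * Real.pi * Complex.I / p) := ⟨_, rfl⟩
  have hζp : IsPrimitiveRoot ζ p := hζ ▸ Complex.isPrimitiveRoot_exp p hp
  have hwq : w ^ p = qParam 1 τ := by
    rw [hw, qParam, ← Complex.exp_nat_mul]
    congr 1
    push_cast
    field_simp
  -- the sum over `j` of the expansions
  have h1 : HasSum (fun n : ℕ => ∑ j ∈ Finset.range p,
      PowerSeries.coeff n a * qParam 1 (heckeMatrix p j • τ : ℍ) ^ n)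
      (∑ j ∈ Finset.range p, f (heckeMatrix p j • τ)) :=
    hasSum_sum fun j _ => hf (heckeMatrix p j • τ)
  have h2 : HasSum (fun n : ℕ => (p : ℂ)⁻¹ * ∑ j ∈ Finset.range p,
      PowerSeries.coeff n a * qParam 1 (heckeMatrix p j • τ : ℍ) ^ n)
      ((p : ℂ)⁻¹ * ∑ j ∈ Finset.range p, f (heckeMatrix p j • τ)) := h1.mul_left _
  have e : ∀ n : ℕ, (p : ℂ)⁻¹ * ∑ j ∈ Finset.range p,
      PowerSeries.coeff n a * qParam 1 (heckeMatrix p j • τ : ℍ) ^ n =
      if p ∣ n then PowerSeries.coeff n a * w ^ n else 0 := by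
    intro n
    have e1 : ∀ j : ℕ, PowerSeries.coeff n a * qParam 1 (heckeMatrix p j • τ : ℍ) ^ n =
        PowerSeries.coeff n a * w ^ n * (ζ ^ j) ^ n := fun j => by
      rw [qParam_heckeMatrix hp, ← hw, ← hζ, mul_pow, mul_assoc]
    simp only [e1, ← Finset.mul_sum, sum_pow_of_isPrimitiveRoot hζp]
    split_ifs with h
    · field_simp
    · simp
  simp only [e] at h2
  have hinj : Function.Injective (fun m : ℕ => m * p) := fun m n hmn =>
    Nat.eq_of_mul_eq_mul_right hppos hmn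
  rw [← hinj.hasSum_iff] at h2
  · convert h2 using 1
    ext m
    simp only [Function.comp_apply]
    rw [TrTrick.coeff_uOp, if_pos (dvd_mul_left p m), mul_comm m p, pow_mul, hwq]
  · intro n hn
    have hpn : ¬ p ∣ n := by
      rintro ⟨m, rfl⟩
      exact hn ⟨m, mul_comm m p⟩
    simp [hpn]

end Fermat.Agent.S16.HasQAux
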