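/-
S16 (U), block [HasQ] (owner: helper7): calculus of `q`-expansions at function level.

`HasQ f a` (from `UDefs`) says `f τ = ∑ a_n q^n` on the whole upper half plane.  We prove:
existence for `1`-periodic holomorphic bounded functions (in particular for members of
`S20.MF N w`, `S20.LF w`), uniqueness, the ring operations, the operators `V_p` (`z ↦ f (p z)`)
and `U_p` (`ModularForm.heckeU`), and the basic closure properties of `LQ w`.

Key fact (`hasQ_iff`): `HasQ f a` holds iff `f` is `1`-periodic, holomorphic, bounded at `i∞`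
and `a` is its Mathlib `q`-expansion.
-/
import Mathlib
import Fermat.Agent.S16.UDefs
import Fermat.Agent.S16.HasQAux
import Fermat.Agent.S20.Basic
import Fermat.Agent.S20.LevelOne
import Fermat.Prelude.Def_ModularForm_HeckeOperator
import Fermat.Prelude.Thm_CongruenceSubgroup_one_mem_strictPeriods_Gamma0

set_option autoImplicit false

namespace Fermat.Agent.S16

open UpperHalfPlane ModularForm Function Filter Topology
open scoped MatrixGroups ModularForm Manifold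

namespace HasQCore

/-- Values of the cusp function on the punctured disc (after a private Mathlib lemma). -/
theorem hasSum_cusp {f : ℍ → ℂ} {c : ℕ → ℂ}
    (hf : ∀ τ : ℍ, HasSum (fun m ↦ c m • Periodic.qParam 1 τ ^ m) (f τ)) {q : ℂ} (hq : ‖q‖ < 1)
    (hq1 : q ≠ 0) : HasSum (fun m ↦ c m • q ^ m) (cuspFunction 1 f q) := by
  have h1 := Periodic.im_invQParam_pos_of_norm_lt_one one_pos hq hq1
  let τ : ℍ := ⟨Periodic.invQParam 1 q, h1⟩
  have h2 := (Periodic.cuspFunction_eq_of_nonzero 1 (f ∘ ofComplex) hq1)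
  have h3 : cuspFunction 1 f q = f τ := by
    have h5 : (f ∘ ofComplex) (Periodic.invQParam 1 q) = f τ := by
      simp only [comp_apply, UpperHalfPlane.ofComplex_apply_of_im_pos h1]
      rfl
    rw [← h5]
    exact h2
  have h4 : Periodic.qParam 1 (τ : ℂ) = q := Periodic.qParam_right_inv one_ne_zero hq1
  rw [h3]
  have := hf τ
  rwa [h4] at this

/-- The power series of the updated cusp function (after a private Mathlib lemma). -/
theorem hasFPowerSeriesOnBall_update {f : ℍ → ℂ} {c : ℕ → ℂ}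
    (hf : ∀ τ : ℍ, HasSum (fun m : ℕ ↦ (c m) • Periodic.qParam 1 τ ^ m) (f τ)) :
    HasFPowerSeriesOnBall (update (cuspFunction 1 f) 0 (c 0)) (.ofScalars ℂ c) 0 1 := by
  constructor
  · refine le_of_forall_lt_imp_le_of_dense fun r hr ↦ ?_
    rcases eq_or_ne r 0 with rfl | hr'
    · simp
    · lift r to NNReal using hr.ne_top
      let : FiniteDimensional ℝ ℂ := Complex.basisOneI.finiteDimensional_of_finite
      apply FormalMultilinearSeries.le_radius_of_summable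
      simpa [smul_eq_mul, norm_mul, mul_comm, mul_left_comm, mul_assoc] using
        (hasSum_cusp hf (q := r) (by simpa using hr)
          (mod_cast hr')).summable.norm
  · simp
  · intro y hy
    rw [← ENNReal.coe_one, Metric.eball_coe, NNReal.coe_one, mem_ball_zero_iff] at hy
    rcases eq_or_ne y 0 with rfl | hy'
    · simpa +contextual [zero_pow_eq] using hasSum_ite_eq 0 (c 0)
    · simpa [update_of_ne hy', mul_comm]
        using hasSum_cusp hf hy hy'

/-- The value of the cusp function at `0` is the constant coefficient. -/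
theorem cuspFunction_zero {f : ℍ → ℂ} {c : ℕ → ℂ}
    (hf : ∀ τ : ℍ, HasSum (fun m : ℕ ↦ (c m) • Periodic.qParam 1 τ ^ m) (f τ)) :
    cuspFunction 1 f 0 = c 0 := by
  have H1 := hasFPowerSeriesOnBall_update hf
  have hcont : ContinuousAt (update (cuspFunction 1 f) 0 (c 0)) 0 :=
    H1.hasFPowerSeriesAt.continuousAt
  have h1 : Tendsto (update (cuspFunction 1 f) 0 (c 0)) (𝓝[≠] 0) (𝓝 (c 0)) := by
    have := hcont.tendsto.mono_left (nhdsWithin_le_nhds (s := {(0 : ℂ)}ᶜ))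
    simpa using this
  have h2 : Tendsto (cuspFunction 1 f) (𝓝[≠] 0) (𝓝 (c 0)) := by
    refine h1.congr' ?_
    filter_upwards [self_mem_nhdsWithin] with q hq
    exact update_of_ne hq _ _
  have h3 : cuspFunction 1 f 0 = limUnder (𝓝[≠] 0) (cuspFunction 1 f) :=
    Periodic.cuspFunction_zero_eq_limUnder_nhds_ne 1 (f ∘ ofComplex)
  rw [h3]
  exact h2.limUnder_eq

theorem hasFPowerSeriesOnBall {f : ℍ → ℂ} {c : ℕ → ℂ}
    (hf : ∀ τ : ℍ, HasSum (fun m : ℕ ↦ (c m) • Periodic.qParam 1 τ ^ m) (f τ)) :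
    HasFPowerSeriesOnBall (cuspFunction 1 f) (.ofScalars ℂ c) 0 1 := by
  have H1 := hasFPowerSeriesOnBall_update hf
  rwa [update_eq_self_iff.mpr (cuspFunction_zero hf).symm] at H1

theorem analyticAt {f : ℍ → ℂ} {c : ℕ → ℂ}
    (hf : ∀ τ : ℍ, HasSum (fun m : ℕ ↦ (c m) • Periodic.qParam 1 τ ^ m) (f τ)) :
    AnalyticAt ℂ (cuspFunction 1 f) 0 :=
  (hasFPowerSeriesOnBall hf).analyticAt

theorem coeff_eq {f : ℍ → ℂ} {c : ℕ → ℂ}
    (hf : ∀ τ : ℍ, HasSum (fun m : ℕ ↦ (c m) • Periodic.qParam 1 τ ^ m) (f τ)) (m : ℕ) :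
    c m = (qExpansion 1 f).coeff m := by
  have hfanalytic := analyticAt hf
  have h1 := (hasFPowerSeriesOnBall hf).hasFPowerSeriesAt
  have h2 : HasFPowerSeriesAt (cuspFunction 1 f)
      (FormalMultilinearSeries.ofScalars ℂ fun m ↦ (qExpansion 1 f).coeff m) 0 := by
    simpa [qExpansion_coeff, div_eq_mul_inv, mul_comm] using hfanalytic.hasFPowerSeriesAt
  have h3 := congr_arg (FormalMultilinearSeries.coeff · m) (h1.eq_formalMultilinearSeries h2)
  simpa [FormalMultilinearSeries.coeff_ofScalars] using h3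

theorem periodic {f : ℍ → ℂ} {c : ℕ → ℂ}
    (hf : ∀ τ : ℍ, HasSum (fun m : ℕ ↦ (c m) • Periodic.qParam 1 τ ^ m) (f τ)) :
    Periodic (f ∘ ofComplex) 1 := by
  intro z
  simp only [comp_apply]
  by_cases hz : 0 < z.im
  · have hz' : 0 < (z + 1).im := by simpa using hz
    rw [ofComplex_apply_of_im_pos hz', ofComplex_apply_of_im_pos hz]
    refine (hf _).unique ?_
    have h1 := hf ⟨z, hz⟩
    have h2 : Periodic.qParam 1 ((⟨z + 1, hz'⟩ : ℍ) : ℂ) = Periodic.qParam 1 ((⟨z, hz⟩ : ℍ) : ℂ) := by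
      show Periodic.qParam 1 (z + 1) = Periodic.qParam 1 z
      unfold Periodic.qParam
      have e : 2 * ↑Real.pi * Complex.I * (z + 1) / ((1 : ℝ) : ℂ)
          = 2 * ↑Real.pi * Complex.I * z / ((1 : ℝ) : ℂ) + 2 * ↑Real.pi * Complex.I := by
        push_cast
        ring
      rw [e, Complex.exp_add, Complex.exp_two_pi_mul_I, mul_one]
    rw [h2]
    exact h1
  · have hz' : (z + 1).im ≤ 0 := by simpa using not_lt.mp hz
    rw [ofComplex_apply_of_im_nonpos hz', ofComplex_apply_of_im_nonpos (not_lt.mp hz)]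

theorem mdiff {f : ℍ → ℂ} {c : ℕ → ℂ}
    (hf : ∀ τ : ℍ, HasSum (fun m : ℕ ↦ (c m) • Periodic.qParam 1 τ ^ m) (f τ)) : MDiff f := by
  rw [UpperHalfPlane.mdifferentiable_iff]
  have hper := periodic hf
  have hd : DifferentiableOn ℂ (cuspFunction 1 f) (Metric.ball 0 1) := by
    have := (hasFPowerSeriesOnBall hf).differentiableOn
    rwa [← ENNReal.coe_one, Metric.eball_coe, NNReal.coe_one] at this
  have hq : DifferentiableOn ℂ (Periodic.qParam 1) {z : ℂ | 0 < z.im} := by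
    unfold Periodic.qParam
    fun_prop
  have hmaps : Set.MapsTo (Periodic.qParam 1) {z : ℂ | 0 < z.im} (Metric.ball 0 1) := by
    intro z hz
    simpa using Periodic.norm_qParam_lt_one one_pos hz
  refine (hd.comp hq hmaps).congr fun z hz => ?_
  simp only [comp_apply]
  rw [ofComplex_apply_of_im_pos hz]
  exact (eq_cuspFunction ⟨z, hz⟩ one_ne_zero hper).symm

end HasQCore

theorem hasQ_iff_smul {f : ℍ → ℂ} {a : PowerSeries ℂ} :
    HasQ f a ↔ ∀ τ : ℍ, HasSum (fun m : ℕ ↦ PowerSeries.coeff m a • Periodic.qParam 1 τ ^ m) (f τ) :=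
  Iff.rfl

/-- A `1`-periodic holomorphic function bounded at `i∞` has its `q`-expansion. -/
theorem hasQ_of_periodic {f : ℍ → ℂ}
    (hper : Function.Periodic (f ∘ UpperHalfPlane.ofComplex) 1) (hhol : MDiff f)
    (hbdd : IsBoundedAtImInfty f) : HasQ f (qExpansion 1 f) := fun τ =>
  UpperHalfPlane.hasSum_qExpansion one_pos hper hhol hbdd τ

theorem HasQ.periodic {f : ℍ → ℂ} {a : PowerSeries ℂ} (h : HasQ f a) :
    Function.Periodic (f ∘ UpperHalfPlane.ofComplex) 1 :=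
  HasQCore.periodic (hasQ_iff_smul.mp h)

theorem HasQ.mdiff {f : ℍ → ℂ} {a : PowerSeries ℂ} (h : HasQ f a) : MDiff f :=
  HasQCore.mdiff (hasQ_iff_smul.mp h)

theorem HasQ.isBoundedAtImInfty {f : ℍ → ℂ} {a : PowerSeries ℂ} (h : HasQ f a) :
    IsBoundedAtImInfty f :=
  isBoundedAtImInfty_of_hasSum_qExpansion one_pos (hasQ_iff_smul.mp h)

theorem HasQ.analyticAt {f : ℍ → ℂ} {a : PowerSeries ℂ} (h : HasQ f a) :
    AnalyticAt ℂ (cuspFunction 1 f) 0 :=
  HasQCore.analyticAt (hasQ_iff_smul.mp h)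

/-- The series of a function with a `q`-expansion is its Mathlib `q`-expansion. -/
theorem HasQ.eq_qExpansion {f : ℍ → ℂ} {a : PowerSeries ℂ} (h : HasQ f a) :
    a = qExpansion 1 f := by
  ext m
  exact HasQCore.coeff_eq (hasQ_iff_smul.mp h) m

/-- Characterisation of `HasQ`. -/
theorem hasQ_iff {f : ℍ → ℂ} {a : PowerSeries ℂ} :
    HasQ f a ↔ Function.Periodic (f ∘ UpperHalfPlane.ofComplex) 1 ∧ MDiff f ∧
      IsBoundedAtImInfty f ∧ a = qExpansion 1 f :=
  ⟨fun h => ⟨h.periodic, h.mdiff, h.isBoundedAtImInfty, h.eq_qExpansion⟩,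
    fun ⟨h1, h2, h3, h4⟩ => h4 ▸ hasQ_of_periodic h1 h2 h3⟩

/-- Uniqueness of the coefficients. -/
theorem HasQ.unique {f : ℍ → ℂ} {a b : PowerSeries ℂ} (ha : HasQ f a) (hb : HasQ f b) : a = b := by
  rw [ha.eq_qExpansion, hb.eq_qExpansion]

/-- The function is determined by the series. -/
theorem HasQ.fun_unique {f g : ℍ → ℂ} {a : PowerSeries ℂ} (hf : HasQ f a) (hg : HasQ g a) :
    f = g := by
  funext τ
  exact (hf τ).unique (hg τ)

theorem hasQ_of_mem_MF {N : ℕ} [NeZero N] {w : ℤ} {F : ℍ → ℂ} (hF : F ∈ S20.MF N w) :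
    HasQ F (qExpansion 1 F) := by
  obtain ⟨G, rfl⟩ := hF
  have hΓ := CongruenceSubgroup.one_mem_strictPeriods_Gamma0 N
  have : Fact (IsCusp OnePoint.infty
      ((CongruenceSubgroup.Gamma0 N).map (Matrix.SpecialLinearGroup.mapGL ℝ))) :=
    ⟨Subgroup.isCusp_of_mem_strictPeriods one_pos hΓ⟩
  exact hasQ_of_periodic (SlashInvariantFormClass.periodic_comp_ofComplex G hΓ)
    (ModularFormClass.holo G) (ModularFormClass.bdd_at_infty G)

theorem hasQ_of_mem_LF {w : ℤ} {F : ℍ → ℂ} (hF : F ∈ S20.LF w) : HasQ F (qExpansion 1 F) :=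
  hasQ_of_mem_MF (N := 1) (S20.LF_le_MF 1 w hF)

theorem hasQ_modularForm {w : ℤ} (F : ModularForm 𝒮ℒ w) : HasQ (⇑F) (qExpansion 1 F) :=
  hasQ_of_mem_LF (S20.lo_coe_mem F)

theorem hasQ_const (c : ℂ) : HasQ (fun _ : ℍ => c) (PowerSeries.C c) := by
  intro τ
  have h := hasSum_single (f := fun n : ℕ => PowerSeries.coeff n (PowerSeries.C c) *
    Periodic.qParam 1 (τ : ℂ) ^ n) 0 (fun n hn => by simp [PowerSeries.coeff_C, hn])
  simpa using h

theorem hasQ_zero : HasQ (0 : ℍ → ℂ) 0 := by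
  intro τ
  simpa using (hasSum_zero : HasSum (fun _ : ℕ => (0 : ℂ)) 0)

theorem hasQ_one : HasQ (1 : ℍ → ℂ) 1 := by
  have := hasQ_const 1
  rw [map_one] at this
  exact this

theorem HasQ.add {f g : ℍ → ℂ} {a b : PowerSeries ℂ} (hf : HasQ f a) (hg : HasQ g b) :
    HasQ (f + g) (a + b) := by
  intro τ
  have := (hf τ).add (hg τ)
  simpa [add_mul] using this

theorem HasQ.smul (c : ℂ) {f : ℍ → ℂ} {a : PowerSeries ℂ} (hf : HasQ f a) :
    HasQ (c • f) (c • a) := by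
  intro τ
  have := (hf τ).mul_left c
  simpa [mul_assoc] using this

theorem HasQ.neg {f : ℍ → ℂ} {a : PowerSeries ℂ} (hf : HasQ f a) : HasQ (-f) (-a) := by
  have := hf.smul (-1)
  simpa using this

theorem HasQ.sub {f g : ℍ → ℂ} {a b : PowerSeries ℂ} (hf : HasQ f a) (hg : HasQ g b) :
    HasQ (f - g) (a - b) := by
  rw [sub_eq_add_neg, sub_eq_add_neg]
  exact hf.add hg.neg

theorem HasQ.mul {f g : ℍ → ℂ} {a b : PowerSeries ℂ} (hf : HasQ f a) (hg : HasQ g b) :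
    HasQ (f * g) (a * b) := by
  have hper : Function.Periodic ((f * g) ∘ UpperHalfPlane.ofComplex) 1 := by
    intro z
    have h1 := hf.periodic z
    have h2 := hg.periodic z
    simp only [comp_apply, Pi.mul_apply] at h1 h2 ⊢
    rw [h1, h2]
  have hbdd : IsBoundedAtImInfty (f * g) := hf.isBoundedAtImInfty.mul hg.isBoundedAtImInfty
  have hmd : MDiff (f * g) := hf.mdiff.mul hg.mdiff
  have h := hasQ_of_periodic hper hmd hbdd
  rwa [qExpansion_mul hf.analyticAt hg.analyticAt, ← hf.eq_qExpansion, ← hg.eq_qExpansion] at h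

theorem HasQ.pow {f : ℍ → ℂ} {a : PowerSeries ℂ} (hf : HasQ f a) (n : ℕ) :
    HasQ (f ^ n) (a ^ n) := by
  induction n with
  | zero => simpa using hasQ_one
  | succ n ih =>
    rw [pow_succ, pow_succ]
    exact ih.mul hf

/-- `V_p`: substitution `z ↦ p z`. -/
theorem HasQ.comp_mulN (p : ℕ) [NeZero p] {f : ℍ → ℂ} {a : PowerSeries ℂ} (hf : HasQ f a) :
    HasQ (fun z => f (S23.mulN p z)) (TrTrick.vOp p a) :=
  HasQAux.comp_mulN p hf

/-- `U_p`: the prelude operator `heckeU` (weight-independent at function level). -/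
theorem HasQ.heckeU (k : ℤ) {p : ℕ} (hp : p ≠ 0) {f : ℍ → ℂ} {a : PowerSeries ℂ}
    (hf : HasQ f a) : HasQ (ModularForm.heckeU k p f) (TrTrick.uOp p a) :=
  HasQAux.heckeU k hp hf

/-! ### `LQ` -/

theorem mem_LQ_of_hasQ {w : ℤ} {F : ℍ → ℂ} {a : PowerSeries ℂ} (hF : F ∈ S20.LF w)
    (h : HasQ F a) : a ∈ LQ w := by
  obtain ⟨G, rfl⟩ := hF
  exact ⟨G, h.eq_qExpansion.symm⟩

theorem exists_of_mem_LQ {w : ℤ} {a : PowerSeries ℂ} (ha : a ∈ LQ w) :
    ∃ F ∈ S20.LF w, HasQ F a := by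
  obtain ⟨G, rfl⟩ := ha
  exact ⟨G, S20.lo_coe_mem G, hasQ_modularForm G⟩

theorem zero_mem_LQ (w : ℤ) : (0 : PowerSeries ℂ) ∈ LQ w :=
  mem_LQ_of_hasQ (S20.LF w).zero_mem hasQ_zero

theorem one_mem_LQ : (1 : PowerSeries ℂ) ∈ LQ 0 :=
  mem_LQ_of_hasQ S20.one_mem_LF hasQ_one

theorem add_mem_LQ {w : ℤ} {a b : PowerSeries ℂ} (ha : a ∈ LQ w) (hb : b ∈ LQ w) :
    a + b ∈ LQ w := by
  obtain ⟨F, hF, hFa⟩ := exists_of_mem_LQ ha
  obtain ⟨G, hG, hGb⟩ := exists_of_mem_LQ hb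
  exact mem_LQ_of_hasQ ((S20.LF w).add_mem hF hG) (hFa.add hGb)

theorem smul_mem_LQ {w : ℤ} (c : ℂ) {a : PowerSeries ℂ} (ha : a ∈ LQ w) : c • a ∈ LQ w := by
  obtain ⟨F, hF, hFa⟩ := exists_of_mem_LQ ha
  exact mem_LQ_of_hasQ ((S20.LF w).smul_mem c hF) (hFa.smul c)

theorem neg_mem_LQ {w : ℤ} {a : PowerSeries ℂ} (ha : a ∈ LQ w) : -a ∈ LQ w := by
  obtain ⟨F, hF, hFa⟩ := exists_of_mem_LQ ha
  exact mem_LQ_of_hasQ ((S20.LF w).neg_mem hF) hFa.neg

theorem sub_mem_LQ {w : ℤ} {a b : PowerSeries ℂ} (ha : a ∈ LQ w) (hb : b ∈ LQ w) :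
    a - b ∈ LQ w := by
  obtain ⟨F, hF, hFa⟩ := exists_of_mem_LQ ha
  obtain ⟨G, hG, hGb⟩ := exists_of_mem_LQ hb
  exact mem_LQ_of_hasQ ((S20.LF w).sub_mem hF hG) (hFa.sub hGb)

theorem mul_mem_LQ {k l : ℤ} {a b : PowerSeries ℂ} (ha : a ∈ LQ k) (hb : b ∈ LQ l) :
    a * b ∈ LQ (k + l) := by
  obtain ⟨F, hF, hFa⟩ := exists_of_mem_LQ ha
  obtain ⟨G, hG, hGb⟩ := exists_of_mem_LQ hb
  exact mem_LQ_of_hasQ (S20.mul_mem_LF hF hG) (hFa.mul hGb)

theorem pow_mem_LQ {k : ℤ} {a : PowerSeries ℂ} (ha : a ∈ LQ k) (n : ℕ) :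
    a ^ n ∈ LQ (n * k) := by
  obtain ⟨F, hF, hFa⟩ := exists_of_mem_LQ ha
  exact mem_LQ_of_hasQ (S20.pow_mem_LF hF n) (hFa.pow n)

end Fermat.Agent.S16
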