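import Mathlib
import Fermat.Prelude.Def_ModularForm_HeckeOperator
import Fermat.Agent.S20.Basic
import Fermat.Agent.S23.LevelN

/-!
# S16 block [W], slice WMem: two membership facts for level `Γ₀(p)`

* `comp_mulN_mem_MF`: for a level-one form `F` of weight `k`, `z ↦ F (p z)` is a modular form
  of weight `k` on `Γ₀(p)`;
* `slash_S_comp_mulN_mem_MF`: for `G ∈ M_k(Γ₀(p))`, `z ↦ (G ∣[k] S) (p z)` (the unnormalised
  Atkin–Lehner transform) is again in `M_k(Γ₀(p))`.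

OWNER: helper80 (only the owner edits this file).
-/

set_option autoImplicit false

namespace Fermat.Agent.S16.WMem

open UpperHalfPlane ModularForm
open scoped MatrixGroups ModularForm Manifold

/-- The matrix `S * diag(p, 1) = [[0, -1], [p, 0]]` in `GL₂(ℝ)`. -/
noncomputable def wMat (p : ℕ) : GL (Fin 2) ℝ :=
  Matrix.SpecialLinearGroup.mapGL ℝ ModularGroup.S * heckeDiagMatrix p

/-- For `γ ∈ Γ₀(p)`, the conjugate `W γ W⁻¹` is again in `Γ₀(p)`, where `W = S * diag(p,1)`. -/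
theorem exists_conj_wMat (p : ℕ) [NeZero p] (γ : SL(2, ℤ))
    (hγ : γ ∈ CongruenceSubgroup.Gamma0 p) :
    ∃ γ' : SL(2, ℤ), γ' ∈ CongruenceSubgroup.Gamma0 p ∧
      wMat p * Matrix.SpecialLinearGroup.mapGL ℝ γ =
        Matrix.SpecialLinearGroup.mapGL ℝ γ' * wMat p := by
  have hp : p ≠ 0 := NeZero.ne p
  rw [CongruenceSubgroup.Gamma0_mem] at hγ
  have hdvd : (p : ℤ) ∣ γ 1 0 := (ZMod.intCast_zmod_eq_zero_iff_dvd _ _).mp hγ
  obtain ⟨c, hc⟩ := hdvd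
  have hdet := γ.det_coe
  rw [Matrix.det_fin_two] at hdet
  have hdet' : (!![γ 1 1, -c; -(p * γ 0 1), γ 0 0] : Matrix (Fin 2) (Fin 2) ℤ).det = 1 := by
    rw [Matrix.det_fin_two_of]
    rw [hc] at hdet
    linarith
  obtain ⟨γ', h00, h01, h10, h11⟩ : ∃ γ' : SL(2, ℤ), γ' 0 0 = γ 1 1 ∧ γ' 0 1 = -c ∧
      γ' 1 0 = -(p * γ 0 1) ∧ γ' 1 1 = γ 0 0 :=
    ⟨⟨!![γ 1 1, -c; -(p * γ 0 1), γ 0 0], hdet'⟩, rfl, rfl, rfl, rfl⟩
  refine ⟨γ', ?_, ?_⟩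
  · rw [CongruenceSubgroup.Gamma0_mem, h10]
    simp
  · apply Matrix.GeneralLinearGroup.ext
    intro i j
    have hc' : ((γ 1 0 : ℤ) : ℝ) = (p : ℝ) * (c : ℝ) := by exact_mod_cast hc
    simp only [wMat, Matrix.GeneralLinearGroup.coe_mul, val_heckeDiagMatrix hp,
      Matrix.SpecialLinearGroup.mapGL_coe_matrix]
    fin_cases i <;> fin_cases j <;>
      simp [Matrix.mul_apply, Fin.sum_univ_two, hc', h00, h01, h10, h11, mul_comm,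
        ModularGroup.S]

open ConjAct Pointwise in
theorem Gamma0_le_conj_wMat (p : ℕ) [NeZero p] :
    ((CongruenceSubgroup.Gamma0 p : Subgroup SL(2, ℤ)) : Subgroup (GL (Fin 2) ℝ)) ≤
      toConjAct (wMat p)⁻¹ •
        ((CongruenceSubgroup.Gamma0 p : Subgroup SL(2, ℤ)) : Subgroup (GL (Fin 2) ℝ)) := by
  rintro _ ⟨γ, hγ, rfl⟩
  rw [map_inv, Subgroup.mem_inv_pointwise_smul_iff, toConjAct_smul]
  obtain ⟨γ', hγ'mem, hγ'⟩ := exists_conj_wMat p γ hγ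
  refine ⟨γ', hγ'mem, ?_⟩
  rw [hγ']
  simp

/-- For a level-one form `F` of weight `k`, `z ↦ F (p z)` is in `M_k(Γ₀(p))`. -/
theorem comp_mulN_mem_MF (p : ℕ) [NeZero p] {k : ℤ} {F : ℍ → ℂ} (hF : F ∈ S20.LF k) :
    (fun z => F (S23.mulN p z)) ∈ S20.MF p k := by
  obtain ⟨F', rfl⟩ := hF
  have hp : ((p : ℂ) ^ (k - 1)) ≠ 0 := zpow_ne_zero _ (Nat.cast_ne_zero.mpr (NeZero.ne p))
  refine ⟨(((p : ℂ) ^ (k - 1))⁻¹ : ℂ) •
    S23.restrictLE (S23.Gamma0_le_conj p) (ModularForm.translate F' (heckeDiagMatrix p)), ?_⟩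
  ext τ
  show (((p : ℂ) ^ (k - 1))⁻¹ : ℂ) • ((⇑F' ∣[k] heckeDiagMatrix p) τ) = F' (S23.mulN p τ)
  rw [slash_heckeDiagMatrix_apply k (NeZero.ne p), S23.heckeDiagMatrix_smul_eq_mulN, smul_eq_mul,
    inv_mul_cancel_left₀ hp]

/-- For `G ∈ M_k(Γ₀(p))`, the function `z ↦ (G ∣[k] S) (p z)` is in `M_k(Γ₀(p))`. -/
theorem slash_S_comp_mulN_mem_MF (p : ℕ) [NeZero p] {k : ℤ} {G : ℍ → ℂ}
    (hG : G ∈ S20.MF p k) :
    (fun z => (G ∣[k] ModularGroup.S) (S23.mulN p z)) ∈ S20.MF p k := by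
  obtain ⟨G', rfl⟩ := hG
  have hp : ((p : ℂ) ^ (k - 1)) ≠ 0 := zpow_ne_zero _ (Nat.cast_ne_zero.mpr (NeZero.ne p))
  refine ⟨(((p : ℂ) ^ (k - 1))⁻¹ : ℂ) •
    S23.restrictLE (Gamma0_le_conj_wMat p) (ModularForm.translate G' (wMat p)), ?_⟩
  ext τ
  show (((p : ℂ) ^ (k - 1))⁻¹ : ℂ) • ((⇑G' ∣[k] wMat p) τ) = (⇑G' ∣[k] ModularGroup.S) (S23.mulN p τ)
  rw [wMat, SlashAction.slash_mul, slash_heckeDiagMatrix_apply k (NeZero.ne p),
    S23.heckeDiagMatrix_smul_eq_mulN, smul_eq_mul, inv_mul_cancel_left₀ hp]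
  rfl

end Fermat.Agent.S16.WMem
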