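/-
S16, upper bound, block [W]: trace identities at the function level.
Owner: helper94.

For `G` of weight `k` on `Γ₀(p)` (`p` prime) put `wFun p k G z = (G ∣[k] S) (p z)` (the Fricke
transform without the normalising power of `p`).  The `p + 1` conjugates of `G` are `G` and
`z ↦ wFun p k G ((z + j) / p)`, `j < p`, so the trace to level one is
`G + p • heckeU k p (wFun p k G)`.  In weight `2` this gives `wFun p 2 H = -p⁻¹ • heckeU 2 p H`,
`U² = 1`, and the level-one forms `P_m` and `X_F` of the S16 route.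
-/
import Mathlib
import Fermat.Prelude.Def_ModularForm_HeckeOperator
import Fermat.Agent.S20.Basic
import Fermat.Agent.S20.Sym
import Fermat.Agent.S20.LevelOne
import Fermat.Agent.S20.Cosets
import Fermat.Agent.S23.LevelN
import Fermat.Agent.S16.WMem

set_option autoImplicit false

namespace Fermat.Agent.S16.WTrace

open UpperHalfPlane ModularForm
open scoped MatrixGroups ModularForm Manifold
open Fermat.Agent.S20 Fermat.Agent.S23

/-- The Fricke-type transform `z ↦ (G ∣[k] S) (p z)`. -/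
noncomputable def wFun (p : ℕ) [NeZero p] (k : ℤ) (G : ℍ → ℂ) : ℍ → ℂ :=
  fun z => (G ∣[k] ModularGroup.S) (mulN p z)

theorem wFun_apply (p : ℕ) [NeZero p] (k : ℤ) (G : ℍ → ℂ) (z : ℍ) :
    wFun p k G z = (G ∣[k] ModularGroup.S) (mulN p z) := rfl

/-- The matrix `S T^j = [[0, -1], [1, j]]`. -/
def cosetRep (j : ℤ) : SL(2, ℤ) := ⟨!![0, -1; 1, j], by simp [Matrix.det_fin_two_of]⟩

theorem cosetRep_eq (j : ℤ) : cosetRep j = ModularGroup.S * ModularGroup.T ^ j := by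
  apply Subtype.ext
  rw [Matrix.SpecialLinearGroup.coe_mul, ModularGroup.coe_T_zpow, ModularGroup.coe_S]
  ext a b
  fin_cases a <;> fin_cases b <;> simp [cosetRep, Matrix.mul_apply, Fin.sum_univ_two]

theorem coe_cosetRep_smul (j : ℤ) (z : ℍ) : ((cosetRep j • z : ℍ) : ℂ) = -((z : ℂ) + j)⁻¹ := by
  rw [UpperHalfPlane.coe_specialLinearGroup_apply]
  simp only [algebraMap_int_eq, Int.coe_castRingHom, Complex.ofReal_intCast]
  have e00 : (cosetRep j) 0 0 = 0 := rfl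
  have e01 : (cosetRep j) 0 1 = -1 := rfl
  have e10 : (cosetRep j) 1 0 = 1 := rfl
  have e11 : (cosetRep j) 1 1 = j := rfl
  rw [e00, e01, e10, e11]
  push_cast
  ring

theorem denom_cosetRep (j : ℤ) (z : ℍ) : denom (cosetRep j) z = (z : ℂ) + j := by
  rw [ModularGroup.denom_apply]
  have e10 : (cosetRep j) 1 0 = 1 := rfl
  have e11 : (cosetRep j) 1 1 = j := rfl
  rw [e10, e11]
  push_cast
  ring

theorem coe_mulN_heckeMatrix_smul (p : ℕ) [NeZero p] (j : ℕ) (z : ℍ) :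
    ((mulN p (heckeMatrix p j • z) : ℍ) : ℂ) = (z : ℂ) + j := by
  have hp : (p : ℂ) ≠ 0 := Nat.cast_ne_zero.mpr (NeZero.ne p)
  rw [coe_mulN, coe_heckeMatrix_smul (NeZero.ne p)]
  field_simp

theorem slash_cosetRep (p : ℕ) [NeZero p] (k : ℤ) (G : ℍ → ℂ) (j : ℕ) (z : ℍ) :
    (G ∣[k] cosetRep (j : ℤ)) z = wFun p k G (heckeMatrix p j • z) := by
  have hpt : cosetRep (j : ℤ) • z = ModularGroup.S • mulN p (heckeMatrix p j • z) := by
    apply UpperHalfPlane.ext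
    rw [coe_cosetRep_smul, UpperHalfPlane.modular_S_smul]
    show _ = (-((mulN p (heckeMatrix p j • z) : ℍ) : ℂ))⁻¹
    rw [coe_mulN_heckeMatrix_smul, neg_inv]
    push_cast
    rfl
  unfold wFun
  rw [SL_slash_apply, SL_slash_apply, hpt, denom_cosetRep, ModularGroup.denom_S,
    coe_mulN_heckeMatrix_smul]
  push_cast
  rfl

theorem wFun_add (p : ℕ) [NeZero p] (k : ℤ) (f g : ℍ → ℂ) :
    wFun p k (f + g) = wFun p k f + wFun p k g := by
  funext z
  simp [wFun, SlashAction.add_slash]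

theorem wFun_smul (p : ℕ) [NeZero p] (k : ℤ) (c : ℂ) (f : ℍ → ℂ) :
    wFun p k (c • f) = c • wFun p k f := by
  funext z
  simp [wFun, SL_slash_apply]
  ring

theorem wFun_mul (p : ℕ) [NeZero p] (a b : ℤ) (f g : ℍ → ℂ) :
    wFun p (a + b) (f * g) = wFun p a f * wFun p b g := by
  funext z
  simp [wFun, mul_slash_SL2]

theorem wFun_one (p : ℕ) [NeZero p] : wFun p 0 (1 : ℍ → ℂ) = 1 := by
  funext z
  simp [wFun, SL_slash_apply]

theorem wFun_pow (p : ℕ) [NeZero p] (a : ℤ) (f : ℍ → ℂ) (m : ℕ) :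
    wFun p ((m : ℤ) * a) (f ^ m) = wFun p a f ^ m := by
  induction m with
  | zero => simp [wFun_one]
  | succ n ih =>
    rw [pow_succ, pow_succ, show ((n + 1 : ℕ) : ℤ) * a = n * a + a by push_cast; ring, wFun_mul, ih]

theorem S_smul_S_smul (z : ℍ) : ModularGroup.S • (ModularGroup.S • z) = z := by
  apply UpperHalfPlane.ext
  rw [UpperHalfPlane.modular_S_smul, UpperHalfPlane.modular_S_smul]
  simp

theorem coe_S_smul (z : ℍ) : ((ModularGroup.S • z : ℍ) : ℂ) = (-(z : ℂ))⁻¹ := by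
  rw [UpperHalfPlane.modular_S_smul]

theorem mulN_S_smul_mulN (p : ℕ) [NeZero p] (z : ℍ) :
    mulN p (ModularGroup.S • mulN p z) = ModularGroup.S • z := by
  apply UpperHalfPlane.ext
  rw [coe_mulN, coe_S_smul, coe_S_smul, coe_mulN]
  have hp : (p : ℂ) ≠ 0 := Nat.cast_ne_zero.mpr (NeZero.ne p)
  have hz : (z : ℂ) ≠ 0 := UpperHalfPlane.ne_zero z
  field_simp

theorem wFun_apply' (p : ℕ) [NeZero p] (k : ℤ) (G : ℍ → ℂ) (z : ℍ) :
    wFun p k G z = G (ModularGroup.S • mulN p z) * ((p : ℂ) * z) ^ (-k) := by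
  unfold wFun
  rw [SL_slash_apply, ModularGroup.denom_S, coe_mulN]

theorem wFun_wFun (p : ℕ) [NeZero p] (k : ℤ) (G : ℍ → ℂ) :
    wFun p k (wFun p k G) = ((-1 : ℂ) ^ k * (p : ℂ) ^ (-k)) • G := by
  funext z
  have hp : (p : ℂ) ≠ 0 := Nat.cast_ne_zero.mpr (NeZero.ne p)
  have hz : (z : ℂ) ≠ 0 := UpperHalfPlane.ne_zero z
  rw [wFun_apply', wFun_apply', mulN_S_smul_mulN, S_smul_S_smul, coe_S_smul, coe_mulN,
    Pi.smul_apply, smul_eq_mul, mul_assoc, ← mul_zpow]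
  have e : (p : ℂ) * (-((p : ℂ) * (z : ℂ)))⁻¹ * ((p : ℂ) * (z : ℂ)) = (-1 : ℂ) * (p : ℂ) := by
    field_simp
  have e2 : ((-1 : ℂ)) ^ (-k) = (-1 : ℂ) ^ k := by
    rw [zpow_neg, ← inv_zpow, inv_neg_one]
  rw [e, mul_zpow, e2]
  ring

theorem wFun_comp_mulN (p : ℕ) [NeZero p] {k : ℤ} {F : ℍ → ℂ} (hF : F ∈ LF k) :
    wFun p k (fun z => F (mulN p z)) = ((p : ℂ) ^ (-k)) • F := by
  funext z
  have hp : (p : ℂ) ≠ 0 := Nat.cast_ne_zero.mpr (NeZero.ne p)
  have hz : (z : ℂ) ≠ 0 := UpperHalfPlane.ne_zero z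
  have hinv := (mem_LF_iff.mp hF).2.1 ModularGroup.S
  have h1 := congrFun hinv z
  rw [SL_slash_apply, ModularGroup.denom_S] at h1
  rw [wFun_apply', mulN_S_smul_mulN, Pi.smul_apply, smul_eq_mul, ← h1, mul_zpow]
  have hzk : (z : ℂ) ^ (-k) ≠ 0 := zpow_ne_zero _ hz
  ring

theorem heckeU_weight (k k' : ℤ) (p : ℕ) (f : ℍ → ℂ) : heckeU k p f = heckeU k' p f := by
  rcases eq_or_ne p 0 with rfl | hp
  · simp
  · funext z
    rw [heckeU_apply k hp, heckeU_apply k' hp]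

theorem comp_mulN_mem_MF (p : ℕ) [NeZero p] {k : ℤ} {F : ℍ → ℂ} (hF : F ∈ LF k) :
    (fun z => F (mulN p z)) ∈ MF p k :=
  Fermat.Agent.S16.WMem.comp_mulN_mem_MF p hF

theorem wFun_mem_MF (p : ℕ) [NeZero p] {k : ℤ} {G : ℍ → ℂ} (hG : G ∈ MF p k) :
    wFun p k G ∈ MF p k :=
  Fermat.Agent.S16.WMem.slash_S_comp_mulN_mem_MF p hG

theorem cosetRep_inv_apply_zero_zero (j : ℤ) : (cosetRep j)⁻¹ 0 0 = j := by
  rw [Matrix.SpecialLinearGroup.SL2_inv_expl]
  rfl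

theorem cosetRep_inv_apply_one_zero (j : ℤ) : (cosetRep j)⁻¹ 1 0 = -1 := by
  rw [Matrix.SpecialLinearGroup.SL2_inv_expl]
  rfl

theorem dedekindPsi_prime {p : ℕ} (hp : p.Prime) : ModularCurve.dedekindPsi p = p + 1 := by
  have h := Fermat.Agent.S20.CosetModel.dedekindPsi_prime_mul_of_not_dvd p 1 hp one_ne_zero
    (fun h1 => hp.one_lt.ne' (Nat.dvd_one.mp h1))
  rwa [mul_one, ModularCurve.dedekindPsi_one, mul_one] at h

/-- The `p + 1` coset representatives of `SL(2, ℤ) ⧸ Γ₀(p)`. -/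
noncomputable def cosetFam (p : ℕ) : Option (Fin p) → Q p
  | none => QuotientGroup.mk 1
  | some j => QuotientGroup.mk (cosetRep ((j : ℕ) : ℤ))⁻¹

theorem cosetFam_injective (p : ℕ) (hp : p.Prime) : Function.Injective (cosetFam p) := by
  have hp1 : ¬ (p : ℤ) ∣ 1 := by
    intro h
    have := Int.eq_one_of_dvd_one (by positivity) h
    have h2 := hp.one_lt
    omega
  intro a b hab
  cases a with
  | none =>
    cases b with
    | none => rfl
    | some j =>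
      exfalso
      have h := (CosetModel.mk_eq_mk_iff p _ _).mp hab
      rw [cosetRep_inv_apply_zero_zero, cosetRep_inv_apply_one_zero] at h
      simp at h
      exact hp1 h
  | some i =>
    cases b with
    | none =>
      exfalso
      have h := (CosetModel.mk_eq_mk_iff p _ _).mp hab
      rw [cosetRep_inv_apply_zero_zero, cosetRep_inv_apply_one_zero] at h
      simp at h
      exact hp1 h
    | some j =>
      have h := (CosetModel.mk_eq_mk_iff p _ _).mp hab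
      rw [cosetRep_inv_apply_zero_zero, cosetRep_inv_apply_one_zero,
        cosetRep_inv_apply_zero_zero, cosetRep_inv_apply_one_zero] at h
      have h2 : (p : ℤ) ∣ (j : ℕ) - (i : ℕ) := by
        have e : ((i : ℕ) : ℤ) * -1 - -1 * ((j : ℕ) : ℤ) = (j : ℕ) - (i : ℕ) := by ring
        rwa [e] at h
      have hi := i.2
      have hj := j.2
      congr 1
      apply Fin.ext
      obtain ⟨c, hc⟩ := h2
      have hc0 : c = 0 := by
        by_contra hne
        rcases lt_or_gt_of_ne hne with hlt | hgt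
        · have : (p : ℤ) * c ≤ (p : ℤ) * (-1) := by
            apply mul_le_mul_of_nonneg_left (by omega) (by positivity)
          omega
        · have : (p : ℤ) * 1 ≤ (p : ℤ) * c := by
            apply mul_le_mul_of_nonneg_left (by omega) (by positivity)
          omega
      rw [hc0, mul_zero] at hc
      omega

theorem cosetFam_bijective (p : ℕ) [NeZero p] (hp : p.Prime) : Function.Bijective (cosetFam p) := by
  rw [Fintype.bijective_iff_injective_and_card]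
  refine ⟨cosetFam_injective p hp, ?_⟩
  rw [Fintype.card_option, Fintype.card_fin, ← Nat.card_eq_fintype_card, Fermat.Agent.S20.card_Q p,
    dedekindPsi_prime hp]

/-- Summation over `SL(2, ℤ) ⧸ Γ₀(p)` along the representatives `1`, `(S T^j)⁻¹`. -/
theorem sum_Q_eq (p : ℕ) [NeZero p] (hp : p.Prime) {M : Type*} [AddCommMonoid M]
    (φ : Q p → M) :
    ∑ q : Q p, φ q = φ (QuotientGroup.mk 1) +
      ∑ j : Fin p, φ (QuotientGroup.mk (cosetRep ((j : ℕ) : ℤ))⁻¹) := by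
  rw [← (Equiv.ofBijective _ (cosetFam_bijective p hp)).sum_comp, Fintype.sum_option]
  rfl

theorem trQ_eq (p : ℕ) [NeZero p] (hp : p.Prime) {k : ℤ} {G : ℍ → ℂ} (hG : IsInv p k G) :
    trQ p k G = G + (p : ℂ) • heckeU k p (wFun p k G) := by
  have hp0 : (p : ℂ) ≠ 0 := Nat.cast_ne_zero.mpr (NeZero.ne p)
  unfold trQ
  rw [sum_Q_eq p hp, cj_one hG]
  congr 1
  funext z
  rw [Finset.sum_apply, Pi.smul_apply, heckeU_apply k (NeZero.ne p), smul_eq_mul, ← mul_assoc,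
    mul_inv_cancel₀ hp0, one_mul, ← Fin.sum_univ_eq_sum_range]
  refine Finset.sum_congr rfl fun j _ => ?_
  rw [cj_mk hG, inv_inv]
  exact slash_cosetRep p k G j z

theorem trace_mem_LF (p : ℕ) [NeZero p] (hp : p.Prime) {k : ℤ} {G : ℍ → ℂ} (hG : G ∈ MF p k) :
    G + (p : ℂ) • heckeU k p (wFun p k G) ∈ LF k := by
  rw [← trQ_eq p hp (mem_MF_iff'.mp hG).2.1]
  exact trQ_mem_LF hG

theorem wFun_two (p : ℕ) [NeZero p] (hp : p.Prime) {H : ℍ → ℂ} (hH : H ∈ MF p 2) :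
    wFun p 2 H = (-(p : ℂ)⁻¹) • heckeU 2 p H := by
  have hp0 : (p : ℂ) ≠ 0 := Nat.cast_ne_zero.mpr (NeZero.ne p)
  have h1 := trace_mem_LF p hp (wFun_mem_MF p hH)
  rw [lo_weight_two, Submodule.mem_bot, wFun_wFun, heckeU_smul, smul_smul] at h1
  have e : (p : ℂ) * ((-1 : ℂ) ^ (2 : ℤ) * (p : ℂ) ^ (-(2 : ℤ))) = (p : ℂ)⁻¹ := by
    rw [zpow_neg, zpow_ofNat, zpow_ofNat]
    field_simp
  rw [e] at h1
  rw [_root_.neg_smul]
  exact eq_neg_of_add_eq_zero_left h1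

theorem heckeU_mem_MF_two (p : ℕ) [NeZero p] (hp : p.Prime) {H : ℍ → ℂ} (hH : H ∈ MF p 2) :
    heckeU 2 p H ∈ MF p 2 := by
  have hp0 : (p : ℂ) ≠ 0 := Nat.cast_ne_zero.mpr (NeZero.ne p)
  have h := (MF p 2).smul_mem (-(p : ℂ)) (wFun_mem_MF p hH)
  rw [wFun_two p hp hH, smul_smul] at h
  have e : -(p : ℂ) * -(p : ℂ)⁻¹ = 1 := by field_simp
  rwa [e, one_smul] at h

theorem heckeU_heckeU_two (p : ℕ) [NeZero p] (hp : p.Prime) {H : ℍ → ℂ} (hH : H ∈ MF p 2) :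
    heckeU 2 p (heckeU 2 p H) = H := by
  have hp0 : (p : ℂ) ≠ 0 := Nat.cast_ne_zero.mpr (NeZero.ne p)
  have h1 := trace_mem_LF p hp hH
  rw [lo_weight_two, Submodule.mem_bot, wFun_two p hp hH, heckeU_smul, smul_smul] at h1
  have e : (p : ℂ) * -(p : ℂ)⁻¹ = -1 := by field_simp
  rw [e, neg_one_smul] at h1
  exact (sub_eq_zero.mp (by rwa [sub_eq_add_neg])).symm

theorem slash_S_mulN_two (p : ℕ) [NeZero p] (hp : p.Prime) {H : ℍ → ℂ} (hH : H ∈ MF p 2)
    (z : ℍ) : (H ∣[(2 : ℤ)] ModularGroup.S) (mulN p z) = -(p : ℂ)⁻¹ * heckeU 2 p H z := by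
  have h := congrFun (wFun_two p hp hH) z
  exact h

theorem slash_cosetRep_two (p : ℕ) [NeZero p] (hp : p.Prime) {H : ℍ → ℂ} (hH : H ∈ MF p 2)
    (j : ℕ) (z : ℍ) :
    (H ∣[(2 : ℤ)] cosetRep (j : ℤ)) z = -(p : ℂ)⁻¹ * heckeU 2 p H (heckeMatrix p j • z) := by
  rw [slash_cosetRep p, wFun_two p hp hH]
  rfl

theorem trace_pow (p : ℕ) [NeZero p] (hp : p.Prime) {H : ℍ → ℂ} (hH : H ∈ MF p 2) (m : ℕ) :
    H ^ m + ((-1 : ℂ) ^ m * (p : ℂ) * ((p : ℂ)⁻¹) ^ m) •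
      heckeU (2 * (m : ℤ)) p ((heckeU 2 p H) ^ m) ∈ LF (2 * (m : ℤ)) := by
  have h1 := trace_mem_LF p hp (pow_mem_MF hH m)
  rw [wFun_pow, wFun_two p hp hH, smul_pow, heckeU_smul, smul_smul] at h1
  have e : (p : ℂ) * (-(p : ℂ)⁻¹) ^ m = (-1 : ℂ) ^ m * (p : ℂ) * ((p : ℂ)⁻¹) ^ m := by
    rw [neg_pow]
    ring
  rw [e, mul_comm ((m : ℤ)) 2] at h1
  exact h1

theorem trace_mul_V (p : ℕ) [NeZero p] (hp : p.Prime) {H : ℍ → ℂ} (hH : H ∈ MF p 2) {k : ℤ}
    {F : ℍ → ℂ} (hF : F ∈ LF k) :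
    H * (fun z => F (mulN p z)) - ((p : ℂ) ^ (-k)) • heckeU (k + 2) p (heckeU 2 p H * F) ∈
      LF (k + 2) := by
  have hp0 : (p : ℂ) ≠ 0 := Nat.cast_ne_zero.mpr (NeZero.ne p)
  have h1 := trace_mem_LF p hp (mul_mem_MF hH (comp_mulN_mem_MF p hF))
  rw [wFun_mul, wFun_two p hp hH, wFun_comp_mulN p hF, smul_mul_smul_comm, heckeU_smul,
    smul_smul] at h1
  have e : (p : ℂ) * (-(p : ℂ)⁻¹ * (p : ℂ) ^ (-k)) = -((p : ℂ) ^ (-k)) := by
    field_simp
  rw [e, _root_.neg_smul, ← sub_eq_add_neg, add_comm (2 : ℤ) k] at h1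
  exact h1

theorem hecke_levelOne (p : ℕ) [NeZero p] (hp : p.Prime) {k : ℤ} {F : ℍ → ℂ} (hF : F ∈ LF k) :
    heckeU k p F + ((p : ℂ) ^ (k - 1)) • (fun z => F (mulN p z)) ∈ LF k := by
  have hp0 : (p : ℂ) ≠ 0 := Nat.cast_ne_zero.mpr (NeZero.ne p)
  have h1 := trace_mem_LF p hp (comp_mulN_mem_MF p hF)
  rw [wFun_comp_mulN p hF, heckeU_smul, smul_smul] at h1
  have h2 := (LF k).smul_mem ((p : ℂ) ^ (k - 1)) h1
  rw [smul_add, smul_smul] at h2
  have e : (p : ℂ) ^ (k - 1) * ((p : ℂ) * (p : ℂ) ^ (-k)) = 1 := by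
    rw [← zpow_one_add₀ hp0, ← zpow_add₀ hp0]
    have : k - 1 + (1 + -k) = 0 := by ring
    rw [this, zpow_zero]
  rw [e, one_smul, add_comm] at h2
  exact h2

end Fermat.Agent.S16.WTrace
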