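/-
S16 (U), block [PairQ]: calculus of the "expansions at the two cusps" `IsPair p w b bh`
and the general trace formula `b + p • U_p bh ∈ LQ w`.
OWNER: helper80 (only the owner edits this file).

`IsPair p w b bh` (from `UDefs`) says that `b`, `bh` are the `q`-expansions of `B` and of
`z ↦ (B ∣[w] S) (p z)` for some `B ∈ M_w(Γ₀(p))`.

* closure: `IsPair.add`, `.neg`, `.sub`, `.smul`, `.mul`, `.pow`, `isPair_zero`, `isPair_one`;
* generators: `isPair_of_LQ` (level-one forms), `isPair_vOp` (`F(p z)` for `F` of level one),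
  `isPair_two` (weight two: the second expansion is `-p⁻¹ U_p h`);
* `IsPair.trace`: the general trace formula `b + p • U_p bh ∈ LQ w`;
* corollaries `trace_identity` (the level-one forms `X_F`) and `hecke_LQ` (level-one `T_r`).
-/
import Mathlib
import Fermat.Agent.S16.UDefs
import Fermat.Agent.S16.HasQ
import Fermat.Agent.S16.WTrace
import Fermat.Agent.S16.WMem

set_option autoImplicit false

namespace Fermat.Agent.S16

open UpperHalfPlane ModularForm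
open scoped MatrixGroups ModularForm
open TrTrick (uOp vOp)

/-- Unfolding `IsPair` in terms of `WTrace.wFun`. -/
theorem isPair_iff_wFun {p : ℕ} [NeZero p] {w : ℤ} {b bh : PowerSeries ℂ} :
    IsPair p w b bh ↔ ∃ B ∈ S20.MF p w, HasQ B b ∧ HasQ (WTrace.wFun p w B) bh := Iff.rfl

theorem IsPair.congr_weight {p : ℕ} [NeZero p] {w w' : ℤ} {b bh : PowerSeries ℂ}
    (h : IsPair p w b bh) (hw : w = w') : IsPair p w' b bh := hw ▸ h

theorem IsPair.add {p : ℕ} [NeZero p] {w : ℤ} {b bh c ch : PowerSeries ℂ}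
    (h1 : IsPair p w b bh) (h2 : IsPair p w c ch) : IsPair p w (b + c) (bh + ch) := by
  obtain ⟨B, hB, hb, hbh⟩ := isPair_iff_wFun.mp h1
  obtain ⟨C, hC, hc, hch⟩ := isPair_iff_wFun.mp h2
  refine isPair_iff_wFun.mpr ⟨B + C, add_mem hB hC, hb.add hc, ?_⟩
  rw [WTrace.wFun_add]
  exact hbh.add hch

theorem IsPair.smul {p : ℕ} [NeZero p] {w : ℤ} {b bh : PowerSeries ℂ} (c : ℂ)
    (h : IsPair p w b bh) : IsPair p w (c • b) (c • bh) := by
  obtain ⟨B, hB, hb, hbh⟩ := isPair_iff_wFun.mp h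
  refine isPair_iff_wFun.mpr ⟨c • B, Submodule.smul_mem _ c hB, hb.smul c, ?_⟩
  rw [WTrace.wFun_smul]
  exact hbh.smul c

theorem IsPair.neg {p : ℕ} [NeZero p] {w : ℤ} {b bh : PowerSeries ℂ}
    (h : IsPair p w b bh) : IsPair p w (-b) (-bh) := by
  have := h.smul (-1)
  simpa using this

theorem IsPair.sub {p : ℕ} [NeZero p] {w : ℤ} {b bh c ch : PowerSeries ℂ}
    (h1 : IsPair p w b bh) (h2 : IsPair p w c ch) : IsPair p w (b - c) (bh - ch) := by
  rw [sub_eq_add_neg, sub_eq_add_neg]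
  exact h1.add h2.neg

theorem IsPair.mul {p : ℕ} [NeZero p] {w₁ w₂ : ℤ} {b bh c ch : PowerSeries ℂ}
    (h1 : IsPair p w₁ b bh) (h2 : IsPair p w₂ c ch) :
    IsPair p (w₁ + w₂) (b * c) (bh * ch) := by
  obtain ⟨B, hB, hb, hbh⟩ := isPair_iff_wFun.mp h1
  obtain ⟨C, hC, hc, hch⟩ := isPair_iff_wFun.mp h2
  refine isPair_iff_wFun.mpr ⟨B * C, S20.mul_mem_MF hB hC, hb.mul hc, ?_⟩
  rw [WTrace.wFun_mul]
  exact hbh.mul hch

theorem isPair_one (p : ℕ) [NeZero p] : IsPair p 0 1 1 := by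
  refine isPair_iff_wFun.mpr ⟨1, S20.LF_le_MF p 0 S20.one_mem_LF, hasQ_one, ?_⟩
  rw [WTrace.wFun_one]
  exact hasQ_one

theorem isPair_zero (p : ℕ) [NeZero p] (w : ℤ) : IsPair p w 0 0 := by
  have h : IsPair p w ((0 : ℂ) • (0 : PowerSeries ℂ)) ((0 : ℂ) • (0 : PowerSeries ℂ)) := by
    refine isPair_iff_wFun.mpr ⟨(0 : ℂ) • (0 : ℍ → ℂ), Submodule.smul_mem _ _ (zero_mem _), ?_, ?_⟩
    · exact hasQ_zero.smul 0
    · rw [WTrace.wFun_smul]
      have := hasQ_zero.smul (0 : ℂ)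
      simpa using this
  simpa using h

theorem IsPair.pow {p : ℕ} [NeZero p] {w : ℤ} {b bh : PowerSeries ℂ} (h : IsPair p w b bh)
    (m : ℕ) : IsPair p ((m : ℤ) * w) (b ^ m) (bh ^ m) := by
  induction m with
  | zero => simpa using isPair_one p
  | succ m ih =>
    rw [pow_succ, pow_succ]
    exact (ih.mul h).congr_weight (by push_cast; ring)

/-- A level-one form gives the pair `(a, V_p a)`. -/
theorem isPair_of_LQ (p : ℕ) [NeZero p] {k : ℤ} {a : PowerSeries ℂ} (ha : a ∈ LQ k) :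
    IsPair p k a (vOp p a) := by
  obtain ⟨F, hF, hFa⟩ := exists_of_mem_LQ ha
  refine ⟨F, S20.LF_le_MF p k hF, hFa, ?_⟩
  have hS : F ∣[k] ModularGroup.S = F := (S20.mem_LF_iff.mp hF).2.1 ModularGroup.S
  rw [hS]
  exact hFa.comp_mulN p

/-- For `F` of level one, `z ↦ F (p z)` gives the pair `(V_p a, p^(-k) a)`. -/
theorem isPair_vOp (p : ℕ) [NeZero p] {k : ℤ} {a : PowerSeries ℂ} (ha : a ∈ LQ k) :
    IsPair p k (vOp p a) (((p : ℂ) ^ (-k)) • a) := by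
  obtain ⟨F, hF, hFa⟩ := exists_of_mem_LQ ha
  refine isPair_iff_wFun.mpr ⟨fun z => F (S23.mulN p z), WMem.comp_mulN_mem_MF p hF,
    hFa.comp_mulN p, ?_⟩
  rw [WTrace.wFun_comp_mulN p hF]
  exact hFa.smul _

/-- In weight two the expansion at the other cusp is `-p⁻¹ U_p h`. -/
theorem isPair_two (p : ℕ) [NeZero p] (hp : p.Prime) {H : ℍ → ℂ} (hH : H ∈ S20.MF p 2)
    {h : PowerSeries ℂ} (hh : HasQ H h) : IsPair p 2 h ((-(p : ℂ)⁻¹) • uOp p h) := by
  refine isPair_iff_wFun.mpr ⟨H, hH, hh, ?_⟩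
  rw [WTrace.wFun_two p hp hH]
  exact (hh.heckeU 2 hp.ne_zero).smul _

/-- **General trace formula**: `b + p • U_p bh` is the `q`-expansion of a level-one form. -/
theorem IsPair.trace {p : ℕ} [NeZero p] (hp : p.Prime) {w : ℤ} {b bh : PowerSeries ℂ}
    (h : IsPair p w b bh) : b + (p : ℂ) • uOp p bh ∈ LQ w := by
  obtain ⟨B, hB, hb, hbh⟩ := isPair_iff_wFun.mp h
  exact mem_LQ_of_hasQ (WTrace.trace_mem_LF p hp hB)
    (hb.add ((hbh.heckeU w hp.ne_zero).smul _))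

/-- The level-one forms `X_F = p^k · H · V_p F - U_p (U_p H · F)` (weight `k + 2`). -/
theorem trace_identity {p : ℕ} [NeZero p] (hp : p.Prime) {h : PowerSeries ℂ}
    (hh : IsPair p 2 h ((-(p : ℂ)⁻¹) • uOp p h)) {k : ℤ} {a : PowerSeries ℂ} (ha : a ∈ LQ k) :
    ((p : ℂ) ^ k) • (h * vOp p a) - uOp p (uOp p h * a) ∈ LQ (k + 2) := by
  have hp0 : (p : ℂ) ≠ 0 := Nat.cast_ne_zero.mpr hp.ne_zero
  have h1 := smul_mem_LQ ((p : ℂ) ^ k) (((hh.mul (isPair_vOp p ha)).congr_weight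
    (add_comm 2 k)).trace hp)
  have e : ((p : ℂ) ^ k) • (h * vOp p a + (p : ℂ) •
      uOp p (((-(p : ℂ)⁻¹) • uOp p h) * (((p : ℂ) ^ (-k)) • a))) =
      ((p : ℂ) ^ k) • (h * vOp p a) - uOp p (uOp p h * a) := by
    rw [smul_mul_smul_comm, map_smul, smul_add, smul_smul, smul_smul, sub_eq_add_neg]
    congr 1
    have : (p : ℂ) ^ k * (p : ℂ) * (-(p : ℂ)⁻¹ * (p : ℂ) ^ (-k)) = -1 := by
      rw [zpow_neg]
      have hk : (p : ℂ) ^ k ≠ 0 := zpow_ne_zero _ hp0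
      field_simp
    rw [this, neg_one_smul]
  rw [← e]
  exact h1

/-- The level-one Hecke operator `T_r = U_r + r^(k-1) V_r` on `q`-expansions. -/
theorem hecke_LQ {r : ℕ} (hr : r.Prime) {k : ℤ} {a : PowerSeries ℂ} (ha : a ∈ LQ k) :
    uOp r a + ((r : ℂ) ^ (k - 1)) • vOp r a ∈ LQ k := by
  have : NeZero r := ⟨hr.ne_zero⟩
  have hr0 : (r : ℂ) ≠ 0 := Nat.cast_ne_zero.mpr hr.ne_zero
  have h1 := smul_mem_LQ ((r : ℂ) ^ (k - 1)) ((isPair_vOp r ha).trace hr)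
  have e : ((r : ℂ) ^ (k - 1)) • (vOp r a + (r : ℂ) • uOp r (((r : ℂ) ^ (-k)) • a)) =
      uOp r a + ((r : ℂ) ^ (k - 1)) • vOp r a := by
    rw [map_smul, smul_add, smul_smul, smul_smul, add_comm]
    congr 1
    have : (r : ℂ) ^ (k - 1) * (r : ℂ) * (r : ℂ) ^ (-k) = 1 := by
      rw [zpow_neg, zpow_sub_one₀ hr0]
      have hk : (r : ℂ) ^ k ≠ 0 := zpow_ne_zero _ hr0
      field_simp
    rw [this, one_smul]
  rw [← e]
  exact h1

end Fermat.Agent.S16
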