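import Mathlib
import Fermat.Agent.S16.UDefs

/-!
# S16, upper bound (U): the pinned leaf interface (owner: helper83; FROZEN once landed)

* `CongOne p ℓ s H` — the weight-2 form `H` on `Γ₀(p)` has `ℓ`-integral `q`-expansion which is
  congruent to `1` modulo `ℓ ^ s` (over `Zl ℓ = ℤ_(ℓ) ⊂ ℂ` of `S16/UDefs.lean`).
* the four leaves `LeafB`, `LeafB3`, `LeafC`, `LeafD` of the upper bound.
-/

set_option autoImplicit false

namespace Fermat.Agent.S16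

open UpperHalfPlane PowerSeries

/-- Divisibility by `ℓ ^ s` in `ℤ_(ℓ)`, common-denominator form. -/
theorem pow_dvd_Zl_iff {ℓ : ℕ} (hℓ : ℓ.Prime) (s : ℕ) (x : Zl ℓ) :
    ((ℓ : Zl ℓ) ^ s ∣ x) ↔
      ∃ (c : ℤ) (d : ℕ), d ≠ 0 ∧ d.Coprime ℓ ∧ (d : ℂ) * (x : ℂ) = (ℓ : ℂ) ^ s * c := by
  have hne : ∀ b : ℕ, b.Coprime ℓ → b ≠ 0 := by
    rintro b hb rfl
    rw [Nat.coprime_zero_left] at hb
    exact hℓ.one_lt.ne' hb
  constructor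
  · rintro ⟨y, rfl⟩
    obtain ⟨a, b, hb, hy⟩ := y.2
    refine ⟨a, b, hne b hb, hb, ?_⟩
    push_cast
    rw [← hy]
    ring
  · rintro ⟨c, d, hd0, hd, h⟩
    have hd0' : (d : ℂ) ≠ 0 := by exact_mod_cast hd0
    refine ⟨⟨(c : ℂ) / (d : ℂ), div_mem_Zl hd hd0 c⟩, ?_⟩
    apply Subtype.ext
    push_cast
    field_simp
    rw [mul_comm]
    exact h

/-- `ℓ` is not a unit of `ℤ_(ℓ)`. -/
theorem not_dvd_one_Zl {ℓ : ℕ} (hℓ : ℓ.Prime) : ¬ ((ℓ : Zl ℓ) ∣ 1) := by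
  rintro ⟨y, hy⟩
  apply one_ne_prime_mul_mem_Zl hℓ y.2
  have := congrArg (Subtype.val) hy
  simpa using this

/-- `ℓ` is nonzero in `ℤ_(ℓ)`. -/
theorem natCast_ne_zero_Zl {ℓ : ℕ} (hℓ : ℓ.Prime) : (ℓ : Zl ℓ) ≠ 0 := by
  intro h
  have := congrArg (Subtype.val) h
  simp only [SubringClass.coe_natCast, ZeroMemClass.coe_zero, Nat.cast_eq_zero] at this
  exact hℓ.ne_zero this

/-- Divisibility of an integer by `ℓ ^ s` in `ℤ_(ℓ)` is divisibility in `ℤ`. -/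
theorem intCast_dvd_of_Zl {ℓ : ℕ} (s : ℕ) (a : ℤ)
    (h : (ℓ : Zl ℓ) ^ s ∣ (a : Zl ℓ)) : (ℓ : ℤ) ^ s ∣ a := by
  obtain ⟨y, hy⟩ := h
  apply dvd_of_eq_pow_mul_mem_Zl s y.2
  have := congrArg (Subtype.val) hy
  simpa using this

/-- An integer prime to `ℓ` is invertible modulo `ℓ` in `ℤ_(ℓ)` (indeed already in `ℤ`). -/
theorem exists_inv_mod_Zl {ℓ : ℕ} {a : ℤ} (h : IsCoprime a (ℓ : ℤ)) :
    ∃ a' : Zl ℓ, (ℓ : Zl ℓ) ∣ (a : Zl ℓ) * a' - 1 := by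
  obtain ⟨x, y, hxy⟩ := h
  refine ⟨(x : Zl ℓ), ⟨-(y : Zl ℓ), ?_⟩⟩
  have : ((x * a + y * (ℓ : ℤ) : ℤ) : Zl ℓ) = 1 := by rw [hxy]; simp
  push_cast at this
  linear_combination this

/-- `H` has `ℓ`-integral `q`-expansion congruent to `1` modulo `ℓ ^ s`. -/
def CongOne (p ℓ s : ℕ) (H : ModularForm (CongruenceSubgroup.Gamma0 p) 2) : Prop :=
  ∃ h : PowerSeries (Zl ℓ), h.map (Zl ℓ).subtype = qExpansion 1 H ∧
    h - 1 ∈ TrTrick.congSub ((ℓ : Zl ℓ) ^ s)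

/-- How to produce `CongOne`: constant term `1` and, with a common denominator `d` prime to `ℓ`,
all higher coefficients divisible by `ℓ ^ s`. -/
theorem congOne_of_denominator {p ℓ s d : ℕ} (hℓ : ℓ.Prime)
    (H : ModularForm (CongruenceSubgroup.Gamma0 p) 2)
    (h0 : (qExpansion 1 H).coeff 0 = 1) (hd0 : d ≠ 0) (hd : d.Coprime ℓ)
    (hH : ∀ n : ℕ, 1 ≤ n → ∃ c : ℤ, (d : ℂ) * (qExpansion 1 H).coeff n = (ℓ : ℂ) ^ s * c) :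
    CongOne p ℓ s H := by
  have hd0' : (d : ℂ) ≠ 0 := by exact_mod_cast hd0
  have hmem : ∀ n, (qExpansion 1 H).coeff n ∈ Zl ℓ := by
    intro n
    rcases Nat.eq_zero_or_pos n with rfl | hn
    · rw [h0]; exact (Zl ℓ).one_mem
    · obtain ⟨c, hc⟩ := hH n hn
      exact ⟨(ℓ : ℤ) ^ s * c, d, hd, by push_cast; exact hc⟩
  refine ⟨PowerSeries.mk fun n => ⟨(qExpansion 1 H).coeff n, hmem n⟩, ?_, ?_⟩
  · ext n
    simp
  · intro n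
    rcases Nat.eq_zero_or_pos n with rfl | hn
    · have : coeff 0 (PowerSeries.mk (fun n => (⟨(qExpansion 1 H).coeff n, hmem n⟩ : Zl ℓ)) - 1)
          = 0 := by
        apply Subtype.ext
        simp [h0]
      rw [this]
      exact dvd_zero _
    · obtain ⟨c, hc⟩ := hH n hn
      rw [pow_dvd_Zl_iff hℓ]
      refine ⟨c, d, hd0, hd, ?_⟩
      have : ((coeff n (PowerSeries.mk (fun n => (⟨(qExpansion 1 H).coeff n, hmem n⟩ : Zl ℓ)) - 1)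
          : Zl ℓ) : ℂ) = (qExpansion 1 H).coeff n := by
        simp [PowerSeries.coeff_one, hn.ne']
      rw [this]
      exact hc

/-- Leaf (B): no `H ≡ 1 (mod ℓ)` for `ℓ ≥ 5` (the `T_r`-trick with `r = 2`). -/
def LeafB (p : ℕ) : Prop :=
  ∀ ℓ : ℕ, ℓ.Prime → 5 ≤ ℓ → ∀ H : ModularForm (CongruenceSubgroup.Gamma0 p) 2, ¬ CongOne p ℓ 1 H

/-- Leaf (B3): no `H ≡ 1 (mod 9)` (the `T_r`-trick with `r = 2`, `ℓ = 3`). -/
def LeafB3 (p : ℕ) : Prop :=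
  ∀ H : ModularForm (CongruenceSubgroup.Gamma0 p) 2, ¬ CongOne p 3 2 H

/-- Leaf (C): `H ≡ 1 (mod ℓ ^ s)`, `ℓ ≠ p`, forces `ℓ ^ s ∣ p + 1` (the `Δ`-trick). -/
def LeafC (p : ℕ) : Prop :=
  ∀ ℓ s : ℕ, ℓ.Prime → ℓ ≠ p → 1 ≤ s →
    ∀ H : ModularForm (CongruenceSubgroup.Gamma0 p) 2, CongOne p ℓ s H → ℓ ^ s ∣ p + 1

/-- Leaf (D): for `p ≡ 7 (mod 8)` there is no `H ≡ 1 (mod 8)`. -/
def LeafD (p : ℕ) : Prop :=
  p % 8 = 7 → ∀ H : ModularForm (CongruenceSubgroup.Gamma0 p) 2, ¬ CongOne p 2 3 H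

end Fermat.Agent.S16
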