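import Mathlib
import Fermat.Agent.S16.UDefs
import Fermat.Agent.S16.LevelOneInt
import Fermat.Agent.S16.DPrime
import Fermat.Agent.S16.ULeaf
import Fermat.Agent.S16.PairQ

/-!
# S16, upper bound: the leaf (D') — `ℓ = 2`, `p ≡ 7 mod 8`, no `H ≡ 1 mod 8`

Owner: helper42.  Glue between the abstract core `DPrime.false_of_trace_mem` and the analytic
layer (`UDefs`: `LQ`, `IsPair`, `Zl`; `LevelOneInt`: integral `q`-expansions of `E₄`, `E₆`, `Δ`
and the level-one Sturm bound).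

`false_of_trace` is the hypothesis-form statement: if the trace series
`b8n(h, E₄, E₆)^m + p U_p(b8n(-p⁻¹ U_p h, V E₄, V E₆)^m)` is the `q`-expansion of a level-one
form of weight `8 m` for every `m`, and `h ≡ 1 mod 8` is `2`-integral, then `p ≢ 7 mod 8`.
-/

set_option autoImplicit false

namespace Fermat.Agent.S16.UD

open PowerSeries UpperHalfPlane ModularForm EisensteinSeries
open scoped MatrixGroups ModularForm ArithmeticFunction.sigma
open Fermat.Agent.S16.TrTrick (uOp vOp)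
open Fermat.Agent.S16.LevelOneInt (E4Z E6Z DeltaZ)
open Fermat.Agent.S16.DPrime (b8 b8n)

/-! ### Integer series -/

theorem four_dvd_pow_sub (d : ℤ) : (4 : ℤ) ∣ d ^ 5 - d ^ 3 := by
  obtain ⟨e, rfl | rfl⟩ := Int.even_or_odd' d
  · exact ⟨8 * e ^ 5 - 2 * e ^ 3, by ring⟩
  · exact ⟨e * (e + 1) * (2 * e + 1) ^ 3, by ring⟩

theorem four_dvd_sigma_sub (m : ℕ) : (4 : ℤ) ∣ (σ 5 m : ℤ) - (σ 3 m : ℤ) := by
  rw [ArithmeticFunction.sigma_apply, ArithmeticFunction.sigma_apply]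
  push_cast
  rw [← Finset.sum_sub_distrib]
  exact Finset.dvd_sum fun d _ => four_dvd_pow_sub d

/-- `∑ σ₃(n) qⁿ`. -/
noncomputable def AZ : PowerSeries ℤ :=
  PowerSeries.mk fun m => if m = 0 then 0 else (σ 3 m : ℤ)

/-- `∑ (σ₅(n) - σ₃(n))/4 qⁿ`. -/
noncomputable def CZ : PowerSeries ℤ :=
  PowerSeries.mk fun m => if m = 0 then 0 else ((σ 5 m : ℤ) - (σ 3 m : ℤ)) / 4

theorem coeff_ofNat_mul {R : Type*} [CommRing R] (n : ℕ) [n.AtLeastTwo] (f : PowerSeries R)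
    (m : ℕ) : coeff m ((OfNat.ofNat n : PowerSeries R) * f) = (OfNat.ofNat n : R) * coeff m f := by
  rw [← map_ofNat (C (R := R)) n, coeff_C_mul]

theorem E4Z_eq : E4Z = 1 + 240 * AZ := by
  ext m
  rw [LevelOneInt.coeff_E4Z, map_add, coeff_ofNat_mul, AZ, coeff_mk, coeff_one]
  by_cases hm : m = 0
  · simp [hm]
  · simp [hm]

theorem E6Z_eq : E6Z = 1 - 504 * (AZ + 4 * CZ) := by
  ext m
  rw [LevelOneInt.coeff_E6Z, map_sub, coeff_ofNat_mul, map_add, coeff_ofNat_mul, AZ, CZ,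
    coeff_mk, coeff_mk, coeff_one]
  by_cases hm : m = 0
  · simp [hm]
  · simp only [hm, if_false]
    rw [Int.mul_ediv_cancel' (four_dvd_sigma_sub m)]
    ring

theorem coeff_zero_DeltaZ : coeff 0 DeltaZ = 0 := by
  rw [DeltaZ, PowerSeries.coeff_zero_X_mul]

theorem coeff_one_DeltaZ : coeff 1 DeltaZ = 1 := by
  rw [DeltaZ, PowerSeries.coeff_succ_X_mul, PowerSeries.coeff_zero_eq_constantCoeff_apply,
    ModularCurve.constantCoeff_dedekindEtaUnit]

/-- `1728 Δ = E₄³ - E₆²` for the integral `q`-expansions. -/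
theorem disc_rel : 1728 * DeltaZ = E4Z ^ 3 - E6Z ^ 2 := by
  apply PowerSeries.map_injective (Int.castRingHom ℂ) Int.cast_injective
  rw [map_mul, map_sub, map_pow, map_pow, map_ofNat, ← LevelOneInt.qExpansion_E4,
    ← LevelOneInt.qExpansion_E6, ← LevelOneInt.qExpansion_Delta]
  set F3 : ModularForm 𝒮ℒ 12 := ModularForm.mcast (by decide) (E₄.pow 3) with hF3
  set G2 : ModularForm 𝒮ℒ 12 := ModularForm.mcast (by decide) (E₆.pow 2) with hG2
  have hfun : (ModularForm.discriminant : ℍ → ℂ) = (1 / 1728 : ℂ) • ⇑(F3 - G2) := by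
    funext z
    rw [ModularForm.discriminant_eq_E₄_cube_sub_E₆_sq z]
    simp only [hF3, hG2, Pi.smul_apply, FunLike.coe_sub, Pi.sub_apply, ModularForm.coe_mcast,
      ModularForm.coe_pow, Pi.pow_apply, smul_eq_mul]
    ring
  have hsub : qExpansion 1 (⇑(F3 - G2)) = qExpansion 1 ⇑E₄ ^ 3 - qExpansion 1 ⇑E₆ ^ 2 := by
    rw [FunLike.coe_sub, ModularForm.qExpansion_sub one_pos one_mem_strictPeriods_SL, hF3, hG2,
      ModularForm.qExpansion_mcast, ModularForm.qExpansion_mcast,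
      ModularForm.qExpansion_pow one_pos one_mem_strictPeriods_SL,
      ModularForm.qExpansion_pow one_pos one_mem_strictPeriods_SL]
  rw [hfun, ModularForm.qExpansion_smul one_pos one_mem_strictPeriods_SL, hsub,
    ← map_ofNat (C (R := ℂ)) 1728, ← smul_eq_C_mul, smul_smul]
  norm_num

/-! ### The ring `ℤ_(2)` and `2`-integral level-one `q`-expansions -/

/-- `1/3 ∈ ℤ_(2)`. -/
noncomputable def i3 : Zl 2 := ⟨((3 : ℕ) : ℂ)⁻¹, inv_natCast_mem_Zl (by decide) (by norm_num)⟩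

theorem three_mul_i3 : (3 : Zl 2) * i3 = 1 := by
  apply Subtype.ext
  show (3 : ℂ) * ((3 : ℕ) : ℂ)⁻¹ = 1
  norm_num

theorem two_not_dvd_one : ¬ (2 : Zl 2) ∣ 1 := by
  have h := not_dvd_one_Zl Nat.prime_two
  simpa using h

theorem map_subtype_smul (c : Zl 2) (f : PowerSeries (Zl 2)) :
    (c • f).map (Zl 2).subtype = (c : ℂ) • f.map (Zl 2).subtype := by
  ext n
  simp

theorem map_subtype_uOp (p : ℕ) (f : PowerSeries (Zl 2)) :
    (uOp p f).map (Zl 2).subtype = uOp p (f.map (Zl 2).subtype) := by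
  ext n
  simp

theorem map_subtype_vOp (p : ℕ) (f : PowerSeries (Zl 2)) :
    (vOp p f).map (Zl 2).subtype = vOp p (f.map (Zl 2).subtype) := by
  ext n
  simp only [coeff_map, TrTrick.coeff_vOp]
  split_ifs <;> simp

theorem map_int_subtype (f : PowerSeries ℤ) :
    (f.map (Int.castRingHom (Zl 2))).map (Zl 2).subtype = f.map (Int.castRingHom ℂ) := by
  ext n
  simp

theorem LQ_smul {w : ℤ} (c : ℂ) {a : PowerSeries ℂ} (ha : a ∈ LQ w) : c • a ∈ LQ w := by
  obtain ⟨F, rfl⟩ := ha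
  refine ⟨c • F, ?_⟩
  rw [show ((c • F : ModularForm 𝒮ℒ w) : ℍ → ℂ) = c • ⇑F from rfl,
    ModularForm.qExpansion_smul one_pos one_mem_strictPeriods_SL]

/-- The `2`-integral `q`-expansions of level-one forms of weight `w`. -/
def S2 (w : ℤ) : Submodule (Zl 2) (PowerSeries (Zl 2)) where
  carrier := {f | f.map (Zl 2).subtype ∈ LQ w}
  add_mem' := by
    rintro f g ⟨F, hF⟩ ⟨G, hG⟩
    refine ⟨F + G, ?_⟩
    rw [show ((F + G : ModularForm 𝒮ℒ w) : ℍ → ℂ) = ⇑F + ⇑G from rfl,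
      ModularForm.qExpansion_add one_pos one_mem_strictPeriods_SL, hF, hG, map_add]
  zero_mem' := by
    refine ⟨0, ?_⟩
    rw [show ((0 : ModularForm 𝒮ℒ w) : ℍ → ℂ) = 0 from rfl, qExpansion_zero, map_zero]
  smul_mem' := by
    intro c f hf
    show (c • f).map (Zl 2).subtype ∈ LQ w
    rw [map_subtype_smul]
    exact LQ_smul _ hf

theorem mem_S2 {w : ℤ} {f : PowerSeries (Zl 2)} : f ∈ S2 w ↔ f.map (Zl 2).subtype ∈ LQ w :=
  Iff.rfl

theorem S2_sat (w : ℤ) (f : PowerSeries (Zl 2)) (h : (2 : Zl 2) • f ∈ S2 w) : f ∈ S2 w := by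
  rw [mem_S2, map_subtype_smul] at h
  rw [mem_S2]
  have := LQ_smul (2 : ℂ)⁻¹ h
  rw [smul_smul, show ((2 : ℂ)⁻¹ * ((2 : Zl 2) : ℂ)) = 1 from by
    show (2 : ℂ)⁻¹ * 2 = 1
    norm_num, one_smul] at this
  exact this

theorem S2_sturm (w : ℕ) (f : PowerSeries (Zl 2)) (hf : f ∈ S2 (w : ℤ))
    (h : ∀ n, 12 * n ≤ w → (2 : Zl 2) ∣ coeff n f) : ∀ n, (2 : Zl 2) ∣ coeff n f := by
  obtain ⟨F, hF⟩ := hf
  set A : AddSubgroup ℂ := (Zl 2).toAddSubgroup.map (AddMonoidHom.mulLeft (2 : ℂ)) with hA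
  have hmemA : ∀ z : ℂ, z ∈ A ↔ ∃ y ∈ Zl 2, 2 * y = z := by
    intro z
    rw [hA, AddSubgroup.mem_map]
    constructor
    · rintro ⟨y, hy, rfl⟩
      exact ⟨y, hy, rfl⟩
    · rintro ⟨y, hy, rfl⟩
      exact ⟨y, hy, rfl⟩
  have key := LevelOneInt.sturm_levelOne_mem A (w : ℤ) F (by
    intro m hm
    rw [hF, coeff_map, hmemA]
    obtain ⟨c, hc⟩ := h m (by exact_mod_cast hm)
    refine ⟨c, c.2, ?_⟩
    rw [hc]
    rfl)
  intro n
  have hn := key n
  rw [hF, coeff_map, hmemA] at hn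
  obtain ⟨y, hy, hyn⟩ := hn
  refine ⟨⟨y, hy⟩, ?_⟩
  apply Subtype.ext
  rw [← Subring.subtype_apply, ← hyn]
  rfl

/-! ### The hypothesis-form statement -/

/-- `b8n` with scalar multiplications (the shape produced by the `IsPair` calculus). -/
theorem b8n_eq_smul (H E4 E6 : PowerSeries ℂ) :
    b8n H E4 E6 = H ^ 4 - (6 : ℂ) • (H ^ 2 * E4) + (8 : ℂ) • (H * E6) - (3 : ℂ) • E4 ^ 2 := by
  rw [DPrime.b8n, smul_eq_C_mul, smul_eq_C_mul, smul_eq_C_mul, map_ofNat, map_ofNat, map_ofNat]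
  ring

/-- **(D'), hypothesis form.**  `hZ ≡ 1 mod 8` is `2`-integral, `p ≡ 7 mod 8`; if all traces of
powers of the weight-8 form `b8n` are level-one `q`-expansions, we get a contradiction. -/
theorem false_of_trace (p : ℕ) (hp8 : p % 8 = 7) (hZ : PowerSeries (Zl 2))
    (hcong : hZ - 1 ∈ TrTrick.congSub ((2 : Zl 2) ^ 3))
    (htr : ∀ m : ℕ,
      b8n (hZ.map (Zl 2).subtype) (E4Z.map (Int.castRingHom ℂ)) (E6Z.map (Int.castRingHom ℂ)) ^ m +
        (p : ℂ) • uOp p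
          (b8n ((-(p : ℂ)⁻¹) • uOp p (hZ.map (Zl 2).subtype))
            (vOp p (E4Z.map (Int.castRingHom ℂ))) (vOp p (E6Z.map (Int.castRingHom ℂ))) ^ m) ∈
        LQ ((m : ℤ) * 8)) : False := by
  have hp0 : p ≠ 0 := by rintro rfl; omega
  have hpC : (p : ℂ) ≠ 0 := by exact_mod_cast hp0
  have hodd : Nat.Coprime p 2 := by
    rw [Nat.coprime_two_right]
    exact Nat.odd_iff.mpr (by omega)
  -- `p + 1 = 2^t u`
  obtain ⟨t, u, hu, hpu⟩ := Nat.exists_eq_two_pow_mul_odd (n := p + 1) (by omega)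
  -- the series `x` with `hZ = 1 + 8x`
  have hx : ∃ x : PowerSeries (Zl 2), hZ = 1 + 8 * x := by
    choose c hc using hcong
    refine ⟨PowerSeries.mk c, PowerSeries.ext fun n => ?_⟩
    have := hc n
    rw [map_add, coeff_ofNat_mul, coeff_mk]
    rw [map_sub] at this
    linear_combination this
  obtain ⟨x, hx⟩ := hx
  -- the series `x'` with `-p⁻¹ U_p hZ = 1 + 8x'`
  obtain ⟨c, hc⟩ : ∃ c : ℕ, p + 1 = 8 * c := ⟨(p + 1) / 8, by omega⟩
  set ip : Zl 2 := ⟨((p : ℕ) : ℂ)⁻¹, inv_natCast_mem_Zl hodd hp0⟩ with hip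
  have hipC : ((-ip : Zl 2) : ℂ) = -(p : ℂ)⁻¹ := rfl
  have hipp : ip * (p : Zl 2) = 1 := by
    apply Subtype.ext
    show ((p : ℕ) : ℂ)⁻¹ * (((p : ℕ) : Zl 2) : ℂ) = 1
    rw [Subring.coe_natCast]
    exact inv_mul_cancel₀ hpC
  have hcO : (p : Zl 2) + 1 = 8 * (c : Zl 2) := by exact_mod_cast congrArg (Nat.cast (R := Zl 2)) hc
  set x' : PowerSeries (Zl 2) := -(C ip * (C (c : Zl 2) + uOp p x)) with hx'
  have hU : uOp p hZ = 1 + 8 * uOp p x := by
    ext n
    rw [hx, TrTrick.coeff_uOp, map_add, map_add, coeff_ofNat_mul, coeff_ofNat_mul,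
      TrTrick.coeff_uOp, coeff_one, coeff_one]
    have : (n * p = 0) ↔ n = 0 := by
      constructor
      · intro h
        rcases Nat.mul_eq_zero.mp h with h | h
        · exact h
        · exact absurd h hp0
      · rintro rfl
        simp
    simp only [this]
  have hO : (-ip) • uOp p hZ = 1 + 8 * x' := by
    have hA : (C ip : PowerSeries (Zl 2)) * C (p : Zl 2) = 1 := by
      rw [← map_mul, hipp, map_one]
    have hB : (C (p : Zl 2) : PowerSeries (Zl 2)) + 1 = 8 * C (c : Zl 2) := by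
      have := congrArg (C (R := Zl 2)) hcO
      simp only [map_add, map_mul, map_one, map_ofNat] at this
      exact this
    rw [hU, hx', smul_eq_C_mul, map_neg]
    linear_combination hA - (C ip : PowerSeries (Zl 2)) * hB
  have hh' : (-(p : ℂ)⁻¹) • uOp p (hZ.map (Zl 2).subtype) = (1 + 8 * x').map (Zl 2).subtype := by
    rw [← hO, map_subtype_smul, map_subtype_uOp, hipC]
  -- notation
  set κ : ℤ →+* Zl 2 := Int.castRingHom (Zl 2) with hκ
  set A : PowerSeries (Zl 2) := AZ.map κ with hA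
  set Cc : PowerSeries (Zl 2) := CZ.map κ with hCc
  set Δ : PowerSeries (Zl 2) := DeltaZ.map κ with hΔdef
  have hE4 : E4Z.map κ = 1 + 240 * A := by
    rw [E4Z_eq, map_add, map_mul, map_one, map_ofNat]
  have hE6 : E6Z.map κ = 1 - 504 * (A + 4 * Cc) := by
    rw [E6Z_eq, map_sub, map_mul, map_add, map_mul, map_one, map_ofNat, map_ofNat]
  have hΔ : 1728 * Δ = (1 + 240 * A) ^ 3 - (1 - 504 * (A + 4 * Cc)) ^ 2 := by
    rw [← hE4, ← hE6, hΔdef, ← map_pow, ← map_pow, ← map_sub, ← disc_rel, map_mul, map_ofNat]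
  have hΔ0 : coeff 0 Δ = 0 := by
    rw [hΔdef, coeff_map, coeff_zero_DeltaZ, map_zero]
  have hΔ1 : coeff 1 Δ = 1 := by
    rw [hΔdef, coeff_map, coeff_one_DeltaZ, map_one]
  have h3' : (3 : PowerSeries (Zl 2)) * C i3 = 1 := by
    rw [← map_ofNat (C (R := Zl 2)) 3, ← map_mul, three_mul_i3, map_one]
  -- apply the core
  refine DPrime.false_of_trace_mem (𝒪 := Zl 2) (p := p) (t := t) (u := u) hp0 hpu hu
    three_mul_i3 two_not_dvd_one A Cc Δ x x' hΔ hΔ0 hΔ1 (S2 (((2 ^ t : ℕ) : ℤ) * 8))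
    (S2_sat _) ?_ ?_
  · intro f hf h n
    have hw : (((2 ^ t : ℕ) : ℤ) * 8) = ((8 * 2 ^ t : ℕ) : ℤ) := by push_cast; ring
    rw [hw] at hf
    exact S2_sturm (8 * 2 ^ t) f hf h n
  · -- the trace
    have e1 := DPrime.b8n_eq h3' x A Cc
    have e2 := DPrime.b8n_eq h3' x' (vOp p A) (vOp p Cc)
    have hvE4 : vOp p (1 + 240 * A) = 1 + 240 * vOp p A := by
      rw [DPrime.vOp_eq_expand hp0, DPrime.vOp_eq_expand hp0, map_add, map_mul, map_one,
        map_ofNat]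
    have hvE6 : vOp p (1 - 504 * (A + 4 * Cc)) = 1 - 504 * (vOp p A + 4 * vOp p Cc) := by
      rw [DPrime.vOp_eq_expand hp0, DPrime.vOp_eq_expand hp0, DPrime.vOp_eq_expand hp0, map_sub,
        map_mul, map_add, map_mul, map_one, map_ofNat, map_ofNat]
    have m1 := congrArg (PowerSeries.map (Zl 2).subtype) e1
    have m2 := congrArg (PowerSeries.map (Zl 2).subtype) e2
    rw [DPrime.map_b8n, ← hx, ← hE4, ← hE6, map_int_subtype, map_int_subtype, map_mul,
      map_ofNat] at m1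
    rw [DPrime.map_b8n, ← hh', ← hvE4, ← hvE6, ← hE4, ← hE6, map_subtype_vOp, map_subtype_vOp,
      map_int_subtype, map_int_subtype, map_mul, map_ofNat] at m2
    have key := htr (2 ^ t)
    rw [m1, m2, mul_pow, mul_pow] at key
    rw [mem_S2, map_add, map_subtype_smul, map_subtype_uOp, map_pow, map_pow]
    have hconv : (6912 : PowerSeries ℂ) ^ 2 ^ t = C ((6912 : ℂ) ^ 2 ^ t) := by
      rw [map_pow, map_ofNat]
    rw [hconv, ← smul_eq_C_mul, ← smul_eq_C_mul, map_smul, smul_comm (p : ℂ), ← smul_add] at key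
    have := LQ_smul ((6912 : ℂ) ^ 2 ^ t)⁻¹ key
    rw [smul_smul, inv_mul_cancel₀ (pow_ne_zero _ (by norm_num)), one_smul] at this
    exact this

/-! ### The leaf -/

theorem e4_mem_LQ : E4Z.map (Int.castRingHom ℂ) ∈ LQ 4 := ⟨E₄, LevelOneInt.qExpansion_E4⟩

theorem e6_mem_LQ : E6Z.map (Int.castRingHom ℂ) ∈ LQ 6 := ⟨E₆, LevelOneInt.qExpansion_E6⟩

/-- The weight-8 pair attached to a weight-2 pair. -/
theorem isPair_b8n {p : ℕ} [NeZero p] {h h' : PowerSeries ℂ} (hh : IsPair p 2 h h') :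
    IsPair p 8
      (b8n h (E4Z.map (Int.castRingHom ℂ)) (E6Z.map (Int.castRingHom ℂ)))
      (b8n h' (vOp p (E4Z.map (Int.castRingHom ℂ))) (vOp p (E6Z.map (Int.castRingHom ℂ)))) := by
  have P4 := isPair_of_LQ p e4_mem_LQ
  have P6 := isPair_of_LQ p e6_mem_LQ
  rw [b8n_eq_smul, b8n_eq_smul]
  have t1 : IsPair p 8 (h ^ 4) (h' ^ 4) := (hh.pow 4).congr_weight (by norm_num)
  have t2 := (((hh.pow 2).mul P4).congr_weight (w' := 8) (by norm_num)).smul 6
  have t3 := ((hh.mul P6).congr_weight (w' := 8) (by norm_num)).smul 8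
  have t4 := ((P4.pow 2).congr_weight (w' := 8) (by norm_num)).smul 3
  exact ((t1.sub t2).add t3).sub t4

/-- **Leaf (D)**: for `p ≡ 7 mod 8` there is no `H ∈ M₂(Γ₀(p))` with `2`-integral `q`-expansion
congruent to `1` modulo `8`. -/
theorem leafD (p : ℕ) (hp : p.Prime) : LeafD p := by
  have : NeZero p := ⟨hp.ne_zero⟩
  rintro hp8 H ⟨hZ, hmap, hcong⟩
  have hQ : HasQ (⇑H) (qExpansion 1 H) := hasQ_of_mem_MF (N := p) (w := 2) ⟨H, rfl⟩
  have hpair := isPair_two p hp (H := ⇑H) ⟨H, rfl⟩ hQ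
  rw [← hmap] at hpair
  refine false_of_trace p hp8 hZ hcong fun m => ?_
  exact ((isPair_b8n hpair).pow m).trace hp

end Fermat.Agent.S16.UD
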