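/-
S16 (U), block [M'-hT] (owner: helper77): the level-one Hecke operator `T_r` on modular forms of
level one and its action on `q`-expansions, in the shape of hypothesis `hT` of
`TrTrick.false_of_trace_congruence`.

No new analysis: the prelude operator `ModularForm.heckeT` at level `Γ₀(1) = SL(2, ℤ)`.
-/
import Mathlib
import Fermat.Prelude.Def_ModularForm_HeckeOperatorForms
import Fermat.Prelude.Thm_ModularFormClass_qCoeff_heckeT
import Fermat.Agent.S16.TrTrick

set_option autoImplicit false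

noncomputable section

namespace Fermat.Agent.S16.LevelOneHecke

open UpperHalfPlane ModularForm
open scoped MatrixGroups ModularForm Manifold

/-- `Γ₀(1) = SL(2, ℤ)` inside `GL(2, ℝ)`. -/
theorem mem_Gamma0_one_iff (γ : GL (Fin 2) ℝ) :
    γ ∈ ((CongruenceSubgroup.Gamma0 1 : Subgroup SL(2, ℤ)) : Subgroup (GL (Fin 2) ℝ)) ↔
      γ ∈ 𝒮ℒ := by
  constructor
  · rintro ⟨x, -, rfl⟩
    exact ⟨x, rfl⟩
  · rintro ⟨x, rfl⟩
    refine ⟨x, ?_, rfl⟩
    rw [SetLike.mem_coe, CongruenceSubgroup.Gamma0_mem]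
    exact Subsingleton.elim _ _

/-- The level-one Hecke operator `T_r` (`r` prime) on modular forms of level one. -/
def heckeOne {r : ℕ} (hr : r.Prime) {k : ℤ} (F : ModularForm 𝒮ℒ k) : ModularForm 𝒮ℒ k where
  toFun := heckeT k r ⇑F
  slash_action_eq' := fun γ hγ =>
    heckeT_slash_eq_self_of_mem_Gamma0 (N := 1) k hr hr.not_dvd_one
      (fun γ hγ => SlashInvariantFormClass.slash_action_eq F γ ((mem_Gamma0_one_iff γ).mp hγ))
      γ ((mem_Gamma0_one_iff γ).mpr hγ)
  holo' := mdifferentiable_heckeT (ModularFormClass.holo F) k r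
  bdd_at_cusps' := fun hc => ModularFormClass.isBoundedAt_heckeT F r hc

theorem coe_heckeOne {r : ℕ} (hr : r.Prime) {k : ℤ} (F : ModularForm 𝒮ℒ k) :
    (⇑(heckeOne hr F) : ℍ → ℂ) = heckeT k r ⇑F := rfl

/-- The `q`-expansion coefficients of `T_r F`. -/
theorem qExpansion_heckeOne_coeff {r : ℕ} (hr : r.Prime) {k : ℤ} (F : ModularForm 𝒮ℒ k) (n : ℕ) :
    (qExpansion 1 ⇑(heckeOne hr F)).coeff n =
      (qExpansion 1 ⇑F).coeff (n * r) +
        if r ∣ n then (r : ℂ) ^ (k - 1) * (qExpansion 1 ⇑F).coeff (n / r) else 0 := by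
  have h := ModularFormClass.qCoeff_heckeT F one_mem_strictPeriods_SL hr.ne_zero n
  rw [ModularForm.coeffHeckeT_apply] at h
  simp only [ModularFormClass.qCoeff] at h
  rw [coe_heckeOne]
  exact h

/-- The `q`-expansion of `T_r F` through the formal operators `U_r`, `V_r`. -/
theorem qExpansion_heckeOne {r : ℕ} (hr : r.Prime) {w : ℕ} (hw : 1 ≤ w)
    (F : ModularForm 𝒮ℒ (w : ℤ)) :
    qExpansion 1 ⇑(heckeOne hr F) =
      TrTrick.uOp r (qExpansion 1 ⇑F) + (r : ℂ) ^ (w - 1) • TrTrick.vOp r (qExpansion 1 ⇑F) := by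
  ext n
  rw [qExpansion_heckeOne_coeff hr F n, map_add, TrTrick.coeff_uOp, PowerSeries.coeff_smul,
    TrTrick.coeff_vOp, smul_eq_mul]
  have hpow : (r : ℂ) ^ ((w : ℤ) - 1) = (r : ℂ) ^ (w - 1) := by
    rw [← zpow_natCast]
    congr 1
    omega
  split_ifs with h
  · rw [hpow]
  · rw [mul_zero]

/-- Hypothesis `hT` of `TrTrick.false_of_trace_congruence` for the lattice of level-one forms
with `q`-expansion coefficients in a subring `𝒪` of `ℂ`. -/
theorem exists_hecke_of_subring (𝒪 : Subring ℂ) {r : ℕ} (hr : r.Prime) {w : ℕ} (hw : 1 ≤ w)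
    (f : PowerSeries ↥𝒪)
    (hf : ∃ F : ModularForm 𝒮ℒ (w : ℤ), qExpansion 1 ⇑F = f.map 𝒪.subtype) :
    ∃ G : ModularForm 𝒮ℒ (w : ℤ), qExpansion 1 ⇑G =
      (TrTrick.uOp r f + (r : ↥𝒪) ^ (w - 1) • TrTrick.vOp r f).map 𝒪.subtype := by
  obtain ⟨F, hF⟩ := hf
  refine ⟨heckeOne hr F, ?_⟩
  rw [qExpansion_heckeOne hr hw F, hF]
  ext n
  simp only [map_add, PowerSeries.coeff_map, TrTrick.coeff_uOp, TrTrick.coeff_vOp,
    PowerSeries.coeff_smul, smul_eq_mul, Subring.subtype_apply, Subring.coe_mul,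
    Subring.coe_pow, Subring.coe_natCast]
  split_ifs with h
  · rfl
  · simp

end Fermat.Agent.S16.LevelOneHecke

end
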