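/-
S16, upper bound (U): the `TrTrick`-shaped level-one layer (owner: helper11).

For a subring `𝒪` of `ℂ`, `lvl1 𝒪 w` is the `𝒪`-module of power series over `𝒪` which are
`q`-expansions of level-one modular forms of weight `w`.  We prove that it is saturated, satisfies
the Sturm bound modulo any `l : 𝒪`, is closed under multiplication, and contains the integral
generators `E₄`, `E₆`, `Δ` (integral models `E4Z`, `E6Z`, `DeltaZ` of `S16/LevelOneInt.lean`).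
-/
import Mathlib
import Fermat.Agent.S16.LevelOneInt
import Fermat.Agent.S16.TrTrick

set_option autoImplicit false

namespace Fermat.Agent.S16.Lvl1

open UpperHalfPlane ModularForm PowerSeries
open scoped MatrixGroups ModularForm
open Fermat.Agent.S16.LevelOneInt (E4Z E6Z DeltaZ)

/-- Power series over `𝒪` that are `q`-expansions of level-one modular forms of weight `w`. -/
def lvl1 (𝒪 : Subring ℂ) (w : ℕ) : Submodule 𝒪 (PowerSeries 𝒪) where
  carrier := {f | ∃ F : ModularForm 𝒮ℒ (w : ℤ), qExpansion 1 F = f.map 𝒪.subtype}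
  add_mem' := by
    rintro f g ⟨F, hF⟩ ⟨G, hG⟩
    refine ⟨F + G, ?_⟩
    rw [show ((F + G : ModularForm 𝒮ℒ (w : ℤ)) : ℍ → ℂ) = ⇑F + ⇑G from rfl,
      ModularForm.qExpansion_add one_pos one_mem_strictPeriods_SL, hF, hG, map_add]
  zero_mem' := by
    refine ⟨0, ?_⟩
    rw [show ((0 : ModularForm 𝒮ℒ (w : ℤ)) : ℍ → ℂ) = 0 from rfl, qExpansion_zero, map_zero]
  smul_mem' := by
    rintro c f ⟨F, hF⟩
    refine ⟨(c : ℂ) • F, ?_⟩
    rw [show (((c : ℂ) • F : ModularForm 𝒮ℒ (w : ℤ)) : ℍ → ℂ) = (c : ℂ) • ⇑F from rfl,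
      ModularForm.qExpansion_smul one_pos one_mem_strictPeriods_SL, hF]
    ext n
    simp

theorem mem_lvl1 {𝒪 : Subring ℂ} {w : ℕ} {f : PowerSeries 𝒪} :
    f ∈ lvl1 𝒪 w ↔ ∃ F : ModularForm 𝒮ℒ (w : ℤ), qExpansion 1 F = f.map 𝒪.subtype := Iff.rfl

theorem map_subtype_injective (𝒪 : Subring ℂ) :
    Function.Injective (PowerSeries.map 𝒪.subtype : PowerSeries 𝒪 → PowerSeries ℂ) := by
  intro f g h
  ext n
  have := congrArg (coeff n) h
  simpa using this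

theorem map_map_int (𝒪 : Subring ℂ) (Z : PowerSeries ℤ) :
    (Z.map (Int.castRingHom 𝒪)).map 𝒪.subtype = Z.map (Int.castRingHom ℂ) := by
  ext n
  simp

/-- Saturation: `hsat` of `TrTrick.false_of_trace_congruence`. -/
theorem lvl1_sat (𝒪 : Subring ℂ) {l : 𝒪} (hl : l ≠ 0) (w : ℕ) (f : PowerSeries 𝒪)
    (h : l • f ∈ lvl1 𝒪 w) : f ∈ lvl1 𝒪 w := by
  obtain ⟨F, hF⟩ := h
  have hl' : (l : ℂ) ≠ 0 := fun h0 => hl (Subtype.ext h0)
  refine ⟨(l : ℂ)⁻¹ • F, ?_⟩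
  rw [show (((l : ℂ)⁻¹ • F : ModularForm 𝒮ℒ (w : ℤ)) : ℍ → ℂ) = (l : ℂ)⁻¹ • ⇑F from rfl,
    ModularForm.qExpansion_smul one_pos one_mem_strictPeriods_SL, hF]
  ext n
  simp [hl']

/-- Sturm bound modulo `l`: `hSturm` of `TrTrick.false_of_trace_congruence`. -/
theorem lvl1_sturm (𝒪 : Subring ℂ) (l : 𝒪) (w : ℕ) (f : PowerSeries 𝒪) (hf : f ∈ lvl1 𝒪 w)
    (h : ∀ n, 12 * n ≤ w → l ∣ coeff n f) : ∀ n, l ∣ coeff n f := by
  obtain ⟨F, hF⟩ := hf
  let A : AddSubgroup ℂ := 𝒪.toAddSubgroup.map (AddMonoidHom.mulLeft (l : ℂ))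
  have hA : ∀ x : ℂ, x ∈ A ↔ ∃ y : 𝒪, (l : ℂ) * y = x := by
    intro x
    constructor
    · rintro ⟨y, hy, rfl⟩
      exact ⟨⟨y, hy⟩, rfl⟩
    · rintro ⟨y, rfl⟩
      exact ⟨y, y.2, rfl⟩
  have key := LevelOneInt.sturm_levelOne_mem A (w : ℤ) F (fun m hm => by
    rw [hF, coeff_map]
    obtain ⟨y, hy⟩ := h m (by exact_mod_cast hm)
    exact (hA _).mpr ⟨y, by rw [hy]; simp⟩)
  intro n
  obtain ⟨y, hy⟩ := (hA _).mp (key n)
  rw [hF, coeff_map] at hy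
  exact ⟨y, Subtype.ext (by simpa using hy.symm)⟩

/-- Products. -/
theorem lvl1_mul (𝒪 : Subring ℂ) {w₁ w₂ : ℕ} {f g : PowerSeries 𝒪} (hf : f ∈ lvl1 𝒪 w₁)
    (hg : g ∈ lvl1 𝒪 w₂) : f * g ∈ lvl1 𝒪 (w₁ + w₂) := by
  obtain ⟨F, hF⟩ := hf
  obtain ⟨G, hG⟩ := hg
  refine ⟨ModularForm.mcast (Nat.cast_add w₁ w₂).symm (F.mul G), ?_⟩
  rw [ModularForm.qExpansion_mcast, ModularForm.qExpansion_mul one_pos one_mem_strictPeriods_SL,
    hF, hG, map_mul]

theorem one_mem_lvl1 (𝒪 : Subring ℂ) : (1 : PowerSeries 𝒪) ∈ lvl1 𝒪 0 := by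
  refine ⟨ModularForm.mcast (by norm_num) (1 : ModularForm 𝒮ℒ 0), ?_⟩
  rw [ModularForm.qExpansion_mcast, ModularForm.qExpansion_one, map_one]

theorem E4Z_mem (𝒪 : Subring ℂ) : E4Z.map (Int.castRingHom 𝒪) ∈ lvl1 𝒪 4 := by
  refine ⟨ModularForm.mcast (by norm_num) E₄, ?_⟩
  rw [ModularForm.qExpansion_mcast, LevelOneInt.qExpansion_E4, map_map_int]

theorem E6Z_mem (𝒪 : Subring ℂ) : E6Z.map (Int.castRingHom 𝒪) ∈ lvl1 𝒪 6 := by
  refine ⟨ModularForm.mcast (by norm_num) E₆, ?_⟩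
  rw [ModularForm.qExpansion_mcast, LevelOneInt.qExpansion_E6, map_map_int]

theorem DeltaZ_mem (𝒪 : Subring ℂ) : DeltaZ.map (Int.castRingHom 𝒪) ∈ lvl1 𝒪 12 := by
  refine ⟨ModularForm.mcast (by norm_num) (CuspForm.toModularFormₗ CuspForm.discriminant), ?_⟩
  rw [ModularForm.qExpansion_mcast, map_map_int, ← LevelOneInt.qExpansion_Delta]
  rfl

theorem DeltaZ_pow_mem (𝒪 : Subring ℂ) (p : ℕ) :
    (DeltaZ ^ p).map (Int.castRingHom 𝒪) ∈ lvl1 𝒪 (12 * p) := by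
  induction p with
  | zero => simpa using one_mem_lvl1 𝒪
  | succ p ih =>
    have := lvl1_mul 𝒪 ih (DeltaZ_mem 𝒪)
    rw [← map_mul, ← pow_succ] at this
    rwa [Nat.mul_succ]

theorem coeff_DeltaZ_pow (p n : ℕ) :
    coeff n (DeltaZ ^ p) = if p ≤ n then coeff (n - p) (ModularCurve.dedekindEtaUnit ^ p) else 0 := by
  rw [LevelOneInt.DeltaZ, mul_pow, coeff_X_pow_mul']

theorem coeff_DeltaZ_pow_self (p : ℕ) : coeff p (DeltaZ ^ p) = 1 := by
  rw [coeff_DeltaZ_pow, if_pos le_rfl, Nat.sub_self, coeff_zero_eq_constantCoeff, map_pow,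
    ModularCurve.constantCoeff_dedekindEtaUnit, one_pow]

theorem coeff_DeltaZ_pow_of_lt {p n : ℕ} (h : n < p) : coeff n (DeltaZ ^ p) = 0 := by
  rw [coeff_DeltaZ_pow, if_neg (by omega)]

/-- No level-one forms of odd weight. -/
theorem lvl1_odd (𝒪 : Subring ℂ) {w : ℕ} (hw : Odd w) {f : PowerSeries 𝒪} (hf : f ∈ lvl1 𝒪 w) :
    f = 0 := by
  obtain ⟨F, hF⟩ := hf
  have hF0 : F = 0 := ModularForm.levelOne_odd_weight_eq_zero (by exact_mod_cast hw) F
  apply map_subtype_injective 𝒪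
  rw [← hF, hF0, map_zero]
  exact qExpansion_zero 1

/-- No level-one forms of weight `2`. -/
theorem lvl1_two (𝒪 : Subring ℂ) {f : PowerSeries 𝒪} (hf : f ∈ lvl1 𝒪 2) : f = 0 := by
  obtain ⟨F, hF⟩ := hf
  have hF0 : ModularForm.mcast (show ((2 : ℕ) : ℤ) = 2 by norm_num) F = 0 :=
    rank_zero_iff_forall_zero.mp levelOne_weight_two_rank_zero _
  apply map_subtype_injective 𝒪
  rw [← hF, map_zero, ← ModularForm.qExpansion_mcast (show ((2 : ℕ) : ℤ) = 2 by norm_num) rfl F,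
    hF0]
  exact qExpansion_zero 1

/-- Level-one forms of weight `0` are constants. -/
theorem lvl1_zero (𝒪 : Subring ℂ) {f : PowerSeries 𝒪} (hf : f ∈ lvl1 𝒪 0) :
    f = PowerSeries.C (coeff 0 f) := by
  obtain ⟨F, hF⟩ := hf
  set F' : ModularForm 𝒮ℒ 0 := ModularForm.mcast (show ((0 : ℕ) : ℤ) = 0 by norm_num) F with hF'
  obtain ⟨c, hc⟩ := ModularFormClass.levelOne_weight_zero_const F'
  have hs : F' = c • (1 : ModularForm 𝒮ℒ 0) := by
    ext z
    simp [hc]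
  have hq : qExpansion 1 F = PowerSeries.C c := by
    rw [← ModularForm.qExpansion_mcast (show ((0 : ℕ) : ℤ) = 0 by norm_num) rfl F, ← hF', hs,
      show ⇑(c • (1 : ModularForm 𝒮ℒ 0)) = c • ⇑(1 : ModularForm 𝒮ℒ 0) from rfl,
      ModularForm.qExpansion_smul one_pos one_mem_strictPeriods_SL, ModularForm.qExpansion_one]
    ext n
    simp [coeff_C, coeff_one]
  have h0 : ((constantCoeff f : 𝒪) : ℂ) = c := by
    have := congrArg (coeff 0) (hF.symm.trans hq)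
    simpa using this
  apply map_subtype_injective 𝒪
  rw [← hF, hq]
  ext n
  simp [coeff_C, h0]

/-- A level-one form with vanishing constant term is `Δ` times a form of weight `w - 12`
(and is zero if `w < 12`). -/
theorem lvl1_cusp (𝒪 : Subring ℂ) {w : ℕ} {f : PowerSeries 𝒪} (hf : f ∈ lvl1 𝒪 w)
    (h0 : coeff 0 f = 0) :
    (w < 12 ∧ f = 0) ∨
      (12 ≤ w ∧ ∃ g ∈ lvl1 𝒪 (w - 12), f = DeltaZ.map (Int.castRingHom 𝒪) * g) := by
  obtain ⟨F, hF⟩ := hf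
  have hcusp : (qExpansion 1 F).coeff 0 = 0 := by
    rw [hF, coeff_map, h0]
    simp
  have hfac := ModularForm.qExpansion_eq_qExpansion_discriminant_mul F hcusp
  set F₁ := CuspForm.discriminantEquiv (toCuspForm F hcusp) with hF₁
  have hint : ∀ n, coeff n (qExpansion 1 F₁) ∈ 𝒪 := by
    intro n
    have hQ : LevelOneInt.CoeffMem 𝒪.toAddSubgroup (n + 1) (qExpansion 1 F) := fun m _ => by
      rw [hF, coeff_map]
      exact (coeff m f).2
    exact LevelOneInt.CoeffMem.of_discriminant_mul hQ hfac n le_rfl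
  let g : PowerSeries 𝒪 := PowerSeries.mk fun n => ⟨coeff n (qExpansion 1 F₁), hint n⟩
  have hg : g.map 𝒪.subtype = qExpansion 1 F₁ := by
    ext n
    simp [g]
  have hfg : f = DeltaZ.map (Int.castRingHom 𝒪) * g := by
    apply map_subtype_injective 𝒪
    rw [map_mul, map_map_int, hg, ← LevelOneInt.qExpansion_Delta, ← hF]
    exact hfac
  rcases Nat.lt_or_ge w 12 with hw | hw
  · left
    refine ⟨hw, ?_⟩
    have hz : (F₁ : ℍ → ℂ) = 0 :=
      ModularFormClass.levelOne_neg_weight_eq_zero (by omega) F₁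
    have hg0 : g = 0 := by
      apply map_subtype_injective 𝒪
      rw [hg, hz, map_zero]
      exact qExpansion_zero 1
    rw [hfg, hg0, mul_zero]
  · right
    refine ⟨hw, g, ⟨ModularForm.mcast (by push_cast [hw]; ring) F₁, ?_⟩, hfg⟩
    rw [ModularForm.qExpansion_mcast, hg]

/-- A level-one cusp form of weight `14` with coefficients in `𝒪` vanishes. -/
theorem lvl1_fourteen_cusp (𝒪 : Subring ℂ) {f : PowerSeries 𝒪} (hf : f ∈ lvl1 𝒪 14)
    (h0 : coeff 0 f = 0) : f = 0 := by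
  rcases lvl1_cusp 𝒪 hf h0 with ⟨h, -⟩ | ⟨-, g, hg, rfl⟩
  · omega
  · rw [lvl1_two 𝒪 hg, mul_zero]

/-- A level-one cusp form of weight `12` with coefficients in `𝒪` is a multiple of `Δ`. -/
theorem lvl1_twelve_cusp (𝒪 : Subring ℂ) {f : PowerSeries 𝒪} (hf : f ∈ lvl1 𝒪 12)
    (h0 : coeff 0 f = 0) : f = coeff 1 f • DeltaZ.map (Int.castRingHom 𝒪) := by
  rcases lvl1_cusp 𝒪 hf h0 with ⟨h, -⟩ | ⟨-, g, hg, rfl⟩
  · omega
  · set c := coeff 0 g with hc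
    have hg' : g = C c := lvl1_zero 𝒪 hg
    have hD : DeltaZ.map (Int.castRingHom 𝒪) =
        X * ModularCurve.dedekindEtaUnit.map (Int.castRingHom 𝒪) := by
      rw [LevelOneInt.DeltaZ, map_mul, PowerSeries.map_X]
    have h1 : coeff 1 (DeltaZ.map (Int.castRingHom 𝒪) * g) = c := by
      rw [hg', hD, mul_assoc, show (1 : ℕ) = 0 + 1 from rfl, coeff_succ_X_mul,
        coeff_zero_eq_constantCoeff, map_mul, constantCoeff_C, ← coeff_zero_eq_constantCoeff,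
        coeff_map, coeff_zero_eq_constantCoeff, ModularCurve.constantCoeff_dedekindEtaUnit]
      simp
    rw [h1, hg', mul_comm, ← smul_eq_C_mul]

/-- **The `T_r`-trick for level one**: `TrTrick.false_of_trace_congruence` specialised to
`S = lvl1 𝒪` and `F = Δ ^ p`; the remaining inputs are the Hecke stability `hT` and the trace
congruence `hA` in weight `12 p`. -/
theorem false_of_trace_congruence_lvl1 (𝒪 : Subring ℂ) {l u r' u' : 𝒪} {r p s : ℕ}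
    (hr : 1 < r) (hp : 1 < p) (hrp : Nat.Coprime r p) (hl : l ≠ 0) (hlu : ¬ IsUnit l)
    (hs : 1 ≤ s) (hru : (r : 𝒪) ^ 2 - 1 = l ^ (s - 1) * u)
    (hr' : l ∣ (r : 𝒪) * r' - 1) (hu' : l ∣ u * u' - 1)
    (hT : ∀ w, 1 ≤ w → ∀ f ∈ lvl1 𝒪 w,
      TrTrick.uOp r f + (r : 𝒪) ^ (w - 1) • TrTrick.vOp r f ∈ lvl1 𝒪 w)
    (hA : ∀ F ∈ lvl1 𝒪 (12 * p), ∃ X ∈ lvl1 𝒪 (12 * p + 2),
      ∀ n, l ^ s ∣ coeff n (X - ((p : 𝒪) ^ (12 * p) • TrTrick.vOp p F - TrTrick.uOp p F))) :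
    False := by
  refine TrTrick.false_of_trace_congruence (k := 12 * p) hr hp hrp hl hs hru hr' hu' (lvl1 𝒪)
    (fun w f => lvl1_sat 𝒪 hl w f) hT (fun w f hf => lvl1_sturm 𝒪 l w f hf) hA (by omega)
    ((DeltaZ ^ p).map (Int.castRingHom 𝒪)) (DeltaZ_pow_mem 𝒪 p) ?_
  rw [coeff_map, coeff_DeltaZ_pow_self, map_one]
  exact fun h => hlu (isUnit_of_dvd_one h)

end Fermat.Agent.S16.Lvl1
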