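/-
S16, upper bound (U): Hecke stability of the level-one lattice `lvl1 𝒪 w` (wrapper of
helper77's `LevelOneHecke.exists_hecke_of_subring`) and the `T_r`-trick for level one with only
the trace congruence `hA` left as a hypothesis.  Owner: helper11.
-/
import Mathlib
import Fermat.Agent.S16.Lvl1
import Fermat.Agent.S16.LevelOneHecke

set_option autoImplicit false

namespace Fermat.Agent.S16.Lvl1Hecke

open PowerSeries
open Fermat.Agent.S16.Lvl1 (lvl1)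

/-- Hecke stability: `hT` of `TrTrick.false_of_trace_congruence` for `S = lvl1 𝒪`. -/
theorem lvl1_hecke (𝒪 : Subring ℂ) {r : ℕ} (hr : r.Prime) {w : ℕ} (hw : 1 ≤ w)
    {f : PowerSeries 𝒪} (hf : f ∈ lvl1 𝒪 w) :
    TrTrick.uOp r f + (r : 𝒪) ^ (w - 1) • TrTrick.vOp r f ∈ lvl1 𝒪 w :=
  LevelOneHecke.exists_hecke_of_subring 𝒪 hr hw f hf

/-- **The `T_r`-trick for level one**, with only the trace congruence `hA` (in weight `12 p`)
left as a hypothesis. -/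
theorem false_of_trace_congruence (𝒪 : Subring ℂ) {l u r' u' : 𝒪} {r p s : ℕ}
    (hr : r.Prime) (hp : 1 < p) (hrp : Nat.Coprime r p) (hl : l ≠ 0) (hlu : ¬ IsUnit l)
    (hs : 1 ≤ s) (hru : (r : 𝒪) ^ 2 - 1 = l ^ (s - 1) * u)
    (hr' : l ∣ (r : 𝒪) * r' - 1) (hu' : l ∣ u * u' - 1)
    (hA : ∀ F ∈ lvl1 𝒪 (12 * p), ∃ X ∈ lvl1 𝒪 (12 * p + 2),
      ∀ n, l ^ s ∣ coeff n (X - ((p : 𝒪) ^ (12 * p) • TrTrick.vOp p F - TrTrick.uOp p F))) :
    False :=
  Lvl1.false_of_trace_congruence_lvl1 𝒪 hr.one_lt hp hrp hl hlu hs hru hr' hu'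
    (fun _ hw _ hf => lvl1_hecke 𝒪 hr hw hf) hA

end Fermat.Agent.S16.Lvl1Hecke
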