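import Mathlib
import Fermat.Agent.S16.ULeaf
import Fermat.Agent.S16.Lvl1Hecke

/-!
# S16, upper bound (U): assembly of the leaves (B) and (B3) (owner: helper83)

`TraceCong p` is the trace-congruence input (board post 476 (A); helper41's `WTraceQ` (Q5)):
for `H ∈ M₂(Γ₀(p))` with `ℓ`-integral `q`-expansion `h ≡ 1 (mod ℓ^s)` and every level-one
`F` of weight `k` with `ℓ`-integral `q`-expansion, `p^k V_p F - U_p F` is congruent modulo `ℓ^s`
to the `q`-expansion of an `ℓ`-integral level-one form of weight `k + 2`.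

`leafB_of_traceCong`, `leafB3_of_traceCong` deduce the two leaves from it by the `T_r`-trick
(`r = 2`).
-/

set_option autoImplicit false

namespace Fermat.Agent.S16

open UpperHalfPlane PowerSeries
open Fermat.Agent.S16.Lvl1 (lvl1)

/-- The trace-congruence input of the `T_r`-trick, for the prime level `p`. -/
def TraceCong (p : ℕ) : Prop :=
  ∀ (ℓ s k : ℕ) (H : ModularForm (CongruenceSubgroup.Gamma0 p) 2) (h : PowerSeries (Zl ℓ)),
    ℓ.Prime → h.map (Zl ℓ).subtype = qExpansion 1 H →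
    h - 1 ∈ TrTrick.congSub ((ℓ : Zl ℓ) ^ s) →
    ∀ F ∈ lvl1 (Zl ℓ) k, ∃ X ∈ lvl1 (Zl ℓ) (k + 2),
      ∀ n, (ℓ : Zl ℓ) ^ s ∣
        coeff n (X - ((p : Zl ℓ) ^ k • TrTrick.vOp p F - TrTrick.uOp p F))

theorem not_isUnit_natCast_Zl {ℓ : ℕ} (hℓ : ℓ.Prime) : ¬ IsUnit (ℓ : Zl ℓ) :=
  fun h => not_dvd_one_Zl hℓ (isUnit_iff_dvd_one.mp h)

/-- Leaf (B): no `H ≡ 1 (mod ℓ)` with `ℓ ≥ 5`. -/
theorem leafB_of_traceCong {p : ℕ} (hp : p.Prime) (hp2 : p ≠ 2) (hA : TraceCong p) : LeafB p := by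
  intro ℓ hℓ h5 H ⟨h, hh, hcong⟩
  have hℓodd : ¬ (2 ∣ ℓ) := by
    intro h2
    have := (Nat.prime_dvd_prime_iff_eq Nat.prime_two hℓ).mp h2
    omega
  have hℓ3 : ¬ (3 ∣ ℓ) := by
    intro h3
    have := (Nat.prime_dvd_prime_iff_eq Nat.prime_three hℓ).mp h3
    omega
  have hc2 : IsCoprime ((2 : ℕ) : ℤ) (ℓ : ℤ) := by
    rw [Nat.isCoprime_iff_coprime]
    exact (Nat.coprime_primes Nat.prime_two hℓ).mpr (by omega)
  have hc3 : IsCoprime ((3 : ℕ) : ℤ) (ℓ : ℤ) := by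
    rw [Nat.isCoprime_iff_coprime]
    exact (Nat.coprime_primes Nat.prime_three hℓ).mpr (by omega)
  obtain ⟨r', hr'⟩ := exists_inv_mod_Zl hc2
  obtain ⟨u', hu'⟩ := exists_inv_mod_Zl hc3
  refine Lvl1Hecke.false_of_trace_congruence (Zl ℓ) (l := (ℓ : Zl ℓ)) (u := ((3 : ℕ) : Zl ℓ))
    (r' := r') (u' := u') (r := 2) (p := p) (s := 1) Nat.prime_two hp.one_lt
    ((Nat.coprime_primes Nat.prime_two hp).mpr (Ne.symm hp2)) (natCast_ne_zero_Zl hℓ)
    (not_isUnit_natCast_Zl hℓ) le_rfl ?_ ?_ ?_ ?_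
  · push_cast
    norm_num
  · simpa using hr'
  · simpa using hu'
  · simpa using hA ℓ 1 (12 * p) H h hℓ hh hcong

/-- Leaf (B3): no `H ≡ 1 (mod 9)`. -/
theorem leafB3_of_traceCong {p : ℕ} (hp : p.Prime) (hp2 : p ≠ 2) (hA : TraceCong p) :
    LeafB3 p := by
  intro H ⟨h, hh, hcong⟩
  refine Lvl1Hecke.false_of_trace_congruence (Zl 3) (l := ((3 : ℕ) : Zl 3)) (u := 1)
    (r' := 2) (u' := 1) (r := 2) (p := p) (s := 2) Nat.prime_two hp.one_lt
    ((Nat.coprime_primes Nat.prime_two hp).mpr (Ne.symm hp2)) (natCast_ne_zero_Zl Nat.prime_three)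
    (not_isUnit_natCast_Zl Nat.prime_three) (by norm_num) ?_ ?_ ?_ ?_
  · push_cast
    norm_num
  · refine ⟨1, ?_⟩
    push_cast
    norm_num
  · exact ⟨0, by ring⟩
  · exact hA 3 2 (12 * p) H h Nat.prime_three hh hcong

end Fermat.Agent.S16
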