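/-
S16, upper bound (U), "Delta-trick" (helper83's post 476 (C)), PURE-ALGEBRA core
(owner: helper98).  Imports only `S16/TrTrick` (helper83's formal `uOp`, `vOp`, `congSub`).

Formal input: power series `H`, `Hh` (`q`-expansions of `H` and `U_p H`), `D` (`= Δ`), a scalar `t`
(`= τ(p)`), with
* `p^12 • (H * V_p D) = U_p (Hh * D)`          (the level-one weight-14 cusp form `X_Δ` vanishes),
* `U_p D + p^11 • V_p D = t • D`                (`T_p Δ = τ(p) Δ`),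
* `a_1(D) = 1`, and `H ≡ Hh ≡ 1 (mod M)` coefficientwise.
Output: `M ∣ a_p(D)` and `M ∣ p^11 (p + 1)`.
-/
import Fermat.Agent.S16.TrTrick

set_option autoImplicit false

namespace Fermat.Agent.S16.UCCore

open PowerSeries Fermat.Agent.S16.TrTrick

variable {𝒪 : Type*} [CommRing 𝒪]

/-- `congSub a` is stable under multiplication by arbitrary power series. -/
theorem mul_mem_congSub {a : 𝒪} (f : 𝒪⟦X⟧) {g : 𝒪⟦X⟧} (hg : g ∈ congSub a) :
    f * g ∈ congSub a := by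
  intro n
  rw [coeff_mul]
  exact Finset.dvd_sum fun ij _ => Dvd.dvd.mul_left (hg _) _

/-- If `H ≡ 1 (mod M)` then `H * g ≡ g (mod M)`. -/
theorem mul_sub_mem_congSub {M : 𝒪} {H : 𝒪⟦X⟧} (hH : H - 1 ∈ congSub M) (g : 𝒪⟦X⟧) :
    H * g - g ∈ congSub M := by
  have e : H * g - g = g * (H - 1) := by ring
  rw [e]
  exact mul_mem_congSub g hH

section

variable {p : ℕ} {M t : 𝒪} {H Hh D : 𝒪⟦X⟧}

/-- `T_p Δ = τ(p) Δ` at the coefficient of `q`: `t = a_p(D)`. -/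
theorem t_eq (hp : 1 < p) (h2 : uOp p D + (p : 𝒪) ^ 11 • vOp p D = t • D)
    (hD1 : coeff 1 D = 1) : t = coeff p D := by
  have h := congrArg (coeff 1) h2
  have hnd : ¬ p ∣ 1 := fun h' => by
    have := Nat.le_of_dvd one_pos h'
    omega
  simp only [map_add, coeff_uOp, coeff_smul, coeff_vOp, if_neg hnd, one_mul, smul_eq_mul,
    mul_zero, add_zero, hD1, mul_one] at h
  exact h.symm

/-- `T_p Δ = τ(p) Δ` at the coefficient of `q^p`: `a_{p²}(D) = a_p(D)² - p^11`. -/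
theorem coeff_sq (hp : 1 < p) (h2 : uOp p D + (p : 𝒪) ^ 11 • vOp p D = t • D)
    (hD1 : coeff 1 D = 1) : coeff (p * p) D = coeff p D ^ 2 - (p : 𝒪) ^ 11 := by
  have ht := t_eq hp h2 hD1
  have h := congrArg (coeff p) h2
  have hp0 : 0 < p := by omega
  simp only [map_add, coeff_uOp, coeff_smul, coeff_vOp, if_pos (dvd_refl p), Nat.div_self hp0,
    smul_eq_mul, hD1, mul_one] at h
  rw [ht] at h
  linear_combination h

/-- The vanishing of `X_Δ` modulo `M`: `p^12 V_p D ≡ U_p D (mod M)`. -/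
theorem cong_of_identity (h1 : (p : 𝒪) ^ 12 • (H * vOp p D) = uOp p (Hh * D))
    (hH : H - 1 ∈ congSub M) (hHh : Hh - 1 ∈ congSub M) :
    (p : 𝒪) ^ 12 • vOp p D - uOp p D ∈ congSub M := by
  have e1 : (p : 𝒪) ^ 12 • (H * vOp p D - vOp p D) ∈ congSub M :=
    (congSub M).smul_mem _ (mul_sub_mem_congSub hH _)
  have e2 : uOp p (Hh * D - D) ∈ congSub M := uOp_mem_congSub p (mul_sub_mem_congSub hHh D)
  have e : (p : 𝒪) ^ 12 • vOp p D - uOp p D
      = uOp p (Hh * D - D) - (p : 𝒪) ^ 12 • (H * vOp p D - vOp p D) := by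
    rw [map_sub, smul_sub, ← h1]
    ring
  rw [e]
  exact (congSub M).sub_mem e2 e1

/-- `τ(p) ≡ 0 (mod M)`. -/
theorem dvd_coeff_p (hp : 1 < p) (h1 : (p : 𝒪) ^ 12 • (H * vOp p D) = uOp p (Hh * D))
    (hH : H - 1 ∈ congSub M) (hHh : Hh - 1 ∈ congSub M) : M ∣ coeff p D := by
  have h := cong_of_identity h1 hH hHh 1
  have hnd : ¬ p ∣ 1 := fun h' => by
    have := Nat.le_of_dvd one_pos h'
    omega
  simp only [map_sub, coeff_smul, coeff_vOp, if_neg hnd, smul_eq_mul, mul_zero, coeff_uOp,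
    one_mul, zero_sub] at h
  exact (dvd_neg).mp h

/-- **(C)-core**: `M ∣ p^11 (p + 1)`. -/
theorem dvd_of_delta_identity (hp : 1 < p)
    (h1 : (p : 𝒪) ^ 12 • (H * vOp p D) = uOp p (Hh * D))
    (h2 : uOp p D + (p : 𝒪) ^ 11 • vOp p D = t • D)
    (hD1 : coeff 1 D = 1)
    (hH : H - 1 ∈ congSub M) (hHh : Hh - 1 ∈ congSub M) :
    M ∣ (p : 𝒪) ^ 11 * ((p : 𝒪) + 1) := by
  have hp0 : 0 < p := by omega
  have hτ : M ∣ coeff p D := dvd_coeff_p hp h1 hH hHh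
  have h := cong_of_identity h1 hH hHh p
  simp only [map_sub, coeff_smul, coeff_vOp, if_pos (dvd_refl p), Nat.div_self hp0, smul_eq_mul,
    hD1, mul_one, coeff_uOp] at h
  rw [coeff_sq hp h2 hD1] at h
  have e : (p : 𝒪) ^ 11 * ((p : 𝒪) + 1)
      = ((p : 𝒪) ^ 12 - (coeff p D ^ 2 - (p : 𝒪) ^ 11)) + coeff p D * coeff p D := by ring
  rw [e]
  exact dvd_add h (Dvd.dvd.mul_right hτ _)

end

/-- Integer version of the conclusion: if `M ∣ p^11 (p+1)` in `ℤ` with `M` coprime to `p`, then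
`M ∣ p + 1`. -/
theorem int_dvd_succ {p : ℕ} {M : ℤ} (hcop : IsCoprime M (p : ℤ))
    (h : M ∣ (p : ℤ) ^ 11 * ((p : ℤ) + 1)) : M ∣ (p : ℤ) + 1 :=
  (IsCoprime.pow_right hcop).dvd_of_dvd_mul_left h

end Fermat.Agent.S16.UCCore
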