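import Mathlib
import Fermat.Agent.S16.UBAsm
import Fermat.Agent.S16.UCCore

/-!
# S16, upper bound (U): from the trace identity (Q4) to the trace congruence `TraceCong`
(owner: helper83)

Pure power-series step: if `h ≡ 1 (mod M)` then
`p^k • (h * V_p F) - U_p (U_p h * F) ≡ p^k • V_p F - U_p F (mod M)`.
-/

set_option autoImplicit false

namespace Fermat.Agent.S16

open UpperHalfPlane PowerSeries
open Fermat.Agent.S16.Lvl1 (lvl1)
open Fermat.Agent.S16.TrTrick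

section Formal

variable {𝒪 : Type*} [CommRing 𝒪]

theorem uOp_one {p : ℕ} (hp : 0 < p) : uOp p (1 : 𝒪⟦X⟧) = 1 := by
  ext n
  rw [coeff_uOp, coeff_one, coeff_one]
  have : n * p = 0 ↔ n = 0 := by
    constructor
    · intro h
      rcases Nat.mul_eq_zero.mp h with h | h
      · exact h
      · omega
    · rintro rfl
      simp
  simp only [this]

/-- If `h ≡ 1 (mod M)` then `U_p h ≡ 1 (mod M)`. -/
theorem uOp_sub_one_mem_congSub {p : ℕ} (hp : 0 < p) {M : 𝒪} {h : 𝒪⟦X⟧}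
    (hh : h - 1 ∈ congSub M) : uOp p h - 1 ∈ congSub M := by
  have : uOp p h - 1 = uOp p (h - 1) := by rw [map_sub, uOp_one hp]
  rw [this]
  exact uOp_mem_congSub p hh

/-- The formal congruence `X_F ≡ Φ_F (mod M)`. -/
theorem trace_sub_mem_congSub {p : ℕ} (hp : 0 < p) {M : 𝒪} {h : 𝒪⟦X⟧}
    (hh : h - 1 ∈ congSub M) (k : ℕ) (F : 𝒪⟦X⟧) :
    ((p : 𝒪) ^ k • (h * vOp p F) - uOp p (uOp p h * F)) -
      ((p : 𝒪) ^ k • vOp p F - uOp p F) ∈ congSub M := by
  have e1 : (p : 𝒪) ^ k • (h * vOp p F - vOp p F) ∈ congSub M :=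
    (congSub M).smul_mem _ (UCCore.mul_sub_mem_congSub hh _)
  have e2 : uOp p (uOp p h * F - F) ∈ congSub M :=
    uOp_mem_congSub p (UCCore.mul_sub_mem_congSub (uOp_sub_one_mem_congSub hp hh) F)
  have e : ((p : 𝒪) ^ k • (h * vOp p F) - uOp p (uOp p h * F)) -
      ((p : 𝒪) ^ k • vOp p F - uOp p F) =
      (p : 𝒪) ^ k • (h * vOp p F - vOp p F) - uOp p (uOp p h * F - F) := by
    rw [map_sub, smul_sub]
    abel
  rw [e]
  exact (congSub M).sub_mem e1 e2

end Formal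

/-- The trace identity (Q4) over `Zl ℓ`, as a `Prop` for wiring: `X_F` is level one of weight
`k + 2`. -/
def TraceMem (p : ℕ) : Prop :=
  ∀ (ℓ k : ℕ) (H : ModularForm (CongruenceSubgroup.Gamma0 p) 2) (h : PowerSeries (Zl ℓ)),
    h.map (Zl ℓ).subtype = qExpansion 1 H →
    ∀ F ∈ lvl1 (Zl ℓ) k,
      (p : Zl ℓ) ^ k • (h * vOp p F) - uOp p (uOp p h * F) ∈ lvl1 (Zl ℓ) (k + 2)

/-- (Q4) ⇒ (Q5). -/
theorem traceCong_of_traceMem {p : ℕ} (hp : 0 < p) (hQ : TraceMem p) : TraceCong p := by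
  intro ℓ s k H h _ hh hcong F hF
  exact ⟨_, hQ ℓ k H h hh F hF, trace_sub_mem_congSub hp hcong k F⟩

/-- Leaf (B) from the trace identity (Q4). -/
theorem leafB_of_traceMem {p : ℕ} (hp : p.Prime) (hp2 : p ≠ 2) (hQ : TraceMem p) : LeafB p :=
  leafB_of_traceCong hp hp2 (traceCong_of_traceMem hp.pos hQ)

/-- Leaf (B3) from the trace identity (Q4). -/
theorem leafB3_of_traceMem {p : ℕ} (hp : p.Prime) (hp2 : p ≠ 2) (hQ : TraceMem p) : LeafB3 p :=
  leafB3_of_traceCong hp hp2 (traceCong_of_traceMem hp.pos hQ)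

/-- The trace identity (Q4) over an arbitrary subring `𝒪 ⊆ ℂ` (the single analytic input of the
leaves (B), (B3), (C)): for `H ∈ M₂(Γ₀(p))` with `q`-expansion `h` over `𝒪` and `F` level one
of weight `k` with `q`-expansion over `𝒪`, the series `p^k • (h * V_p F) - U_p (U_p h * F)` is the
`q`-expansion of a level-one form of weight `k + 2`. -/
def TraceId (p : ℕ) : Prop :=
  ∀ (𝒪 : Subring ℂ) (H : ModularForm (CongruenceSubgroup.Gamma0 p) 2) (h : PowerSeries 𝒪),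
    h.map 𝒪.subtype = qExpansion 1 H →
    ∀ (k : ℕ) (F : PowerSeries 𝒪), F ∈ lvl1 𝒪 k →
      (p : 𝒪) ^ k • (h * vOp p F) - uOp p (uOp p h * F) ∈ lvl1 𝒪 (k + 2)

theorem traceMem_of_traceId {p : ℕ} (hQ : TraceId p) : TraceMem p :=
  fun ℓ k H h hh F hF => hQ (Zl ℓ) H h hh k F hF

/-- Leaf (B) from the trace identity `TraceId`. -/
theorem leafB_of_traceId {p : ℕ} (hp : p.Prime) (hp2 : p ≠ 2) (hQ : TraceId p) : LeafB p :=
  leafB_of_traceMem hp hp2 (traceMem_of_traceId hQ)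

/-- Leaf (B3) from the trace identity `TraceId`. -/
theorem leafB3_of_traceId {p : ℕ} (hp : p.Prime) (hp2 : p ≠ 2) (hQ : TraceId p) : LeafB3 p :=
  leafB3_of_traceMem hp hp2 (traceMem_of_traceId hQ)

end Fermat.Agent.S16
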