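/-
S16, upper bound (U), block [C] ("Delta-trick"), glue (owner: helper98).
Imports only `S16/TrTrick` and `S16/UCCore`.

Descent of the two `q`-series identities
  `p^12 • (h * V_p δ) = U_p (U_p h * δ)`,   `U_p δ + p^11 • V_p δ = t • δ`
from `ℂ⟦q⟧` to `O⟦q⟧` for a subring `O ⊆ ℂ` (think `O = ℤ_(ℓ)`), and the conclusion
`M ∣ p^11 (p + 1)` when `h ≡ 1 (mod M)`; plus an integer version given the arithmetic property
`hO` of `O` ("`L * y = c ∈ ℤ` with `y ∈ O` forces `L ∣ c`").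
-/
import Fermat.Agent.S16.UCCore

set_option autoImplicit false

namespace Fermat.Agent.S16.UCGlue

open PowerSeries Fermat.Agent.S16.TrTrick

section Map

variable {A B : Type*} [CommRing A] [CommRing B] (φ : A →+* B)

theorem map_uOp (r : ℕ) (f : A⟦X⟧) : (uOp r f).map φ = uOp r (f.map φ) := by
  ext n
  simp only [coeff_map, coeff_uOp]

theorem map_vOp (r : ℕ) (f : A⟦X⟧) : (vOp r f).map φ = vOp r (f.map φ) := by
  ext n
  simp only [coeff_map, coeff_vOp]
  split_ifs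
  · rfl
  · exact map_zero φ

theorem map_smul_ps (c : A) (f : A⟦X⟧) : (c • f).map φ = φ c • f.map φ := by
  ext n
  simp

end Map

/-- `U_p 1 = 1`. -/
theorem uOp_one {𝒪 : Type*} [CommRing 𝒪] {p : ℕ} (hp : p ≠ 0) : uOp p (1 : 𝒪⟦X⟧) = 1 := by
  ext n
  rw [coeff_uOp, coeff_one, coeff_one]
  by_cases hn : n = 0
  · simp [hn]
  · rw [if_neg hn, if_neg (Nat.mul_ne_zero hn hp)]

/-- A complex power series with coefficients in a subring comes from that subring. -/
theorem exists_map_eq (O : Subring ℂ) (a : PowerSeries ℂ) (ha : ∀ n, coeff n a ∈ O) :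
    ∃ a' : PowerSeries O, a'.map O.subtype = a := by
  refine ⟨PowerSeries.mk fun n => ⟨coeff n a, ha n⟩, ?_⟩
  ext n
  simp

/-- **[C], descent.**  `O ⊆ ℂ` a subring, `M : O`; `δ'` an integral series with `a_1 = 1`;
`H` a series over `O` with `H ≡ 1 (mod M)`; the two identities hold in `ℂ⟦q⟧`.
Then `M ∣ p^11 (p+1)` in `O`. -/
theorem dvd_of_identities (O : Subring ℂ) {p : ℕ} (hp : 1 < p) (M : O)
    (δ' : PowerSeries ℤ) (hδ1 : coeff 1 δ' = 1)
    (H : PowerSeries O) (t : ℂ)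
    (h1 : (p : ℂ) ^ 12 • (H.map O.subtype * vOp p (δ'.map (Int.castRingHom ℂ)))
      = uOp p (uOp p (H.map O.subtype) * δ'.map (Int.castRingHom ℂ)))
    (h2 : uOp p (δ'.map (Int.castRingHom ℂ)) + (p : ℂ) ^ 11 • vOp p (δ'.map (Int.castRingHom ℂ))
      = t • δ'.map (Int.castRingHom ℂ))
    (hH1 : H - 1 ∈ congSub M) :
    M ∣ (p : O) ^ 11 * ((p : O) + 1) := by
  have hp0 : p ≠ 0 := by omega
  have hinj : Function.Injective (PowerSeries.map O.subtype) :=
    PowerSeries.map_injective O.subtype Subtype.val_injective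
  have hDmap : (δ'.map (Int.castRingHom O)).map O.subtype = δ'.map (Int.castRingHom ℂ) := by
    ext n
    simp
  have hD1 : coeff 1 (δ'.map (Int.castRingHom O)) = 1 := by
    rw [coeff_map, hδ1, map_one]
  have hD1ℂ : coeff 1 (δ'.map (Int.castRingHom ℂ)) = 1 := by
    rw [coeff_map, hδ1, map_one]
  have ht : t = coeff p (δ'.map (Int.castRingHom ℂ)) := UCCore.t_eq hp h2 hD1ℂ
  have e1 : ((p : O) ^ 12) • (H * vOp p (δ'.map (Int.castRingHom O)))
      = uOp p (uOp p H * δ'.map (Int.castRingHom O)) := by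
    apply hinj
    rw [map_smul_ps, map_mul, map_vOp, map_uOp, map_mul, map_uOp, hDmap, map_pow, map_natCast]
    exact h1
  have e2 : uOp p (δ'.map (Int.castRingHom O))
        + ((p : O) ^ 11) • vOp p (δ'.map (Int.castRingHom O))
      = (coeff p (δ'.map (Int.castRingHom O))) • δ'.map (Int.castRingHom O) := by
    apply hinj
    have e3 : O.subtype (coeff p (δ'.map (Int.castRingHom O)))
        = coeff p (δ'.map (Int.castRingHom ℂ)) := by
      rw [← hDmap]
      simp only [coeff_map]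
    rw [map_add, map_smul_ps, map_smul_ps, map_uOp, map_vOp, hDmap, map_pow, map_natCast, e3,
      ← ht]
    exact h2
  have hHh1 : uOp p H - 1 ∈ congSub M := by
    have := uOp_mem_congSub p hH1
    rwa [map_sub, uOp_one hp0] at this
  exact UCCore.dvd_of_delta_identity hp e1 e2 hD1 hH1 hHh1

/-- **[C], descent + integer conclusion.**  `O ⊆ ℂ` a subring, `L : ℤ`; `δ'` an integral series
with `a_1 = 1`; `h` a complex series with `a_0 = 1` and `a_n ∈ L·O` for `n ≥ 1`; the two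
identities hold in `ℂ⟦q⟧`.  Then `L ∣ p^11 (p+1)` provided `O` satisfies `hO`. -/
theorem int_dvd_of_identities (O : Subring ℂ) {p : ℕ} (hp : 1 < p) (L : ℤ)
    (hO : ∀ (c : ℤ) (y : ℂ), y ∈ O → (L : ℂ) * y = (c : ℂ) → L ∣ c)
    (δ' : PowerSeries ℤ) (hδ1 : coeff 1 δ' = 1)
    (h : PowerSeries ℂ) (t : ℂ)
    (h1 : (p : ℂ) ^ 12 • (h * vOp p (δ'.map (Int.castRingHom ℂ)))
      = uOp p (uOp p h * δ'.map (Int.castRingHom ℂ)))
    (h2 : uOp p (δ'.map (Int.castRingHom ℂ)) + (p : ℂ) ^ 11 • vOp p (δ'.map (Int.castRingHom ℂ))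
      = t • δ'.map (Int.castRingHom ℂ))
    (h0 : coeff 0 h = 1) (hc : ∀ n, 1 ≤ n → ∃ y ∈ O, coeff n h = (L : ℂ) * y) :
    L ∣ (p : ℤ) ^ 11 * ((p : ℤ) + 1) := by
  have hLO : (L : ℂ) ∈ O := intCast_mem O L
  have hcoe : ∀ n, coeff n h ∈ O := by
    intro n
    rcases Nat.eq_zero_or_pos n with hn | hn
    · subst hn; rw [h0]; exact O.one_mem
    · obtain ⟨y, hy, e⟩ := hc n hn
      rw [e]; exact O.mul_mem hLO hy
  obtain ⟨H, hH⟩ := exists_map_eq O h hcoe
  subst hH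
  have hH1 : H - 1 ∈ congSub ((L : ℤ) : O) := by
    intro n
    rcases Nat.eq_zero_or_pos n with hn | hn
    · subst hn
      have hH0 : coeff 0 H = 1 := by
        apply Subtype.val_injective
        have e := h0
        rw [coeff_map] at e
        exact e
      rw [map_sub, hH0, coeff_one, if_pos rfl, sub_self]
      exact dvd_zero _
    · obtain ⟨y, hy, e⟩ := hc n hn
      refine ⟨⟨y, hy⟩, ?_⟩
      have hne : n ≠ 0 := by omega
      rw [map_sub, coeff_one, if_neg hne, sub_zero]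
      apply Subtype.val_injective
      rw [coeff_map] at e
      simpa using e
  obtain ⟨y, hy⟩ := dvd_of_identities O hp ((L : ℤ) : O) δ' hδ1 H t h1 h2 hH1
  apply hO ((p : ℤ) ^ 11 * ((p : ℤ) + 1)) (y : ℂ) y.2
  have := congrArg (Subtype.val) hy
  push_cast at this ⊢
  simpa using this.symm

/-- Arithmetic endgame: a prime power `ℓ^s` with `ℓ ≠ p` dividing `p^11 (p+1)` divides `p + 1`. -/
theorem pow_dvd_succ {p ℓ s : ℕ} (hp : p.Prime) (hℓ : ℓ.Prime) (hℓp : ℓ ≠ p)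
    (h : ((ℓ ^ s : ℕ) : ℤ) ∣ (p : ℤ) ^ 11 * ((p : ℤ) + 1)) : ℓ ^ s ∣ p + 1 := by
  have h' : ℓ ^ s ∣ p ^ 11 * (p + 1) := by exact_mod_cast h
  have hcop : Nat.Coprime (ℓ ^ s) (p ^ 11) :=
    Nat.Coprime.pow _ _ ((Nat.coprime_primes hℓ hp).mpr hℓp)
  exact hcop.dvd_of_dvd_mul_left h'

/-- The three cases (C1), (C2), (C3): `ℓ^s ∤ p + 1`. -/
theorem not_dvd_C1 {p : ℕ} (h : p % 3 = 1) : ¬ 3 ^ 1 ∣ p + 1 := by
  intro hd; omega

theorem not_dvd_C2 {p : ℕ} (h : p % 4 = 1) : ¬ 2 ^ 2 ∣ p + 1 := by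
  intro hd; omega

theorem not_dvd_C3 {p : ℕ} (h : p % 8 = 3) : ¬ 2 ^ 3 ∣ p + 1 := by
  intro hd; omega

end Fermat.Agent.S16.UCGlue
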