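/-
S16, upper bound (U), leaf (C) ("Delta-trick"), assembly (owner: helper98).

`leafC_of_traceMem`: the leaf `LeafC p` of `S16/ULeaf.lean` from the single analytic input
`TraceMem p` of `S16/UBCong.lean` (the trace identity (Q4): for every weight-2 form `H` on `Γ₀(p)`
with `ℓ`-integral `q`-expansion `h` and every `ℓ`-integral level-one `F` of weight `k`, the series
`p^k • (h * V_p F) - U_p (U_p h * F)` is the `q`-expansion of a level-one form of weight `k + 2`),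
used at `F = Δ`, `k = 12`.

Everything else is on main: `S_14 = 0`, `S_12 = 𝒪 Δ` (`Lvl1`), `T_p` on level one (`Lvl1Hecke`),
the formal core (`UCCore`), the arithmetic endgame (`UCGlue`).
-/
import Fermat.Agent.S16.UBCong
import Fermat.Agent.S16.UCGlue

set_option autoImplicit false

namespace Fermat.Agent.S16.UCAsm

open UpperHalfPlane PowerSeries
open Fermat.Agent.S16.TrTrick Fermat.Agent.S16.Lvl1
open Fermat.Agent.S16.LevelOneInt (DeltaZ)

theorem coeff_zero_DeltaZ : coeff 0 DeltaZ = 0 := by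
  rw [LevelOneInt.DeltaZ, coeff_zero_eq_constantCoeff, map_mul, constantCoeff_X, zero_mul]

theorem coeff_one_DeltaZ : coeff 1 DeltaZ = 1 := by
  have := coeff_DeltaZ_pow_self 1
  rwa [pow_one] at this

/-- The constant term of `h * V_p D` vanishes when that of `D` does. -/
theorem coeff_zero_mul_vOp {𝒪 : Type*} [CommRing 𝒪] (p : ℕ) (h D : 𝒪⟦X⟧) (hD : coeff 0 D = 0) :
    coeff 0 (h * vOp p D) = 0 := by
  have h1 : constantCoeff (vOp p D) = 0 := by
    rw [← coeff_zero_eq_constantCoeff_apply, coeff_vOp, if_pos (dvd_zero p), Nat.zero_div, hD]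
  rw [coeff_zero_eq_constantCoeff_apply, map_mul, h1, mul_zero]

/-- The constant term of `U_p (g * D)` vanishes when that of `D` does. -/
theorem coeff_zero_uOp_mul {𝒪 : Type*} [CommRing 𝒪] (p : ℕ) (g D : 𝒪⟦X⟧) (hD : coeff 0 D = 0) :
    coeff 0 (uOp p (g * D)) = 0 := by
  have h1 : constantCoeff D = 0 := by rw [← coeff_zero_eq_constantCoeff_apply, hD]
  rw [coeff_uOp, zero_mul, coeff_zero_eq_constantCoeff_apply, map_mul, h1, mul_zero]

/-- **Leaf (C)** from the trace identity (Q4) (at `F = Δ`). -/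
theorem leafC_of_traceMem {p : ℕ} (hp : p.Prime) (hQ : TraceMem p) : LeafC p := by
  rintro ℓ s hℓ hℓp - H ⟨h, hh, hcong⟩
  have hp0 : p ≠ 0 := hp.ne_zero
  have hD0 : coeff 0 (DeltaZ.map (Int.castRingHom (Zl ℓ))) = 0 := by
    rw [coeff_map, coeff_zero_DeltaZ, map_zero]
  have hD1 : coeff 1 (DeltaZ.map (Int.castRingHom (Zl ℓ))) = 1 := by
    rw [coeff_map, coeff_one_DeltaZ, map_one]
  -- the trace identity over `Zl ℓ`: `X_Δ` is a level-one cusp form of weight `14`, hence `0`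
  have hX : (p : Zl ℓ) ^ 12 • (h * vOp p (DeltaZ.map (Int.castRingHom (Zl ℓ))))
      - uOp p (uOp p h * DeltaZ.map (Int.castRingHom (Zl ℓ))) ∈ lvl1 (Zl ℓ) 14 :=
    hQ ℓ 12 H h hh _ (DeltaZ_mem (Zl ℓ))
  have hX0 : coeff 0 ((p : Zl ℓ) ^ 12 • (h * vOp p (DeltaZ.map (Int.castRingHom (Zl ℓ))))
      - uOp p (uOp p h * DeltaZ.map (Int.castRingHom (Zl ℓ)))) = 0 := by
    rw [map_sub, coeff_smul, coeff_zero_mul_vOp p h _ hD0, coeff_zero_uOp_mul p _ _ hD0,
      smul_zero, sub_zero]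
  have e1 : (p : Zl ℓ) ^ 12 • (h * vOp p (DeltaZ.map (Int.castRingHom (Zl ℓ))))
      = uOp p (uOp p h * DeltaZ.map (Int.castRingHom (Zl ℓ))) :=
    sub_eq_zero.mp (lvl1_fourteen_cusp (Zl ℓ) hX hX0)
  -- `T_p Δ = τ(p) Δ` over `Zl ℓ`
  have hTp : uOp p (DeltaZ.map (Int.castRingHom (Zl ℓ)))
      + (p : Zl ℓ) ^ 11 • vOp p (DeltaZ.map (Int.castRingHom (Zl ℓ))) ∈ lvl1 (Zl ℓ) 12 :=
    Lvl1Hecke.lvl1_hecke (Zl ℓ) hp (by norm_num) (DeltaZ_mem (Zl ℓ))
  have hTp0 : coeff 0 (uOp p (DeltaZ.map (Int.castRingHom (Zl ℓ)))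
      + (p : Zl ℓ) ^ 11 • vOp p (DeltaZ.map (Int.castRingHom (Zl ℓ)))) = 0 := by
    rw [map_add, coeff_smul, coeff_uOp, zero_mul, coeff_vOp, if_pos (dvd_zero p), Nat.zero_div,
      hD0, smul_zero, add_zero]
  have e2 := lvl1_twelve_cusp (Zl ℓ) hTp hTp0
  -- `U_p h ≡ 1`
  have hHh : uOp p h - 1 ∈ congSub ((ℓ : Zl ℓ) ^ s) := by
    have := uOp_mem_congSub p hcong
    rwa [map_sub, UCGlue.uOp_one hp0] at this
  -- the formal core
  have hdvd : (ℓ : Zl ℓ) ^ s ∣ (p : Zl ℓ) ^ 11 * ((p : Zl ℓ) + 1) :=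
    UCCore.dvd_of_delta_identity hp.one_lt e1 e2 hD1 hcong hHh
  have hint : (ℓ : ℤ) ^ s ∣ (p : ℤ) ^ 11 * ((p : ℤ) + 1) := by
    apply intCast_dvd_of_Zl s
    push_cast
    exact hdvd
  exact UCGlue.pow_dvd_succ hp hℓ hℓp (by push_cast; exact hint)

end Fermat.Agent.S16.UCAsm
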