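/-
S16, upper bound (U), block [WTraceQ]: the trace identities of `S16/WTrace.lean` on
`q`-expansions.  Owner: helper41.

For `H ∈ M₂(Γ₀(p))` with `q`-expansion `h` and `F` of level one and weight `k` with `q`-expansion
`f`, the level-one form `X_F = p^k H · F(p ·) - U_p((U_p H) · F)` of weight `k + 2` has
`q`-expansion `p^k • (h * V_p f) - U_p (U_p h * f)`.  In terms of the lattices `lvl1 𝒪 w`
(`S16/Lvl1.lean`) this is `trace_mem_lvl1`; if moreover `h ≡ 1` modulo `a` we get the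
hypothesis `hA` of `TrTrick.false_of_trace_congruence` (`exists_trace_cong`).
-/
import Mathlib
import Fermat.Prelude.Def_ModularForm_HeckeOperator
import Fermat.Prelude.Thm_UpperHalfPlane_qCoeff_heckeU
import Fermat.Prelude.Thm_ModularForm_periodic_heckeU_comp_ofComplex
import Fermat.Prelude.Thm_ModularForm_mdifferentiable_heckeU
import Fermat.Prelude.Thm_ModularForm_isBoundedAtImInfty_heckeU
import Fermat.Prelude.Thm_CongruenceSubgroup_one_mem_strictPeriods_Gamma0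
import Fermat.Agent.S20.Defs
import Fermat.Agent.S23.Basic
import Fermat.Agent.S24.AnBridge
import Fermat.Agent.S16.TrTrick
import Fermat.Agent.S16.Lvl1
import Fermat.Agent.S16.WTrace

set_option autoImplicit false

namespace Fermat.Agent.S16.WTraceQ

open UpperHalfPlane ModularForm PowerSeries
open scoped MatrixGroups ModularForm Manifold
open Fermat.Agent.S16.TrTrick (uOp vOp congSub coeff_uOp coeff_vOp)
open Fermat.Agent.S16.Lvl1 (lvl1)

/-! ### Nice functions -/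

/-- Modular forms with strict period `1` are nice functions. -/
theorem coe_mem_niceSub {Γ : Subgroup (GL (Fin 2) ℝ)} {k : ℤ} {M : Type*} [FunLike M ℍ ℂ]
    [ModularFormClass M Γ k] (hΓ : (1 : ℝ) ∈ Γ.strictPeriods) (f : M) :
    (f : ℍ → ℂ) ∈ S23.niceSub := by
  have : Fact (IsCusp OnePoint.infty Γ) := ⟨Γ.isCusp_of_mem_strictPeriods one_pos hΓ⟩
  exact ⟨SlashInvariantFormClass.periodic_comp_ofComplex f hΓ, ModularFormClass.holo f,
    ModularFormClass.bdd_at_infty f⟩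

theorem nice_of_mem_MF {p : ℕ} {k : ℤ} {G : ℍ → ℂ} (hG : G ∈ S20.MF p k) : G ∈ S23.niceSub := by
  obtain ⟨G', rfl⟩ := hG
  exact coe_mem_niceSub (CongruenceSubgroup.one_mem_strictPeriods_Gamma0 p) G'

theorem nice_of_mem_LF {k : ℤ} {F : ℍ → ℂ} (hF : F ∈ S20.LF k) : F ∈ S23.niceSub := by
  obtain ⟨F', rfl⟩ := hF
  exact coe_mem_niceSub one_mem_strictPeriods_SL F'

theorem nice_heckeU {G : ℍ → ℂ} (hG : G ∈ S23.niceSub) (k : ℤ) (p : ℕ) :
    heckeU k p G ∈ S23.niceSub :=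
  ⟨ModularForm.periodic_heckeU_comp_ofComplex hG.1 k p, ModularForm.mdifferentiable_heckeU hG.2.1 k p,
    ModularForm.isBoundedAtImInfty_heckeU hG.2.2 k p⟩

/-! ### (Q1), (Q2): `U_p` and `V_p` on `q`-expansions -/

/-- (Q1) `q`-expansion of `U_p G`. -/
theorem qExpansion_heckeU {G : ℍ → ℂ} (hG : G ∈ S23.niceSub) (k : ℤ) {p : ℕ} (hp : p ≠ 0) :
    qExpansion 1 (heckeU k p G) = uOp p (qExpansion 1 G) := by
  ext n
  rw [coeff_uOp]
  exact UpperHalfPlane.qCoeff_heckeU hG.1 hG.2.1 hG.2.2 k hp n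

/-- (Q2) `q`-expansion of `z ↦ F (p z)`. -/
theorem qExpansion_comp_mulN (p : ℕ) [NeZero p] {F : ℍ → ℂ} (hF : F ∈ S23.niceSub) :
    qExpansion 1 (fun z => F (S23.mulN p z)) = vOp p (qExpansion 1 F) := by
  ext n
  rw [coeff_vOp]
  exact S24.AnBridge.qExpansion_scale_coeff p hF n

/-- `q`-expansion of a product of nice functions. -/
theorem qExpansion_mul_nice {F G : ℍ → ℂ} (hF : F ∈ S23.niceSub) (hG : G ∈ S23.niceSub) :
    qExpansion 1 (F * G) = qExpansion 1 F * qExpansion 1 G :=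
  qExpansion_mul (S23.analyticAt_cuspFunction_of_mem_niceSub hF)
    (S23.analyticAt_cuspFunction_of_mem_niceSub hG)

/-- `q`-expansion of a difference of nice functions. -/
theorem qExpansion_sub_nice {F G : ℍ → ℂ} (hF : F ∈ S23.niceSub) (hG : G ∈ S23.niceSub) :
    qExpansion 1 (F - G) = qExpansion 1 F - qExpansion 1 G :=
  qExpansion_sub (S23.analyticAt_cuspFunction_of_mem_niceSub hF)
    (S23.analyticAt_cuspFunction_of_mem_niceSub hG)

/-- `q`-expansion of a scalar multiple of a nice function. -/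
theorem qExpansion_smul_nice (c : ℂ) {F : ℍ → ℂ} (hF : F ∈ S23.niceSub) :
    qExpansion 1 (c • F) = c • qExpansion 1 F :=
  qExpansion_smul (S23.analyticAt_cuspFunction_of_mem_niceSub hF) c

/-- (Q3) The `q`-expansion of `c₁ • (H · F(p ·)) - c₂ • U_p((U_p H) · F)` for nice `H`, `F`. -/
theorem qExpansion_trace (p : ℕ) [NeZero p] {H F : ℍ → ℂ} (hH : H ∈ S23.niceSub)
    (hF : F ∈ S23.niceSub) (k₁ k₂ : ℤ) (c₁ c₂ : ℂ) :
    qExpansion 1 (c₁ • (H * (fun z => F (S23.mulN p z))) -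
        c₂ • heckeU k₁ p (heckeU k₂ p H * F)) =
      c₁ • (qExpansion 1 H * vOp p (qExpansion 1 F)) -
        c₂ • uOp p (uOp p (qExpansion 1 H) * qExpansion 1 F) := by
  have hp : p ≠ 0 := NeZero.ne p
  have hV := S24.AnBridge.scale_mem_niceSub p hF
  have hU := nice_heckeU hH k₂ p
  have hUF := S23.niceSub.mul_mem hU hF
  have hUU := nice_heckeU hUF k₁ p
  have hHV := S23.niceSub.mul_mem hH hV
  rw [qExpansion_sub_nice (S23.niceSub.smul_mem hHV c₁) (S23.niceSub.smul_mem hUU c₂),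
    qExpansion_smul_nice c₁ hHV, qExpansion_smul_nice c₂ hUU, qExpansion_mul_nice hH hV,
    qExpansion_comp_mulN p hF, qExpansion_heckeU hUF k₁ hp, qExpansion_mul_nice hU hF,
    qExpansion_heckeU hH k₂ hp]

/-! ### Coefficient maps -/

section map

variable {A B : Type*} [CommRing A] [CommRing B] (φ : A →+* B)

theorem map_uOp (r : ℕ) (f : PowerSeries A) :
    (uOp r f).map φ = uOp r (f.map φ) := by
  ext n
  simp

theorem map_vOp (r : ℕ) (f : PowerSeries A) :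
    (vOp r f).map φ = vOp r (f.map φ) := by
  ext n
  by_cases h : r ∣ n <;> simp [h]

theorem map_smul' (c : A) (f : PowerSeries A) :
    (c • f).map φ = φ c • f.map φ := by
  ext n
  simp

end map

/-! ### Formal algebra -/

section formal

variable {𝒪 : Type*} [CommRing 𝒪]

theorem uOp_one {p : ℕ} (hp : p ≠ 0) : uOp p (1 : PowerSeries 𝒪) = 1 := by
  ext n
  rw [coeff_uOp, coeff_one, coeff_one]
  by_cases h : n = 0
  · simp [h]
  · rw [if_neg h, if_neg (Nat.mul_ne_zero h hp)]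

theorem mul_mem_congSub' {a : 𝒪} (f : PowerSeries 𝒪) {g : PowerSeries 𝒪} (hg : g ∈ congSub a) :
    g * f ∈ congSub a := by
  intro n
  rw [coeff_mul]
  exact Finset.dvd_sum fun ij _ => Dvd.dvd.mul_right (hg _) _

/-- The formal trace `p^k • (h * V_p F) - U_p (U_p h * F)`. -/
noncomputable def trSer (p k : ℕ) (h F : PowerSeries 𝒪) : PowerSeries 𝒪 :=
  (p : 𝒪) ^ k • (h * vOp p F) - uOp p (uOp p h * F)

theorem trSer_def (p k : ℕ) (h F : PowerSeries 𝒪) :
    trSer p k h F = (p : 𝒪) ^ k • (h * vOp p F) - uOp p (uOp p h * F) := rfl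

/-- If `h ≡ 1 (mod a)` then `trSer p k h F ≡ p^k V_p F - U_p F (mod a)`. -/
theorem trSer_sub_mem_congSub {a : 𝒪} {p : ℕ} (hp : p ≠ 0) (k : ℕ) {h : PowerSeries 𝒪}
    (hh : h - 1 ∈ congSub a) (F : PowerSeries 𝒪) :
    trSer p k h F - ((p : 𝒪) ^ k • vOp p F - uOp p F) ∈ congSub a := by
  have e : trSer p k h F - ((p : 𝒪) ^ k • vOp p F - uOp p F) =
      (p : 𝒪) ^ k • ((h - 1) * vOp p F) - uOp p (uOp p (h - 1) * F) := by
    rw [trSer_def, map_sub, uOp_one hp, sub_mul, sub_mul, one_mul, one_mul, map_sub, smul_sub]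
    abel
  rw [e]
  exact (congSub a).sub_mem ((congSub a).smul_mem _ (mul_mem_congSub' _ hh))
    (TrTrick.uOp_mem_congSub p (mul_mem_congSub' _ (TrTrick.uOp_mem_congSub p hh)))

/-- The constant term of the formal trace of a series without constant term vanishes. -/
theorem coeff_zero_trSer (p k : ℕ) (h : PowerSeries 𝒪) {F : PowerSeries 𝒪}
    (hF : coeff 0 F = 0) : coeff 0 (trSer p k h F) = 0 := by
  rw [trSer_def, map_sub, map_smul, coeff_uOp, zero_mul, coeff_zero_eq_constantCoeff, map_mul,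
    map_mul, ← coeff_zero_eq_constantCoeff, coeff_vOp, if_pos (dvd_zero p), Nat.zero_div, hF]
  simp

theorem map_trSer {A B : Type*} [CommRing A] [CommRing B] (φ : A →+* B) (p k : ℕ)
    (h F : PowerSeries A) : (trSer p k h F).map φ = trSer p k (h.map φ) (F.map φ) := by
  rw [trSer_def, trSer_def, map_sub, map_smul', map_mul (PowerSeries.map φ), map_vOp, map_uOp,
    map_mul (PowerSeries.map φ), map_uOp, map_pow, map_natCast]

end formal

/-! ### (Q4), (Q5): the trace on the lattices `lvl1 𝒪 w` -/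

/-- (Q4), function level: the level-one form with `q`-expansion `trSer`. -/
theorem exists_trace_form {p : ℕ} (hp : p.Prime) (H : ModularForm (CongruenceSubgroup.Gamma0 p) 2)
    {k : ℕ} (F : ModularForm 𝒮ℒ (k : ℤ)) :
    ∃ X : ModularForm 𝒮ℒ ((k + 2 : ℕ) : ℤ),
      qExpansion 1 X = trSer p k (qExpansion 1 H) (qExpansion 1 F) := by
  have : NeZero p := ⟨hp.ne_zero⟩
  have hp0 : (p : ℂ) ≠ 0 := Nat.cast_ne_zero.mpr hp.ne_zero
  have hH : (H : ℍ → ℂ) ∈ S20.MF p 2 := ⟨H, rfl⟩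
  have hF : (F : ℍ → ℂ) ∈ S20.LF (k : ℤ) := ⟨F, rfl⟩
  have h1 := (S20.LF ((k : ℤ) + 2)).smul_mem ((p : ℂ) ^ k) (WTrace.trace_mul_V p hp hH hF)
  have e : ((p : ℂ) ^ k) • ((H : ℍ → ℂ) * (fun z => F (S23.mulN p z)) -
      ((p : ℂ) ^ (-(k : ℤ))) • heckeU ((k : ℤ) + 2) p (heckeU 2 p H * F)) =
      ((p : ℂ) ^ k) • ((H : ℍ → ℂ) * (fun z => F (S23.mulN p z))) -
        (1 : ℂ) • heckeU ((k : ℤ) + 2) p (heckeU 2 p H * F) := by
    rw [smul_sub, smul_smul]
    congr 2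
    rw [zpow_neg, zpow_natCast]
    exact mul_inv_cancel₀ (pow_ne_zero k hp0)
  rw [e] at h1
  have hcast : ((k + 2 : ℕ) : ℤ) = (k : ℤ) + 2 := by push_cast; ring
  rw [← hcast] at h1
  obtain ⟨X, hX⟩ := h1
  refine ⟨X, ?_⟩
  rw [hX, qExpansion_trace p (nice_of_mem_MF hH) (nice_of_mem_LF hF), one_smul, trSer_def]

/-- (Q4) For `H ∈ M₂(Γ₀(p))` with `q`-expansion `h ∈ 𝒪⟦q⟧` and `F ∈ lvl1 𝒪 k`, the formal trace
`p^k • (h * V_p F) - U_p (U_p h * F)` is in `lvl1 𝒪 (k + 2)`. -/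
theorem trace_mem_lvl1 (𝒪 : Subring ℂ) {p : ℕ} (hp : p.Prime)
    (H : ModularForm (CongruenceSubgroup.Gamma0 p) 2) (h : PowerSeries 𝒪)
    (hh : h.map 𝒪.subtype = qExpansion 1 H) {k : ℕ} {F : PowerSeries 𝒪} (hF : F ∈ lvl1 𝒪 k) :
    trSer p k h F ∈ lvl1 𝒪 (k + 2) := by
  obtain ⟨F', hF'⟩ := hF
  obtain ⟨X, hX⟩ := exists_trace_form hp H F'
  refine ⟨X, ?_⟩
  rw [hX, ← hh, hF', map_trSer]

/-- (Q5) = hypothesis `hA` of `TrTrick.false_of_trace_congruence` for `S = lvl1 𝒪`: if the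
`q`-expansion `h` of `H ∈ M₂(Γ₀(p))` is `≡ 1 (mod a)`, then for every `F ∈ lvl1 𝒪 k` the series
`p^k V_p F - U_p F` is congruent modulo `a` to an element of `lvl1 𝒪 (k + 2)`. -/
theorem exists_trace_cong (𝒪 : Subring ℂ) {p : ℕ} (hp : p.Prime)
    (H : ModularForm (CongruenceSubgroup.Gamma0 p) 2) (h : PowerSeries 𝒪)
    (hh : h.map 𝒪.subtype = qExpansion 1 H) {a : 𝒪} (hcong : h - 1 ∈ congSub a) (k : ℕ) :
    ∀ F ∈ lvl1 𝒪 k, ∃ X ∈ lvl1 𝒪 (k + 2),
      ∀ n, a ∣ coeff n (X - ((p : 𝒪) ^ k • vOp p F - uOp p F)) :=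
  fun F hF => ⟨trSer p k h F, trace_mem_lvl1 𝒪 hp H h hh hF,
    trSer_sub_mem_congSub hp.ne_zero k hcong F⟩

/-- (Q6) The `Δ`-trick identity: for `F ∈ lvl1 𝒪 12` without constant term (e.g. `F = Δ`),
`p^12 • (h * V_p F) = U_p (U_p h * F)` (the trace is a level-one cusp form of weight `14`). -/
theorem trace_twelve_eq (𝒪 : Subring ℂ) {p : ℕ} (hp : p.Prime)
    (H : ModularForm (CongruenceSubgroup.Gamma0 p) 2) (h : PowerSeries 𝒪)
    (hh : h.map 𝒪.subtype = qExpansion 1 H) {F : PowerSeries 𝒪} (hF : F ∈ lvl1 𝒪 12)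
    (hF0 : coeff 0 F = 0) :
    (p : 𝒪) ^ 12 • (h * vOp p F) = uOp p (uOp p h * F) := by
  have h1 := Lvl1.lvl1_fourteen_cusp 𝒪 (trace_mem_lvl1 𝒪 hp H h hh hF)
    (coeff_zero_trSer p 12 h hF0)
  rw [trSer_def] at h1
  exact sub_eq_zero.mp h1

end Fermat.Agent.S16.WTraceQ
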