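/-
S16, upper bound (U): the trace identity `TraceId p` (the single analytic input of the leaves
(B), (B3), (C)) from `S16/WTraceQ.lean` (direct path through `S16/WTrace.lean`), and hence the
three leaves unconditionally.  Owner: helper41.
-/
import Mathlib
import Fermat.Agent.S16.WTraceQ
import Fermat.Agent.S16.UBCong
import Fermat.Agent.S16.UCAsm

set_option autoImplicit false

namespace Fermat.Agent.S16.WTraceLeaves

/-- The trace identity (Q4), general subring form. -/
theorem traceId {p : ℕ} (hp : p.Prime) : TraceId p :=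
  fun 𝒪 H h hh _ _ hF => WTraceQ.trace_mem_lvl1 𝒪 hp H h hh hF

/-- The trace identity (Q4) over the rings `Zl ℓ`. -/
theorem traceMem {p : ℕ} (hp : p.Prime) : TraceMem p :=
  traceMem_of_traceId (traceId hp)

/-- The trace congruence (Q5) = hypothesis `hA` of the `T_r`-trick. -/
theorem traceCong {p : ℕ} (hp : p.Prime) : TraceCong p :=
  traceCong_of_traceMem hp.pos (traceMem hp)

/-- Leaf (B): no `H ≡ 1 (mod ℓ)` with `ℓ ≥ 5`, for odd primes `p`. -/
theorem leafB {p : ℕ} (hp : p.Prime) (hp2 : p ≠ 2) : LeafB p :=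
  leafB_of_traceId hp hp2 (traceId hp)

/-- Leaf (B3): no `H ≡ 1 (mod 9)`, for odd primes `p`. -/
theorem leafB3 {p : ℕ} (hp : p.Prime) (hp2 : p ≠ 2) : LeafB3 p :=
  leafB3_of_traceId hp hp2 (traceId hp)

/-- Leaf (C): `H ≡ 1 (mod ℓ ^ s)`, `ℓ ≠ p`, forces `ℓ ^ s ∣ p + 1`. -/
theorem leafC {p : ℕ} (hp : p.Prime) : LeafC p :=
  UCAsm.leafC_of_traceMem hp (traceMem hp)

end Fermat.Agent.S16.WTraceLeaves
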