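import Mathlib
import Fermat.Agent.S16.ULeaf
import Fermat.Agent.S16.UArith
import Fermat.Agent.S16.EisE
import Fermat.Agent.S16.SigmaP
import Fermat.Agent.S16.WTraceLeaves
import Fermat.Agent.S16.UD
import Fermat.Agent.S07
import Fermat.Prelude.Thm_CongruenceSubgroup_one_mem_strictPeriods_Gamma0

/-!
# S16, upper bound (U): top-level wiring (owner: helper50)

* `upperForm p f = (24 / (p - 1)) • (E - f)`: for a cusp form `f` congruent to the Eisenstein
  series `E = (p-1)/24 + ∑ σ'(k) q^k` modulo `m`, this weight-2 form on `Γ₀(p)` has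
  `q`-expansion `1 + (24 m / (p - 1)) · (…)`.
* `upperInput_of_leaves`: for an odd prime `p`, the four leaves `LeafB`, `LeafB3`, `LeafC`,
  `LeafD` of `S16/ULeaf.lean` imply the captain's interface `UpperInput p`.
* `upperInput_two`: `UpperInput 2` (no cusp forms of weight 2 on `Γ₀(2)`, S07).
* `upperInput_of_leafD`: with the leaves (B), (B3), (C) of `S16/WTraceLeaves.lean` plugged in,
  only the leaf (D) remains.
* `upperInput`: the upper bound (U), with the leaf (D) of `S16/UD.lean`.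
-/

set_option autoImplicit false

namespace Fermat.Agent.S16

open UpperHalfPlane ModularForm ModularCurve
open scoped MatrixGroups

namespace UpperAsm

/-- The form `H = (24 / (p - 1)) • (E - f)`. -/
noncomputable def upperForm (p : ℕ) [NeZero p] (f : CuspForm (CongruenceSubgroup.Gamma0 p) 2) :
    ModularForm (CongruenceSubgroup.Gamma0 p) 2 :=
  ((24 : ℂ) / ((p : ℂ) - 1)) • (eisNorm p - CuspForm.toModularFormₗ f)

theorem qExpansion_upperForm (p : ℕ) [NeZero p] (f : CuspForm (CongruenceSubgroup.Gamma0 p) 2) :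
    qExpansion 1 (upperForm p f) =
      ((24 : ℂ) / ((p : ℂ) - 1)) • (qExpansion 1 (eisNorm p) - qExpansion 1 f) := by
  have h1 := CongruenceSubgroup.one_mem_strictPeriods_Gamma0 p
  have e1 : (upperForm p f : ℍ → ℂ) =
      ((24 : ℂ) / ((p : ℂ) - 1)) • ((eisNorm p - CuspForm.toModularFormₗ f :
        ModularForm (CongruenceSubgroup.Gamma0 p) 2) : ℍ → ℂ) := rfl
  have e2 : ((eisNorm p - CuspForm.toModularFormₗ f :
      ModularForm (CongruenceSubgroup.Gamma0 p) 2) : ℍ → ℂ) =
      (eisNorm p : ℍ → ℂ) - (CuspForm.toModularFormₗ f : ℍ → ℂ) := rfl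
  have e3 : ((CuspForm.toModularFormₗ f : ModularForm (CongruenceSubgroup.Gamma0 p) 2) : ℍ → ℂ)
      = (f : ℍ → ℂ) := rfl
  rw [e1, ModularForm.qExpansion_smul one_pos h1, e2,
    ModularForm.qExpansion_sub one_pos h1, e3]

theorem coeff_zero_upperForm (p : ℕ) [NeZero p] (hp1 : p ≠ 1)
    (f : CuspForm (CongruenceSubgroup.Gamma0 p) 2) :
    (qExpansion 1 (upperForm p f)).coeff 0 = 1 := by
  have h1 := CongruenceSubgroup.one_mem_strictPeriods_Gamma0 p
  have hf0 : (qExpansion 1 f).coeff 0 = 0 := CuspFormClass.qExpansion_coeff_zero f one_pos h1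
  have hE0 : (qExpansion 1 (eisNorm p)).coeff 0 = ((p : ℂ) - 1) / 24 := qCoeff_eisNorm_zero p
  have hp : (p : ℂ) - 1 ≠ 0 := by
    rw [sub_ne_zero]
    exact_mod_cast hp1
  rw [qExpansion_upperForm, PowerSeries.coeff_smul, map_sub, hf0, hE0, smul_eq_mul, sub_zero]
  field_simp

theorem coeff_upperForm (p : ℕ) [NeZero p] (f : CuspForm (CongruenceSubgroup.Gamma0 p) 2)
    {n : ℕ} (hn : 1 ≤ n) :
    (qExpansion 1 (upperForm p f)).coeff n =
      24 / ((p : ℂ) - 1) * ((sigmaP p n : ℂ) - ModularFormClass.qCoeff f n) := by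
  have hE : (qExpansion 1 (eisNorm p)).coeff n = (sigmaP p n : ℂ) := qCoeff_eisNorm p hn
  rw [qExpansion_upperForm, PowerSeries.coeff_smul, map_sub, hE, smul_eq_mul]
  rfl

end UpperAsm

open UpperAsm in
/-- **(U) from the four leaves**, for an odd prime `p`. -/
theorem upperInput_of_leaves (p : ℕ) [Fact p.Prime] (hp2 : p ≠ 2)
    (hB : LeafB p) (hB3 : LeafB3 p) (hC : LeafC p) (hD : LeafD p) : UpperInput p := by
  have hp : p.Prime := Fact.out
  have : NeZero p := ⟨hp.ne_zero⟩
  have hpodd : p % 2 = 1 := by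
    rcases hp.eq_two_or_odd with h | h
    · exact absurd h hp2
    · exact h
  have hp3 : 3 ≤ p := by
    have := hp.two_le
    omega
  intro m f a hm ha hcong
  show m ∣ (p - 1) / Nat.gcd (p - 1) 12
  refine UArith.dvd_of_leaves hp3 hpodd hm (fun ℓ s => CongOne p ℓ s (upperForm p f)) ?_
    (fun ℓ hℓ h5 => hB ℓ hℓ h5 _) (hB3 _) (fun ℓ s hℓ hne hs h => hC ℓ s hℓ hne hs _ h)
    (fun h8 => hD h8 _)
  intro ℓ s hℓ hdvd
  obtain ⟨d, hd0, hd, hH⟩ := UArith.exists_denominator (by omega : 2 ≤ p) hℓ hdvd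
  refine congOne_of_denominator hℓ _ (coeff_zero_upperForm p (by omega) f) hd0 hd ?_
  intro n hn
  obtain ⟨c, hc⟩ := hH (a n) (sigmaP p n : ℤ) (hcong n hn)
  refine ⟨c, ?_⟩
  rw [coeff_upperForm p f hn, ha n]
  push_cast at hc
  exact hc

/-- **(U) for `p = 2`**: there is no nonzero cusp form of weight 2 on `Γ₀(2)`. -/
theorem upperInput_two : UpperInput 2 := by
  intro m f a hm ha hcong
  have hf : f = 0 := Fermat.Agent.S07.result f
  have h1 := ha 1
  have ha1 : a 1 = 0 := by
    have h0 : ModularFormClass.qCoeff f 1 = 0 := by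
      rw [hf]
      show (qExpansion 1 ((0 : CuspForm (CongruenceSubgroup.Gamma0 2) 2) : ℍ → ℂ)).coeff 1 = 0
      rw [show (((0 : CuspForm (CongruenceSubgroup.Gamma0 2) 2) : ℍ → ℂ)) = 0 from rfl,
        qExpansion_zero]
      simp
    rw [h0] at h1
    exact_mod_cast h1.symm
  have hd := hcong 1 le_rfl
  rw [ha1, sigmaP_one Nat.prime_two] at hd
  have hm1 : (m : ℤ) ∣ 1 := by
    have : (m : ℤ) ∣ -(1 : ℤ) := by simpa using hd
    exact (dvd_neg.mp this)
  have : m = 1 := by
    have := Int.natCast_dvd_natCast.mp (by simpa using hm1 : ((m : ℕ) : ℤ) ∣ ((1 : ℕ) : ℤ))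
    exact Nat.dvd_one.mp this
  subst this
  exact one_dvd _

/-- **(U) from the four leaves**, for every prime `p`. -/
theorem upperInput_of_leaves' (p : ℕ) [Fact p.Prime]
    (hB : LeafB p) (hB3 : LeafB3 p) (hC : LeafC p) (hD : LeafD p) : UpperInput p := by
  by_cases hp2 : p = 2
  · subst hp2
    exact upperInput_two
  · exact upperInput_of_leaves p hp2 hB hB3 hC hD

/-- **(U) from the leaf (D)**: the leaves (B), (B3), (C) are theorems (`S16/WTraceLeaves.lean`). -/
theorem upperInput_of_leafD (p : ℕ) [Fact p.Prime] (hD : LeafD p) : UpperInput p := by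
  have hp : p.Prime := Fact.out
  by_cases hp2 : p = 2
  · subst hp2
    exact upperInput_two
  · exact upperInput_of_leaves p hp2 (WTraceLeaves.leafB hp hp2) (WTraceLeaves.leafB3 hp hp2)
      (WTraceLeaves.leafC hp) hD

/-- **The upper bound (U)**: a weight-2 cusp form on `Γ₀(p)` congruent to the Eisenstein series
modulo `m` forces `m ∣ (p - 1) / gcd (p - 1, 12)`. -/
theorem upperInput (p : ℕ) [Fact p.Prime] : UpperInput p :=
  upperInput_of_leafD p (UD.leafD p Fact.out)

end Fermat.Agent.S16
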