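/-
S16, upper bound (U), case `ℓ = 2`, `p ≡ 7 (mod 8)`: "b-invariant + norm + Sturm"
(helper83's post 476 (D)), PURE-ALGEBRA core (owner: helper98).
Imports only `S16/TrTrick` (helper83's formal `uOp`, `vOp`, `congSub`).

For a weight-2 form `H` put  `B8 := (H⁴ - 6 H² E₄ + 8 H E₆ - 3 E₄²) / 6912`
(the Weierstrass `b₈` for `b₂ = H`, `c₄ = E₄`, `c₆ = -E₆`; equivalently `B8 = (H·B6 - B4²)/4` with
`B4 = (H² - E₄)/24`, `B6 = (H³ - 3HE₄ + 2E₆)/432`, see `b8num_eq`).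

* `exists_b8`: in any commutative ring with `3` invertible: if `H = 1 + 8x`, `E₄ = 1 + 240A`,
  `E₆ = 1 - 504B`, `A - B = 2C` and `E₄³ - E₆² = 1728 Δ`, then `b8num H E₄ E₆ = 6912 * b8` with
  `b8 ≡ Δ (mod 2)`.  (No division by `2` is needed: `(5A + 7B)/12 = Δ - 100A² + 147B² - 8000A³`.)
* `exists_b8_series`: the same for power series and `congSub`.
* `false_of_norm`: the final contradiction.  If all conjugates `h i` (series in `X = q^{1/p}`)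
  are `≡ 1 (mod 8)`, and the norm `∏ i, b8num (h i) E₄ E₆` is `V_p` of a series `ν'` lying in a
  `2`-saturated submodule `S` with Sturm bound `< card ι`, then `False`
  (because `ν'/6912^card ≡ Δ^card = q^card + …  (mod 2)`).
* `two_dvd_sigma_five_sub_sigma_three`: `σ₅(n) ≡ σ₃(n) (mod 2)`.
-/
import Fermat.Agent.S16.TrTrick

set_option autoImplicit false

namespace Fermat.Agent.S16.DCore

open PowerSeries Fermat.Agent.S16.TrTrick

/-! ### Ring identities -/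

section Ring

variable {𝒮 : Type*} [CommRing 𝒮]

/-- `6912 · b₈` as a polynomial in `b₂ = H`, `c₄ = E₄`, `-c₆ = E₆`. -/
def b8num (H E4 E6 : 𝒮) : 𝒮 := H ^ 4 - 6 * H ^ 2 * E4 + 8 * H * E6 - 3 * E4 ^ 2

/-- With `E₄ = H² - 24 b₄`, `E₆ = H³ - 36 H b₄ + 216 b₆`: `b8num = 1728 (H b₆ - b₄²) = 6912 b₈`. -/
theorem b8num_eq (H b4 b6 : 𝒮) :
    b8num H (H ^ 2 - 24 * b4) (H ^ 3 - 36 * H * b4 + 216 * b6) = 1728 * (H * b6 - b4 ^ 2) := by
  unfold b8num; ring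

/-- The Weierstrass relation `c₄³ - c₆² = 1728 Δ` with `4 b₈ = b₂ b₆ - b₄²`, in the form
`E₄³ - E₆² = 432 (-(H² · 4b₈) - 32 b₄³ - 108 b₆² + 36 H b₄ b₆)`. -/
theorem weierstrass_identity (H b4 b6 : 𝒮) :
    (H ^ 2 - 24 * b4) ^ 3 - (H ^ 3 - 36 * H * b4 + 216 * b6) ^ 2
      = 432 * (-(H ^ 2 * (H * b6 - b4 ^ 2)) - 32 * b4 ^ 3 - 108 * b6 ^ 2 + 36 * H * b4 * b6) := by
  ring

/-- **(D)-core, ring form.** -/
theorem exists_b8 (j : 𝒮) (hj : 3 * j = 1) (x A B C Δ : 𝒮) (hAB : A - B = 2 * C)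
    (hrel : (1 + 240 * A) ^ 3 - (1 - 504 * B) ^ 2 = 1728 * Δ) :
    ∃ b8 c : 𝒮, 6912 * b8 = b8num (1 + 8 * x) (1 + 240 * A) (1 - 504 * B) ∧ b8 - Δ = 2 * c := by
  have h27 : 27 * j ^ 3 = 1 := by linear_combination (9 * j ^ 2 + 3 * j + 1) * hj
  refine ⟨8 * j ^ 3 * x ^ 3 + 16 * j ^ 3 * x ^ 4 - (Δ - 100 * A ^ 2 + 147 * B ^ 2 - 8000 * A ^ 3)
      - 10 * j * x * A - 40 * j * x ^ 2 * A - 14 * j * x * B - 25 * A ^ 2,
    4 * j ^ 3 * x ^ 3 + 8 * j ^ 3 * x ^ 4 - 5 * j * x * A - 20 * j * x ^ 2 * A - 7 * j * x * B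
      - Δ + 50 * A ^ 2 + 4000 * A ^ 3 - 86 * B ^ 2 - 25 * C * (A + B), ?_, ?_⟩
  · unfold b8num
    linear_combination (2048 * x ^ 3 + 4096 * x ^ 4) * h27
      - (23040 * x * A + 92160 * x ^ 2 * A + 32256 * x * B) * hj + 4 * hrel
  · linear_combination (-25 * (A + B)) * hAB

end Ring

/-! ### Power series -/

section Series

variable {𝒪 : Type*} [CommRing 𝒪]

theorem smul_mem_congSub (a : 𝒪) (g : 𝒪⟦X⟧) : a • g ∈ congSub a := fun n => by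
  rw [coeff_smul]; exact dvd_mul_right a _

theorem mul_mem_congSub {a : 𝒪} (f : 𝒪⟦X⟧) {g : 𝒪⟦X⟧} (hg : g ∈ congSub a) :
    f * g ∈ congSub a := by
  intro n
  rw [coeff_mul]
  exact Finset.dvd_sum fun ij _ => Dvd.dvd.mul_left (hg _) _

theorem exists_eq_C_mul_of_mem_congSub {a : 𝒪} {g : 𝒪⟦X⟧} (hg : g ∈ congSub a) :
    ∃ g' : 𝒪⟦X⟧, g = C a * g' := by
  choose c hc using hg
  refine ⟨PowerSeries.mk c, ?_⟩
  ext n
  rw [coeff_C_mul, coeff_mk, hc n]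

theorem C_mul_mem_congSub (a : 𝒪) (g : 𝒪⟦X⟧) : C a * g ∈ congSub a := fun n => by
  rw [coeff_C_mul]; exact dvd_mul_right a _

/-- **(D)-core, power-series form.** -/
theorem exists_b8_series (j : 𝒪) (hj : 3 * j = 1) (h A B D : 𝒪⟦X⟧)
    (hh : h - 1 ∈ congSub (8 : 𝒪)) (hAB : A - B ∈ congSub (2 : 𝒪))
    (hrel : (1 + 240 * A) ^ 3 - (1 - 504 * B) ^ 2 = 1728 * D) :
    ∃ b8 : 𝒪⟦X⟧, 6912 * b8 = b8num h (1 + 240 * A) (1 - 504 * B) ∧ b8 - D ∈ congSub (2 : 𝒪) := by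
  obtain ⟨x, hx⟩ := exists_eq_C_mul_of_mem_congSub hh
  obtain ⟨c, hc⟩ := exists_eq_C_mul_of_mem_congSub hAB
  have h8 : (C (8 : 𝒪) : 𝒪⟦X⟧) = 8 := map_ofNat _ 8
  have h2 : (C (2 : 𝒪) : 𝒪⟦X⟧) = 2 := map_ofNat _ 2
  rw [h8] at hx
  rw [h2] at hc
  have hh' : h = 1 + 8 * x := by linear_combination hx
  have hj' : (3 : 𝒪⟦X⟧) * C j = 1 := by
    have : (C (3 : 𝒪) : 𝒪⟦X⟧) = 3 := map_ofNat _ 3
    rw [← this, ← map_mul, hj, map_one]
  obtain ⟨b8, c', e1, e2⟩ := exists_b8 (C j) hj' x A B c D hc hrel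
  refine ⟨b8, ?_, ?_⟩
  · rw [hh']; exact e1
  · rw [e2, ← h2]
    exact C_mul_mem_congSub 2 c'

/-- `V_p` is `PowerSeries.expand`. -/
theorem vOp_eq_expand {p : ℕ} (hp : p ≠ 0) (f : 𝒪⟦X⟧) : vOp p f = PowerSeries.expand p hp f := by
  ext n
  rw [coeff_vOp, PowerSeries.coeff_expand]

theorem vOp_mul {p : ℕ} (hp : p ≠ 0) (f g : 𝒪⟦X⟧) : vOp p (f * g) = vOp p f * vOp p g := by
  simp only [vOp_eq_expand hp, map_mul]

theorem vOp_pow {p : ℕ} (hp : p ≠ 0) (f : 𝒪⟦X⟧) (n : ℕ) : vOp p (f ^ n) = vOp p f ^ n := by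
  simp only [vOp_eq_expand hp, map_pow]

theorem vOp_one {p : ℕ} (hp : p ≠ 0) : vOp p (1 : 𝒪⟦X⟧) = 1 := by
  simp only [vOp_eq_expand hp, map_one]

theorem vOp_ofNat {p : ℕ} (hp : p ≠ 0) (n : ℕ) [n.AtLeastTwo] :
    vOp p (OfNat.ofNat n : 𝒪⟦X⟧) = OfNat.ofNat n := by
  simp only [vOp_eq_expand hp, map_ofNat]

/-- Products of series congruent to `g` are congruent to a power of `g`. -/
theorem prod_sub_pow_mem_congSub {ι : Type*} (s : Finset ι) (f : ι → 𝒪⟦X⟧) (g : 𝒪⟦X⟧) (a : 𝒪)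
    (h : ∀ i ∈ s, f i - g ∈ congSub a) : ∏ i ∈ s, f i - g ^ s.card ∈ congSub a := by
  classical
  induction s using Finset.induction_on with
  | empty => simp
  | insert i s hi ih =>
    rw [Finset.prod_insert hi, Finset.card_insert_of_notMem hi]
    have e : f i * ∏ i ∈ s, f i - g ^ (s.card + 1)
        = f i * (∏ i ∈ s, f i - g ^ s.card) + g ^ s.card * (f i - g) := by ring
    rw [e]
    exact (congSub a).add_mem
      (mul_mem_congSub _ (ih fun k hk => h k (Finset.mem_insert_of_mem hk)))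
      (mul_mem_congSub _ (h i (Finset.mem_insert_self i s)))

/-- A series with zero constant term: `D = D' * X`. -/
theorem eq_shift_mul_X {D : 𝒪⟦X⟧} (hD0 : coeff 0 D = 0) :
    D = (PowerSeries.mk fun n => coeff (n + 1) D) * X := by
  have h := PowerSeries.eq_shift_mul_X_add_const D
  rw [← coeff_zero_eq_constantCoeff_apply, hD0, map_zero, add_zero] at h
  exact h

theorem coeff_pow_of_lt {D : 𝒪⟦X⟧} (hD0 : coeff 0 D = 0) {m n : ℕ} (hn : n < m) :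
    coeff n (D ^ m) = 0 := by
  rw [eq_shift_mul_X hD0, mul_pow, coeff_mul_X_pow', if_neg (by omega)]

theorem coeff_pow_self {D : 𝒪⟦X⟧} (hD0 : coeff 0 D = 0) (m : ℕ) :
    coeff m (D ^ m) = coeff 1 D ^ m := by
  conv_lhs => rw [eq_shift_mul_X hD0, mul_pow, coeff_mul_X_pow', if_pos le_rfl, Nat.sub_self]
  rw [coeff_zero_eq_constantCoeff_apply, map_pow, ← coeff_zero_eq_constantCoeff_apply, coeff_mk]

/-- **(D), final contradiction.** -/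
theorem false_of_norm (h2 : ¬ (2 : 𝒪) ∣ 1) (j : 𝒪) (hj : 3 * j = 1) {p : ℕ} (hp : p ≠ 0)
    (S : Submodule 𝒪 𝒪⟦X⟧) (hsat : ∀ f : 𝒪⟦X⟧, (2 : 𝒪) • f ∈ S → f ∈ S)
    {ι : Type*} [Fintype ι]
    (hSturm : ∀ f ∈ S, (∀ n, n < Fintype.card ι → (2 : 𝒪) ∣ coeff n f) →
      ∀ n, (2 : 𝒪) ∣ coeff n f)
    (D A B : 𝒪⟦X⟧) (hD0 : coeff 0 D = 0) (hD1 : coeff 1 D = 1)
    (hAB : A - B ∈ congSub (2 : 𝒪))
    (hrel : (1 + 240 * A) ^ 3 - (1 - 504 * B) ^ 2 = 1728 * D)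
    (h : ι → 𝒪⟦X⟧) (hh : ∀ i, h i - 1 ∈ congSub (8 : 𝒪))
    (ν' : 𝒪⟦X⟧) (hν'S : ν' ∈ S)
    (hν' : vOp p ν' = ∏ i, b8num (h i) (vOp p (1 + 240 * A)) (vOp p (1 - 504 * B))) : False := by
  have hp0 : 0 < p := Nat.pos_of_ne_zero hp
  -- transport of the data along `V_p`
  have eA : vOp p (1 + 240 * A) = 1 + 240 * vOp p A := by
    rw [map_add, vOp_one hp, vOp_mul hp, vOp_ofNat hp]
  have eB : vOp p (1 - 504 * B) = 1 - 504 * vOp p B := by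
    rw [map_sub, vOp_one hp, vOp_mul hp, vOp_ofNat hp]
  have hAB' : vOp p A - vOp p B ∈ congSub (2 : 𝒪) := by
    rw [← map_sub]; exact vOp_mem_congSub p hAB
  have hrel' : (1 + 240 * vOp p A) ^ 3 - (1 - 504 * vOp p B) ^ 2 = 1728 * vOp p D := by
    have := congrArg (vOp p) hrel
    rwa [map_sub, vOp_pow hp, vOp_pow hp, eA, eB, vOp_mul hp, vOp_ofNat hp] at this
  -- the integral `b₈`'s
  have hb : ∀ i, ∃ b8 : 𝒪⟦X⟧, 6912 * b8 = b8num (h i) (1 + 240 * vOp p A) (1 - 504 * vOp p B) ∧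
      b8 - vOp p D ∈ congSub (2 : 𝒪) := fun i =>
    exists_b8_series j hj (h i) (vOp p A) (vOp p B) (vOp p D) (hh i) hAB' hrel'
  choose b8 hb1 hb2 using hb
  set PP : 𝒪⟦X⟧ := ∏ i, b8 i with hPP
  have hprod : vOp p ν' = 6912 ^ Fintype.card ι * PP := by
    rw [hν', eA, eB, hPP, ← Finset.card_univ, ← Finset.prod_const, ← Finset.prod_mul_distrib]
    exact Finset.prod_congr rfl fun i _ => (hb1 i).symm
  -- `ν' = 6912^m • ν`
  set ν : 𝒪⟦X⟧ := uOp p PP with hν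
  have h6912 : (C (6912 : 𝒪) : 𝒪⟦X⟧) = 6912 := map_ofNat _ 6912
  have hνeq : ν' = ((6912 : 𝒪) ^ Fintype.card ι) • ν := by
    have h1 : uOp p (vOp p ν') = ν' := uOp_vOp hp0 ν'
    rw [← h1, hprod, hν, ← h6912, ← map_pow, ← smul_eq_C_mul, map_smul]
  -- `ν ∈ S` by saturation
  have hsat' : ∀ (s : ℕ) (f : 𝒪⟦X⟧), ((2 : 𝒪) ^ s) • f ∈ S → f ∈ S := by
    intro s
    induction s with
    | zero => intro f hf; simpa using hf
    | succ s ih =>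
      intro f hf
      apply ih
      apply hsat
      rwa [smul_smul, ← pow_succ']
  have hνS : ν ∈ S := by
    have e1 : ((6912 : 𝒪) ^ Fintype.card ι) • ν
        = ((2 : 𝒪) ^ (8 * Fintype.card ι)) • (((27 : 𝒪) ^ Fintype.card ι) • ν) := by
      rw [smul_smul, pow_mul, ← mul_pow]
      norm_num
    have h27 : ((27 : 𝒪) ^ Fintype.card ι) • ν ∈ S := by
      apply hsat' (8 * Fintype.card ι)
      rw [← e1, ← hνeq]
      exact hν'S
    have h27j : (j ^ 3) ^ Fintype.card ι * (27 : 𝒪) ^ Fintype.card ι = 1 := by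
      rw [← mul_pow]
      have : j ^ 3 * 27 = 1 := by linear_combination (9 * j ^ 2 + 3 * j + 1) * hj
      rw [this, one_pow]
    have := S.smul_mem ((j ^ 3) ^ Fintype.card ι) h27
    rwa [smul_smul, h27j, one_smul] at this
  -- `ν ≡ D^m (mod 2)`
  have hPPc : PP - (vOp p D) ^ Fintype.card ι ∈ congSub (2 : 𝒪) := by
    rw [hPP, ← Finset.card_univ]
    exact prod_sub_pow_mem_congSub Finset.univ b8 (vOp p D) 2 fun i _ => hb2 i
  have hνc : ν - D ^ Fintype.card ι ∈ congSub (2 : 𝒪) := by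
    have := uOp_mem_congSub p hPPc
    rwa [map_sub, ← vOp_pow hp, uOp_vOp hp0] at this
  -- Sturm
  have hall : ∀ n, (2 : 𝒪) ∣ coeff n ν := by
    apply hSturm ν hνS
    intro n hn
    have := hνc n
    rwa [map_sub, coeff_pow_of_lt hD0 hn, sub_zero] at this
  have hm := hνc (Fintype.card ι)
  rw [map_sub, coeff_pow_self hD0, hD1, one_pow] at hm
  apply h2
  have := dvd_sub (hall (Fintype.card ι)) hm
  rwa [sub_sub_cancel] at this

end Series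

/-- `σ₅(n) ≡ σ₃(n) (mod 2)`. -/
theorem two_dvd_sigma_five_sub_sigma_three (n : ℕ) :
    (2 : ℤ) ∣ (ArithmeticFunction.sigma 5 n : ℤ) - (ArithmeticFunction.sigma 3 n : ℤ) := by
  rw [ArithmeticFunction.sigma_apply, ArithmeticFunction.sigma_apply]
  push_cast
  rw [← Finset.sum_sub_distrib]
  apply Finset.dvd_sum
  intro d _
  have e : (d : ℤ) ^ 5 - (d : ℤ) ^ 3 = (d : ℤ) ^ 3 * ((d : ℤ) * (d : ℤ) - 1) := by ring
  rw [e]
  rcases Int.even_or_odd (d : ℤ) with hd | hd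
  · exact Dvd.dvd.mul_right (even_iff_two_dvd.mp (hd.pow_of_ne_zero (by norm_num))) _
  · apply Dvd.dvd.mul_left
    obtain ⟨k, hk⟩ := hd
    refine ⟨2 * k * k + 2 * k, ?_⟩
    rw [hk]; ring

end Fermat.Agent.S16.DCore
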