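/-
S16, block [L2b] core (owner: helper19).  Mathlib only.

A finitely generated abelian group `Q` is free as soon as
`d ≤ dim_ℂ Hom(Q, ℂ)` and `dim_{𝔽_ℓ} Hom(Q, 𝔽_ℓ) ≤ d` for every prime `ℓ`.
Consequently every homomorphism `Q → A` is an `A`-combination of homomorphisms `Q → ℤ`.
-/
import Mathlib

set_option autoImplicit false

namespace Fermat.Agent.S16.FreeCrit

open Module

section

variable (Q : Type*) [AddCommGroup Q] [Module.Finite ℤ Q]

/-- Lifts to `Q` of the chosen basis of `Q ⧸ torsion`. -/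
noncomputable def lifts (i : Fin (finrank ℤ (Q ⧸ Submodule.torsion ℤ Q))) : Q :=
  (Submodule.Quotient.mk_surjective (Submodule.torsion ℤ Q)
    (Module.finBasis ℤ (Q ⧸ Submodule.torsion ℤ Q) i)).choose

lemma mk_lifts (i : Fin (finrank ℤ (Q ⧸ Submodule.torsion ℤ Q))) :
    Submodule.Quotient.mk (p := Submodule.torsion ℤ Q) (lifts Q i)
      = Module.finBasis ℤ (Q ⧸ Submodule.torsion ℤ Q) i :=
  (Submodule.Quotient.mk_surjective (Submodule.torsion ℤ Q)
    (Module.finBasis ℤ (Q ⧸ Submodule.torsion ℤ Q) i)).choose_spec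

/-- The section of `Q → Q ⧸ torsion` determined by the lifts. -/
noncomputable def sect : (Q ⧸ Submodule.torsion ℤ Q) →ₗ[ℤ] Q :=
  (Module.finBasis ℤ (Q ⧸ Submodule.torsion ℤ Q)).constr ℤ (lifts Q)

lemma mk_sect (x : Q ⧸ Submodule.torsion ℤ Q) :
    Submodule.Quotient.mk (p := Submodule.torsion ℤ Q) (sect Q x) = x := by
  have h : (Submodule.torsion ℤ Q).mkQ ∘ₗ sect Q = LinearMap.id := by
    apply (Module.finBasis ℤ (Q ⧸ Submodule.torsion ℤ Q)).ext
    intro i
    simp only [LinearMap.coe_comp, Function.comp_apply, sect, Basis.constr_basis,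
      Submodule.mkQ_apply, LinearMap.id_coe, id_eq]
    exact mk_lifts Q i
  exact LinearMap.congr_fun h x

lemma sub_sect_mem (x : Q) :
    x - sect Q (Submodule.Quotient.mk x) ∈ Submodule.torsion ℤ Q := by
  rw [← Submodule.Quotient.mk_eq_zero, Submodule.Quotient.mk_sub, mk_sect, sub_self]

lemma sect_eq_sum (x : Q ⧸ Submodule.torsion ℤ Q) :
    sect Q x = ∑ i, (Module.finBasis ℤ (Q ⧸ Submodule.torsion ℤ Q)).repr x i • lifts Q i := by
  simp [sect, Basis.constr_apply_fintype]

/-- A homomorphism to a torsion-free group kills the torsion submodule. -/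
lemma hom_torsion_eq_zero {A : Type*} [AddCommGroup A] [IsAddTorsionFree A] (f : Q →+ A) {t : Q}
    (ht : t ∈ Submodule.torsion ℤ Q) : f t = 0 := by
  obtain ⟨a, ha⟩ := ht
  have ha' : (a : ℤ) • t = 0 := ha
  have h1 : (a : ℤ) • f t = 0 := by
    rw [← map_zsmul, ha', map_zero]
  have ha0 : (a : ℤ) ≠ 0 := nonZeroDivisors.coe_ne_zero a
  exact (smul_eq_zero_iff_right ha0).mp h1

/-- The complex dimension of `Hom(Q, ℂ)` is at most the rank of `Q ⧸ torsion`. -/
lemma finrank_hom_complex_le :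
    finrank ℂ (Q →+ ℂ) ≤ finrank ℤ (Q ⧸ Submodule.torsion ℤ Q) := by
  set r := finrank ℤ (Q ⧸ Submodule.torsion ℤ Q) with hr
  let L : (Q →+ ℂ) →ₗ[ℂ] (Fin r → ℂ) :=
    { toFun := fun f i => f (lifts Q i)
      map_add' := fun f g => rfl
      map_smul' := fun c f => rfl }
  have hinj : Function.Injective L := by
    rw [← LinearMap.ker_eq_bot, LinearMap.ker_eq_bot']
    intro f hf
    have hf' : ∀ i, f (lifts Q i) = 0 := fun i => congrFun hf i
    ext x
    have h1 := hom_torsion_eq_zero Q f (sub_sect_mem Q x)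
    rw [map_sub, sub_eq_zero] at h1
    rw [h1, sect_eq_sum, map_sum]
    simp only [AddMonoidHom.zero_apply]
    apply Finset.sum_eq_zero
    intro i _
    rw [map_zsmul, hf' i, smul_zero]
  have := LinearMap.finrank_le_finrank_of_injective hinj
  simpa using this

/-- `Hom(Q, K)` is finite-dimensional for a field `K`. -/
lemma finite_hom (K : Type*) [Field K] : Module.Finite K (Q →+ K) := by
  obtain ⟨n, s, hs⟩ := Module.Finite.exists_fin (R := ℤ) (M := Q)
  let L : (Q →+ K) →ₗ[K] (Fin n → K) :=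
    { toFun := fun f i => f (s i)
      map_add' := fun f g => rfl
      map_smul' := fun c f => rfl }
  have hinj : Function.Injective L := by
    rw [← LinearMap.ker_eq_bot, LinearMap.ker_eq_bot']
    intro f hf
    have hf' : ∀ i, f (s i) = 0 := fun i => congrFun hf i
    have h2 : f.toIntLinearMap = 0 := by
      apply LinearMap.ext_on_range hs
      intro i
      simpa using hf' i
    ext x
    exact LinearMap.congr_fun h2 x
  exact Module.Finite.of_injective L hinj

end

section Prime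

variable (Q : Type*) [AddCommGroup Q] [Module.Finite ℤ Q] (ℓ : ℕ) [Fact ℓ.Prime]

/-- A homomorphism to `ZMod ℓ` which does not vanish at a given element outside `ℓ Q`. -/
lemma exists_hom_ne_zero {t : Q} (ht : ∀ y : Q, ℓ • y ≠ t) :
    ∃ g : Q →+ ZMod ℓ, g t ≠ 0 := by
  have hv : ModN.mkQ ℓ t ≠ 0 := by
    intro h0
    have h1 : t ∈ LinearMap.range (LinearMap.lsmul ℤ Q (ℓ : ℤ)) :=
      (Submodule.Quotient.mk_eq_zero _).mp h0
    obtain ⟨y, hy⟩ := h1
    apply ht y
    simpa using hy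
  have h0 := Module.forall_dual_apply_eq_zero_iff (ZMod ℓ) (ModN.mkQ ℓ t)
  have h : ¬ ∀ φ : Module.Dual (ZMod ℓ) (ModN Q ℓ), φ (ModN.mkQ ℓ t) = 0 :=
    fun hall => hv (h0.mp hall)
  rw [not_forall] at h
  obtain ⟨φ, hφ⟩ := h
  exact ⟨φ.toAddMonoidHom.comp (ModN.mkQ ℓ), hφ⟩

/-- If some torsion element is not divisible by `ℓ`, then `Hom(Q, 𝔽_ℓ)` is bigger than the rank. -/
lemma finrank_hom_zmod_gt {t : Q} (htors : t ∈ Submodule.torsion ℤ Q) (ht : ∀ y : Q, ℓ • y ≠ t) :
    finrank ℤ (Q ⧸ Submodule.torsion ℤ Q) + 1 ≤ finrank (ZMod ℓ) (Q →+ ZMod ℓ) := by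
  set r := finrank ℤ (Q ⧸ Submodule.torsion ℤ Q) with hr
  obtain ⟨g, hg⟩ := exists_hom_ne_zero Q ℓ ht
  let b := Module.finBasis ℤ (Q ⧸ Submodule.torsion ℤ Q)
  let e : Fin r → (Q →+ ZMod ℓ) := fun i =>
    (Int.castAddHom (ZMod ℓ)).comp
      ((b.coord i).toAddMonoidHom.comp (Submodule.torsion ℤ Q).mkQ.toAddMonoidHom)
  have he_t : ∀ i, e i t = 0 := by
    intro i
    have : (Submodule.torsion ℤ Q).mkQ t = 0 := by
      rw [Submodule.mkQ_apply, Submodule.Quotient.mk_eq_zero]; exact htors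
    simp [e, this]
  have he_q : ∀ i j, e i (lifts Q j) = if j = i then 1 else 0 := by
    intro i j
    have : (Submodule.torsion ℤ Q).mkQ (lifts Q j) = b j := mk_lifts Q j
    simp only [e, AddMonoidHom.coe_comp, Function.comp_apply, LinearMap.toAddMonoidHom_coe, this,
      Basis.coord_apply, Basis.repr_self, Int.coe_castAddHom]
    rw [Finsupp.single_apply]
    split_ifs <;> simp
  let L : ((Fin r → ZMod ℓ) × ZMod ℓ) →ₗ[ZMod ℓ] (Q →+ ZMod ℓ) :=
    LinearMap.coprod (Fintype.linearCombination (ZMod ℓ) e)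
      (LinearMap.toSpanSingleton (ZMod ℓ) _ g)
  have hL : ∀ (c : Fin r → ZMod ℓ) (a : ZMod ℓ) (x : Q),
      L (c, a) x = ∑ i, c i * e i x + a * g x := by
    intro c a x
    simp [L, Fintype.linearCombination_apply]
  have hinj : Function.Injective L := by
    rw [← LinearMap.ker_eq_bot, LinearMap.ker_eq_bot']
    rintro ⟨c, a⟩ hca
    have h1 := hL c a t
    rw [hca] at h1
    simp only [AddMonoidHom.zero_apply, he_t, mul_zero, Finset.sum_const_zero, zero_add] at h1
    have ha : a = 0 := by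
      rcases mul_eq_zero.mp h1.symm with h | h
      · exact h
      · exact absurd h hg
    have hc : c = 0 := by
      funext j
      have h2 := hL c a (lifts Q j)
      rw [hca, ha] at h2
      simp only [AddMonoidHom.zero_apply, he_q, mul_ite, mul_one, mul_zero, Finset.sum_ite_eq,
        Finset.mem_univ, if_true, zero_mul, add_zero] at h2
      exact h2.symm
    rw [ha, hc]
    rfl
  have := finite_hom Q (ZMod ℓ)
  have := LinearMap.finrank_le_finrank_of_injective hinj
  simpa [Module.finrank_prod] using this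

end Prime

section Main

variable (Q : Type*) [AddCommGroup Q] [Module.Finite ℤ Q]

/-- The torsion submodule vanishes as soon as every torsion element is divisible by every prime. -/
lemma torsion_eq_bot_of_divisible
    (h : ∀ ℓ : ℕ, ℓ.Prime → ∀ t ∈ Submodule.torsion ℤ Q, ∃ y : Q, ℓ • y = t) :
    Submodule.torsion ℤ Q = ⊥ := by
  by_contra hne
  have : Finite (Submodule.torsion ℤ Q) :=
    Module.finite_of_fg_torsion _ Submodule.torsion_isTorsion
  have := Fintype.ofFinite (Submodule.torsion ℤ Q)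
  have hcard : Fintype.card (Submodule.torsion ℤ Q) ≠ 1 := by
    intro h1
    apply hne
    rw [Submodule.eq_bot_iff]
    intro x hx
    have hsub : Subsingleton (Submodule.torsion ℤ Q) := Fintype.card_le_one_iff_subsingleton.mp h1.le
    have := Subsingleton.elim (⟨x, hx⟩ : Submodule.torsion ℤ Q) 0
    exact congrArg Subtype.val this
  obtain ⟨ℓ, hℓ, hdvd⟩ := Nat.exists_prime_and_dvd hcard
  have : Fact ℓ.Prime := ⟨hℓ⟩
  obtain ⟨t, ht⟩ := exists_prime_addOrderOf_dvd_card ℓ hdvd
  let m : Submodule.torsion ℤ Q → Submodule.torsion ℤ Q := fun x => ℓ • x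
  have hsurj : Function.Surjective m := by
    rintro ⟨x, hx⟩
    obtain ⟨y, hy⟩ := h ℓ hℓ x hx
    have hyT : y ∈ Submodule.torsion ℤ Q := by
      obtain ⟨a, ha⟩ := hx
      have hℓ0 : (ℓ : ℤ) ∈ nonZeroDivisors ℤ :=
        mem_nonZeroDivisors_of_ne_zero (by exact_mod_cast hℓ.ne_zero)
      refine ⟨a * ⟨(ℓ : ℤ), hℓ0⟩, ?_⟩
      have : ((a * ⟨(ℓ : ℤ), hℓ0⟩ : nonZeroDivisors ℤ) : ℤ) • y = (a : ℤ) • ((ℓ : ℤ) • y) := by
        rw [Submonoid.coe_mul, mul_smul]
      change ((a * ⟨(ℓ : ℤ), hℓ0⟩ : nonZeroDivisors ℤ) : ℤ) • y = 0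
      rw [this, natCast_zsmul, hy]
      exact ha
    exact ⟨⟨y, hyT⟩, Subtype.ext hy⟩
  have hinj : Function.Injective m := Finite.injective_iff_surjective.mpr hsurj
  have h0 : m t = m 0 := by
    change ℓ • t = ℓ • (0 : Submodule.torsion ℤ Q)
    rw [smul_zero, ← ht]
    exact addOrderOf_nsmul_eq_zero t
  have ht0 : t = 0 := hinj h0
  rw [ht0, addOrderOf_zero] at ht
  exact hℓ.ne_one ht.symm

/-- **Freeness criterion.** -/
theorem free_of_hom_bounds (d : ℕ) (hC : d ≤ finrank ℂ (Q →+ ℂ))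
    (hℓ : ∀ (ℓ : ℕ) [Fact ℓ.Prime], finrank (ZMod ℓ) (Q →+ ZMod ℓ) ≤ d) :
    Module.Free ℤ Q := by
  have hr : d ≤ finrank ℤ (Q ⧸ Submodule.torsion ℤ Q) := hC.trans (finrank_hom_complex_le Q)
  have htors : Submodule.torsion ℤ Q = ⊥ := by
    apply torsion_eq_bot_of_divisible
    intro ℓ hℓp t ht
    by_contra hcon
    rw [not_exists] at hcon
    have : Fact ℓ.Prime := ⟨hℓp⟩
    have h1 := finrank_hom_zmod_gt Q ℓ ht hcon
    have h2 := hℓ ℓ
    omega
  have : Module.IsTorsionFree ℤ Q := Submodule.isTorsionFree_iff_torsion_eq_bot.mpr htors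
  exact Module.free_of_finite_type_torsion_free'

/-- Every homomorphism out of a finitely generated free abelian group is a combination of
integer-valued ones. -/
theorem exists_dual_decomp [Module.Free ℤ Q] {A : Type*} [AddCommGroup A] (f : Q →+ A) :
    ∃ (n : ℕ) (F : Fin n → (Q →+ ℤ)) (a : Fin n → A), ∀ x, f x = ∑ i, F i x • a i := by
  let b := Module.finBasis ℤ Q
  refine ⟨finrank ℤ Q, fun i => (b.coord i).toAddMonoidHom, fun i => f (b i), fun x => ?_⟩
  conv_lhs => rw [← b.sum_repr x]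
  rw [map_sum]
  apply Finset.sum_congr rfl
  intro i _
  rw [map_zsmul]
  rfl

end Main

end Fermat.Agent.S16.FreeCrit
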