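/-
S16 (U), block [HasQ], slice of helper68: products and powers of `q`-expansions at function
level, by the Cauchy product of absolutely convergent series.

* `HasQB.summable_norm` : the `q`-series of a function with a `q`-expansion is absolutely
  convergent at every point of the upper half plane.
* `HasQB.hasQ_mul`, `HasQB.hasQ_pow` : `HasQ` is compatible with products and powers.
-/
import Mathlib
import Fermat.Agent.S16.UDefs

set_option autoImplicit false

namespace Fermat.Agent.S16.HasQB

open UpperHalfPlane Function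

/-- The point with the same real part and half the imaginary part. -/
noncomputable def halfIm (τ : ℍ) : ℍ :=
  ⟨⟨τ.re, τ.im / 2⟩, by
    have := τ.im_pos
    show 0 < τ.im / 2
    positivity⟩

theorem norm_qParam (τ : ℍ) : ‖Periodic.qParam 1 (τ : ℂ)‖ = Real.exp (-2 * Real.pi * τ.im) := by
  rw [Periodic.norm_qParam]
  simp

theorem norm_qParam_halfIm (τ : ℍ) :
    ‖Periodic.qParam 1 ((halfIm τ : ℍ) : ℂ)‖ = Real.exp (-Real.pi * τ.im) := by
  rw [norm_qParam]
  congr 1
  show -2 * Real.pi * (τ.im / 2) = -Real.pi * τ.im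
  ring

/-- Absolute convergence of the `q`-series. -/
theorem summable_norm {f : ℍ → ℂ} {a : PowerSeries ℂ} (hf : HasQ f a) (τ : ℍ) :
    Summable fun n : ℕ => ‖PowerSeries.coeff n a * Periodic.qParam 1 (τ : ℂ) ^ n‖ := by
  -- the terms at `halfIm τ` are bounded
  have h0 := (hf (halfIm τ)).summable.tendsto_atTop_zero
  obtain ⟨C, hC⟩ := (h0.norm).bddAbove_range
  have hCb : ∀ n : ℕ,
      ‖PowerSeries.coeff n a * Periodic.qParam 1 ((halfIm τ : ℍ) : ℂ) ^ n‖ ≤ C :=
    fun n => hC (Set.mem_range_self n)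
  set r : ℝ := Real.exp (-Real.pi * τ.im) with hr
  have hr0 : 0 < r := Real.exp_pos _
  have hr1 : r < 1 := by
    rw [hr, Real.exp_lt_one_iff]
    have := τ.im_pos
    have := Real.pi_pos
    nlinarith
  have hq : ‖Periodic.qParam 1 (τ : ℂ)‖ = r * r := by
    rw [norm_qParam, hr, ← Real.exp_add]
    congr 1
    ring
  have hq' : ‖Periodic.qParam 1 ((halfIm τ : ℍ) : ℂ)‖ = r := norm_qParam_halfIm τ
  refine Summable.of_nonneg_of_le (fun n => norm_nonneg _) (fun n => ?_)
    ((summable_geometric_of_lt_one hr0.le hr1).mul_left C)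
  have h1 := hCb n
  rw [norm_mul, norm_pow, hq'] at h1
  rw [norm_mul, norm_pow, hq, mul_pow, ← mul_assoc]
  exact mul_le_mul_of_nonneg_right h1 (pow_nonneg hr0.le n)

/-- Products. -/
theorem hasQ_mul {f g : ℍ → ℂ} {a b : PowerSeries ℂ} (hf : HasQ f a) (hg : HasQ g b) :
    HasQ (f * g) (a * b) := by
  intro τ
  set q : ℂ := Periodic.qParam 1 (τ : ℂ) with hq
  have hfn := summable_norm hf τ
  have hgn := summable_norm hg τ
  have hsum := summable_norm_sum_mul_antidiagonal_of_summable_norm hfn hgn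
  have hprod := tsum_mul_tsum_eq_tsum_sum_antidiagonal_of_summable_norm hfn hgn
  have hterm : ∀ n : ℕ, PowerSeries.coeff n (a * b) * q ^ n
      = ∑ kl ∈ Finset.HasAntidiagonal.antidiagonal n, (PowerSeries.coeff kl.1 a * q ^ kl.1)
          * (PowerSeries.coeff kl.2 b * q ^ kl.2) := by
    intro n
    rw [PowerSeries.coeff_mul, Finset.sum_mul]
    refine Finset.sum_congr rfl fun kl hkl => ?_
    rw [← Finset.HasAntidiagonal.mem_antidiagonal.mp hkl, pow_add]
    ring
  have h1 : HasSum (fun n : ℕ => PowerSeries.coeff n (a * b) * q ^ n)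
      (∑' n : ℕ, ∑ kl ∈ Finset.HasAntidiagonal.antidiagonal n, (PowerSeries.coeff kl.1 a * q ^ kl.1)
          * (PowerSeries.coeff kl.2 b * q ^ kl.2)) := by
    simp_rw [hterm]
    exact (Summable.of_norm hsum).hasSum
  rw [← hprod, (hf τ).tsum_eq, (hg τ).tsum_eq] at h1
  exact h1

/-- The constant function `1`. -/
theorem hasQ_one : HasQ (1 : ℍ → ℂ) 1 := by
  intro τ
  have h := hasSum_single (f := fun n : ℕ =>
    PowerSeries.coeff n (1 : PowerSeries ℂ) * Periodic.qParam 1 (τ : ℂ) ^ n) 0 (by
      intro n hn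
      simp [PowerSeries.coeff_one, hn])
  simpa using h

/-- Powers. -/
theorem hasQ_pow {f : ℍ → ℂ} {a : PowerSeries ℂ} (hf : HasQ f a) (n : ℕ) :
    HasQ (f ^ n) (a ^ n) := by
  induction n with
  | zero => simpa using hasQ_one
  | succ n ih =>
    rw [pow_succ, pow_succ]
    exact hasQ_mul ih hf

end Fermat.Agent.S16.HasQB
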