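/-
S16 (U), block [HasQ], CORE slice (owner: helper98; hedge requested by helper45).
Statements identical to the skeleton `S16/HasQ.lean` (helper7), in the namespace
`Fermat.Agent.S16.HasQCore`:

* `hasQ_of_mem_MF`, `hasQ_modularForm`, `hasQ_of_mem_LF` : modular forms have their `q`-expansion;
* `mem_LQ_of_hasQ`, `exists_of_mem_LQ` : the dictionary `LQ w` ↔ `S20.LF w`;
* `hasQ_unique`, `hasQ_eq_qExpansion`, `hasQ_fun_unique` (for modular forms / any function);
* pointwise algebra: `hasQ_zero`, `hasQ_const`, `hasQ_add`, `hasQ_smul`, `hasQ_neg`, `hasQ_sub`.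
-/
import Mathlib
import Fermat.Prelude.Thm_CongruenceSubgroup_one_mem_strictPeriods_Gamma0
import Fermat.Agent.S16.UDefs
import Fermat.Agent.S20.Basic
import Fermat.Agent.S20.LevelOne

set_option autoImplicit false

namespace Fermat.Agent.S16.HasQCore

open UpperHalfPlane ModularForm
open scoped MatrixGroups ModularForm Manifold

/-- Members of `S20.MF N w` have their `q`-expansion. -/
theorem hasQ_of_mem_MF {N : ℕ} [NeZero N] {w : ℤ} {F : ℍ → ℂ} (hF : F ∈ S20.MF N w) :
    HasQ F (qExpansion 1 F) := by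
  obtain ⟨F', rfl⟩ := hF
  have hΓ := CongruenceSubgroup.one_mem_strictPeriods_Gamma0 N
  have : Fact (IsCusp OnePoint.infty
      ((CongruenceSubgroup.Gamma0 N).map (Matrix.SpecialLinearGroup.mapGL ℝ))) :=
    ⟨Subgroup.isCusp_of_mem_strictPeriods one_pos hΓ⟩
  intro τ
  exact ModularForm.hasSum_qExpansion (f := F') one_pos hΓ τ

theorem hasQ_modularForm {w : ℤ} (F : ModularForm 𝒮ℒ w) : HasQ (⇑F) (qExpansion 1 F) := by
  intro τ
  exact ModularForm.hasSum_qExpansion (f := F) one_pos one_mem_strictPeriods_SL τ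

theorem hasQ_of_mem_LF {w : ℤ} {F : ℍ → ℂ} (hF : F ∈ S20.LF w) : HasQ F (qExpansion 1 F) := by
  obtain ⟨F', rfl⟩ := hF
  exact hasQ_modularForm F'

theorem exists_of_mem_LQ {w : ℤ} {a : PowerSeries ℂ} (ha : a ∈ LQ w) :
    ∃ F ∈ S20.LF w, HasQ F a := by
  obtain ⟨F, rfl⟩ := ha
  exact ⟨⇑F, ⟨F, rfl⟩, hasQ_modularForm F⟩

/-- The series of a level-one form with a `q`-expansion is its Mathlib `q`-expansion. -/
theorem eq_qExpansion_of_mem_LF {w : ℤ} {F : ℍ → ℂ} {a : PowerSeries ℂ} (hF : F ∈ S20.LF w)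
    (h : HasQ F a) : a = qExpansion 1 F := by
  obtain ⟨F', rfl⟩ := hF
  ext m
  exact ModularFormClass.qExpansion_coeff_unique (c := fun m => PowerSeries.coeff m a) one_pos
    one_mem_strictPeriods_SL (f := F') (fun τ => by simpa [smul_eq_mul] using h τ) m

/-- The series of a form on `Γ₀(N)` with a `q`-expansion is its Mathlib `q`-expansion. -/
theorem eq_qExpansion_of_mem_MF {N : ℕ} [NeZero N] {w : ℤ} {F : ℍ → ℂ} {a : PowerSeries ℂ}
    (hF : F ∈ S20.MF N w) (h : HasQ F a) : a = qExpansion 1 F := by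
  obtain ⟨F', rfl⟩ := hF
  ext m
  exact ModularFormClass.qExpansion_coeff_unique (c := fun m => PowerSeries.coeff m a) one_pos
    (CongruenceSubgroup.one_mem_strictPeriods_Gamma0 N) (f := F')
    (fun τ => by simpa [smul_eq_mul] using h τ) m

theorem mem_LQ_of_hasQ {w : ℤ} {F : ℍ → ℂ} {a : PowerSeries ℂ} (hF : F ∈ S20.LF w)
    (h : HasQ F a) : a ∈ LQ w := by
  have e := eq_qExpansion_of_mem_LF hF h
  obtain ⟨F', rfl⟩ := hF
  exact ⟨F', e.symm⟩

/-- The function is determined by the series. -/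
theorem hasQ_fun_unique {f g : ℍ → ℂ} {a : PowerSeries ℂ} (hf : HasQ f a) (hg : HasQ g a) :
    f = g := by
  funext τ
  exact (hf τ).unique (hg τ)

/-! ### Pointwise algebra -/

theorem hasQ_zero : HasQ (0 : ℍ → ℂ) 0 := by
  intro τ
  simpa using (hasSum_zero : HasSum (fun _ : ℕ => (0 : ℂ)) 0)

theorem hasQ_const (c : ℂ) : HasQ (fun _ : ℍ => c) (PowerSeries.C c) := by
  intro τ
  have e : (fun n : ℕ => PowerSeries.coeff n (PowerSeries.C c) * Function.Periodic.qParam 1 τ ^ n)
      = fun n => if n = 0 then c else 0 := by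
    funext n
    by_cases hn : n = 0
    · subst hn; simp
    · simp [PowerSeries.coeff_C, hn]
  rw [e]
  exact hasSum_ite_eq 0 c

theorem hasQ_add {f g : ℍ → ℂ} {a b : PowerSeries ℂ} (hf : HasQ f a) (hg : HasQ g b) :
    HasQ (f + g) (a + b) := by
  intro τ
  have := (hf τ).add (hg τ)
  simpa [add_mul] using this

theorem hasQ_smul (c : ℂ) {f : ℍ → ℂ} {a : PowerSeries ℂ} (hf : HasQ f a) :
    HasQ (c • f) (c • a) := by
  intro τ
  have := (hf τ).mul_left c
  simpa [mul_assoc] using this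

theorem hasQ_neg {f : ℍ → ℂ} {a : PowerSeries ℂ} (hf : HasQ f a) : HasQ (-f) (-a) := by
  intro τ
  have := (hf τ).neg
  simpa [neg_mul] using this

theorem hasQ_sub {f g : ℍ → ℂ} {a b : PowerSeries ℂ} (hf : HasQ f a) (hg : HasQ g b) :
    HasQ (f - g) (a - b) := by
  intro τ
  have := (hf τ).sub (hg τ)
  simpa [sub_mul] using this

end Fermat.Agent.S16.HasQCore
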