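/-
S16 (U), slice of block [HasQ] (owner of this file: helper79; consumed by helper7's `S16/HasQ.lean`).

* closure properties of `LQ w` (the `q`-expansions of level-one forms of weight `w`);
* `HasQ` for products, powers, `1`, and for the substitution `z ↦ p z` (`V_p`), proved by direct
  manipulation of the sums (Cauchy product of absolutely summable series).
-/
import Mathlib
import Fermat.Agent.S16.UDefs

set_option autoImplicit false

namespace Fermat.Agent.S16.HasQLQ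

open UpperHalfPlane ModularForm
open scoped MatrixGroups ModularForm Manifold

/-! ### Closure properties of `LQ` -/

theorem zero_mem_LQ (w : ℤ) : (0 : PowerSeries ℂ) ∈ LQ w := by
  refine ⟨0, ?_⟩
  rw [show ((0 : ModularForm 𝒮ℒ w) : ℍ → ℂ) = 0 from rfl, qExpansion_zero]

theorem one_mem_LQ : (1 : PowerSeries ℂ) ∈ LQ 0 :=
  ⟨1, ModularForm.qExpansion_one⟩

theorem add_mem_LQ {w : ℤ} {a b : PowerSeries ℂ} (ha : a ∈ LQ w) (hb : b ∈ LQ w) :
    a + b ∈ LQ w := by
  obtain ⟨F, rfl⟩ := ha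
  obtain ⟨G, rfl⟩ := hb
  refine ⟨F + G, ?_⟩
  rw [show ((F + G : ModularForm 𝒮ℒ w) : ℍ → ℂ) = ⇑F + ⇑G from rfl,
    ModularForm.qExpansion_add one_pos one_mem_strictPeriods_SL]

theorem smul_mem_LQ {w : ℤ} (c : ℂ) {a : PowerSeries ℂ} (ha : a ∈ LQ w) : c • a ∈ LQ w := by
  obtain ⟨F, rfl⟩ := ha
  refine ⟨c • F, ?_⟩
  rw [show ((c • F : ModularForm 𝒮ℒ w) : ℍ → ℂ) = c • ⇑F from rfl,
    ModularForm.qExpansion_smul one_pos one_mem_strictPeriods_SL]

theorem neg_mem_LQ {w : ℤ} {a : PowerSeries ℂ} (ha : a ∈ LQ w) : -a ∈ LQ w := by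
  have h := smul_mem_LQ (-1 : ℂ) ha
  simpa using h

theorem sub_mem_LQ {w : ℤ} {a b : PowerSeries ℂ} (ha : a ∈ LQ w) (hb : b ∈ LQ w) :
    a - b ∈ LQ w := by
  rw [sub_eq_add_neg]
  exact add_mem_LQ ha (neg_mem_LQ hb)

theorem mul_mem_LQ {k l : ℤ} {a b : PowerSeries ℂ} (ha : a ∈ LQ k) (hb : b ∈ LQ l) :
    a * b ∈ LQ (k + l) := by
  obtain ⟨F, rfl⟩ := ha
  obtain ⟨G, rfl⟩ := hb
  exact ⟨F.mul G, ModularForm.qExpansion_mul one_pos one_mem_strictPeriods_SL F G⟩

theorem pow_mem_LQ {k : ℤ} {a : PowerSeries ℂ} (ha : a ∈ LQ k) (n : ℕ) :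
    a ^ n ∈ LQ (n * k) := by
  induction n with
  | zero =>
    simp only [pow_zero, Nat.cast_zero, zero_mul]
    exact one_mem_LQ
  | succ n ih =>
    rw [pow_succ, show ((n + 1 : ℕ) : ℤ) * k = n * k + k by push_cast; ring]
    exact mul_mem_LQ ih ha

/-! ### Ring operations on `HasQ` by direct manipulation of the sums -/

/-- Cauchy product. -/
theorem hasQ_mul {f g : ℍ → ℂ} {a b : PowerSeries ℂ} (hf : HasQ f a) (hg : HasQ g b) :
    HasQ (f * g) (a * b) := by
  intro τ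
  set q := Function.Periodic.qParam 1 τ with hq
  have h1 := hf τ
  have h2 := hg τ
  have s1 : Summable fun n : ℕ => ‖PowerSeries.coeff n a * q ^ n‖ := h1.summable.norm
  have s2 : Summable fun n : ℕ => ‖PowerSeries.coeff n b * q ^ n‖ := h2.summable.norm
  have hs := summable_norm_sum_mul_antidiagonal_of_summable_norm s1 s2
  have ht := tsum_mul_tsum_eq_tsum_sum_antidiagonal_of_summable_norm s1 s2
  have e : (fun n : ℕ => ∑ kl ∈ Finset.HasAntidiagonal.antidiagonal n,
      (PowerSeries.coeff kl.1 a * q ^ kl.1) * (PowerSeries.coeff kl.2 b * q ^ kl.2)) =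
      fun n : ℕ => PowerSeries.coeff n (a * b) * q ^ n := by
    funext n
    rw [PowerSeries.coeff_mul, Finset.sum_mul]
    refine Finset.sum_congr rfl fun kl hkl => ?_
    rw [← Finset.HasAntidiagonal.mem_antidiagonal.mp hkl, pow_add]
    ring
  rw [e] at ht
  have hs' : Summable fun n : ℕ => PowerSeries.coeff n (a * b) * q ^ n := by
    rw [← e]
    exact hs.of_norm
  rw [Pi.mul_apply, ← h1.tsum_eq, ← h2.tsum_eq, ht]
  exact hs'.hasSum

theorem hasQ_one : HasQ (1 : ℍ → ℂ) 1 := by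
  intro τ
  have h := hasSum_ite_eq (0 : ℕ) (1 : ℂ)
  have e : (fun n : ℕ => PowerSeries.coeff n (1 : PowerSeries ℂ) *
      Function.Periodic.qParam 1 τ ^ n) = fun n : ℕ => if n = 0 then (1 : ℂ) else 0 := by
    funext n
    by_cases hn : n = 0
    · subst hn
      simp
    · simp [PowerSeries.coeff_one, hn]
  rw [e]
  exact h

theorem hasQ_pow {f : ℍ → ℂ} {a : PowerSeries ℂ} (hf : HasQ f a) (n : ℕ) :
    HasQ (f ^ n) (a ^ n) := by
  induction n with
  | zero =>
    simp only [pow_zero]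
    exact hasQ_one
  | succ n ih =>
    rw [pow_succ, pow_succ]
    exact hasQ_mul ih hf

/-- `q (p z) = q(z) ^ p`. -/
theorem qParam_mulN (p : ℕ) [NeZero p] (z : ℍ) :
    Function.Periodic.qParam 1 (S23.mulN p z) = Function.Periodic.qParam 1 z ^ p := by
  rw [Function.Periodic.qParam, Function.Periodic.qParam, ← Complex.exp_nat_mul, S23.coe_mulN]
  congr 1
  push_cast
  ring

/-- `V_p`: substitution `z ↦ p z`. -/
theorem hasQ_comp_mulN (p : ℕ) [NeZero p] {f : ℍ → ℂ} {a : PowerSeries ℂ} (hf : HasQ f a) :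
    HasQ (fun z => f (S23.mulN p z)) (TrTrick.vOp p a) := by
  intro τ
  have hp : 0 < p := Nat.pos_of_ne_zero (NeZero.ne p)
  have h1 := hf (S23.mulN p τ)
  rw [qParam_mulN] at h1
  have hinj : Function.Injective (fun n : ℕ => n * p) := fun m n h =>
    Nat.eq_of_mul_eq_mul_right hp h
  have hzero : ∀ m ∉ Set.range (fun n : ℕ => n * p),
      PowerSeries.coeff m (TrTrick.vOp p a) * Function.Periodic.qParam 1 τ ^ m = 0 := by
    intro m hm
    rw [TrTrick.coeff_vOp, if_neg, zero_mul]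
    rintro ⟨c, rfl⟩
    exact hm ⟨c, by ring⟩
  rw [← hinj.hasSum_iff hzero]
  convert h1 using 1
  funext n
  simp only [Function.comp_apply, TrTrick.coeff_vOp, dvd_mul_left, if_true,
    Nat.mul_div_cancel _ hp]
  rw [← pow_mul, mul_comm p n]

end Fermat.Agent.S16.HasQLQ
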