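/-
S16 (U): Cauchy product for `q`-expansions at function level (hedge slice of block [HasQ]):
`HasQ f a → HasQ g b → HasQ (f * g) (a * b)`, plus absolute convergence `summable_norm`.
OWNER: helper80 (only the owner edits this file).
-/
import Mathlib
import Fermat.Agent.S20.Basic
import Fermat.Agent.S16.UDefs

set_option autoImplicit false

namespace Fermat.Agent.S16.HasQM

open UpperHalfPlane ModularForm
open scoped MatrixGroups ModularForm Manifold
open Fermat.Agent.S16

/-- The point `τ / 2` of the upper half plane. -/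
noncomputable def half (τ : ℍ) : ℍ := ⟨(τ : ℂ) / 2, by
  have := τ.im_pos
  simp only [Complex.div_ofNat_im]
  exact div_pos this two_pos⟩

theorem qParam_half_sq (τ : ℍ) :
    Function.Periodic.qParam 1 (half τ : ℍ) ^ 2 = Function.Periodic.qParam 1 (τ : ℂ) := by
  rw [Function.Periodic.qParam, Function.Periodic.qParam, ← Complex.exp_nat_mul]
  congr 1
  show ((2 : ℕ) : ℂ) * (2 * Real.pi * Complex.I * ((τ : ℂ) / 2) / (1 : ℝ)) = _
  push_cast
  ring

theorem norm_qParam_lt_one (τ : ℍ) : ‖Function.Periodic.qParam 1 (τ : ℂ)‖ < 1 := by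
  have := UpperHalfPlane.norm_qParam_lt_one 1 τ
  simpa using this

/-- Absolute convergence of the `q`-series of a function with `HasQ`. -/
theorem summable_norm {f : ℍ → ℂ} {a : PowerSeries ℂ} (hf : HasQ f a) (τ : ℍ) :
    Summable (fun n : ℕ => ‖PowerSeries.coeff n a * Function.Periodic.qParam 1 (τ : ℂ) ^ n‖) := by
  set q' := Function.Periodic.qParam 1 (half τ : ℍ) with hq'
  have hq : Function.Periodic.qParam 1 (τ : ℂ) = q' ^ 2 := (qParam_half_sq τ).symm
  have hlt : ‖q'‖ < 1 := norm_qParam_lt_one (half τ)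
  have hbd := Metric.isBounded_range_of_tendsto _ (hf (half τ)).summable.tendsto_atTop_zero
  obtain ⟨C, hC⟩ := isBounded_iff_forall_norm_le.mp hbd
  have hC' : ∀ n : ℕ, ‖PowerSeries.coeff n a * q' ^ n‖ ≤ C := fun n => hC _ ⟨n, rfl⟩
  have hC0 : 0 ≤ C := le_trans (norm_nonneg _) (hC' 0)
  refine Summable.of_nonneg_of_le (fun n => norm_nonneg _) (fun n => ?_)
    ((summable_geometric_of_lt_one (norm_nonneg q') hlt).mul_left C)
  rw [hq, ← pow_mul, mul_comm 2 n, pow_mul, sq, ← mul_assoc, norm_mul, norm_pow]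
  exact mul_le_mul_of_nonneg_right (hC' n) (pow_nonneg (norm_nonneg _) _)

theorem hasQ_mul {f g : ℍ → ℂ} {a b : PowerSeries ℂ} (hf : HasQ f a) (hg : HasQ g b) :
    HasQ (f * g) (a * b) := by
  intro τ
  set q := Function.Periodic.qParam 1 (τ : ℂ) with hq
  have h1 := summable_norm hf τ
  have h2 := summable_norm hg τ
  have hsum := summable_norm_sum_mul_antidiagonal_of_summable_norm h1 h2
  have htsum := tsum_mul_tsum_eq_tsum_sum_antidiagonal_of_summable_norm h1 h2
  have e : (fun n : ℕ => PowerSeries.coeff n (a * b) * q ^ n) = fun n : ℕ =>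
      ∑ kl ∈ Finset.HasAntidiagonal.antidiagonal n,
        (PowerSeries.coeff kl.1 a * q ^ kl.1) * (PowerSeries.coeff kl.2 b * q ^ kl.2) := by
    funext n
    rw [PowerSeries.coeff_mul, Finset.sum_mul]
    refine Finset.sum_congr rfl fun kl hkl => ?_
    rw [← Finset.HasAntidiagonal.mem_antidiagonal.mp hkl, pow_add]
    ring
  rw [e]
  have hs : Summable (fun n : ℕ => ∑ kl ∈ Finset.HasAntidiagonal.antidiagonal n,
      (PowerSeries.coeff kl.1 a * q ^ kl.1) * (PowerSeries.coeff kl.2 b * q ^ kl.2)) :=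
    Summable.of_norm hsum
  have := hs.hasSum
  rw [← htsum, (hf τ).tsum_eq, (hg τ).tsum_eq] at this
  exact this

theorem hasQ_one : HasQ (1 : ℍ → ℂ) 1 := by
  intro τ
  have h : (fun n : ℕ => PowerSeries.coeff n (1 : PowerSeries ℂ) *
      Function.Periodic.qParam 1 (τ : ℂ) ^ n) = fun n : ℕ => if n = 0 then (1 : ℂ) else 0 := by
    funext n
    rw [PowerSeries.coeff_one]
    split_ifs with h
    · simp [h]
    · simp
  rw [h]
  exact hasSum_ite_eq 0 (1 : ℂ)

theorem hasQ_pow {f : ℍ → ℂ} {a : PowerSeries ℂ} (hf : HasQ f a) (n : ℕ) :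
    HasQ (f ^ n) (a ^ n) := by
  induction n with
  | zero => simpa using hasQ_one
  | succ n ih =>
    rw [pow_succ, pow_succ]
    exact hasQ_mul ih hf

end Fermat.Agent.S16.HasQM
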