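/-
S16 (U): the `U_p` operator on `q`-expansions at function level (hedge slice of block [HasQ]):
`HasQ f a → HasQ (ModularForm.heckeU k p f) (TrTrick.uOp p a)`, by the roots-of-unity sum.
OWNER: helper80 (only the owner edits this file).
-/
import Mathlib
import Fermat.Prelude.Def_ModularForm_HeckeOperator
import Fermat.Agent.S20.Basic
import Fermat.Agent.S16.UDefs

set_option autoImplicit false

namespace Fermat.Agent.S16.HasQU

open UpperHalfPlane ModularForm
open scoped MatrixGroups ModularForm Manifold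
open Fermat.Agent.S16

theorem qParam_heckeMatrix_smul {p : ℕ} (hp : p ≠ 0) (j : ℕ) (τ : ℍ) :
    Function.Periodic.qParam 1 (heckeMatrix p j • τ : ℍ) =
      Complex.exp (2 * Real.pi * Complex.I * (τ : ℂ) / p) *
        Complex.exp (2 * Real.pi * Complex.I / p) ^ j := by
  have hp' : (p : ℂ) ≠ 0 := by exact_mod_cast hp
  rw [Function.Periodic.qParam, coe_heckeMatrix_smul hp, ← Complex.exp_nat_mul, ← Complex.exp_add]
  congr 1
  simp only [Complex.ofReal_one, div_one]
  field_simp

theorem rootsum {p : ℕ} {ζ : ℂ} (hprim : IsPrimitiveRoot ζ p) (n : ℕ) :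
    ∑ j ∈ Finset.range p, (ζ ^ j) ^ n = if p ∣ n then (p : ℂ) else 0 := by
  have e : ∀ j, (ζ ^ j) ^ n = (ζ ^ n) ^ j := fun j => by
    rw [← pow_mul, ← pow_mul, mul_comm]
  simp_rw [e]
  split_ifs with h
  · have h1 : ζ ^ n = 1 := (hprim.pow_eq_one_iff_dvd n).mpr h
    simp [h1]
  · have h1 : ζ ^ n ≠ 1 := fun h' => h ((hprim.pow_eq_one_iff_dvd n).mp h')
    rw [geom_sum_eq h1, ← pow_mul, mul_comm, pow_mul, hprim.pow_eq_one, one_pow, sub_self,
      zero_div]

theorem hasQ_heckeU (k : ℤ) {p : ℕ} (hp : p ≠ 0) {f : ℍ → ℂ} {a : PowerSeries ℂ}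
    (hf : HasQ f a) : HasQ (ModularForm.heckeU k p f) (TrTrick.uOp p a) := by
  intro τ
  have hp' : (p : ℂ) ≠ 0 := by exact_mod_cast hp
  set r : ℂ := Complex.exp (2 * Real.pi * Complex.I * (τ : ℂ) / p) with hr
  set ζ : ℂ := Complex.exp (2 * Real.pi * Complex.I / p) with hζ
  have hprim : IsPrimitiveRoot ζ p := Complex.isPrimitiveRoot_exp p hp
  have hq : Function.Periodic.qParam 1 (τ : ℂ) = r ^ p := by
    rw [Function.Periodic.qParam, hr, ← Complex.exp_nat_mul]
    congr 1
    simp only [Complex.ofReal_one, div_one]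
    field_simp
  -- the sum over j of the expansions
  have h1 : HasSum (fun n : ℕ => ∑ j ∈ Finset.range p,
      PowerSeries.coeff n a * (r * ζ ^ j) ^ n)
      (∑ j ∈ Finset.range p, f (heckeMatrix p j • τ)) := by
    apply hasSum_sum
    intro j _
    have := hf (heckeMatrix p j • τ)
    rwa [qParam_heckeMatrix_smul hp] at this
  have h2 : ∀ n : ℕ, ∑ j ∈ Finset.range p, PowerSeries.coeff n a * (r * ζ ^ j) ^ n =
      if p ∣ n then (p : ℂ) * (PowerSeries.coeff n a * r ^ n) else 0 := by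
    intro n
    simp_rw [mul_pow, ← mul_assoc]
    rw [← Finset.mul_sum, rootsum hprim n]
    split_ifs <;> ring
  simp_rw [h2] at h1
  -- reindex along `m ↦ m * p`
  have hinj : Function.Injective (fun m : ℕ => m * p) := fun m m' h =>
    Nat.eq_of_mul_eq_mul_right (Nat.pos_of_ne_zero hp) h
  have h3 : HasSum (fun m : ℕ => (p : ℂ) * (PowerSeries.coeff (m * p) a * r ^ (m * p)))
      (∑ j ∈ Finset.range p, f (heckeMatrix p j • τ)) := by
    have h := (hinj.hasSum_iff (f := fun n : ℕ =>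
      if p ∣ n then (p : ℂ) * (PowerSeries.coeff n a * r ^ n) else 0) (by
        intro n hn
        have : ¬ p ∣ n := fun ⟨c, hc⟩ => hn ⟨c, by simp [hc, mul_comm]⟩
        simp [this])).mpr h1
    have e : (fun n : ℕ => if p ∣ n then (p : ℂ) * (PowerSeries.coeff n a * r ^ n) else 0) ∘
        (fun m : ℕ => m * p) =
        fun m : ℕ => (p : ℂ) * (PowerSeries.coeff (m * p) a * r ^ (m * p)) := by
      funext m
      simp
    rwa [e] at h
  rw [heckeU_apply k hp]
  have h4 := h3.mul_left ((p : ℂ)⁻¹)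
  have e2 : (fun m : ℕ => (p : ℂ)⁻¹ * ((p : ℂ) * (PowerSeries.coeff (m * p) a * r ^ (m * p)))) =
      fun m : ℕ => PowerSeries.coeff m (TrTrick.uOp p a) * Function.Periodic.qParam 1 (τ : ℂ) ^ m := by
    funext m
    rw [TrTrick.coeff_uOp, hq, ← pow_mul, mul_comm p m, inv_mul_cancel_left₀ hp']
  rwa [e2] at h4

end Fermat.Agent.S16.HasQU
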