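/-
S16 (U), slice of block [HasQ] (owner of this file: helper77; consumer: helper7's `HasQ.lean`).

Standalone proofs (no import of `HasQ.lean`) of: uniqueness of `q`-expansions for `HasQ`,
boundedness/periodicity, `HasQ` for level-one modular forms, and the closure properties of `LQ`.
-/
import Mathlib
import Fermat.Agent.S16.UDefs
import Fermat.Agent.S20.Basic
import Fermat.Agent.S20.LevelOne
import Fermat.Prelude.Thm_CongruenceSubgroup_one_mem_strictPeriods_Gamma0

set_option autoImplicit false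

namespace Fermat.Agent.S16.HasQSlice77

open UpperHalfPlane ModularForm Function Filter Topology
open scoped MatrixGroups ModularForm Manifold
open Fermat.Agent.S16

/-- `HasQ` in the `smul` form used by Mathlib. -/
theorem hasQ_smul_form {f : ℍ → ℂ} {a : PowerSeries ℂ} (h : HasQ f a) (τ : ℍ) :
    HasSum (fun m : ℕ => PowerSeries.coeff m a • Periodic.qParam 1 (τ : ℂ) ^ m) (f τ) :=
  h τ

theorem isBoundedAtImInfty {f : ℍ → ℂ} {a : PowerSeries ℂ} (h : HasQ f a) :
    IsBoundedAtImInfty f :=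
  isBoundedAtImInfty_of_hasSum_qExpansion (h := 1) (c := fun m => PowerSeries.coeff m a)
    one_pos h

theorem periodic {f : ℍ → ℂ} {a : PowerSeries ℂ} (h : HasQ f a) :
    Function.Periodic (f ∘ UpperHalfPlane.ofComplex) 1 := by
  intro z
  simp only [Function.comp_apply]
  rcases lt_or_ge 0 z.im with hz | hz
  · have hz' : 0 < (z + 1).im := by simpa using hz
    rw [ofComplex_apply_of_im_pos hz, ofComplex_apply_of_im_pos hz']
    have h1 := h ⟨z + 1, hz'⟩
    have h2 := h ⟨z, hz⟩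
    have hq : Periodic.qParam 1 ((⟨z + 1, hz'⟩ : ℍ) : ℂ) = Periodic.qParam 1 ((⟨z, hz⟩ : ℍ) : ℂ) := by
      show Periodic.qParam 1 (z + 1) = Periodic.qParam 1 z
      simp only [Periodic.qParam, Complex.ofReal_one, div_one]
      rw [mul_add, Complex.exp_add, mul_one, Complex.exp_two_pi_mul_I, mul_one]
    rw [hq] at h1
    exact h1.unique h2
  · have hz' : (z + 1).im ≤ 0 := by simpa using hz
    rw [ofComplex_apply_eq_of_im_nonpos hz' hz]

/-- The cusp function of a function with a `q`-expansion is given by the power series on the unit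
ball (after updating the value at `0`). -/
theorem hasFPowerSeriesOnBall_update {f : ℍ → ℂ} {c : ℕ → ℂ}
    (hf : ∀ τ : ℍ, HasSum (fun m : ℕ ↦ (c m) • Periodic.qParam 1 (τ : ℂ) ^ m) (f τ)) :
    HasFPowerSeriesOnBall (Function.update (cuspFunction 1 f) 0 (c 0))
      (FormalMultilinearSeries.ofScalars ℂ c) 0 1 := by
  have key : ∀ {q : ℂ}, ‖q‖ < 1 → q ≠ 0 →
      HasSum (fun m ↦ c m • q ^ m) (cuspFunction 1 f q) := by
    intro q hq hq1
    have h1 := Periodic.im_invQParam_pos_of_norm_lt_one one_pos hq hq1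
    let τ : ℍ := ⟨Periodic.invQParam 1 q, h1⟩
    have h2 := (Periodic.cuspFunction_eq_of_nonzero 1 (f ∘ ofComplex) hq1)
    have h3 : cuspFunction 1 f q = f τ := by
      show Periodic.cuspFunction 1 (f ∘ ofComplex) q = f τ
      rw [h2, Function.comp_apply, UpperHalfPlane.ofComplex_apply_of_im_pos h1]
    have h4 := hf τ
    have h5 : Periodic.qParam 1 ((τ : ℍ) : ℂ) = q :=
      Periodic.qParam_right_inv one_ne_zero hq1
    rw [h5] at h4
    rw [h3]
    exact h4
  constructor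
  · refine le_of_forall_lt_imp_le_of_dense fun r hr ↦ ?_
    rcases eq_or_ne r 0 with rfl | hr'
    · simp
    · lift r to NNReal using hr.ne_top
      apply FormalMultilinearSeries.le_radius_of_summable
      have hr1 : ‖((r : ℝ) : ℂ)‖ < 1 := by
        simpa using hr
      have hr0 : ((r : ℝ) : ℂ) ≠ 0 := by
        exact_mod_cast hr'
      simpa [smul_eq_mul, norm_mul, mul_comm, mul_left_comm, mul_assoc] using
        (key hr1 hr0).summable.norm
  · simp
  · intro y hy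
    rw [← ENNReal.coe_one, Metric.eball_coe, NNReal.coe_one, mem_ball_zero_iff] at hy
    rcases eq_or_ne y 0 with rfl | hy'
    · simpa +contextual [zero_pow_eq] using hasSum_ite_eq 0 (c 0)
    · simpa [Function.update_of_ne hy', mul_comm] using key hy hy'

theorem cuspFunction_zero {f : ℍ → ℂ} {c : ℕ → ℂ}
    (hf : ∀ τ : ℍ, HasSum (fun m : ℕ ↦ (c m) • Periodic.qParam 1 (τ : ℂ) ^ m) (f τ)) :
    cuspFunction 1 f 0 = c 0 := by
  have H1 := hasFPowerSeriesOnBall_update hf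
  have hc : ContinuousAt (Function.update (cuspFunction 1 f) 0 (c 0)) 0 :=
    H1.hasFPowerSeriesAt.continuousAt
  have ht : Tendsto (Function.update (cuspFunction 1 f) 0 (c 0)) (𝓝[≠] 0) (𝓝 (c 0)) := by
    have := hc.tendsto
    rw [Function.update_self] at this
    exact this.mono_left nhdsWithin_le_nhds
  have ht' : Tendsto (cuspFunction 1 f) (𝓝[≠] 0) (𝓝 (c 0)) := by
    refine ht.congr' ?_
    filter_upwards [self_mem_nhdsWithin] with q hq
    have hq' : q ≠ 0 := hq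
    rw [Function.update_of_ne hq']
  have h0 : cuspFunction 1 f 0 = limUnder (𝓝[≠] 0) (cuspFunction 1 f) :=
    Periodic.cuspFunction_zero_eq_limUnder_nhds_ne 1 (f ∘ ofComplex)
  rw [h0]
  exact ht'.limUnder_eq

theorem hasFPowerSeriesOnBall_cusp {f : ℍ → ℂ} {c : ℕ → ℂ}
    (hf : ∀ τ : ℍ, HasSum (fun m : ℕ ↦ (c m) • Periodic.qParam 1 (τ : ℂ) ^ m) (f τ)) :
    HasFPowerSeriesOnBall (cuspFunction 1 f) (FormalMultilinearSeries.ofScalars ℂ c) 0 1 := by
  have H1 := hasFPowerSeriesOnBall_update hf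
  have H2 : c 0 = cuspFunction 1 f 0 := (cuspFunction_zero hf).symm
  rwa [Function.update_eq_self_iff.mpr H2] at H1

theorem analyticAt_cusp {f : ℍ → ℂ} {c : ℕ → ℂ}
    (hf : ∀ τ : ℍ, HasSum (fun m : ℕ ↦ (c m) • Periodic.qParam 1 (τ : ℂ) ^ m) (f τ)) :
    AnalyticAt ℂ (cuspFunction 1 f) 0 :=
  (hasFPowerSeriesOnBall_cusp hf).analyticAt

/-- Uniqueness of coefficients, with no regularity hypothesis. -/
theorem coeff_unique {f : ℍ → ℂ} {c : ℕ → ℂ}
    (hf : ∀ τ : ℍ, HasSum (fun m : ℕ ↦ (c m) • Periodic.qParam 1 (τ : ℂ) ^ m) (f τ)) (m : ℕ) :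
    c m = (qExpansion 1 f).coeff m := by
  have han := analyticAt_cusp hf
  have h1 := (hasFPowerSeriesOnBall_cusp hf).hasFPowerSeriesAt
  have h2 : HasFPowerSeriesAt (cuspFunction 1 f)
      (.ofScalars ℂ fun m ↦ (qExpansion 1 f).coeff m) 0 := by
    simpa [qExpansion_coeff, div_eq_mul_inv, mul_comm] using han.hasFPowerSeriesAt
  simpa [FormalMultilinearSeries.coeff_ofScalars] using
    congr_arg (FormalMultilinearSeries.coeff · m) (h1.eq_formalMultilinearSeries h2)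

theorem eq_qExpansion {f : ℍ → ℂ} {a : PowerSeries ℂ} (h : HasQ f a) :
    a = qExpansion 1 f := by
  ext m
  exact coeff_unique (c := fun m => PowerSeries.coeff m a) h m

theorem unique {f : ℍ → ℂ} {a b : PowerSeries ℂ} (ha : HasQ f a) (hb : HasQ f b) : a = b := by
  rw [eq_qExpansion ha, eq_qExpansion hb]

theorem fun_unique {f g : ℍ → ℂ} {a : PowerSeries ℂ} (hf : HasQ f a) (hg : HasQ g a) :
    f = g := by
  funext τ
  exact (hf τ).unique (hg τ)

theorem analyticAt_cuspFunction {f : ℍ → ℂ} {a : PowerSeries ℂ} (h : HasQ f a) :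
    AnalyticAt ℂ (cuspFunction 1 f) 0 :=
  analyticAt_cusp (c := fun m => PowerSeries.coeff m a) h

/-- A `1`-periodic holomorphic function bounded at `i∞` has its `q`-expansion. -/
theorem hasQ_of_periodic {f : ℍ → ℂ}
    (hper : Function.Periodic (f ∘ UpperHalfPlane.ofComplex) 1) (hhol : MDiff f)
    (hbdd : IsBoundedAtImInfty f) : HasQ f (qExpansion 1 f) := fun τ =>
  UpperHalfPlane.hasSum_qExpansion one_pos hper hhol hbdd τ

theorem hasQ_modularForm {w : ℤ} (F : ModularForm 𝒮ℒ w) : HasQ (⇑F) (qExpansion 1 F) := by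
  have : Fact (IsCusp OnePoint.infty 𝒮ℒ) :=
    ⟨Subgroup.isCusp_of_mem_strictPeriods one_pos one_mem_strictPeriods_SL⟩
  intro τ
  exact ModularForm.hasSum_qExpansion (f := F) one_pos one_mem_strictPeriods_SL τ

theorem hasQ_of_mem_LF {w : ℤ} {F : ℍ → ℂ} (hF : F ∈ S20.LF w) : HasQ F (qExpansion 1 F) := by
  obtain ⟨G, rfl⟩ := hF
  exact hasQ_modularForm G

/-! ### `LQ` -/

theorem mem_LQ_of_hasQ {w : ℤ} {F : ℍ → ℂ} {a : PowerSeries ℂ} (hF : F ∈ S20.LF w)
    (h : HasQ F a) : a ∈ LQ w := by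
  obtain ⟨G, rfl⟩ := hF
  exact ⟨G, (eq_qExpansion h).symm⟩

theorem exists_of_mem_LQ {w : ℤ} {a : PowerSeries ℂ} (ha : a ∈ LQ w) :
    ∃ F ∈ S20.LF w, HasQ F a := by
  obtain ⟨G, rfl⟩ := ha
  exact ⟨⇑G, S20.lo_coe_mem G, hasQ_modularForm G⟩

theorem zero_mem_LQ (w : ℤ) : (0 : PowerSeries ℂ) ∈ LQ w :=
  ⟨0, by rw [FunLike.coe_zero]; exact qExpansion_zero 1⟩

theorem one_mem_LQ : (1 : PowerSeries ℂ) ∈ LQ 0 :=
  ⟨1, ModularForm.qExpansion_one⟩

theorem add_mem_LQ {w : ℤ} {a b : PowerSeries ℂ} (ha : a ∈ LQ w) (hb : b ∈ LQ w) :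
    a + b ∈ LQ w := by
  obtain ⟨F, rfl⟩ := ha
  obtain ⟨G, rfl⟩ := hb
  exact ⟨F + G, by
    rw [FunLike.coe_add]
    exact ModularForm.qExpansion_add one_pos one_mem_strictPeriods_SL F G⟩

theorem smul_mem_LQ {w : ℤ} (c : ℂ) {a : PowerSeries ℂ} (ha : a ∈ LQ w) : c • a ∈ LQ w := by
  obtain ⟨F, rfl⟩ := ha
  exact ⟨c • F, by
    rw [FunLike.coe_smul]
    exact ModularForm.qExpansion_smul one_pos one_mem_strictPeriods_SL c F⟩

theorem neg_mem_LQ {w : ℤ} {a : PowerSeries ℂ} (ha : a ∈ LQ w) : -a ∈ LQ w := by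
  have := smul_mem_LQ (-1 : ℂ) ha
  simpa using this

theorem sub_mem_LQ {w : ℤ} {a b : PowerSeries ℂ} (ha : a ∈ LQ w) (hb : b ∈ LQ w) :
    a - b ∈ LQ w := by
  rw [sub_eq_add_neg]
  exact add_mem_LQ ha (neg_mem_LQ hb)

theorem mul_mem_LQ {k l : ℤ} {a b : PowerSeries ℂ} (ha : a ∈ LQ k) (hb : b ∈ LQ l) :
    a * b ∈ LQ (k + l) := by
  obtain ⟨F, rfl⟩ := ha
  obtain ⟨G, rfl⟩ := hb
  exact ⟨F.mul G, ModularForm.qExpansion_mul one_pos one_mem_strictPeriods_SL F G⟩

theorem pow_mem_LQ {k : ℤ} {a : PowerSeries ℂ} (ha : a ∈ LQ k) (n : ℕ) :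
    a ^ n ∈ LQ (n * k) := by
  obtain ⟨F, rfl⟩ := ha
  exact ⟨F.pow n, ModularForm.qExpansion_pow one_pos one_mem_strictPeriods_SL F n⟩

/-! ### Algebra of `HasQ` -/

theorem hasQ_of_mem_MF {N : ℕ} [NeZero N] {w : ℤ} {F : ℍ → ℂ} (hF : F ∈ S20.MF N w) :
    HasQ F (qExpansion 1 F) := by
  obtain ⟨G, rfl⟩ := hF
  have hΓ := CongruenceSubgroup.one_mem_strictPeriods_Gamma0 N
  have : Fact (IsCusp OnePoint.infty
      ((CongruenceSubgroup.Gamma0 N : Subgroup SL(2, ℤ)) : Subgroup (GL (Fin 2) ℝ))) :=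
    ⟨Subgroup.isCusp_of_mem_strictPeriods one_pos hΓ⟩
  intro τ
  exact ModularForm.hasSum_qExpansion (f := G) one_pos hΓ τ

theorem hasQ_zero : HasQ (0 : ℍ → ℂ) 0 := by
  intro τ
  simp [hasSum_zero]

theorem hasQ_const (c : ℂ) : HasQ (fun _ : ℍ => c) (PowerSeries.C c) := by
  intro τ
  have h := hasSum_ite_eq (0 : ℕ) c
  have e : (fun n : ℕ => PowerSeries.coeff n (PowerSeries.C c) * Periodic.qParam 1 (τ : ℂ) ^ n)
      = fun n : ℕ => if n = 0 then c else 0 := by
    funext n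
    rcases Nat.eq_zero_or_pos n with rfl | hn
    · simp
    · simp [PowerSeries.coeff_C, hn.ne']
  rw [e]
  exact h

theorem hasQ_one : HasQ (1 : ℍ → ℂ) 1 := by
  have h := hasQ_const 1
  rw [map_one] at h
  exact h

theorem add {f g : ℍ → ℂ} {a b : PowerSeries ℂ} (hf : HasQ f a) (hg : HasQ g b) :
    HasQ (f + g) (a + b) := by
  intro τ
  have := (hf τ).add (hg τ)
  simpa [add_mul] using this

theorem smul (c : ℂ) {f : ℍ → ℂ} {a : PowerSeries ℂ} (hf : HasQ f a) :
    HasQ (c • f) (c • a) := by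
  intro τ
  have := (hf τ).mul_left c
  simpa [mul_assoc] using this

theorem neg {f : ℍ → ℂ} {a : PowerSeries ℂ} (hf : HasQ f a) : HasQ (-f) (-a) := by
  intro τ
  have := (hf τ).neg
  simpa using this

theorem sub {f g : ℍ → ℂ} {a b : PowerSeries ℂ} (hf : HasQ f a) (hg : HasQ g b) :
    HasQ (f - g) (a - b) := by
  intro τ
  have := (hf τ).sub (hg τ)
  simpa [sub_mul] using this

theorem mul {f g : ℍ → ℂ} {a b : PowerSeries ℂ} (hf : HasQ f a) (hg : HasQ g b) :
    HasQ (f * g) (a * b) := by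
  intro τ
  set q := Periodic.qParam 1 (τ : ℂ) with hq
  have h1 := hf τ
  have h2 := hg τ
  have n1 : Summable fun n : ℕ => ‖PowerSeries.coeff n a * q ^ n‖ := h1.summable.norm
  have n2 : Summable fun n : ℕ => ‖PowerSeries.coeff n b * q ^ n‖ := h2.summable.norm
  have hs := summable_norm_sum_mul_antidiagonal_of_summable_norm n1 n2
  have ht := tsum_mul_tsum_eq_tsum_sum_antidiagonal_of_summable_norm n1 n2
  rw [h1.tsum_eq, h2.tsum_eq] at ht
  have hsum : HasSum (fun n : ℕ => ∑ kl ∈ Finset.HasAntidiagonal.antidiagonal n,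
      PowerSeries.coeff kl.1 a * q ^ kl.1 * (PowerSeries.coeff kl.2 b * q ^ kl.2)) (f τ * g τ) := by
    rw [ht]
    exact (hs.of_norm).hasSum
  have hterm : ∀ n : ℕ, ∑ kl ∈ Finset.HasAntidiagonal.antidiagonal n,
      PowerSeries.coeff kl.1 a * q ^ kl.1 * (PowerSeries.coeff kl.2 b * q ^ kl.2)
        = PowerSeries.coeff n (a * b) * q ^ n := by
    intro n
    rw [PowerSeries.coeff_mul, Finset.sum_mul]
    refine Finset.sum_congr rfl fun kl hkl => ?_
    have hkl' : kl.1 + kl.2 = n := Finset.HasAntidiagonal.mem_antidiagonal.mp hkl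
    rw [← hkl', pow_add]
    ring
  simp only [hterm] at hsum
  exact hsum

theorem pow {f : ℍ → ℂ} {a : PowerSeries ℂ} (hf : HasQ f a) (n : ℕ) :
    HasQ (f ^ n) (a ^ n) := by
  induction n with
  | zero => rw [pow_zero, pow_zero]; exact hasQ_one
  | succ n ih =>
    rw [pow_succ, pow_succ]
    exact mul ih hf

/-- `V_p`: substitution `z ↦ p z`. -/
theorem comp_mulN (p : ℕ) [NeZero p] {f : ℍ → ℂ} {a : PowerSeries ℂ} (hf : HasQ f a) :
    HasQ (fun z => f (S23.mulN p z)) (TrTrick.vOp p a) := by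
  intro τ
  have hp : p ≠ 0 := NeZero.ne p
  have h1 := hf (S23.mulN p τ)
  have hq : Periodic.qParam 1 ((S23.mulN p τ : ℍ) : ℂ) = Periodic.qParam 1 (τ : ℂ) ^ p := by
    rw [S23.coe_mulN, Periodic.qParam, Periodic.qParam, ← Complex.exp_nat_mul]
    congr 1
    ring
  rw [hq] at h1
  set q := Periodic.qParam 1 (τ : ℂ) with hqdef
  have hinj : Function.Injective (fun n : ℕ => p * n) := fun m n h =>
    Nat.eq_of_mul_eq_mul_left (Nat.pos_of_ne_zero hp) h
  have hsupp : ∀ m : ℕ, m ∉ Set.range (fun n : ℕ => p * n) →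
      PowerSeries.coeff m (TrTrick.vOp p a) * q ^ m = 0 := by
    intro m hm
    have : ¬ p ∣ m := fun ⟨k, hk⟩ => hm ⟨k, hk.symm⟩
    simp [TrTrick.coeff_vOp, this]
  rw [← hinj.hasSum_iff hsupp]
  have e : ((fun m : ℕ => PowerSeries.coeff m (TrTrick.vOp p a) * q ^ m) ∘ fun n : ℕ => p * n)
      = fun n : ℕ => PowerSeries.coeff n a * (q ^ p) ^ n := by
    funext n
    simp only [Function.comp_apply, TrTrick.coeff_vOp, dvd_mul_right, if_true,
      Nat.mul_div_cancel_left _ (Nat.pos_of_ne_zero hp), pow_mul]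
  rw [e]
  exact h1

end Fermat.Agent.S16.HasQSlice77
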