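/-
S16, lower bound (L), block [K] (owner: helper87).

The Eichler–Shimura pairing map `periodHomPair N` intertwines the Hecke operators acting
diagonally on `S₂(Γ₀(N)) × S₂(Γ₀(N))` with the explicit cohomological operators
`heckeTHom`, `heckeUHom` of `S16/HeckeHom.lean`:

* `periodHomPair_heckeTLin` : `Π (T_q f, T_q g) = heckeTHom N q hqN (Π (f, g))`,
* `periodHomPair_heckeULin` : `Π (U_p f, U_p g) = heckeUHom N p hpN (Π (f, g))`.

Inputs: [E1] `periodMap_heckeTLin/ULin` (S16/HeckePeriod.lean), [E2] `charInvolution_heckeTHom/UHom`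
(S16/HeckeInvB.lean) and the formula `Π (f, g) = P (f + g) + ι P (f - g)` (S21/Pair.lean).
-/
import Fermat.Agent.S16.HeckePeriod
import Fermat.Agent.S16.HeckeInvB
import Fermat.Agent.S21.Pair

set_option autoImplicit false

namespace Fermat.Agent.S16.HeckePair

open CongruenceSubgroup ModularCurve ModularCurve.Period
open scoped MatrixGroups

variable {N : ℕ} [NeZero N]

/-- **[K] for `T_q`.** -/
theorem periodHomPair_heckeTLin {q : ℕ} [Fact q.Prime] (hq : q.Prime) (hqN : ¬ q ∣ N)
    (f g : CuspForm (Gamma0 N) 2) :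
    periodHomPair N (CuspForm.heckeTLin 2 hq hqN f, CuspForm.heckeTLin 2 hq hqN g) =
      heckeTHom N q hqN (periodHomPair N (f, g)) := by
  have h := Fermat.Agent.S21.existsPeriodMapLinear N
  rw [Fermat.Agent.S21.periodHomPair_apply N h, Fermat.Agent.S21.periodHomPair_apply N h,
    ← map_add, ← map_sub, periodMap_heckeTLin, periodMap_heckeTLin,
    HeckeInvB.charInvolution_heckeTHom hqN ℂ]
  exact ((tData N q hqN).op_add _ _).symm

/-- **[K] for `U_p`.** -/
theorem periodHomPair_heckeULin {p : ℕ} [NeZero p] (hpN : p ∣ N)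
    (f g : CuspForm (Gamma0 N) 2) :
    periodHomPair N (CuspForm.heckeULin 2 hpN f, CuspForm.heckeULin 2 hpN g) =
      heckeUHom N p hpN (periodHomPair N (f, g)) := by
  have h := Fermat.Agent.S21.existsPeriodMapLinear N
  rw [Fermat.Agent.S21.periodHomPair_apply N h, Fermat.Agent.S21.periodHomPair_apply N h,
    ← map_add, ← map_sub, periodMap_heckeULin, periodMap_heckeULin,
    HeckeInvB.charInvolution_heckeUHom hpN ℂ]
  exact ((uData N p hpN).op_add _ _).symm

end Fermat.Agent.S16.HeckePair
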