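/-
S16, lower bound (L), block [K] (B seat / hedge, owner: helper37): the pair period map
`periodHomPair N` of S21 intertwines the Hecke operators `T_q`, `U_p` on `S₂(Γ₀(N)) × S₂(Γ₀(N))`
with the explicit operators `heckeTHom`, `heckeUHom` on `Hom(Γ₀(N), ℂ)`.

Assembled from [E1] (S16/HeckePeriod.lean, helper22) and [E2] (S16/HeckeInvB.lean).
-/
import Fermat.Agent.S16.HeckePeriod
import Fermat.Agent.S16.HeckeInvB
import Fermat.Agent.S21.Pair

set_option autoImplicit false

namespace Fermat.Agent.S16.HeckePairB

open UpperHalfPlane CongruenceSubgroup ModularCurve ModularCurve.Period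
open scoped MatrixGroups ModularForm
open Fermat.Agent.S21

variable {N : ℕ} [NeZero N]

/-- `periodHomPair` intertwines `T_q × T_q` with `heckeTHom`. -/
theorem periodHomPair_heckeTLin {q : ℕ} [Fact q.Prime] (hq : q.Prime) (hqN : ¬ q ∣ N)
    (f g : CuspForm (Gamma0 N) 2) :
    periodHomPair N (CuspForm.heckeTLin 2 hq hqN f, CuspForm.heckeTLin 2 hq hqN g) =
      heckeTHom N q hqN (periodHomPair N (f, g)) := by
  rw [periodHomPair_apply N (existsPeriodMapLinear N), periodHomPair_apply N (existsPeriodMapLinear N),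
    ← map_add, ← map_sub, periodMap_heckeTLin hq hqN, periodMap_heckeTLin hq hqN,
    HeckeInvB.charInvolution_heckeTHom hqN ℂ]
  exact ((tData N q hqN).op_add _ _).symm

/-- `periodHomPair` intertwines `U_p × U_p` with `heckeUHom`. -/
theorem periodHomPair_heckeULin {p : ℕ} [NeZero p] (hpN : p ∣ N)
    (f g : CuspForm (Gamma0 N) 2) :
    periodHomPair N (CuspForm.heckeULin 2 hpN f, CuspForm.heckeULin 2 hpN g) =
      heckeUHom N p hpN (periodHomPair N (f, g)) := by
  rw [periodHomPair_apply N (existsPeriodMapLinear N), periodHomPair_apply N (existsPeriodMapLinear N),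
    ← map_add, ← map_sub, periodMap_heckeULin hpN, periodMap_heckeULin hpN,
    HeckeInvB.charInvolution_heckeUHom hpN ℂ]
  exact ((uData N p hpN).op_add _ _).symm

end Fermat.Agent.S16.HeckePairB
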