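import Mathlib

/-!
# A characteristic-free dimension bound for "orbit-sum-zero" cocycles

Abstract linear algebra behind `dim_k Hom°(Γ, k) ≤ 2g` (block [L2a] of S16, owner helper88).
Everything is over an arbitrary field `k`; no traces and no divisions are used.
-/

set_option autoImplicit false

namespace Fermat.Agent.S16.OrbitDim

open Module

section Main

variable {k : Type*} [Field k] {X : Type*} [Fintype X]

/-- Fibre sums of a function along a map `q : X → Ω`. -/
noncomputable def fibSum {Ω : Type*} (q : X → Ω) : (X → k) →ₗ[k] (Ω → k) := by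
  classical
  exact
    { toFun := fun f ω => ∑ x, if q x = ω then f x else 0
      map_add' := by
        intro f g
        funext ω
        simp only [Pi.add_apply, ← Finset.sum_add_distrib]
        apply Finset.sum_congr rfl
        intro x _
        split_ifs <;> simp
      map_smul' := by
        intro c f
        funext ω
        simp only [Pi.smul_apply, smul_eq_mul, RingHom.id_apply, Finset.mul_sum]
        apply Finset.sum_congr rfl
        intro x _
        split_ifs <;> simp }

lemma fibSum_apply {Ω : Type*} [DecidableEq Ω] (q : X → Ω) (f : X → k) (ω : Ω) :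
    fibSum q f ω = ∑ x, if q x = ω then f x else 0 := by
  unfold fibSum
  simp only [LinearMap.coe_mk, AddHom.coe_mk]
  apply Finset.sum_congr rfl
  intro x _
  congr

lemma fibSum_single [DecidableEq X] {Ω : Type*} [DecidableEq Ω] (q : X → Ω) (y : X) :
    fibSum q (Pi.single y (1 : k)) = Pi.single (q y) (1 : k) := by
  funext ω
  rw [fibSum_apply]
  simp only [Pi.single_apply]
  rw [Finset.sum_eq_single y]
  · simp [eq_comm]
  · intro x _ hx
    simp [hx]
  · intro h
    exact absurd (Finset.mem_univ y) h

lemma fibSum_surjective {Ω : Type*} (q : X → Ω) (hq : Function.Surjective q) :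
    Function.Surjective (fibSum (k := k) q) := by
  classical
  intro h
  choose σ hσ using hq
  refine ⟨fun x => if x = σ (q x) then h (q x) else 0, ?_⟩
  funext ω
  rw [fibSum_apply]
  rw [Finset.sum_eq_single (σ ω)]
  · simp [hσ]
  · intro x _ hx
    by_cases hqx : q x = ω
    · subst hqx
      simp [hx]
    · simp [hqx]
  · intro h'
    exact absurd (Finset.mem_univ _) h'

lemma fibSum_comp_perm {Ω : Type*} (q : X → Ω) (g : Equiv.Perm X) (hg : ∀ x, q (g x) = q x)
    (f : X → k) : fibSum q (fun x => f (g x)) = fibSum q f := by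
  classical
  funext ω
  rw [fibSum_apply, fibSum_apply]
  rw [← Equiv.sum_comp g (fun x => if q x = ω then f x else 0)]
  apply Finset.sum_congr rfl
  intro x _
  rw [hg]

lemma finrank_ker_fibSum {Ω : Type*} [Fintype Ω] (q : X → Ω) (hq : Function.Surjective q) :
    finrank k (LinearMap.ker (fibSum (k := k) q)) + Fintype.card Ω = Fintype.card X := by
  have h := LinearMap.finrank_range_add_finrank_ker (fibSum (k := k) q)
  rw [LinearMap.range_eq_top.mpr (fibSum_surjective q hq), finrank_top,
    Module.finrank_fintype_fun_eq_card, Module.finrank_fintype_fun_eq_card] at h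
  omega

end Main

section Bound

variable {k : Type*} [Field k] {X : Type*} [Fintype X]
  {ΩS ΩU ΩT : Type*} [Fintype ΩS] [Fintype ΩU] [Fintype ΩT]

/-- `f ∘ g - f` has zero fibre sums along any `g`-invariant map. -/
lemma fibSum_comp_sub {Ω : Type*} (q : X → Ω) (g : Equiv.Perm X) (hg : ∀ x, q (g x) = q x)
    (f : X → k) : fibSum q (fun x => f (g x) - f x) = 0 := by
  have h := fibSum_comp_perm q g hg f
  have h2 : (fun x => f (g x) - f x) = (fun x => f (g x)) - f := rfl
  rw [h2, map_sub, h, sub_self]

/-- `f - f ∘ g` has zero fibre sums along any `g`-invariant map. -/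
lemma fibSum_sub_comp {Ω : Type*} (q : X → Ω) (g : Equiv.Perm X) (hg : ∀ x, q (g x) = q x)
    (f : X → k) : fibSum q (fun x => f x - f (g x)) = 0 := by
  have h := fibSum_comp_perm q g hg f
  have h2 : (fun x => f x - f (g x)) = f - (fun x => f (g x)) := rfl
  rw [h2, map_sub, h, sub_self]

/-- The "parabolic coboundary" map `(α, β) ↦ β - α ∘ t` on pairs of orbit-sum-zero functions. -/
noncomputable def cobL (t : Equiv.Perm X) (qS : X → ΩS) (qU : X → ΩU) :
    (↥(LinearMap.ker (fibSum (k := k) qS)) × ↥(LinearMap.ker (fibSum (k := k) qU)))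
      →ₗ[k] (X → k) where
  toFun p := fun x => (p.2 : X → k) x - (p.1 : X → k) (t x)
  map_add' := by
    intro p p'
    funext x
    simp only [Prod.fst_add, Prod.snd_add, Submodule.coe_add, Pi.add_apply]
    ring
  map_smul' := by
    intro c p
    funext x
    simp only [Prod.smul_fst, Prod.smul_snd, Submodule.coe_smul, Pi.smul_apply, smul_eq_mul,
      RingHom.id_apply]
    ring

omit [Fintype ΩS] [Fintype ΩU] in
lemma cobL_apply (t : Equiv.Perm X) (qS : X → ΩS) (qU : X → ΩU)
    (p : ↥(LinearMap.ker (fibSum (k := k) qS)) × ↥(LinearMap.ker (fibSum (k := k) qU))) (x : X) :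
    cobL t qS qU p x = (p.2 : X → k) x - (p.1 : X → k) (t x) := rfl

/-- The range of `cobL` contains all `f - f ∘ r`. -/
lemma sub_comp_r_mem_range_cobL (r t : Equiv.Perm X)
    (qS : X → ΩS) (qU : X → ΩU) (hU : ∀ x, qU (r x) = qU x) (f : X → k) :
    (fun x => f x - f (r x)) ∈ LinearMap.range (cobL (k := k) t qS qU) := by
  refine ⟨(0, ⟨fun x => f x - f (r x), ?_⟩), ?_⟩
  · rw [LinearMap.mem_ker]
    exact fibSum_sub_comp qU r hU f
  · funext x
    rw [cobL_apply]
    simp

/-- The range of `cobL` contains all `f - f ∘ t`. -/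
lemma sub_comp_t_mem_range_cobL (s r t : Equiv.Perm X) (hrst : ∀ x, r x = s (t x))
    (qS : X → ΩS) (hS : ∀ x, qS (s x) = qS x) (qU : X → ΩU) (hU : ∀ x, qU (r x) = qU x)
    (f : X → k) :
    (fun x => f x - f (t x)) ∈ LinearMap.range (cobL (k := k) t qS qU) := by
  refine ⟨(⟨fun x => f x - f (s x), ?_⟩, ⟨fun x => f x - f (r x), ?_⟩), ?_⟩
  · rw [LinearMap.mem_ker]
    exact fibSum_sub_comp qS s hS f
  · rw [LinearMap.mem_ker]
    exact fibSum_sub_comp qU r hU f
  · funext x
    rw [cobL_apply]
    simp only
    rw [hrst x]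
    ring

/-- Differences of point masses lie in the range of `cobL`. -/
lemma single_sub_single_mem_range_cobL [DecidableEq X] (s r t : Equiv.Perm X)
    (hrst : ∀ x, r x = s (t x))
    (hconn : ∀ P : X → Prop, (∀ x, P x → P (r x)) → (∀ x, P x → P (t x)) → ∀ x y, P x → P y)
    (qS : X → ΩS) (hS : ∀ x, qS (s x) = qS x) (qU : X → ΩU) (hU : ∀ x, qU (r x) = qU x)
    (x y : X) :
    (Pi.single y (1 : k) - Pi.single x (1 : k) : X → k) ∈
      LinearMap.range (cobL (k := k) t qS qU) := by
  have key : ∀ (g : Equiv.Perm X),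
      (∀ f : X → k, (fun x => f x - f (g x)) ∈ LinearMap.range (cobL (k := k) t qS qU)) →
      ∀ z, (Pi.single (g z) (1 : k) - Pi.single z (1 : k) : X → k) ∈
        LinearMap.range (cobL (k := k) t qS qU) := by
    intro g hg z
    have h := hg (Pi.single (g z) (1 : k))
    have e : (fun x => (Pi.single (g z) (1 : k) : X → k) x - (Pi.single (g z) (1 : k) : X → k) (g x))
        = (Pi.single (g z) (1 : k) - Pi.single z (1 : k) : X → k) := by
      funext w
      simp only [Pi.sub_apply, Pi.single_apply, g.injective.eq_iff]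
    rw [e] at h
    exact h
  refine hconn (fun y => (Pi.single y (1 : k) - Pi.single x (1 : k) : X → k) ∈
      LinearMap.range (cobL (k := k) t qS qU)) ?_ ?_ x y ?_
  · intro z hz
    have h := key r (sub_comp_r_mem_range_cobL r t qS qU hU) z
    have := Submodule.add_mem _ h hz
    simpa using this
  · intro z hz
    have h := key t (sub_comp_t_mem_range_cobL s r t hrst qS hS qU hU) z
    have := Submodule.add_mem _ h hz
    simpa using this
  · simp

/-- **Characteristic-free orbit bound.**  Let `s, r, t` be permutations of a finite set `X` with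
`r = s ∘ t`, generating a transitive group, and let `qS, qU, qT` be surjections invariant under
`s, r, t` respectively.  If `H` is a `k`-vector space with linear maps `a, b : H → k^X` whose values
have zero fibre sums along `qS`, `qU`, such that `b φ - a φ ∘ t` has zero fibre sums along `qT`, and
such that no nonzero `φ` has `(a φ, b φ)` a "coboundary" `(v - v ∘ s, v - v ∘ r)`, then
`dim H + #ΩS + #ΩU + #ΩT ≤ #X + 2`. -/
theorem finrank_add_card_le [Nonempty X]
    (s r t : Equiv.Perm X) (hrst : ∀ x, r x = s (t x))
    (hconn : ∀ P : X → Prop, (∀ x, P x → P (r x)) → (∀ x, P x → P (t x)) → ∀ x y, P x → P y)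
    (qS : X → ΩS) (hqS : Function.Surjective qS) (hS : ∀ x, qS (s x) = qS x)
    (qU : X → ΩU) (hqU : Function.Surjective qU) (hU : ∀ x, qU (r x) = qU x)
    (qT : X → ΩT) (hqT : Function.Surjective qT) (hT : ∀ x, qT (t x) = qT x)
    {H : Type*} [AddCommGroup H] [Module k H]
    (a b : H →ₗ[k] (X → k))
    (ha : ∀ φ, fibSum qS (a φ) = 0) (hb : ∀ φ, fibSum qU (b φ) = 0)
    (hpar : ∀ φ, fibSum qT (fun x => b φ x - a φ (t x)) = 0)
    (hinj : ∀ (φ : H) (v : X → k), (∀ x, a φ x = v x - v (s x)) →
      (∀ x, b φ x = v x - v (r x)) → φ = 0) :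
    Module.Finite k H ∧
      finrank k H + Fintype.card ΩS + Fintype.card ΩU + Fintype.card ΩT ≤ Fintype.card X + 2 := by
  classical
  -- finiteness
  have hfin : Module.Finite k H := by
    refine Module.Finite.of_injective (a.prod b) ?_
    rw [← LinearMap.ker_eq_bot, LinearMap.ker_eq_bot']
    intro φ hφ
    have h1 : a φ = 0 := congrArg Prod.fst hφ
    have h2 : b φ = 0 := congrArg Prod.snd hφ
    refine hinj φ 0 ?_ ?_
    · intro x; rw [h1]; simp
    · intro x; rw [h2]; simp
  have := hfin
  refine ⟨hfin, ?_⟩
  -- the map Θ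
  let Θ₁ : H × (X → k) →ₗ[k] (X → k) :=
    { toFun := fun p => fun x => a p.1 x + (p.2 (s x) - p.2 x)
      map_add' := by
        intro p p'
        funext x
        simp only [Prod.fst_add, Prod.snd_add, map_add, Pi.add_apply]
        ring
      map_smul' := by
        intro c p
        funext x
        simp only [Prod.smul_fst, Prod.smul_snd, map_smul, Pi.smul_apply, smul_eq_mul,
          RingHom.id_apply]
        ring }
  let Θ₂ : H × (X → k) →ₗ[k] (X → k) :=
    { toFun := fun p => fun x => b p.1 x + (p.2 (r x) - p.2 x)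
      map_add' := by
        intro p p'
        funext x
        simp only [Prod.fst_add, Prod.snd_add, map_add, Pi.add_apply]
        ring
      map_smul' := by
        intro c p
        funext x
        simp only [Prod.smul_fst, Prod.smul_snd, map_smul, Pi.smul_apply, smul_eq_mul,
          RingHom.id_apply]
        ring }
  have hΘ₁ : ∀ p, Θ₁ p ∈ LinearMap.ker (fibSum (k := k) qS) := by
    intro p
    rw [LinearMap.mem_ker]
    have e : Θ₁ p = a p.1 + (fun x => p.2 (s x) - p.2 x) := rfl
    rw [e, map_add, ha, fibSum_comp_sub qS s hS, add_zero]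
  have hΘ₂ : ∀ p, Θ₂ p ∈ LinearMap.ker (fibSum (k := k) qU) := by
    intro p
    rw [LinearMap.mem_ker]
    have e : Θ₂ p = b p.1 + (fun x => p.2 (r x) - p.2 x) := rfl
    rw [e, map_add, hb, fibSum_comp_sub qU r hU, add_zero]
  let Θ : H × (X → k) →ₗ[k]
      (↥(LinearMap.ker (fibSum (k := k) qS)) × ↥(LinearMap.ker (fibSum (k := k) qU))) :=
    (Θ₁.codRestrict _ hΘ₁).prod (Θ₂.codRestrict _ hΘ₂)
  let D : (↥(LinearMap.ker (fibSum (k := k) qS)) × ↥(LinearMap.ker (fibSum (k := k) qU)))
      →ₗ[k] (ΩT → k) := (fibSum (k := k) qT).comp (cobL (k := k) t qS qU)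
  -- range Θ ≤ ker D
  have hrange : LinearMap.range Θ ≤ LinearMap.ker D := by
    rintro _ ⟨p, rfl⟩
    rw [LinearMap.mem_ker]
    show fibSum qT (cobL t qS qU (Θ p)) = 0
    have e : cobL (k := k) t qS qU (Θ p) =
        (fun x => b p.1 x - a p.1 (t x)) + (fun x => p.2 (t x) - p.2 x) := by
      funext x
      rw [cobL_apply]
      show (b p.1 x + (p.2 (r x) - p.2 x)) - (a p.1 (t x) + (p.2 (s (t x)) - p.2 (t x))) = _
      rw [hrst x]
      simp only [Pi.add_apply]
      ring
    rw [e, map_add, hpar, fibSum_comp_sub qT t hT, add_zero]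
  -- ker Θ is at most one-dimensional
  have hker : finrank k (LinearMap.ker Θ) ≤ 1 := by
    have hle : LinearMap.ker Θ ≤ Submodule.span k {((0 : H), (fun _ => (1 : k) : X → k))} := by
      intro p hp
      rw [LinearMap.mem_ker] at hp
      have h1 : Θ₁ p = 0 := congrArg (fun q => ((q.1 : ↥(LinearMap.ker (fibSum (k := k) qS))) : X → k)) hp
      have h2 : Θ₂ p = 0 := congrArg (fun q => ((q.2 : ↥(LinearMap.ker (fibSum (k := k) qU))) : X → k)) hp
      have h1' : ∀ x, a p.1 x + (p.2 (s x) - p.2 x) = 0 := fun x => congrFun h1 x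
      have h2' : ∀ x, b p.1 x + (p.2 (r x) - p.2 x) = 0 := fun x => congrFun h2 x
      have hφ : p.1 = 0 := by
        refine hinj p.1 p.2 ?_ ?_
        · intro x; linear_combination h1' x
        · intro x; linear_combination h2' x
      have hs : ∀ x, p.2 (s x) = p.2 x := by
        intro x
        have := h1' x
        rw [hφ, map_zero] at this
        simp only [Pi.zero_apply, zero_add] at this
        exact sub_eq_zero.mp this
      have hr : ∀ x, p.2 (r x) = p.2 x := by
        intro x
        have := h2' x
        rw [hφ, map_zero] at this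
        simp only [Pi.zero_apply, zero_add] at this
        exact sub_eq_zero.mp this
      have ht : ∀ x, p.2 (t x) = p.2 x := by
        intro x
        rw [← hs (t x), ← hrst x, hr x]
      obtain ⟨x₀⟩ := ‹Nonempty X›
      have hconst : ∀ y, p.2 y = p.2 x₀ := by
        intro y
        refine hconn (fun y => p.2 y = p.2 x₀) ?_ ?_ x₀ y rfl
        · intro z hz; rw [hr z]; exact hz
        · intro z hz; rw [ht z]; exact hz
      rw [Submodule.mem_span_singleton]
      refine ⟨p.2 x₀, ?_⟩
      ext
      · simp [hφ]
      · rename_i y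
        simp [hconst y]
    refine (Submodule.finrank_mono hle).trans ?_
    exact (finrank_span_le_card _).trans (by simp)
  -- rank of D is at least #ΩT - 1
  have hrank : Fintype.card ΩT ≤ finrank k (LinearMap.range D) + 1 := by
    obtain ⟨x₀⟩ := ‹Nonempty X›
    have htop : (⊤ : Submodule k (ΩT → k)) ≤
        LinearMap.range D ⊔ Submodule.span k {(Pi.single (qT x₀) (1 : k) : ΩT → k)} := by
      rw [← (Pi.basisFun k ΩT).span_eq, Submodule.span_le]
      rintro _ ⟨ω, rfl⟩
      obtain ⟨y, rfl⟩ := hqT ω
      rw [Pi.basisFun_apply]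
      have hmem := single_sub_single_mem_range_cobL (k := k) s r t hrst hconn qS hS qU hU x₀ y
      obtain ⟨c, hc⟩ := hmem
      have h1 : (Pi.single (qT y) (1 : k) - Pi.single (qT x₀) (1 : k) : ΩT → k) ∈
          LinearMap.range D := by
        refine ⟨c, ?_⟩
        show fibSum qT (cobL t qS qU c) = _
        rw [hc, map_sub, fibSum_single, fibSum_single]
      have h2 : (Pi.single (qT x₀) (1 : k) : ΩT → k) ∈
          Submodule.span k {(Pi.single (qT x₀) (1 : k) : ΩT → k)} :=
        Submodule.subset_span (Set.mem_singleton _)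
      have := Submodule.add_mem_sup h1 h2
      simpa using this
    have h1 : finrank k (ΩT → k) ≤
        finrank k ↥(LinearMap.range D ⊔ Submodule.span k {(Pi.single (qT x₀) (1 : k) : ΩT → k)}) := by
      rw [← finrank_top k (ΩT → k)]
      exact Submodule.finrank_mono htop
    have h2 := Submodule.finrank_add_le_finrank_add_finrank (LinearMap.range D)
      (Submodule.span k {(Pi.single (qT x₀) (1 : k) : ΩT → k)})
    have h3 : finrank k ↥(Submodule.span k {(Pi.single (qT x₀) (1 : k) : ΩT → k)}) ≤ 1 :=
      (finrank_span_le_card _).trans (by simp)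
    rw [Module.finrank_fintype_fun_eq_card] at h1
    omega
  -- assemble
  have e1 := LinearMap.finrank_range_add_finrank_ker Θ
  have e2 := LinearMap.finrank_range_add_finrank_ker D
  have e3 := finrank_ker_fibSum (k := k) qS hqS
  have e4 := finrank_ker_fibSum (k := k) qU hqU
  have e5 : finrank k (LinearMap.range Θ) ≤ finrank k (LinearMap.ker D) :=
    Submodule.finrank_mono hrange
  rw [Module.finrank_prod, Module.finrank_fintype_fun_eq_card] at e1
  rw [Module.finrank_prod] at e2
  omega

end Bound

end Fermat.Agent.S16.OrbitDim
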