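import Mathlib
import Fermat.Prelude.Def_ModularCurve_PeriodMap
import Fermat.Prelude.Def_ModularCurve_GenusNumerics
import Fermat.Agent.S20.Cosets
import Fermat.Agent.S20.CosetsCusp
import Fermat.Agent.S20.CosetsFixed
import Fermat.Agent.S21.SL2Orbits
import Fermat.Agent.S16.OrbitDim
import Fermat.Agent.S16.LDefs

/-!
# `dim_k Hom°(Γ, k) ≤ 2g` over an arbitrary field `k`

Concrete wiring of the characteristic-free orbit bound `OrbitDim.finrank_add_card_le`
(block [L2a] of S16, owner helper88).  `Γ ≤ SL(2, ℤ)` has finite index, `X = SL(2, ℤ) ⧸ Γ`, and `H` is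
any space of homomorphisms `Γ → k` killing the elements of trace `±2` and the elements `γ` with
`γ ^ 12 = 1`.
-/

set_option autoImplicit false

namespace Fermat.Agent.S16.HomCircBound

open scoped MatrixGroups
open ModularCurve ModularCurve.Period ModularGroup Module CongruenceSubgroup
open Fermat.Agent.S16.OrbitDim

section Cocycle

variable {G : Type*} [Group G] (Γ : Subgroup G) {A : Type*} [AddCommGroup A]

/-- Extension by zero of a homomorphism on `Γ` to a function on `G`. -/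
noncomputable def ext0 (φ : Additive Γ →+ A) (g : G) : A := by
  classical
  exact if h : g ∈ Γ then φ (Additive.ofMul ⟨g, h⟩) else 0

theorem ext0_of_mem (φ : Additive Γ →+ A) {g : G} (h : g ∈ Γ) :
    ext0 Γ φ g = φ (Additive.ofMul ⟨g, h⟩) := by
  unfold ext0
  simp [h]

theorem ext0_mul (φ : Additive Γ →+ A) {g h : G} (hg : g ∈ Γ) (hh : h ∈ Γ) :
    ext0 Γ φ (g * h) = ext0 Γ φ g + ext0 Γ φ h := by
  rw [ext0_of_mem Γ φ hg, ext0_of_mem Γ φ hh, ext0_of_mem Γ φ (Γ.mul_mem hg hh), ← map_add]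
  rfl

theorem ext0_one (φ : Additive Γ →+ A) : ext0 Γ φ 1 = 0 := by
  rw [ext0_of_mem Γ φ Γ.one_mem]
  exact map_zero φ

theorem ext0_add (φ ψ : Additive Γ →+ A) (g : G) :
    ext0 Γ (φ + ψ) g = ext0 Γ φ g + ext0 Γ ψ g := by
  by_cases h : g ∈ Γ
  · rw [ext0_of_mem Γ _ h, ext0_of_mem Γ _ h, ext0_of_mem Γ _ h]
    rfl
  · unfold ext0
    simp [h]

theorem ext0_smul {k : Type*} [Semiring k] [Module k A] (c : k) (φ : Additive Γ →+ A) (g : G) :
    ext0 Γ (c • φ) g = c • ext0 Γ φ g := by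
  by_cases h : g ∈ Γ
  · rw [ext0_of_mem Γ _ h, ext0_of_mem Γ _ h]
    rfl
  · unfold ext0
    simp [h]

/-- The element `(g • x).out⁻¹ * g * x.out` lies in `Γ`. -/
theorem out_inv_mul_mul_out_mem (g : G) (x : G ⧸ Γ) : (g • x).out⁻¹ * g * x.out ∈ Γ := by
  rw [mul_assoc, ← QuotientGroup.eq, QuotientGroup.out_eq']
  conv_lhs => rw [← QuotientGroup.out_eq' x]
  rfl

/-- The (Shapiro) cocycle attached to a homomorphism `φ : Γ → A`. -/
noncomputable def coc (φ : Additive Γ →+ A) (g : G) (x : G ⧸ Γ) : A :=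
  ext0 Γ φ ((g • x).out⁻¹ * g * x.out)

theorem coc_mul (φ : Additive Γ →+ A) (g h : G) (x : G ⧸ Γ) :
    coc Γ φ (g * h) x = coc Γ φ g (h • x) + coc Γ φ h x := by
  unfold coc
  rw [← ext0_mul Γ φ (out_inv_mul_mul_out_mem Γ g (h • x)) (out_inv_mul_mul_out_mem Γ h x)]
  congr 1
  rw [mul_smul]
  group

theorem coc_one (φ : Additive Γ →+ A) (x : G ⧸ Γ) : coc Γ φ 1 x = 0 := by
  unfold coc
  rw [one_smul, mul_one, inv_mul_cancel, ext0_one]

theorem coc_add (φ ψ : Additive Γ →+ A) (g : G) (x : G ⧸ Γ) :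
    coc Γ (φ + ψ) g x = coc Γ φ g x + coc Γ ψ g x :=
  ext0_add Γ φ ψ _

theorem coc_smul {k : Type*} [Semiring k] [Module k A] (c : k) (φ : Additive Γ →+ A) (g : G)
    (x : G ⧸ Γ) : coc Γ (c • φ) g x = c • coc Γ φ g x :=
  ext0_smul Γ c φ _

/-- Telescoping: the sum of the cocycle of `g` along `x, g x, …, g^{n-1} x` is the cocycle of
`g ^ n` at `x`. -/
theorem sum_coc_pow (φ : Additive Γ →+ A) (g : G) (x : G ⧸ Γ) (n : ℕ) :
    ∑ i ∈ Finset.range n, coc Γ φ g (g ^ i • x) = coc Γ φ (g ^ n) x := by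
  induction n with
  | zero => simp [coc_one]
  | succ n ih =>
    rw [Finset.sum_range_succ, ih, pow_succ', coc_mul, add_comm]

/-- At a point fixed by `g`, the cocycle is `φ` of a conjugate of `g`. -/
theorem coc_of_fixed (φ : Additive Γ →+ A) (g : G) (x : G ⧸ Γ) (h : g • x = x) :
    coc Γ φ g x = ext0 Γ φ (x.out⁻¹ * g * x.out) := by
  unfold coc
  rw [h]

theorem out_inv_mul_mul_out_mem_of_fixed (g : G) (x : G ⧸ Γ) (h : g • x = x) :
    x.out⁻¹ * g * x.out ∈ Γ := by
  have := out_inv_mul_mul_out_mem Γ g x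
  rwa [h] at this

/-- The value `φ (x.out⁻¹ g x.out)` vanishes for all `x` fixed by `g` as soon as `φ` kills the
conjugates of `g` lying in `Γ`; then all cocycle sums along `g`-cycles vanish. -/
theorem sum_coc_eq_zero (φ : Additive Γ →+ A) (g : G) (x : G ⧸ Γ) (n : ℕ)
    (hfix : g ^ n • x = x)
    (hφ : ∀ h : x.out⁻¹ * g ^ n * x.out ∈ Γ, φ (Additive.ofMul ⟨_, h⟩) = 0) :
    ∑ i ∈ Finset.range n, coc Γ φ g (g ^ i • x) = 0 := by
  rw [sum_coc_pow, coc_of_fixed Γ φ _ x hfix,
    ext0_of_mem Γ φ (out_inv_mul_mul_out_mem_of_fixed Γ _ x hfix)]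
  exact hφ _

/-- Conjugates of elements of `Γ` by a representative of `x` fix `x`. -/
theorem out_conj_smul {γ : G} (hγ : γ ∈ Γ) (x : G ⧸ Γ) : (x.out * γ * x.out⁻¹) • x = x := by
  have h : (x.out * γ * x.out⁻¹) • ((x.out : G) : G ⧸ Γ) = ((x.out : G) : G ⧸ Γ) := by
    rw [MulAction.Quotient.smul_mk, smul_eq_mul, inv_mul_cancel_right,
      QuotientGroup.mk_mul_of_mem _ hγ]
  rwa [QuotientGroup.out_eq'] at h

end Cocycle

section OrbitSum

variable {k : Type*} [Field k] {G : Type*} [Group G] {X : Type*} [Fintype X] [MulAction G X]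

theorem period_pos_of_finite (g : G) (x : X) : 0 < MulAction.period g x := by
  apply Function.minimalPeriod_pos_of_mem_periodicPts
  exact Function.Injective.mem_periodicPts (MulAction.injective g) x

/-- If all sums of `f` along closed `g`-paths vanish, then `f` has zero fibre sums along the
orbit map of `⟨g⟩`. -/
theorem fibSum_orbit_eq_zero (g : G) (f : X → k)
    (h : ∀ (x : X) (n : ℕ), g ^ n • x = x → ∑ i ∈ Finset.range n, f (g ^ i • x) = 0) :
    fibSum (Quotient.mk'' : X → MulAction.orbitRel.Quotient (Subgroup.zpowers g) X) f = 0 := by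
  classical
  funext ω
  induction ω using Quotient.inductionOn' with
  | h x₀ =>
    rw [fibSum_apply]
    set m := MulAction.period g x₀ with hm
    have hmpos : 0 < m := period_pos_of_finite g x₀
    have hset : (Finset.univ.filter (fun x : X =>
        (Quotient.mk'' x : MulAction.orbitRel.Quotient (Subgroup.zpowers g) X) = Quotient.mk'' x₀))
        = (Finset.range m).image (fun i => g ^ i • x₀) := by
      ext x
      simp only [Finset.mem_filter, Finset.mem_univ, true_and, Finset.mem_image, Finset.mem_range]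
      rw [Quotient.eq'']
      constructor
      · intro hx
        have hx' : x ∈ MulAction.orbit (Subgroup.zpowers g) x₀ := hx
        obtain ⟨⟨a, ha⟩, rfl⟩ := hx'
        obtain ⟨n, rfl⟩ := Subgroup.mem_zpowers_iff.mp ha
        refine ⟨(n % (m : ℤ)).toNat, ?_, ?_⟩
        · have h1 : n % (m : ℤ) < m := Int.emod_lt_of_pos n (by exact_mod_cast hmpos)
          have h2 : 0 ≤ n % (m : ℤ) := Int.emod_nonneg n (by exact_mod_cast hmpos.ne')
          omega
        · have h2 : 0 ≤ n % (m : ℤ) := Int.emod_nonneg n (by exact_mod_cast hmpos.ne')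
          have h3 : g ^ (n % (m : ℤ)).toNat • x₀ = g ^ (n % (m : ℤ)) • x₀ := by
            conv_rhs => rw [← Int.toNat_of_nonneg h2, zpow_natCast]
          rw [h3, hm, MulAction.zpow_mod_period_smul]
          rfl
      · rintro ⟨i, _, rfl⟩
        show g ^ i • x₀ ∈ MulAction.orbit (Subgroup.zpowers g) x₀
        exact ⟨⟨g ^ i, Subgroup.pow_mem _ (Subgroup.mem_zpowers g) i⟩, rfl⟩
    have hinj : Set.InjOn (fun i => g ^ i • x₀) (Finset.range m : Set ℕ) := by
      intro i hi j hj hij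
      simp only [Finset.coe_range, Set.mem_Iio] at hi hj
      have key : ∀ i j : ℕ, i ≤ j → j < m → g ^ i • x₀ = g ^ j • x₀ → i = j := by
        intro i j hij hj he
        have h1 : g ^ j = g ^ i * g ^ (j - i) := by rw [← pow_add]; congr 1; omega
        rw [h1, mul_smul] at he
        have h2 : g ^ (j - i) • x₀ = x₀ := (MulAction.injective (g ^ i) he).symm
        have h3 : m ∣ j - i := MulAction.pow_smul_eq_iff_period_dvd.mp h2
        have h4 : j - i = 0 := Nat.eq_zero_of_dvd_of_lt h3 (by omega)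
        omega
      rcases le_total i j with h1 | h1
      · exact key i j h1 hj hij
      · exact (key j i h1 hi hij.symm).symm
    rw [← Finset.sum_filter, hset, Finset.sum_image hinj]
    exact h x₀ m (MulAction.pow_period_smul g x₀)

end OrbitSum

section Conn

/-- On a finite type, a predicate closed under a permutation is closed under its inverse. -/
theorem of_perm_of_closed {X : Type*} [Finite X] (σ : Equiv.Perm X) (P : X → Prop)
    (h : ∀ x, P x → P (σ x)) (x : X) (hx : P (σ x)) : P x := by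
  let f : {x // P x} → {x // P x} := fun y => ⟨σ y.1, h y.1 y.2⟩
  have hinj : Function.Injective f := fun a b hab =>
    Subtype.ext (σ.injective (congrArg Subtype.val hab))
  obtain ⟨y, hy⟩ := Finite.surjective_of_injective hinj ⟨σ x, hx⟩
  have h1 : σ y.1 = σ x := congrArg Subtype.val hy
  rw [← σ.injective h1]
  exact y.2

/-- `S * T` and `T` act "connectedly" on a finite coset space of `SL(2, ℤ)`. -/
theorem conn_SL2 (Γ : Subgroup SL(2, ℤ)) [Finite (SL(2, ℤ) ⧸ Γ)] (P : SL(2, ℤ) ⧸ Γ → Prop)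
    (hr : ∀ x, P x → P ((S * T) • x)) (ht : ∀ x, P x → P (T • x)) (x y : SL(2, ℤ) ⧸ Γ)
    (hx : P x) : P y := by
  have ht' : ∀ x, P (T • x) ↔ P x := fun x =>
    ⟨of_perm_of_closed (MulAction.toPerm T) P ht x, ht x⟩
  have hr' : ∀ x, P ((S * T) • x) ↔ P x := fun x =>
    ⟨of_perm_of_closed (MulAction.toPerm (S * T)) P hr x, hr x⟩
  have hs' : ∀ x, P (S • x) ↔ P x := by
    intro x
    have h1 := hr' (T⁻¹ • x)
    rw [mul_smul, smul_inv_smul] at h1
    have h2 := ht' (T⁻¹ • x)
    rw [smul_inv_smul] at h2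
    exact h1.trans h2.symm
  have hall : ∀ g : SL(2, ℤ), ∀ x, P (g • x) ↔ P x := by
    intro g
    have hg : g ∈ Subgroup.closure ({S, T} : Set SL(2, ℤ)) := by
      rw [SpecialLinearGroup.SL2Z_generators]
      trivial
    induction hg using Subgroup.closure_induction with
    | mem g hg =>
      rcases hg with rfl | hg
      · exact hs'
      · rw [Set.mem_singleton_iff] at hg
        subst hg
        exact ht'
    | one => intro x; rw [one_smul]
    | mul a b _ _ iha ihb => intro x; rw [mul_smul]; exact (iha _).trans (ihb x)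
    | inv a _ iha =>
      intro x
      have := iha (a⁻¹ • x)
      rw [smul_inv_smul] at this
      exact this.symm
  obtain ⟨g, rfl⟩ : ∃ g : SL(2, ℤ), g • x = y := MulAction.exists_smul_eq _ x y
  exact (hall g x).mpr hx

end Conn

section Main

theorem S_pow_twelve : (S : SL(2, ℤ)) ^ 12 = 1 := by
  have h : (S : SL(2, ℤ)) ^ 4 = 1 := by decide
  have : (S : SL(2, ℤ)) ^ 12 = (S ^ 4) ^ 3 := by rw [← pow_mul]
  rw [this, h, one_pow]

theorem ST_pow_twelve : ((S * T : SL(2, ℤ))) ^ 12 = 1 := by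
  have h : ((S * T : SL(2, ℤ))) ^ 3 = -1 := by decide
  have : ((S * T : SL(2, ℤ))) ^ 12 = ((S * T) ^ 3) ^ 4 := by rw [← pow_mul]
  rw [this, h]
  decide

theorem conj_pow_pow_eq_one {G : Type*} [Group G] (a g : G) (n m : ℕ) (hg : g ^ m = 1) :
    (a⁻¹ * g ^ n * a) ^ m = 1 := by
  have h := conj_pow (a := a⁻¹) (b := g ^ n) (i := m)
  rw [inv_inv] at h
  rw [h, ← pow_mul, mul_comm n m, pow_mul, hg, one_pow, mul_one, inv_mul_cancel]

theorem trace_conj_T_pow (m : ℕ) (g : SL(2, ℤ)) :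
    ((g⁻¹ * T ^ m * g : SL(2, ℤ)) : Matrix (Fin 2) (Fin 2) ℤ).trace = 2 := by
  rw [Matrix.SpecialLinearGroup.coe_mul, Matrix.trace_mul_comm,
    ← Matrix.SpecialLinearGroup.coe_mul, mul_inv_cancel_left, ← zpow_natCast, coe_T_zpow,
    Matrix.trace_fin_two_of]
  norm_num

variable (k : Type*) [Field k] (Γ : Subgroup SL(2, ℤ)) [Γ.FiniteIndex]

/-- **Characteristic-free bound.**  For a finite-index subgroup `Γ ≤ SL(2, ℤ)`, any field `k` and
any space `H` of homomorphisms `Γ → k` killing the elements of trace `±2` and the elements of order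
dividing `12`: `dim H + #(X/S) + #(X/ST) + #(X/T) ≤ [SL(2, ℤ) : Γ] + 2`. -/
theorem finrank_add_le (H : Submodule k (Additive Γ →+ k))
    (hpar : ∀ φ ∈ H, IsParabolicHom Γ φ)
    (hfin : ∀ φ ∈ H, ∀ γ : Γ, γ ^ 12 = 1 → φ (Additive.ofMul γ) = 0) :
    Module.Finite k H ∧
      finrank k H
        + Nat.card (MulAction.orbitRel.Quotient (Subgroup.zpowers S) (SL(2, ℤ) ⧸ Γ))
        + Nat.card (MulAction.orbitRel.Quotient (Subgroup.zpowers (S * T)) (SL(2, ℤ) ⧸ Γ))
        + Nat.card (MulAction.orbitRel.Quotient (Subgroup.zpowers T) (SL(2, ℤ) ⧸ Γ))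
        ≤ Γ.index + 2 := by
  classical
  have : Finite (SL(2, ℤ) ⧸ Γ) := Subgroup.finite_quotient_of_finiteIndex
  let _ : Fintype (SL(2, ℤ) ⧸ Γ) := Fintype.ofFinite _
  let _ : Fintype (MulAction.orbitRel.Quotient (Subgroup.zpowers S) (SL(2, ℤ) ⧸ Γ)) :=
    Fintype.ofFinite _
  let _ : Fintype (MulAction.orbitRel.Quotient (Subgroup.zpowers (S * T)) (SL(2, ℤ) ⧸ Γ)) :=
    Fintype.ofFinite _
  let _ : Fintype (MulAction.orbitRel.Quotient (Subgroup.zpowers T) (SL(2, ℤ) ⧸ Γ)) :=
    Fintype.ofFinite _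
  let a : H →ₗ[k] (SL(2, ℤ) ⧸ Γ → k) :=
    { toFun := fun φ x => coc Γ (φ : Additive Γ →+ k) S x
      map_add' := by
        intro φ ψ
        funext x
        exact coc_add Γ _ _ S x
      map_smul' := by
        intro c φ
        funext x
        exact coc_smul Γ c _ S x }
  let b : H →ₗ[k] (SL(2, ℤ) ⧸ Γ → k) :=
    { toFun := fun φ x => coc Γ (φ : Additive Γ →+ k) (S * T) x
      map_add' := by
        intro φ ψ
        funext x
        exact coc_add Γ _ _ (S * T) x
      map_smul' := by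
        intro c φ
        funext x
        exact coc_smul Γ c _ (S * T) x }
  have hquot : ∀ (g : SL(2, ℤ)) (x : SL(2, ℤ) ⧸ Γ),
      (Quotient.mk'' (MulAction.toPerm g x) :
        MulAction.orbitRel.Quotient (Subgroup.zpowers g) (SL(2, ℤ) ⧸ Γ)) = Quotient.mk'' x := by
    intro g x
    apply Quotient.sound'
    show (MulAction.orbitRel (Subgroup.zpowers g) (SL(2, ℤ) ⧸ Γ)) (g • x) x
    rw [MulAction.orbitRel_apply]
    exact ⟨⟨g, Subgroup.mem_zpowers g⟩, rfl⟩
  have main := finrank_add_card_le (k := k) (H := ↥H)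
    (MulAction.toPerm S) (MulAction.toPerm (S * T)) (MulAction.toPerm T)
    (fun x => mul_smul S T x)
    (fun P hr ht x y hx => conn_SL2 Γ P hr ht x y hx)
    (Quotient.mk'' : _ → MulAction.orbitRel.Quotient (Subgroup.zpowers S) (SL(2, ℤ) ⧸ Γ))
    Quotient.mk''_surjective (hquot S)
    (Quotient.mk'' : _ → MulAction.orbitRel.Quotient (Subgroup.zpowers (S * T)) (SL(2, ℤ) ⧸ Γ))
    Quotient.mk''_surjective (hquot (S * T))
    (Quotient.mk'' : _ → MulAction.orbitRel.Quotient (Subgroup.zpowers T) (SL(2, ℤ) ⧸ Γ))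
    Quotient.mk''_surjective (hquot T)
    a b ?_ ?_ ?_ ?_
  · refine ⟨main.1, ?_⟩
    have h2 := main.2
    rw [Subgroup.index_eq_card, Nat.card_eq_fintype_card, Nat.card_eq_fintype_card,
      Nat.card_eq_fintype_card, Nat.card_eq_fintype_card]
    exact h2
  · -- orbit sums along `S`
    intro φ
    refine fibSum_orbit_eq_zero S (fun x => coc Γ (φ : Additive Γ →+ k) S x) ?_
    intro x n hfix
    refine sum_coc_eq_zero Γ _ S x n hfix (fun h => hfin _ φ.2 ⟨_, h⟩ ?_)
    apply Subtype.ext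
    rw [Subgroup.coe_pow, Subgroup.coe_one]
    exact conj_pow_pow_eq_one _ S n 12 S_pow_twelve
  · -- orbit sums along `S * T`
    intro φ
    refine fibSum_orbit_eq_zero (S * T) (fun x => coc Γ (φ : Additive Γ →+ k) (S * T) x) ?_
    intro x n hfix
    refine sum_coc_eq_zero Γ _ (S * T) x n hfix (fun h => hfin _ φ.2 ⟨_, h⟩ ?_)
    apply Subtype.ext
    rw [Subgroup.coe_pow, Subgroup.coe_one]
    exact conj_pow_pow_eq_one _ (S * T) n 12 ST_pow_twelve
  · -- orbit sums along `T`
    intro φ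
    have e : (fun x => b φ x - a φ (MulAction.toPerm T x)) =
        fun x => coc Γ (φ : Additive Γ →+ k) T x := by
      funext x
      show coc Γ (φ : Additive Γ →+ k) (S * T) x - coc Γ (φ : Additive Γ →+ k) S (T • x) = _
      rw [coc_mul]
      ring
    rw [e]
    refine fibSum_orbit_eq_zero T (fun x => coc Γ (φ : Additive Γ →+ k) T x) ?_
    intro x n hfix
    refine sum_coc_eq_zero Γ _ T x n hfix (fun h => hpar _ φ.2 ⟨_, h⟩ ?_)
    show ((x.out⁻¹ * T ^ n * x.out : SL(2, ℤ)) : Matrix (Fin 2) (Fin 2) ℤ).trace ^ 2 = 4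
    rw [trace_conj_T_pow]
    norm_num
  · -- injectivity modulo coboundaries
    intro φ v hS hU
    have hS' : ∀ x, coc Γ (φ : Additive Γ →+ k) S x = v x - v (S • x) := hS
    have hU' : ∀ x, coc Γ (φ : Additive Γ →+ k) (S * T) x = v x - v ((S * T) • x) := hU
    have hT' : ∀ x, coc Γ (φ : Additive Γ →+ k) T x = v x - v (T • x) := by
      intro x
      have h1 := coc_mul Γ (φ : Additive Γ →+ k) S T x
      rw [hU' x, hS' (T • x), mul_smul] at h1
      linear_combination -h1
    have hall : ∀ g : SL(2, ℤ), ∀ x, coc Γ (φ : Additive Γ →+ k) g x = v x - v (g • x) := by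
      intro g
      have hg : g ∈ Subgroup.closure ({S, T} : Set SL(2, ℤ)) := by
        rw [SpecialLinearGroup.SL2Z_generators]
        trivial
      induction hg using Subgroup.closure_induction with
      | mem g hg =>
        rcases hg with rfl | hg
        · exact hS'
        · rw [Set.mem_singleton_iff] at hg
          subst hg
          exact hT'
      | one => intro x; rw [coc_one, one_smul, sub_self]
      | mul c d _ _ ihc ihd =>
        intro x
        rw [coc_mul, ihc, ihd, mul_smul]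
        ring
      | inv c _ ihc =>
        intro x
        have h1 := coc_mul Γ (φ : Additive Γ →+ k) c c⁻¹ x
        rw [mul_inv_cancel, coc_one, ihc, smul_inv_smul] at h1
        linear_combination -h1
    apply Subtype.ext
    apply AddMonoidHom.ext
    intro γ'
    obtain ⟨γ, rfl⟩ := Additive.ofMul.surjective γ'
    set x : SL(2, ℤ) ⧸ Γ := ((1 : SL(2, ℤ)) : SL(2, ℤ) ⧸ Γ)
    have hfixed : (x.out * (γ : SL(2, ℤ)) * x.out⁻¹) • x = x := out_conj_smul Γ γ.2 x
    have h1 := hall (x.out * (γ : SL(2, ℤ)) * x.out⁻¹) x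
    rw [hfixed, sub_self, coc_of_fixed Γ _ _ x hfixed] at h1
    have h2 : x.out⁻¹ * (x.out * (γ : SL(2, ℤ)) * x.out⁻¹) * x.out = (γ : SL(2, ℤ)) := by group
    rw [h2, ext0_of_mem Γ _ γ.2] at h1
    exact h1

end Main

section Gamma0

variable (k : Type*) [Field k]

theorem neg_one_mem_Gamma0 (N : ℕ) : (-1 : SL(2, ℤ)) ∈ Gamma0 N := by
  rw [Gamma0_mem]
  simp

/-- Integer form of the bound for `Γ₀(N)`: `6·dim + 6·c + 3·ν₂ + 4·ν₃ ≤ ψ(N) + 12`. -/
theorem six_mul_finrank_add_le (N : ℕ) [NeZero N] (H : Submodule k (Additive (Gamma0 N) →+ k))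
    (hpar : ∀ φ ∈ H, IsParabolicHom (Gamma0 N) φ)
    (hfin : ∀ φ ∈ H, ∀ γ : Gamma0 N, γ ^ 12 = 1 → φ (Additive.ofMul γ) = 0) :
    6 * finrank k H + 6 * cuspCount N + 3 * nuTwo N + 4 * nuThree N ≤ dedekindPsi N + 12 := by
  have h := (finrank_add_le k (Gamma0 N) H hpar hfin).2
  have h2 := Fermat.Agent.S21.two_mul_card_orbits_S (Gamma0 N) (neg_one_mem_Gamma0 N)
  have h3 := Fermat.Agent.S21.three_mul_card_orbits_ST (Gamma0 N) (neg_one_mem_Gamma0 N)
  rw [Subgroup.index_eq_card, Fermat.Agent.S20.card_Q, Fermat.Agent.S20.card_orbits_T] at h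
  rw [Fermat.Agent.S20.card_Q, Fermat.Agent.S20.card_fixedBy_S] at h2
  rw [Fermat.Agent.S20.card_Q, Fermat.Agent.S20.card_fixedBy_ST] at h3
  omega

/-- **`dim_k H ≤ 2 g(N)` over every field `k`**, for any space `H` of homomorphisms `Γ₀(N) → k`
killing the elements of trace `±2` and the elements of order dividing `12`. -/
theorem finrank_Gamma0_le (N : ℕ) [NeZero N] (H : Submodule k (Additive (Gamma0 N) →+ k))
    (hpar : ∀ φ ∈ H, IsParabolicHom (Gamma0 N) φ)
    (hfin : ∀ φ ∈ H, ∀ γ : Gamma0 N, γ ^ 12 = 1 → φ (Additive.ofMul γ) = 0) :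
    Module.Finite k H ∧ (finrank k H : ℚ) ≤ 2 * genusFormula N := by
  refine ⟨(finrank_add_le k (Gamma0 N) H hpar hfin).1, ?_⟩
  have h := six_mul_finrank_add_le k N H hpar hfin
  have h' : (6 * (finrank k H : ℚ) + 6 * (cuspCount N : ℚ)
      + 3 * (nuTwo N : ℚ) + 4 * (nuThree N : ℚ)) ≤ (dedekindPsi N : ℚ) + 12 := by
    exact_mod_cast h
  unfold genusFormula
  linarith

/-- The bound for the circ characters of `LDefs.lean`, general finite-index `Γ`. -/
theorem finrank_circHoms_add_le (Γ : Subgroup SL(2, ℤ)) [Γ.FiniteIndex] :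
    Module.Finite k (circHoms k Γ k) ∧
      finrank k (circHoms k Γ k)
        + Nat.card (MulAction.orbitRel.Quotient (Subgroup.zpowers S) (SL(2, ℤ) ⧸ Γ))
        + Nat.card (MulAction.orbitRel.Quotient (Subgroup.zpowers (S * T)) (SL(2, ℤ) ⧸ Γ))
        + Nat.card (MulAction.orbitRel.Quotient (Subgroup.zpowers T) (SL(2, ℤ) ⧸ Γ))
        ≤ Γ.index + 2 :=
  finrank_add_le k Γ (circHoms k Γ k) (fun _ hφ => IsCircHom.isParabolicHom hφ)
    (fun _ hφ γ hγ => hφ γ (Or.inr hγ))

/-- `Hom°(Γ₀(N), k)` is finite-dimensional for every field `k`. -/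
theorem finite_circHoms_Gamma0 (N : ℕ) [NeZero N] :
    Module.Finite k (circHoms k (Gamma0 N) k) :=
  (finrank_Gamma0_le k N (circHoms k (Gamma0 N) k) (fun _ hφ => IsCircHom.isParabolicHom hφ)
    (fun _ hφ γ hγ => hφ γ (Or.inr hγ))).1

/-- **`dim_k Hom°(Γ₀(N), k) ≤ 2 g(N)` for every field `k`.** -/
theorem finrank_circHoms_Gamma0_le (N : ℕ) [NeZero N] :
    (finrank k (circHoms k (Gamma0 N) k) : ℚ) ≤ 2 * genusFormula N :=
  (finrank_Gamma0_le k N (circHoms k (Gamma0 N) k) (fun _ hφ => IsCircHom.isParabolicHom hφ)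
    (fun _ hφ γ hγ => hφ γ (Or.inr hγ))).2

/-- Variant against a natural number `g` with `(g : ℚ) = genusFormula N`
(e.g. `g = finrank ℂ (CuspForm (Gamma0 N) 2)` by S20). -/
theorem finrank_circHoms_Gamma0_le_two_mul (N : ℕ) [NeZero N] (g : ℕ)
    (hg : (g : ℚ) = genusFormula N) :
    finrank k (circHoms k (Gamma0 N) k) ≤ 2 * g := by
  have h := finrank_circHoms_Gamma0_le k N
  rw [← hg] at h
  exact_mod_cast h

end Gamma0

end Fermat.Agent.S16.HomCircBound
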