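/-
S16, lower bound (L), ψ-block: the Shimura character
`ψ : Γ₀(p) → ℤ/n`, `n = (p - 1) / gcd (p - 1, 12)`, `ψ γ = λ (d(γ) mod p)` with
`λ : (ℤ/p)ˣ ↠ ℤ/n`, and its Hecke eigen-relations against the transfer data of `HeckeHom.lean`.
Owner: helper93.  Everything lives in `namespace Fermat.Agent.S16.L1`.
-/
import Mathlib
import Fermat.Agent.S16.LDefs
import Fermat.Agent.S16.HeckeHom
import Fermat.Prelude.Def_ModularCurve_ModularUnit

set_option autoImplicit false

noncomputable section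

namespace Fermat.Agent.S16.L1

open CongruenceSubgroup Matrix.SpecialLinearGroup ModularCurve
open scoped MatrixGroups

/-! ### Arithmetic of `n = (p - 1) / gcd (p - 1, 12)` -/

theorem dvd_of_dvd_twelve_mul {M v : ℕ} (hM : 0 < M) (h : M ∣ 12 * v) :
    M / Nat.gcd M 12 ∣ v := by
  have hg : 0 < Nat.gcd M 12 := Nat.gcd_pos_of_pos_left _ hM
  have hcop : (M / Nat.gcd M 12).Coprime (12 / Nat.gcd M 12) := Nat.coprime_div_gcd_div_gcd hg
  have hM' : Nat.gcd M 12 * (M / Nat.gcd M 12) = M := Nat.mul_div_cancel' (Nat.gcd_dvd_left M 12)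
  have h12 : Nat.gcd M 12 * (12 / Nat.gcd M 12) = 12 :=
    Nat.mul_div_cancel' (Nat.gcd_dvd_right M 12)
  have h2 : Nat.gcd M 12 * (M / Nat.gcd M 12) ∣ Nat.gcd M 12 * ((12 / Nat.gcd M 12) * v) := by
    rw [← mul_assoc, h12, hM']
    exact h
  have h3 : M / Nat.gcd M 12 ∣ (12 / Nat.gcd M 12) * v := (Nat.mul_dvd_mul_iff_left hg).mp h2
  exact hcop.dvd_of_dvd_mul_left h3

variable (p : ℕ) [Fact p.Prime]

theorem eisensteinNumerator_pos : 0 < eisensteinNumerator p := by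
  have hp : p.Prime := Fact.out
  have h1 : 0 < p - 1 := Nat.sub_pos_of_lt hp.one_lt
  unfold eisensteinNumerator
  exact Nat.div_pos (Nat.le_of_dvd h1 (Nat.gcd_dvd_left _ _)) (Nat.gcd_pos_of_pos_left _ h1)

instance neZero_eisensteinNumerator : NeZero (eisensteinNumerator p) :=
  ⟨(eisensteinNumerator_pos p).ne'⟩

omit [Fact p.Prime] in
theorem eisensteinNumerator_dvd_sub_one : eisensteinNumerator p ∣ p - 1 :=
  Nat.div_dvd_of_dvd (Nat.gcd_dvd_left _ _)

theorem eisensteinNumerator_dvd_card : eisensteinNumerator p ∣ Nat.card (ZMod p)ˣ := by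
  rw [Nat.card_eq_fintype_card, ZMod.card_units]
  exact eisensteinNumerator_dvd_sub_one p

theorem natCast_self_eq_one : ((p : ℕ) : ZMod (eisensteinNumerator p)) = 1 := by
  have hp : p.Prime := Fact.out
  have h2 : ((p - 1 : ℕ) : ZMod (eisensteinNumerator p)) = 0 :=
    (ZMod.natCast_eq_zero_iff _ _).mpr (eisensteinNumerator_dvd_sub_one p)
  have h3 : ((p - 1 + 1 : ℕ) : ZMod (eisensteinNumerator p)) = 1 := by
    rw [Nat.cast_add, h2, zero_add, Nat.cast_one]
  rwa [Nat.sub_add_cancel hp.one_lt.le] at h3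

/-! ### The homomorphism `λ : (ℤ/p)ˣ → ℤ/n` -/

/-- A discrete logarithm of the cyclic group `(ℤ/p)ˣ`. -/
def logEquiv : (ZMod p)ˣ ≃* Multiplicative (ZMod (Nat.card (ZMod p)ˣ)) :=
  (zmodCyclicMulEquiv (inferInstance : IsCyclic (ZMod p)ˣ)).symm

/-- `λ : (ℤ/p)ˣ → ℤ/n` (written additively on the target). -/
def lamU (u : (ZMod p)ˣ) : ZMod (eisensteinNumerator p) :=
  ZMod.castHom (eisensteinNumerator_dvd_card p) (ZMod (eisensteinNumerator p))
    (Multiplicative.toAdd (logEquiv p u))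

theorem lamU_mul (u v : (ZMod p)ˣ) : lamU p (u * v) = lamU p u + lamU p v := by
  unfold lamU
  rw [map_mul, toAdd_mul, map_add]

theorem lamU_one : lamU p 1 = 0 := by
  unfold lamU
  rw [map_one, toAdd_one, map_zero]

theorem lamU_surjective : Function.Surjective (lamU p) := by
  intro y
  obtain ⟨z, rfl⟩ := ZMod.intCast_surjective y
  refine ⟨(logEquiv p).symm (Multiplicative.ofAdd ((z : ℤ) : ZMod (Nat.card (ZMod p)ˣ))), ?_⟩
  unfold lamU
  rw [MulEquiv.apply_symm_apply, toAdd_ofAdd, map_intCast]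

/-- `λ` kills the elements of order dividing `12`. -/
theorem lamU_eq_zero_of_pow_twelve (u : (ZMod p)ˣ) (hu : u ^ 12 = 1) : lamU p u = 0 := by
  have hp : p.Prime := Fact.out
  have hMeq : Nat.card (ZMod p)ˣ = p - 1 := by rw [Nat.card_eq_fintype_card, ZMod.card_units]
  have hMpos : 0 < Nat.card (ZMod p)ˣ := by
    rw [hMeq]
    exact Nat.sub_pos_of_lt hp.one_lt
  have : NeZero (Nat.card (ZMod p)ˣ) := ⟨hMpos.ne'⟩
  have h12 : (12 : ℕ) • Multiplicative.toAdd (logEquiv p u) = 0 := by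
    have h1 : (logEquiv p u) ^ 12 = 1 := by rw [← map_pow, hu, map_one]
    have h2 := congrArg Multiplicative.toAdd h1
    rwa [toAdd_pow, toAdd_one] at h2
  have h3 : ((12 * (Multiplicative.toAdd (logEquiv p u)).val : ℕ) :
      ZMod (Nat.card (ZMod p)ˣ)) = 0 := by
    rw [Nat.cast_mul, ZMod.natCast_zmod_val, ← nsmul_eq_mul]
    exact h12
  have h4 : Nat.card (ZMod p)ˣ ∣ 12 * (Multiplicative.toAdd (logEquiv p u)).val :=
    (ZMod.natCast_eq_zero_iff _ _).mp h3
  have h5 := dvd_of_dvd_twelve_mul hMpos h4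
  have h6 : eisensteinNumerator p ∣ (Multiplicative.toAdd (logEquiv p u)).val := by
    unfold eisensteinNumerator
    rw [← hMeq]
    exact h5
  unfold lamU
  rw [← ZMod.natCast_zmod_val (Multiplicative.toAdd (logEquiv p u)), map_natCast]
  exact (ZMod.natCast_eq_zero_iff _ _).mpr h6

/-! ### The lower right entry -/

/-- The lower right entry modulo `p`, as a homomorphism `Γ₀(p) → (ℤ/p)ˣ`. -/
def dUnit : ↥(Gamma0 p) →* (ZMod p)ˣ := (Gamma0Map p).toHomUnits

theorem dUnit_val (γ : Gamma0 p) :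
    ((dUnit p γ : (ZMod p)ˣ) : ZMod p) = (((γ : SL(2, ℤ)) 1 1 : ℤ) : ZMod p) := rfl

theorem dUnit_surjective : Function.Surjective (dUnit p) := by
  intro u
  have hcop : Nat.Coprime (u : ZMod p).val p := ZMod.val_coe_unit_coprime u
  have hb := Int.gcd_eq_gcd_ab ((u : ZMod p).val : ℤ) (p : ℤ)
  have hg : Int.gcd ((u : ZMod p).val : ℤ) (p : ℤ) = 1 := by
    rw [Int.gcd_natCast_natCast]
    exact hcop
  rw [hg] at hb
  let g : SL(2, ℤ) :=
    ⟨!![Int.gcdA ((u : ZMod p).val : ℤ) (p : ℤ), -Int.gcdB ((u : ZMod p).val : ℤ) (p : ℤ);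
        (p : ℤ), ((u : ZMod p).val : ℤ)], by
      rw [Matrix.det_fin_two_of]
      push_cast at hb
      linarith⟩
  have hg0 : g ∈ Gamma0 p := by
    rw [Gamma0_mem]
    show (((p : ℤ)) : ZMod p) = 0
    rw [Int.cast_natCast, ZMod.natCast_self]
  refine ⟨⟨g, hg0⟩, ?_⟩
  apply Units.ext
  show ((((u : ZMod p).val : ℤ)) : ZMod p) = (u : ZMod p)
  rw [Int.cast_natCast, ZMod.natCast_zmod_val]

theorem isUnit_entry (γ : Gamma0 p) : IsUnit ((((γ : SL(2, ℤ)) 1 1 : ℤ)) : ZMod p) := by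
  rw [← dUnit_val]
  exact (dUnit p γ).isUnit

/-- Parabolic elements have lower right entry `±1` modulo `p`. -/
theorem dUnit_pow_twelve_of_trace (γ : Gamma0 p)
    (h : ((γ : SL(2, ℤ)) : Matrix (Fin 2) (Fin 2) ℤ).trace ^ 2 = 4) : dUnit p γ ^ 12 = 1 := by
  have h2 : dUnit p γ ^ 2 = 1 := by
    apply Units.ext
    rw [Units.val_pow_eq_pow_val, Units.val_one, dUnit_val]
    have hdet : (γ : SL(2, ℤ)) 0 0 * (γ : SL(2, ℤ)) 1 1 - (γ : SL(2, ℤ)) 0 1 * (γ : SL(2, ℤ)) 1 0 = 1 := by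
      have h1 := (γ : SL(2, ℤ)).det_coe
      rw [Matrix.det_fin_two] at h1
      exact h1
    have hc : ((((γ : SL(2, ℤ)) 1 0 : ℤ)) : ZMod p) = 0 := Gamma0_mem.mp γ.2
    have htr : ((γ : SL(2, ℤ)) 0 0 + (γ : SL(2, ℤ)) 1 1) ^ 2 = 4 := by
      rw [Matrix.trace_fin_two] at h
      exact h
    have hdet' : ((((γ : SL(2, ℤ)) 0 0 : ℤ)) : ZMod p) * ((((γ : SL(2, ℤ)) 1 1 : ℤ)) : ZMod p) = 1 := by
      have h1 := congrArg (Int.cast : ℤ → ZMod p) hdet
      push_cast at h1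
      rw [hc, mul_zero, sub_zero] at h1
      exact h1
    have htr' : (((((γ : SL(2, ℤ)) 0 0 : ℤ)) : ZMod p) + ((((γ : SL(2, ℤ)) 1 1 : ℤ)) : ZMod p)) ^ 2
        = 4 := by
      have h1 := congrArg (Int.cast : ℤ → ZMod p) htr
      push_cast at h1
      exact h1
    have hsq : (((((γ : SL(2, ℤ)) 1 1 : ℤ)) : ZMod p) ^ 2 - 1) ^ 2 = 0 := by
      linear_combination ((((γ : SL(2, ℤ)) 1 1 : ℤ)) : ZMod p) ^ 2 * htr' -
        (1 + 2 * ((((γ : SL(2, ℤ)) 1 1 : ℤ)) : ZMod p) ^ 2 +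
          ((((γ : SL(2, ℤ)) 0 0 : ℤ)) : ZMod p) * ((((γ : SL(2, ℤ)) 1 1 : ℤ)) : ZMod p)) * hdet'
    have h0 := (pow_eq_zero_iff two_ne_zero).mp hsq
    exact sub_eq_zero.mp h0
  calc dUnit p γ ^ 12 = (dUnit p γ ^ 2) ^ 6 := by rw [← pow_mul]
    _ = 1 := by rw [h2, one_pow]

/-! ### The character `ψ` -/

/-- The Shimura character `ψ : Γ₀(p) → ℤ/n`, `ψ γ = λ (d(γ) mod p)`. -/
def psi : Additive ↥(Gamma0 p) →+ ZMod (eisensteinNumerator p) :=
  AddMonoidHom.mk' (fun γ => lamU p (dUnit p (Additive.toMul γ))) (by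
    intro a b
    rw [toMul_add, map_mul, lamU_mul])

theorem psi_apply (γ : Gamma0 p) : psi p (Additive.ofMul γ) = lamU p (dUnit p γ) := rfl

theorem psi_surjective : Function.Surjective (psi p) := by
  intro y
  obtain ⟨u, rfl⟩ := lamU_surjective p y
  obtain ⟨γ, rfl⟩ := dUnit_surjective p u
  exact ⟨Additive.ofMul γ, rfl⟩

/-- `ψ` kills the parabolic elements and the elements of order dividing `12`. -/
theorem psi_isCircHom : IsCircHom (Gamma0 p) (psi p) := by
  rintro γ (h | h)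
  · exact lamU_eq_zero_of_pow_twelve p _ (dUnit_pow_twelve_of_trace p γ h)
  · have h1 : dUnit p γ ^ 12 = 1 := by rw [← map_pow, h, map_one]
    exact lamU_eq_zero_of_pow_twelve p _ h1

/-! ### `λ` on elements of `ℤ/p` -/

open Classical in
/-- `λ` on elements of `ℤ/p` (junk value `0` on non-units). -/
def lamZ (z : ZMod p) : ZMod (eisensteinNumerator p) :=
  if h : IsUnit z then lamU p h.unit else 0

theorem lamZ_unit (u : (ZMod p)ˣ) : lamZ p (u : ZMod p) = lamU p u := by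
  unfold lamZ
  rw [dif_pos u.isUnit]
  congr 1
  exact Units.ext rfl

theorem lamZ_mul {z w : ZMod p} (hz : IsUnit z) (hw : IsUnit w) :
    lamZ p (z * w) = lamZ p z + lamZ p w := by
  obtain ⟨u, rfl⟩ := hz
  obtain ⟨v, rfl⟩ := hw
  rw [← Units.val_mul, lamZ_unit, lamZ_unit, lamZ_unit, lamU_mul]

theorem psi_eq_lamZ (γ : Gamma0 p) :
    psi p (Additive.ofMul γ) = lamZ p ((((γ : SL(2, ℤ)) 1 1 : ℤ)) : ZMod p) := by
  rw [psi_apply, ← lamZ_unit, dUnit_val]

/-! ### Hecke eigen-relations -/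

/-- `T_q ψ = (1 + q) ψ` for `q ≠ p`, on the transfer data of `HeckeHom.lean`. -/
theorem psi_tData (q : ℕ) [Fact q.Prime] (hqp : ¬ q ∣ p) (γ : Gamma0 p) :
    ∑ x, psi p (Additive.ofMul ((tData p q hqp).part γ x)) =
      ((1 + q : ℕ) : ZMod (eisensteinNumerator p)) * psi p (Additive.ofMul γ) := by
  have hp : p.Prime := Fact.out
  have hq : q.Prime := Fact.out
  have hunit : ∀ x : OnePoint (ZMod q), IsUnit ((tDen q x : ℕ) : ZMod p) := by
    intro x
    rw [ZMod.isUnit_iff_coprime]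
    induction x using OnePoint.rec with
    | infty =>
      rw [tDen_infty]
      exact Nat.coprime_one_left p
    | coe j =>
      rw [tDen_coe]
      exact (Nat.coprime_primes hq hp).mpr (fun h => hqp (h ▸ dvd_rfl))
  have key : ∀ x, psi p (Additive.ofMul ((tData p q hqp).part γ x)) =
      psi p (Additive.ofMul γ) + lamZ p ((tDen q x : ℕ) : ZMod p) -
        lamZ p ((tDen q ((tData p q hqp).perm γ x) : ℕ) : ZMod p) := by
    intro x
    have h := tData_part_apply_one_one hqp γ x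
    have h1 := congrArg (lamZ p) h
    rw [lamZ_mul p (hunit x) (isUnit_entry p γ), lamZ_mul p (isUnit_entry p _) (hunit _),
      ← psi_eq_lamZ, ← psi_eq_lamZ] at h1
    rw [eq_sub_iff_add_eq, ← h1, add_comm]
  rw [Finset.sum_congr rfl (fun x _ => key x), Finset.sum_sub_distrib, Finset.sum_add_distrib,
    Equiv.sum_comp ((tData p q hqp).perm γ) (fun x => lamZ p ((tDen q x : ℕ) : ZMod p)),
    add_sub_cancel_right, Finset.sum_const, Finset.card_univ, nsmul_eq_mul]
  congr 2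
  have hcard : Fintype.card (OnePoint (ZMod q)) = Fintype.card (Option (ZMod q)) :=
    Fintype.card_congr (Equiv.refl _)
  rw [hcard, Fintype.card_option, ZMod.card, add_comm]

/-- `U_p ψ = ψ`, on the transfer data of `HeckeHom.lean`. -/
theorem psi_uData (γ : Gamma0 p) :
    ∑ x, psi p (Additive.ofMul ((uData p p dvd_rfl).part γ x)) = psi p (Additive.ofMul γ) := by
  have key : ∀ x, psi p (Additive.ofMul ((uData p p dvd_rfl).part γ x)) =
      psi p (Additive.ofMul γ) := by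
    intro x
    rw [psi_eq_lamZ, psi_eq_lamZ, uData_part_apply_one_one]
    congr 1
    push_cast
    rw [Gamma0_mem.mp γ.2, mul_zero, sub_zero]
  rw [Finset.sum_congr rfl (fun x _ => key x), Finset.sum_const, Finset.card_univ, ZMod.card,
    nsmul_eq_mul, natCast_self_eq_one, one_mul]

end Fermat.Agent.S16.L1

end
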