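/-
S16 block [L3] (owner: helper37): Hecke-equivariance of the period map of S21.

For a finite family `α i` of upper triangular real matrices of positive determinant with
`f' = ∑ i, f ∣[2] α i` (both cusp forms of weight two on `Γ₀(N)`) and a commutation rule
`α i * γ = γ' i * α (σ i)` (`γ, γ' i ∈ Γ₀(N)`, `σ` a permutation of the index set) we get

  `periodMap N f' γ = ∑ i, periodMap N f (γ' i)`.

This is applied to the prelude Hecke operators `T_p` (`p ∤ N`, family `heckeRep p x`,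
`x ∈ ℙ¹(𝔽_p)`) and `U_p` (`p ∣ N`, family `heckeMatrix p x.val`, `x ∈ 𝔽_p`).
-/
import Mathlib
import Fermat.Agent.S21.PeriodMap
import Fermat.Agent.S22.Hecke

set_option autoImplicit false

namespace Fermat.Agent.S16.L3Equiv

open UpperHalfPlane CongruenceSubgroup Filter Topology ModularCurve ModularCurve.Period
open scoped MatrixGroups ModularForm Manifold
open Fermat.Agent.S22 Fermat.Agent.S21

/-- The weight two slash by a matrix of positive determinant is the "pull back of `f dz`". -/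
theorem slash_two_apply (f : ℍ → ℂ) {A : GL (Fin 2) ℝ} (hA : 0 < A.det.val) (z : ℍ) :
    (f ∣[(2 : ℤ)] A) z = f (A • z) * ((A.det.val : ℝ) : ℂ) / denom A z ^ 2 := by
  rw [ModularForm.slash_apply]
  have hσ : σ A (f (A • z)) = f (A • z) := by
    rw [σ, if_pos hA]; rfl
  have habs : |A.det.val| = A.det.val := abs_of_pos hA
  rw [hσ, habs]
  have e1 : (((A.det.val : ℝ) : ℂ)) ^ ((2 : ℤ) - 1) = ((A.det.val : ℝ) : ℂ) := by
    rw [show (2 : ℤ) - 1 = 1 by norm_num, zpow_one]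
  have e2 : denom A z ^ (-(2 : ℤ)) = (denom A z ^ 2)⁻¹ := by
    rw [zpow_neg]; norm_cast
  rw [e1, e2, div_eq_mul_inv]

/-- The Eichler integral of `∑ i, f ∣[2] α i`, for upper triangular `α i` of positive
determinant, is `z ↦ ∑ i, prim f (α i • z)`. -/
theorem prim_sum_slash_upper {h : ℝ} (hh : 0 < h) {f : ℍ → ℂ} (hf : CuspPer h f)
    {ι : Type*} (s : Finset ι) (α : ι → GL (Fin 2) ℝ) (hα : ∀ i ∈ s, 0 < (α i).det.val)
    (hα0 : ∀ i ∈ s, (α i) 1 0 = 0) :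
    prim (∑ i ∈ s, f ∣[(2 : ℤ)] α i) = fun z => ∑ i ∈ s, prim f (α i • z) := by
  obtain ⟨hd, hc⟩ := prim_spec hh hf
  refine prim_eq ?_ ?_
  · have h1 := HasDerivH.sum s (F := fun i z => prim f (α i • z))
      (F' := fun i z => f (α i • z) * (((α i).det.val : ℝ) : ℂ) / denom (α i) z ^ 2)
      (fun i hi => hd.comp_smul (hα i hi))
    refine HasDerivH.congr_deriv h1 fun z => ?_
    rw [Finset.sum_apply]
    exact Finset.sum_congr rfl fun i hi => (slash_two_apply f (hα i hi) z).symm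
  · have hz : ∀ i ∈ s, Tendsto (fun z : ℍ => prim f (α i • z)) atImInfty (𝓝 0) := fun i hi =>
      hc.zero.comp (tendsto_smul_atImInfty (hα0 i hi))
    have h2 := tendsto_finsetSum s hz
    rw [Finset.sum_const_zero] at h2
    exact h2

variable {N : ℕ} [NeZero N]

/-- **Abstract Hecke formula for the period map.**  If `f' = ∑ i, f ∣[2] α i` with the `α i`
upper triangular of positive determinant, and `α i * γ = γ' i * α (σ i)` with
`γ, γ' i ∈ Γ₀(N)` and `σ` a permutation, then `P_{f'}(γ) = ∑ i, P_f(γ' i)`. -/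
theorem periodMap_hecke (f f' : CuspForm (Gamma0 N) 2)
    {ι : Type*} [Fintype ι] (α : ι → GL (Fin 2) ℝ) (hα : ∀ i, 0 < (α i).det.val)
    (hα0 : ∀ i, (α i) 1 0 = 0) (hsum : (f' : ℍ → ℂ) = ∑ i, (f : ℍ → ℂ) ∣[(2 : ℤ)] α i)
    (γ : Gamma0 N) (γ' : ι → Gamma0 N) (σ : Equiv.Perm ι)
    (hcomm : ∀ i, α i * (Matrix.SpecialLinearGroup.mapGL ℝ (γ : SL(2, ℤ)) : GL (Fin 2) ℝ) =
      (Matrix.SpecialLinearGroup.mapGL ℝ (γ' i : SL(2, ℤ)) : GL (Fin 2) ℝ) * α (σ i)) :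
    periodMap N f' (Additive.ofMul γ) = ∑ i, periodMap N f (Additive.ofMul (γ' i)) := by
  have hprim : prim (f' : ℍ → ℂ) = fun z => ∑ i, prim (f : ℍ → ℂ) (α i • z) := by
    rw [hsum]
    exact prim_sum_slash_upper one_pos (cuspForm_cuspPer f) Finset.univ α
      (fun i _ => hα i) (fun i _ => hα0 i)
  have hstep : ∀ i, periodMap N f (Additive.ofMul (γ' i)) =
      prim (f : ℍ → ℂ) (α i • ((γ : SL(2, ℤ)) • UpperHalfPlane.I)) -
        prim (f : ℍ → ℂ) (α (σ i) • UpperHalfPlane.I) := by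
    intro i
    rw [periodMap_apply N f (γ' i) (α (σ i) • UpperHalfPlane.I)]
    congr 2
    have e1 : ((γ' i : SL(2, ℤ)) • (α (σ i) • UpperHalfPlane.I) : ℍ) =
        ((Matrix.SpecialLinearGroup.mapGL ℝ (γ' i : SL(2, ℤ)) : GL (Fin 2) ℝ) * α (σ i)) •
          UpperHalfPlane.I := by
      rw [mul_smul]; rfl
    have e2 : (α i • ((γ : SL(2, ℤ)) • UpperHalfPlane.I) : ℍ) =
        (α i * (Matrix.SpecialLinearGroup.mapGL ℝ (γ : SL(2, ℤ)) : GL (Fin 2) ℝ)) •
          UpperHalfPlane.I := by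
      rw [mul_smul]; rfl
    rw [e1, e2, hcomm i]
  rw [periodMap_apply N f' γ UpperHalfPlane.I, hprim]
  simp only [hstep, Finset.sum_sub_distrib]
  rw [Equiv.sum_comp σ (fun i => prim (f : ℍ → ℂ) (α i • UpperHalfPlane.I))]

section Hecke

open P2MW.S_ModularForm_heckeT_slash_eq_self_of_mem_Gamma0.ModularForm.HeckeSlashInvariance

/-- **`T_p`-equivariance of the period map** (`p ∤ N`), for any system of solutions `γ' x` of
`heckeRep p x * γ = γ' x * heckeRep p (σ x)`. -/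
theorem periodMap_heckeTLin {p : ℕ} [NeZero p] (hp : p.Prime) (hpN : ¬ p ∣ N)
    (f : CuspForm (Gamma0 N) 2) (γ : Gamma0 N) (γ' : OnePoint (ZMod p) → Gamma0 N)
    (σ : Equiv.Perm (OnePoint (ZMod p)))
    (hcomm : ∀ x, heckeRep p x * (Matrix.SpecialLinearGroup.mapGL ℝ (γ : SL(2, ℤ)) : GL (Fin 2) ℝ) =
      (Matrix.SpecialLinearGroup.mapGL ℝ (γ' x : SL(2, ℤ)) : GL (Fin 2) ℝ) * heckeRep p (σ x)) :
    periodMap N (CuspForm.heckeTLin 2 hp hpN f) (Additive.ofMul γ) =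
      ∑ x, periodMap N f (Additive.ofMul (γ' x)) :=
  periodMap_hecke f (CuspForm.heckeTLin 2 hp hpN f) (heckeRep p) (det_heckeRep_pos p)
    (heckeRep_apply_one_zero p)
    (by rw [CuspForm.coe_heckeTLin_apply]; exact heckeT_eq_sum_onePoint 2 _) γ γ' σ hcomm

/-- **`U_p`-equivariance of the period map** (`p ∣ N`), for any system of solutions `γ' x` of
`heckeMatrix p x.val * γ = γ' x * heckeMatrix p (σ x).val`. -/
theorem periodMap_heckeULin {p : ℕ} [NeZero p] (hpN : p ∣ N)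
    (f : CuspForm (Gamma0 N) 2) (γ : Gamma0 N) (γ' : ZMod p → Gamma0 N)
    (σ : Equiv.Perm (ZMod p))
    (hcomm : ∀ x, ModularForm.heckeMatrix p x.val *
        (Matrix.SpecialLinearGroup.mapGL ℝ (γ : SL(2, ℤ)) : GL (Fin 2) ℝ) =
      (Matrix.SpecialLinearGroup.mapGL ℝ (γ' x : SL(2, ℤ)) : GL (Fin 2) ℝ) *
        ModularForm.heckeMatrix p (σ x).val) :
    periodMap N (CuspForm.heckeULin 2 hpN f) (Additive.ofMul γ) =
      ∑ x, periodMap N f (Additive.ofMul (γ' x)) :=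
  periodMap_hecke f (CuspForm.heckeULin 2 hpN f) (fun x : ZMod p => ModularForm.heckeMatrix p x.val)
    (fun x => ModularForm.det_heckeMatrix_pos p x.val) (fun x => heckeMatrix_apply_one_zero p x.val)
    (by rw [CuspForm.coe_heckeULin_apply]; exact heckeU_eq_sum_zmod 2 _) γ γ' σ hcomm

/-- Existence form for `T_p`: the prelude coset lemma `heckeRep_mul` supplies the `γ' x`. -/
theorem exists_periodMap_heckeTLin {p : ℕ} [Fact p.Prime] (hpN : ¬ p ∣ N) (γ : Gamma0 N) :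
    ∃ γ' : OnePoint (ZMod p) → Gamma0 N,
      (∀ x, heckeRep p x * (Matrix.SpecialLinearGroup.mapGL ℝ (γ : SL(2, ℤ)) : GL (Fin 2) ℝ) =
        (Matrix.SpecialLinearGroup.mapGL ℝ (γ' x : SL(2, ℤ)) : GL (Fin 2) ℝ) *
          heckeRep p (redMatrix p (γ : SL(2, ℤ)) • x)) ∧
      ∀ f : CuspForm (Gamma0 N) 2,
        periodMap N (CuspForm.heckeTLin 2 (Fact.out : p.Prime) hpN f) (Additive.ofMul γ) =
          ∑ x, periodMap N f (Additive.ofMul (γ' x)) := by
  have hcN : (N : ℤ) ∣ (γ : SL(2, ℤ)) 1 0 :=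
    (ZMod.intCast_zmod_eq_zero_iff_dvd _ _).mp (Gamma0_mem.mp γ.2)
  choose g' hg'N hmul using fun x : OnePoint (ZMod p) => heckeRep_mul hpN (γ : SL(2, ℤ)) hcN x
  have hmem : ∀ x, g' x ∈ Gamma0 N := fun x =>
    Gamma0_mem.mpr ((ZMod.intCast_zmod_eq_zero_iff_dvd _ _).mpr (hg'N x))
  refine ⟨fun x => ⟨g' x, hmem x⟩, hmul, fun f => ?_⟩
  exact periodMap_heckeTLin (Fact.out : p.Prime) hpN f γ (fun x => ⟨g' x, hmem x⟩)
    (MulAction.toPerm (redMatrix p (γ : SL(2, ℤ)))) hmul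

/-- Existence form for `U_p`: the prelude coset lemma `heckeMatrix_mul_of_dvd` supplies the
`γ' x`. -/
theorem exists_periodMap_heckeULin {p : ℕ} [NeZero p] (hpN : p ∣ N) (γ : Gamma0 N)
    (hc0 : (((γ : SL(2, ℤ)) 1 0 : ℤ) : ZMod p) = 0) :
    ∃ γ' : ZMod p → Gamma0 N,
      (∀ x, ModularForm.heckeMatrix p x.val *
          (Matrix.SpecialLinearGroup.mapGL ℝ (γ : SL(2, ℤ)) : GL (Fin 2) ℝ) =
        (Matrix.SpecialLinearGroup.mapGL ℝ (γ' x : SL(2, ℤ)) : GL (Fin 2) ℝ) *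
          ModularForm.heckeMatrix p (affinePerm (γ : SL(2, ℤ)) hc0 x).val) ∧
      ∀ f : CuspForm (Gamma0 N) 2,
        periodMap N (CuspForm.heckeULin 2 hpN f) (Additive.ofMul γ) =
          ∑ x, periodMap N f (Additive.ofMul (γ' x)) := by
  have hcN : (N : ℤ) ∣ (γ : SL(2, ℤ)) 1 0 :=
    (ZMod.intCast_zmod_eq_zero_iff_dvd _ _).mp (Gamma0_mem.mp γ.2)
  have hc : (p : ℤ) ∣ (γ : SL(2, ℤ)) 1 0 := (Int.natCast_dvd_natCast.mpr hpN).trans hcN
  choose g' hg' hmul using fun x : ZMod p => heckeMatrix_mul_of_dvd (γ : SL(2, ℤ)) hc x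
  have hmem : ∀ x, g' x ∈ Gamma0 N := fun x => by
    rw [Gamma0_mem, hg' x]
    push_cast
    rw [Gamma0_mem.mp γ.2, mul_zero]
  refine ⟨fun x => ⟨g' x, hmem x⟩, hmul, fun f => ?_⟩
  exact periodMap_heckeULin hpN f γ (fun x => ⟨g' x, hmem x⟩)
    (affinePerm (γ : SL(2, ℤ)) hc0) hmul

end Hecke

end Fermat.Agent.S16.L3Equiv
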