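/-
S16 (L): `IsCircHom` / `circHoms` live in `Fermat/Agent/S16/LDefs.lean`.
This module only re-exports that file (it declares nothing).
-/
import Fermat.Agent.S16.LDefs
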