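/-
S16 team, block [M], independent hedge `LevelOneMiller` (owner of this file: helper71).

Level-one modular forms whose `q`-expansion coefficients lie in an additive subgroup `A ⊆ ℂ`:
Miller basis / Sturm bound / structure theorem, all from one induction on the weight.
-/
import Mathlib
import Fermat.Agent.S20.LevelOne
import Fermat.Agent.S24.JFormal
import Fermat.Agent.S24.JFormalE4

set_option autoImplicit false

namespace Fermat.Agent.S16.LevelOneMiller

open UpperHalfPlane ModularForm EisensteinSeries Filter Topology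
open scoped MatrixGroups ModularForm Manifold ArithmeticFunction.sigma

local notation "Δ" => ModularForm.discriminant
local notation "LF" => Fermat.Agent.S20.LF

/-! ### `q`-expansions of functions in `LF` -/

theorem qExp_add {a b : ℤ} {x y : ℍ → ℂ} (hx : x ∈ LF a) (hy : y ∈ LF b) :
    qExpansion 1 (x + y) = qExpansion 1 x + qExpansion 1 y := by
  obtain ⟨F, rfl⟩ := hx
  obtain ⟨G, rfl⟩ := hy
  exact ModularForm.qExpansion_add one_pos one_mem_strictPeriods_SL F G

theorem qExp_sub {a b : ℤ} {x y : ℍ → ℂ} (hx : x ∈ LF a) (hy : y ∈ LF b) :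
    qExpansion 1 (x - y) = qExpansion 1 x - qExpansion 1 y := by
  obtain ⟨F, rfl⟩ := hx
  obtain ⟨G, rfl⟩ := hy
  exact ModularForm.qExpansion_sub one_pos one_mem_strictPeriods_SL F G

theorem qExp_mul {a b : ℤ} {x y : ℍ → ℂ} (hx : x ∈ LF a) (hy : y ∈ LF b) :
    qExpansion 1 (x * y) = qExpansion 1 x * qExpansion 1 y := by
  obtain ⟨F, rfl⟩ := hx
  obtain ⟨G, rfl⟩ := hy
  exact ModularForm.qExpansion_mul_coe one_pos one_mem_strictPeriods_SL F G

theorem qExp_smul {a : ℤ} {x : ℍ → ℂ} (c : ℂ) (hx : x ∈ LF a) :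
    qExpansion 1 (c • x) = c • qExpansion 1 x := by
  obtain ⟨F, rfl⟩ := hx
  exact ModularForm.qExpansion_smul one_pos one_mem_strictPeriods_SL c F

theorem qExp_pow {a : ℤ} {x : ℍ → ℂ} (hx : x ∈ LF a) (n : ℕ) :
    qExpansion 1 (x ^ n) = qExpansion 1 x ^ n := by
  induction n with
  | zero => rw [pow_zero, pow_zero]; exact qExpansion_one 1
  | succ n ih =>
    rw [pow_succ, pow_succ, qExp_mul (S20.lo_pow_mem hx n) hx, ih]

/-! ### The integral `q`-expansions of `E₆` and `Δ` -/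

/-- `E₆ = 1 - 504 ∑ σ₅(n) qⁿ` as an integral power series. -/
noncomputable def e6Z : PowerSeries ℤ :=
  PowerSeries.mk fun n => if n = 0 then 1 else -504 * (σ 5 n : ℤ)

/-- `Δ = q ∏ (1 - qⁿ)²⁴` as an integral power series. -/
noncomputable def deltaZ : PowerSeries ℤ := PowerSeries.X * ModularCurve.dedekindEtaUnit

theorem qExpansion_E₆ :
    qExpansion 1 (⇑ModularForm.E₆ : ℍ → ℂ) = e6Z.map (Int.castRingHom ℂ) := by
  ext m
  rw [E_qExpansion_coeff (by norm_num : 3 ≤ 6) (by decide : Even 6) m, PowerSeries.coeff_map,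
    e6Z, PowerSeries.coeff_mk]
  by_cases hm : m = 0
  · simp [hm]
  · rw [if_neg hm, if_neg hm]
    have hb : bernoulli 6 = 1 / 42 := by decide +kernel
    rw [hb, eq_intCast]
    push_cast
    ring

theorem qExpansion_disc :
    qExpansion 1 (Δ : ℍ → ℂ) = deltaZ.map (Int.castRingHom ℂ) := by
  rw [S24.JFormal.qExpansion_discriminant, deltaZ, map_mul, PowerSeries.map_X]

/-- The monomial functions `E₄^a E₆^b Δ^c`. -/
noncomputable def monoF (a b c : ℕ) : ℍ → ℂ :=
  (⇑ModularForm.E₄ : ℍ → ℂ) ^ a * (⇑ModularForm.E₆ : ℍ → ℂ) ^ b * (Δ : ℍ → ℂ) ^ c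

/-- The integral `q`-expansions of the monomials `E₄^a E₆^b Δ^c`. -/
noncomputable def monoZ (a b c : ℕ) : PowerSeries ℤ :=
  ModularCurve.eisenstein4 ^ a * e6Z ^ b * deltaZ ^ c

theorem monoF_mem_LF (a b c : ℕ) : monoF a b c ∈ LF (4 * a + 6 * b + 12 * c) := by
  have h4 := S20.lo_pow_mem S20.lo_E4_mem a
  have h6 := S20.lo_pow_mem S20.lo_E6_mem b
  have hd := S20.lo_pow_mem S20.lo_disc_mem c
  have := S20.lo_mul_mem (S20.lo_mul_mem h4 h6) hd
  rw [show ((a : ℤ) * 4 + (b : ℤ) * 6 + (c : ℤ) * 12) = 4 * a + 6 * b + 12 * c by ring] at this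
  exact this

theorem qExpansion_monoF (a b c : ℕ) :
    qExpansion 1 (monoF a b c) = (monoZ a b c).map (Int.castRingHom ℂ) := by
  have h4 := S20.lo_pow_mem S20.lo_E4_mem a
  have h6 := S20.lo_pow_mem S20.lo_E6_mem b
  have hd := S20.lo_pow_mem S20.lo_disc_mem c
  rw [monoF, monoZ, qExp_mul (S20.lo_mul_mem h4 h6) hd, qExp_mul h4 h6,
    qExp_pow S20.lo_E4_mem, qExp_pow S20.lo_E6_mem, qExp_pow S20.lo_disc_mem,
    S24.JFormalE4.qExpansion_E₄, qExpansion_E₆, qExpansion_disc, map_mul, map_mul, map_pow,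
    map_pow, map_pow]

/-! ### Coefficient bookkeeping -/

/-- Multiplying by an integral power series preserves "the first `N + 1` coefficients lie in the
additive subgroup `A`". -/
theorem coeff_intMul_mem (A : AddSubgroup ℂ) (v : PowerSeries ℤ) (w : PowerSeries ℂ) (N : ℕ)
    (hw : ∀ j ≤ N, PowerSeries.coeff j w ∈ A) :
    ∀ n ≤ N, PowerSeries.coeff n (v.map (Int.castRingHom ℂ) * w) ∈ A := by
  intro n hn
  rw [PowerSeries.coeff_mul]
  refine A.sum_mem fun x hx => ?_
  have hx2 : x.2 ≤ N := by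
    have h2 := Finset.HasAntidiagonal.mem_antidiagonal.mp hx
    omega
  rw [PowerSeries.coeff_map, eq_intCast, ← zsmul_eq_mul]
  exact A.zsmul_mem (hw _ hx2) _

/-- Division by `Δ` on the level of coefficients: if `g = Δ · h` and the coefficients of `g` up to
`N + 1` lie in `A`, then the coefficients of `h` up to `N` lie in `A`. -/
theorem coeff_div_delta_mem (A : AddSubgroup ℂ) (g h : PowerSeries ℂ) (N : ℕ)
    (hgh : g = deltaZ.map (Int.castRingHom ℂ) * h)
    (hg : ∀ m ≤ N + 1, PowerSeries.coeff m g ∈ A) :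
    ∀ n ≤ N, PowerSeries.coeff n h ∈ A := by
  have hu : IsUnit ModularCurve.dedekindEtaUnit := by
    rw [PowerSeries.isUnit_iff_constantCoeff, ModularCurve.constantCoeff_dedekindEtaUnit]
    exact isUnit_one
  obtain ⟨v, hv⟩ := hu.exists_left_inv
  set w : PowerSeries ℂ := ModularCurve.dedekindEtaUnit.map (Int.castRingHom ℂ) * h with hw
  have hgw : g = PowerSeries.X * w := by
    rw [hgh, deltaZ, map_mul, PowerSeries.map_X, mul_assoc]
  have hh : h = v.map (Int.castRingHom ℂ) * w := by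
    rw [hw, ← mul_assoc, ← map_mul, hv, map_one, one_mul]
  rw [hh]
  refine coeff_intMul_mem A v w N fun j hj => ?_
  have := hg (j + 1) (by omega)
  rwa [hgw, PowerSeries.coeff_succ_X_mul] at this

theorem constantCoeff_e6Z : PowerSeries.constantCoeff e6Z = 1 := by
  rw [← PowerSeries.coeff_zero_eq_constantCoeff_apply, e6Z, PowerSeries.coeff_mk, if_pos rfl]

theorem constantCoeff_eisenstein4 : PowerSeries.constantCoeff ModularCurve.eisenstein4 = 1 := by
  rw [← PowerSeries.coeff_zero_eq_constantCoeff_apply, ModularCurve.eisenstein4,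
    PowerSeries.coeff_mk, if_pos rfl]

theorem constantCoeff_monoZ (a b : ℕ) : PowerSeries.constantCoeff (monoZ a b 0) = 1 := by
  rw [monoZ, pow_zero, mul_one, map_mul, map_pow, map_pow, constantCoeff_eisenstein4,
    constantCoeff_e6Z, one_pow, one_pow, one_mul]

theorem monoF_succ (a b c : ℕ) : monoF a b (c + 1) = (Δ : ℍ → ℂ) * monoF a b c := by
  rw [monoF, monoF, pow_succ]
  ring

theorem monoF_zero : monoF 0 0 0 = 1 := by
  rw [monoF, pow_zero, pow_zero, pow_zero, one_mul, one_mul]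

/-! ### The main induction -/

/-- **Miller basis / structure theorem over an additive subgroup.** A level-one form of weight
`k` whose `q`-expansion coefficients `a_m`, `12 m ≤ k`, lie in an additive subgroup `A` of `ℂ` is
an `A`-linear combination of the monomials `E₄^a E₆^b Δ^c` of weight `k`. -/
theorem exists_decomp_aux (A : AddSubgroup ℂ) : ∀ (n : ℕ) (k : ℤ), k.toNat = n → ∀ F ∈ LF k,
    (∀ m : ℕ, 12 * (m : ℤ) ≤ k → (qExpansion 1 F).coeff m ∈ A) →
    ∃ (s : Finset (ℕ × ℕ × ℕ)) (α : ℕ × ℕ × ℕ → ℂ),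
      (∀ t ∈ s, α t ∈ A ∧ (4 * t.1 + 6 * t.2.1 + 12 * t.2.2 : ℤ) = k) ∧
      F = ∑ t ∈ s, α t • monoF t.1 t.2.1 t.2.2 := by
  intro n
  induction n using Nat.strong_induction_on with
  | _ n ih =>
  intro k hkn F hF hA
  rcases lt_or_ge k 0 with hk | hk
  · have h0 : F = 0 := by
      rw [S20.lo_neg_weight hk] at hF
      exact (Submodule.mem_bot ℂ).mp hF
    exact ⟨∅, fun _ => 0, by simp, by simp [h0]⟩
  rcases Int.even_or_odd k with hev | hodd
  swap
  · have h0 : F = 0 := by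
      rw [S20.lo_odd_weight hodd] at hF
      exact (Submodule.mem_bot ℂ).mp hF
    exact ⟨∅, fun _ => 0, by simp, by simp [h0]⟩
  lift k to ℕ using hk
  have hev' : Even k := by exact_mod_cast hev
  rcases Nat.lt_or_ge k 4 with hk4 | hk4
  · have hk02 : k = 0 ∨ k = 2 := by
      obtain ⟨j, hj⟩ := hev'
      omega
    rcases hk02 with rfl | rfl
    · -- weight zero: constants
      obtain ⟨c, rfl⟩ := S20.lo_weight_zero hF
      have hc1 : Function.const ℍ c = c • (1 : ℍ → ℂ) := by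
        ext z; simp
      have hcA : c ∈ A := by
        have := hA 0 (by norm_num)
        rw [hc1, qExp_smul c S20.lo_one_mem, qExpansion_one] at this
        simpa using this
      refine ⟨{(0, 0, 0)}, fun _ => c, ?_, ?_⟩
      · intro t ht
        rw [Finset.mem_singleton] at ht
        subst ht
        exact ⟨hcA, by norm_num⟩
      · rw [Finset.sum_singleton, monoF_zero, hc1]
    · have h0 : F = 0 := by
        rw [show ((2 : ℕ) : ℤ) = 2 from rfl, S20.lo_weight_two] at hF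
        exact (Submodule.mem_bot ℂ).mp hF
      exact ⟨∅, fun _ => 0, by simp, by simp [h0]⟩
  · -- weight `k ≥ 4`, even
    obtain ⟨a, b, hab⟩ : ∃ a b : ℕ, 4 * a + 6 * b = k := by
      obtain ⟨j, hj⟩ := hev'
      rcases Nat.even_or_odd j with ⟨i, hi⟩ | ⟨i, hi⟩
      · exact ⟨i, 0, by omega⟩
      · exact ⟨i - 1, 1, by omega⟩
    set a₀ : ℂ := (qExpansion 1 F).coeff 0 with ha₀
    have ha₀A : a₀ ∈ A := hA 0 (by positivity)
    have hM : monoF a b 0 ∈ LF (k : ℤ) := by
      have := monoF_mem_LF a b 0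
      have hw : (4 * (a : ℤ) + 6 * b + 12 * ((0 : ℕ) : ℤ)) = (k : ℤ) := by
        rw [← hab]; push_cast; ring
      rwa [hw] at this
    set G : ℍ → ℂ := F - a₀ • monoF a b 0 with hGdef
    have hG : G ∈ LF (k : ℤ) := (LF (k : ℤ)).sub_mem hF ((LF (k : ℤ)).smul_mem a₀ hM)
    have hqG : qExpansion 1 G = qExpansion 1 F -
        a₀ • (monoZ a b 0).map (Int.castRingHom ℂ) := by
      rw [hGdef, qExp_sub hF ((LF (k : ℤ)).smul_mem a₀ hM), qExp_smul a₀ hM, qExpansion_monoF]
    have hG0 : Tendsto G atImInfty (𝓝 0) := by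
      obtain ⟨g, hg⟩ := hG
      have h1 := S20.lo_tendsto_coeff_zero g
      rw [hg] at h1
      have h2 : (qExpansion 1 G).coeff 0 = 0 := by
        have h3 : PowerSeries.coeff 0 (monoZ a b 0) = 1 := by
          rw [PowerSeries.coeff_zero_eq_constantCoeff_apply, constantCoeff_monoZ]
        rw [hqG, map_sub, PowerSeries.coeff_smul, PowerSeries.coeff_map, h3, ← ha₀]
        simp
      rwa [h2] at h1
    obtain ⟨H, hH, hGH⟩ := S20.lo_cusp hG hG0
    have hqGH : qExpansion 1 G = deltaZ.map (Int.castRingHom ℂ) * qExpansion 1 H := by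
      rw [hGH, qExp_mul S20.lo_disc_mem hH, qExpansion_disc]
    have hHA : ∀ m : ℕ, 12 * (m : ℤ) ≤ (k : ℤ) - 12 → (qExpansion 1 H).coeff m ∈ A := by
      intro m hm
      refine coeff_div_delta_mem A _ _ m hqGH (fun j hj => ?_) m le_rfl
      rw [hqG, map_sub, PowerSeries.coeff_smul, PowerSeries.coeff_map, eq_intCast, smul_eq_mul,
        mul_comm, ← zsmul_eq_mul]
      exact A.sub_mem (hA j (by omega)) (A.zsmul_mem ha₀A _)
    obtain ⟨s, α, hs, hsum⟩ := ih ((k : ℤ) - 12).toNat (by omega) ((k : ℤ) - 12) rfl H hH hHA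
    let shift : (ℕ × ℕ × ℕ) ↪ (ℕ × ℕ × ℕ) :=
      ⟨fun t => (t.1, t.2.1, t.2.2 + 1), fun t t' h => by
        simp only [Prod.mk.injEq, add_left_inj] at h
        exact Prod.ext h.1 (Prod.ext h.2.1 h.2.2)⟩
    have hshift : ∀ t : ℕ × ℕ × ℕ, shift t = (t.1, t.2.1, t.2.2 + 1) := fun _ => rfl
    have hnot : (a, b, 0) ∉ s.map shift := by
      intro h
      obtain ⟨t, -, ht⟩ := Finset.mem_map.mp h
      rw [hshift] at ht
      have h3 := congrArg (fun t : ℕ × ℕ × ℕ => t.2.2) ht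
      simp at h3
    refine ⟨insert (a, b, 0) (s.map shift),
      fun t => if t.2.2 = 0 then a₀ else α (t.1, t.2.1, t.2.2 - 1), ?_, ?_⟩
    · intro t ht
      rcases Finset.mem_insert.mp ht with rfl | ht
      · refine ⟨by simpa using ha₀A, ?_⟩
        rw [← hab]; push_cast; ring
      · obtain ⟨t₀, ht₀, rfl⟩ := Finset.mem_map.mp ht
        obtain ⟨h1, h2⟩ := hs t₀ ht₀
        rw [hshift]
        refine ⟨by simpa using h1, ?_⟩
        push_cast
        linarith
    · rw [Finset.sum_insert hnot, Finset.sum_map]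
      have hF' : F = a₀ • monoF a b 0 + G := by rw [hGdef]; ring
      rw [hF', hGH, hsum, Finset.mul_sum]
      congr 1
      refine Finset.sum_congr rfl fun t _ => ?_
      rw [hshift]
      simp only [Nat.add_sub_cancel, Nat.succ_ne_zero, if_false, monoF_succ, mul_smul_comm]

/-- **(M2) Structure theorem over an additive subgroup**, for functions in `LF k`. -/
theorem exists_decomp_of_mem_LF (A : AddSubgroup ℂ) (k : ℤ) {F : ℍ → ℂ} (hF : F ∈ LF k)
    (hA : ∀ m : ℕ, 12 * (m : ℤ) ≤ k → (qExpansion 1 F).coeff m ∈ A) :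
    ∃ (s : Finset (ℕ × ℕ × ℕ)) (α : ℕ × ℕ × ℕ → ℂ),
      (∀ t ∈ s, α t ∈ A ∧ (4 * t.1 + 6 * t.2.1 + 12 * t.2.2 : ℤ) = k) ∧
      F = ∑ t ∈ s, α t • monoF t.1 t.2.1 t.2.2 :=
  exists_decomp_aux A k.toNat k rfl F hF hA

/-- **(M2) Structure theorem over an additive subgroup**: a level-one form of weight `k` whose
`q`-expansion coefficients `a_m`, `12 m ≤ k`, lie in an additive subgroup `A` of `ℂ` is an
`A`-linear combination of the monomials `E₄^a E₆^b Δ^c` of weight `k`. -/
theorem exists_decomp (A : AddSubgroup ℂ) (k : ℤ) (f : ModularForm 𝒮ℒ k)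
    (hf : ∀ n : ℕ, 12 * (n : ℤ) ≤ k → (qExpansion 1 f).coeff n ∈ A) :
    ∃ (s : Finset (ℕ × ℕ × ℕ)) (α : ℕ × ℕ × ℕ → ℂ),
      (∀ t ∈ s, α t ∈ A ∧ (4 * t.1 + 6 * t.2.1 + 12 * t.2.2 : ℤ) = k) ∧
      (⇑f : ℍ → ℂ) = ∑ t ∈ s, α t • monoF t.1 t.2.1 t.2.2 :=
  exists_decomp_of_mem_LF A k (S20.lo_coe_mem f) hf

/-- The `q`-expansion of a finite sum of level-one forms of the same weight. -/
theorem qExp_sum {ι : Type*} (k : ℤ) (s : Finset ι) (x : ι → ℍ → ℂ) (hx : ∀ i ∈ s, x i ∈ LF k) :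
    qExpansion 1 (∑ i ∈ s, x i) = ∑ i ∈ s, qExpansion 1 (x i) := by
  classical
  induction s using Finset.induction_on with
  | empty => rw [Finset.sum_empty, Finset.sum_empty]; exact qExpansion_zero 1
  | insert i s hi ih =>
    rw [Finset.sum_insert hi, Finset.sum_insert hi,
      qExp_add (hx i (Finset.mem_insert_self i s))
        ((LF k).sum_mem fun j hj => hx j (Finset.mem_insert_of_mem hj)),
      ih fun j hj => hx j (Finset.mem_insert_of_mem hj)]

/-- The `q`-expansion of an `A`-combination of monomials. -/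
theorem qExpansion_decomp (k : ℤ) (s : Finset (ℕ × ℕ × ℕ)) (α : ℕ × ℕ × ℕ → ℂ)
    (hs : ∀ t ∈ s, (4 * t.1 + 6 * t.2.1 + 12 * t.2.2 : ℤ) = k) :
    qExpansion 1 (∑ t ∈ s, α t • monoF t.1 t.2.1 t.2.2) =
      ∑ t ∈ s, α t • (monoZ t.1 t.2.1 t.2.2).map (Int.castRingHom ℂ) := by
  have hmem : ∀ t ∈ s, monoF t.1 t.2.1 t.2.2 ∈ LF k := by
    intro t ht
    have := monoF_mem_LF t.1 t.2.1 t.2.2
    rwa [hs t ht] at this
  rw [qExp_sum k s _ fun t ht => (LF k).smul_mem (α t) (hmem t ht)]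
  refine Finset.sum_congr rfl fun t ht => ?_
  rw [qExp_smul (α t) (hmem t ht), qExpansion_monoF]

/-- **(M1) Sturm bound over an additive subgroup**, for functions in `LF k`: if the
`q`-expansion coefficients `a_n` with `12 n ≤ k` lie in `A`, then all of them do. -/
theorem coeff_mem_of_le_of_mem_LF (A : AddSubgroup ℂ) (k : ℤ) {F : ℍ → ℂ} (hF : F ∈ LF k)
    (hA : ∀ n : ℕ, 12 * (n : ℤ) ≤ k → (qExpansion 1 F).coeff n ∈ A) :
    ∀ n : ℕ, (qExpansion 1 F).coeff n ∈ A := by
  obtain ⟨s, α, hs, hsum⟩ := exists_decomp_of_mem_LF A k hF hA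
  intro n
  rw [hsum, qExpansion_decomp k s α fun t ht => (hs t ht).2, map_sum]
  refine A.sum_mem fun t ht => ?_
  rw [PowerSeries.coeff_smul, PowerSeries.coeff_map, eq_intCast, smul_eq_mul, mul_comm,
    ← zsmul_eq_mul]
  exact A.zsmul_mem (hs t ht).1 _

/-- **(M1) Sturm bound over an additive subgroup**: if the `q`-expansion coefficients `a_n` with
`12 n ≤ k` of a level-one form of weight `k` lie in an additive subgroup `A` of `ℂ`, then all
coefficients lie in `A`. (`A = ⊥` is the classical Sturm bound; `A` an ideal of a subring of `ℂ`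
is the Sturm bound modulo that ideal.) -/
theorem coeff_mem_of_le (A : AddSubgroup ℂ) (k : ℤ) (f : ModularForm 𝒮ℒ k)
    (hf : ∀ n : ℕ, 12 * (n : ℤ) ≤ k → (qExpansion 1 f).coeff n ∈ A) :
    ∀ n : ℕ, (qExpansion 1 f).coeff n ∈ A :=
  coeff_mem_of_le_of_mem_LF A k (S20.lo_coe_mem f) hf

end Fermat.Agent.S16.LevelOneMiller
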