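import Mathlib

/-!
# S16 block [M]: level one forms with `q`-expansion in a subring of `ℂ`

* `qE4 qE6 qDelta : PowerSeries ℤ` with `map (Int.castRingHom ℂ) _ = qExpansion 1 _`.
* `qDelta = X * qDeltaUnit` with `qDeltaUnit` of constant coefficient `1`.
* `coeff_mem_of_discriminant_mul`: division by `Δ` preserves integrality of `q`-expansions.
* `exists_isobaric`: a level one form with `q`-expansion in `𝒪[[q]]` is an isobaric
  `𝒪`-polynomial in `E₄, E₆, Δ`.
-/

set_option autoImplicit false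

open UpperHalfPlane ModularForm ModularFormClass MatrixGroups EisensteinSeries
open scoped ArithmeticFunction.sigma

namespace Fermat.Agent.S16.LevelOneW3

local notation "Δ" => ModularForm.discriminant

/-- `∑_{n ≥ 1} σ_k(n) qⁿ` as an integral power series. -/
noncomputable def sigmaSeries (k : ℕ) : PowerSeries ℤ :=
  PowerSeries.mk fun n => if n = 0 then 0 else (σ k n : ℤ)

@[simp] theorem coeff_sigmaSeries (k n : ℕ) :
    (sigmaSeries k).coeff n = if n = 0 then 0 else (σ k n : ℤ) := by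
  simp [sigmaSeries]

/-- The integral `q`-expansion of `E₄`. -/
noncomputable def qE4 : PowerSeries ℤ := 1 + 240 * sigmaSeries 3

/-- The integral `q`-expansion of `E₆`. -/
noncomputable def qE6 : PowerSeries ℤ := 1 - 504 * sigmaSeries 5

theorem coeff_qE4 (n : ℕ) : qE4.coeff n = if n = 0 then 1 else 240 * (σ 3 n : ℤ) := by
  have h : (240 : PowerSeries ℤ) = PowerSeries.C (240 : ℤ) := by simp
  rw [qE4, map_add, h, PowerSeries.coeff_C_mul, coeff_sigmaSeries, PowerSeries.coeff_one]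
  split_ifs <;> simp

theorem coeff_qE6 (n : ℕ) : qE6.coeff n = if n = 0 then 1 else -504 * (σ 5 n : ℤ) := by
  have h : (504 : PowerSeries ℤ) = PowerSeries.C (504 : ℤ) := by simp
  rw [qE6, map_sub, h, PowerSeries.coeff_C_mul, coeff_sigmaSeries, PowerSeries.coeff_one]
  split_ifs <;> simp

theorem bernoulli_four : bernoulli 4 = -1 / 30 := by decide +kernel

theorem bernoulli_six : bernoulli 6 = 1 / 42 := by decide +kernel

theorem qE4_spec : qE4.map (Int.castRingHom ℂ) = qExpansion 1 E₄ := by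
  ext n
  rw [PowerSeries.coeff_map, coeff_qE4, E_qExpansion_coeff _ ⟨2, rfl⟩]
  split_ifs
  · simp
  · simp [bernoulli_four]; norm_num

theorem qE6_spec : qE6.map (Int.castRingHom ℂ) = qExpansion 1 E₆ := by
  ext n
  rw [PowerSeries.coeff_map, coeff_qE6, E_qExpansion_coeff _ ⟨3, rfl⟩]
  split_ifs
  · simp
  · simp [bernoulli_six]; norm_num

/-! ### The discriminant -/

theorem twelve_dvd_aux (d : ℕ) : (12 : ℤ) ∣ 5 * (d : ℤ) ^ 3 + 7 * (d : ℤ) ^ 5 := by
  have h : ∀ x : ZMod 12, 5 * x ^ 3 + 7 * x ^ 5 = 0 := by decide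
  have h2 := h (d : ZMod 12)
  have h3 : ((5 * (d : ℤ) ^ 3 + 7 * (d : ℤ) ^ 5 : ℤ) : ZMod 12) = 0 := by
    push_cast
    exact h2
  exact (ZMod.intCast_zmod_eq_zero_iff_dvd _ 12).mp h3

theorem twelve_dvd_sigma (n : ℕ) : (12 : ℤ) ∣ 5 * (σ 3 n : ℤ) + 7 * (σ 5 n : ℤ) := by
  rw [ArithmeticFunction.sigma_apply, ArithmeticFunction.sigma_apply]
  push_cast
  rw [Finset.mul_sum, Finset.mul_sum, ← Finset.sum_add_distrib]
  exact Finset.dvd_sum fun d _ => twelve_dvd_aux d

/-- `(5 ∑ σ₃(n) qⁿ + 7 ∑ σ₅(n) qⁿ) / 12`. -/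
noncomputable def qAux : PowerSeries ℤ :=
  PowerSeries.mk fun n => if n = 0 then 0 else (5 * (σ 3 n : ℤ) + 7 * (σ 5 n : ℤ)) / 12

theorem twelve_mul_qAux : (12 : PowerSeries ℤ) * qAux = 5 * sigmaSeries 3 + 7 * sigmaSeries 5 := by
  have h12 : (12 : PowerSeries ℤ) = PowerSeries.C (12 : ℤ) := by simp
  have h5 : (5 : PowerSeries ℤ) = PowerSeries.C (5 : ℤ) := by simp
  have h7 : (7 : PowerSeries ℤ) = PowerSeries.C (7 : ℤ) := by simp
  ext n
  rw [h12, h5, h7, map_add, PowerSeries.coeff_C_mul, PowerSeries.coeff_C_mul,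
    PowerSeries.coeff_C_mul, coeff_sigmaSeries, coeff_sigmaSeries, qAux, PowerSeries.coeff_mk]
  split_ifs
  · simp
  · exact Int.mul_ediv_cancel' (twelve_dvd_sigma n)

/-- The integral `q`-expansion of `Δ`. -/
noncomputable def qDelta : PowerSeries ℤ :=
  100 * sigmaSeries 3 ^ 2 + 8000 * sigmaSeries 3 ^ 3 - 147 * sigmaSeries 5 ^ 2 + qAux

theorem qDelta_mul : (1728 : PowerSeries ℤ) * qDelta = qE4 ^ 3 - qE6 ^ 2 := by
  have h := twelve_mul_qAux
  rw [qDelta, qE4, qE6]
  linear_combination 144 * h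

theorem constantCoeff_sigmaSeries (k : ℕ) : PowerSeries.constantCoeff (sigmaSeries k) = 0 := by
  rw [← PowerSeries.coeff_zero_eq_constantCoeff_apply, coeff_sigmaSeries]; simp

theorem coeff_zero_qDelta : qDelta.coeff 0 = 0 := by
  rw [PowerSeries.coeff_zero_eq_constantCoeff_apply, qDelta]
  simp only [map_add, map_sub, map_mul, map_pow, constantCoeff_sigmaSeries]
  simp [qAux]

theorem X_dvd_sigmaSeries (k : ℕ) : (PowerSeries.X : PowerSeries ℤ) ∣ sigmaSeries k :=
  PowerSeries.X_dvd_iff.mpr (constantCoeff_sigmaSeries k)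

theorem coeff_one_qDelta : qDelta.coeff 1 = 1 := by
  have hX2 : ∀ (k m : ℕ) (c : PowerSeries ℤ), 2 ≤ m → (c * sigmaSeries k ^ m).coeff 1 = 0 := by
    intro k m c hm
    have h1 : (PowerSeries.X : PowerSeries ℤ) ^ 2 ∣ c * sigmaSeries k ^ m :=
      Dvd.dvd.mul_left ((pow_dvd_pow_of_dvd (X_dvd_sigmaSeries k) 2).trans
        (pow_dvd_pow _ hm)) c
    exact (PowerSeries.X_pow_dvd_iff.mp h1) 1 (by norm_num)
  rw [qDelta, map_add, map_sub, map_add, hX2 3 2 _ le_rfl, hX2 3 3 _ (by norm_num),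
    hX2 5 2 _ le_rfl, qAux, PowerSeries.coeff_mk]
  simp

/-- `Δ = q · (1 + ⋯)`: the cofactor. -/
noncomputable def qDeltaUnit : PowerSeries ℤ := PowerSeries.mk fun n => qDelta.coeff (n + 1)

theorem qDelta_eq : qDelta = PowerSeries.X * qDeltaUnit := by
  ext n
  cases n with
  | zero => simp [coeff_zero_qDelta]
  | succ n => rw [PowerSeries.coeff_succ_X_mul, qDeltaUnit, PowerSeries.coeff_mk]

theorem constantCoeff_qDeltaUnit : PowerSeries.constantCoeff qDeltaUnit = 1 := by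
  rw [← PowerSeries.coeff_zero_eq_constantCoeff_apply, qDeltaUnit, PowerSeries.coeff_mk]
  exact coeff_one_qDelta

/-- `E₄³ - E₆²` as a level one form of weight `12`. -/
noncomputable def e43e62 : ModularForm 𝒮ℒ 12 :=
  ModularForm.mcast (by decide) (E₄.pow 3) - ModularForm.mcast (by decide) (E₆.pow 2)

theorem qExpansion_e43e62 :
    qExpansion 1 e43e62 = qExpansion 1 E₄ ^ 3 - qExpansion 1 E₆ ^ 2 := by
  simp only [e43e62, FunLike.coe_sub, coe_mcast,
    ModularForm.qExpansion_sub one_pos one_mem_strictPeriods_SL,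
    ModularForm.qExpansion_pow one_pos one_mem_strictPeriods_SL]

theorem e43e62_eq : (e43e62 : ℍ → ℂ) = ((1728 : ℂ) • CuspForm.discriminant : CuspForm 𝒮ℒ 12) := by
  funext z
  have h := discriminant_eq_E₄_cube_sub_E₆_sq z
  simp only [e43e62, FunLike.coe_sub, coe_mcast, coe_pow, Pi.sub_apply, Pi.pow_apply,
    FunLike.coe_smul, Pi.smul_apply, CuspForm.coe_discriminant, smul_eq_mul]
  rw [h]
  ring

theorem qDelta_spec : qDelta.map (Int.castRingHom ℂ) = qExpansion 1 Δ := by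
  have h3 : qExpansion 1 e43e62 = (1728 : ℂ) • qExpansion 1 Δ := by
    rw [e43e62_eq]
    exact ModularForm.qExpansion_smul one_pos one_mem_strictPeriods_SL 1728 CuspForm.discriminant
  have h4 := congrArg (PowerSeries.map (Int.castRingHom ℂ)) qDelta_mul
  simp only [map_mul, map_sub, map_pow, qE4_spec, qE6_spec] at h4
  rw [← qExpansion_e43e62, h3] at h4
  have h5 : (PowerSeries.map (Int.castRingHom ℂ)) (1728 : PowerSeries ℤ) = PowerSeries.C (1728 : ℂ) := by
    have : (1728 : PowerSeries ℤ) = PowerSeries.C (1728 : ℤ) := by simp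
    rw [this, PowerSeries.map_C]
    simp
  rw [h5] at h4
  ext n
  have h6 := congrArg (PowerSeries.coeff n) h4
  rw [PowerSeries.coeff_C_mul, PowerSeries.coeff_smul, smul_eq_mul] at h6
  exact mul_left_cancel₀ (by norm_num) h6

/-! ### The structure theorem over a subring of `ℂ` -/

/-- Weights of the generators `E₄, E₆, Δ`. -/
def wt : Fin 3 → ℕ := ![4, 6, 12]

/-- Evaluation of a polynomial at the integral `q`-expansions of `E₄, E₆, Δ`. -/
noncomputable def qEval (A : Type*) [CommRing A] :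
    MvPolynomial (Fin 3) A →ₐ[A] PowerSeries A :=
  MvPolynomial.aeval ![qE4.map (Int.castRingHom A), qE6.map (Int.castRingHom A),
    qDelta.map (Int.castRingHom A)]

/-- Evaluation of a polynomial at the values of `E₄, E₆, Δ` at `z`. -/
noncomputable def fEval (𝒪 : Subring ℂ) (z : ℍ) : MvPolynomial (Fin 3) 𝒪 →ₐ[𝒪] ℂ :=
  MvPolynomial.aeval ![E₄ z, E₆ z, Δ z]

theorem map_map_int (𝒪 : Subring ℂ) (φ : PowerSeries ℤ) :
    (φ.map (Int.castRingHom 𝒪)).map 𝒪.subtype = φ.map (Int.castRingHom ℂ) := by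
  ext n
  simp

/-- Division by `Δ` preserves `𝒪`-integrality of `q`-expansions. -/
theorem coeff_mem_of_discriminant_mul (𝒪 : Subring ℂ) (a b : PowerSeries ℂ)
    (h : a = qExpansion 1 Δ * b) (ha : ∀ n, a.coeff n ∈ 𝒪) :
    ∃ b' : PowerSeries 𝒪, b = b'.map 𝒪.subtype := by
  set a' : PowerSeries 𝒪 := PowerSeries.mk fun n => ⟨a.coeff n, ha n⟩ with ha'
  have hmap : a'.map 𝒪.subtype = a := by
    ext n
    simp [a']
  set U : PowerSeries 𝒪 := qDeltaUnit.map (Int.castRingHom 𝒪) with hUdef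
  have hU : IsUnit U := by
    rw [PowerSeries.isUnit_iff_constantCoeff]
    have : PowerSeries.constantCoeff U = 1 := by
      rw [hUdef, ← PowerSeries.coeff_zero_eq_constantCoeff_apply, PowerSeries.coeff_map,
        PowerSeries.coeff_zero_eq_constantCoeff_apply, constantCoeff_qDeltaUnit]
      simp
    rw [this]
    exact isUnit_one
  have hΔ : qExpansion 1 Δ = PowerSeries.X * U.map 𝒪.subtype := by
    rw [← qDelta_spec, qDelta_eq, map_mul, PowerSeries.map_X, hUdef, map_map_int]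
  have ha0 : PowerSeries.constantCoeff a' = 0 := by
    rw [← PowerSeries.coeff_zero_eq_constantCoeff_apply, ha', PowerSeries.coeff_mk]
    apply Subtype.ext
    simp [h, hΔ, mul_assoc]
  obtain ⟨a'', ha''⟩ : PowerSeries.X ∣ a' := PowerSeries.X_dvd_iff.mpr ha0
  obtain ⟨V, hV⟩ := hU.exists_left_inv
  refine ⟨V * a'', ?_⟩
  have hne : PowerSeries.X * U.map 𝒪.subtype ≠ 0 := by
    rw [← hΔ, ← qDelta_spec]
    intro h0
    have h1 := congrArg (PowerSeries.coeff 1) h0
    rw [PowerSeries.coeff_map, coeff_one_qDelta] at h1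
    simp at h1
  have h1 : PowerSeries.X * U.map 𝒪.subtype * b =
      PowerSeries.X * U.map 𝒪.subtype * (V * a'').map 𝒪.subtype := by
    rw [← hΔ, ← h, ← hmap, ha'', hΔ]
    have : (PowerSeries.X : PowerSeries ℂ) = (PowerSeries.X : PowerSeries 𝒪).map 𝒪.subtype := by
      rw [PowerSeries.map_X]
    rw [this, ← map_mul, ← map_mul]
    congr 1
    calc PowerSeries.X * a'' = PowerSeries.X * ((V * U) * a'') := by rw [hV, one_mul]
      _ = PowerSeries.X * U * (V * a'') := by ring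
  exact mul_left_cancel₀ hne h1

theorem qEval_X0 (A : Type*) [CommRing A] :
    qEval A (MvPolynomial.X 0) = qE4.map (Int.castRingHom A) := by
  simp [qEval]

theorem qEval_X1 (A : Type*) [CommRing A] :
    qEval A (MvPolynomial.X 1) = qE6.map (Int.castRingHom A) := by
  simp [qEval]

theorem qEval_X2 (A : Type*) [CommRing A] :
    qEval A (MvPolynomial.X 2) = qDelta.map (Int.castRingHom A) := by
  simp [qEval]

theorem fEval_X0 (𝒪 : Subring ℂ) (z : ℍ) : fEval 𝒪 z (MvPolynomial.X 0) = E₄ z := by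
  simp [fEval]

theorem fEval_X1 (𝒪 : Subring ℂ) (z : ℍ) : fEval 𝒪 z (MvPolynomial.X 1) = E₆ z := by
  simp [fEval]

theorem fEval_X2 (𝒪 : Subring ℂ) (z : ℍ) : fEval 𝒪 z (MvPolynomial.X 2) = Δ z := by
  simp [fEval]

theorem exists_four_six {m : ℕ} (hm : Even m) (h2 : m ≠ 2) : ∃ a b : ℕ, 4 * a + 6 * b = m := by
  obtain ⟨r, hr⟩ := hm
  rcases Nat.even_or_odd r with ⟨s, hs⟩ | ⟨s, hs⟩
  · exact ⟨s, 0, by omega⟩
  · exact ⟨s - 1, 1, by omega⟩

/-- The monomial form `E₄ᵃ E₆ᵇ`. -/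
noncomputable def monoForm (a b : ℕ) (k : ℤ) (hk : (a : ℤ) * 4 + (b : ℤ) * 6 = k) :
    ModularForm 𝒮ℒ k :=
  ModularForm.mcast hk ((E₄.pow a).mul (E₆.pow b))

theorem monoForm_apply (a b : ℕ) (k : ℤ) (hk : (a : ℤ) * 4 + (b : ℤ) * 6 = k) (z : ℍ) :
    monoForm a b k hk z = E₄ z ^ a * E₆ z ^ b := by
  simp [monoForm, ModularForm.coe_mul, coe_pow]

theorem qExpansion_monoForm (a b : ℕ) (k : ℤ) (hk : (a : ℤ) * 4 + (b : ℤ) * 6 = k) :
    qExpansion 1 (monoForm a b k hk) = qExpansion 1 E₄ ^ a * qExpansion 1 E₆ ^ b := by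
  rw [monoForm, ModularForm.qExpansion_mcast,
    ModularForm.qExpansion_mul one_pos one_mem_strictPeriods_SL,
    ModularForm.qExpansion_pow one_pos one_mem_strictPeriods_SL,
    ModularForm.qExpansion_pow one_pos one_mem_strictPeriods_SL]

theorem core (𝒪 : Subring ℂ) (m : ℕ) : ∀ (k : ℤ), k = m → ∀ f : ModularForm 𝒮ℒ k,
    (∀ n, (qExpansion 1 f).coeff n ∈ 𝒪) →
    ∃ P : MvPolynomial (Fin 3) 𝒪, P.IsWeightedHomogeneous wt m ∧
      (∀ z : ℍ, f z = fEval 𝒪 z P) ∧ qExpansion 1 f = (qEval 𝒪 P).map 𝒪.subtype := by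
  induction m using Nat.strong_induction_on with
  | _ m ih =>
  intro k hk f hf
  have hzero : f = 0 → ∃ P : MvPolynomial (Fin 3) 𝒪, P.IsWeightedHomogeneous wt m ∧
      (∀ z : ℍ, f z = fEval 𝒪 z P) ∧ qExpansion 1 f = (qEval 𝒪 P).map 𝒪.subtype := by
    intro h0
    subst h0
    refine ⟨0, MvPolynomial.isWeightedHomogeneous_zero _ _ _, fun z => by simp, ?_⟩
    rw [map_zero, map_zero]
    exact qExpansion_zero 1
  rcases Nat.even_or_odd m with hm | hm
  swap
  · exact hzero (levelOne_odd_weight_eq_zero (by rw [hk]; exact_mod_cast hm) f)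
  by_cases h2 : m = 2
  · apply hzero
    subst h2
    subst hk
    exact rank_zero_iff_forall_zero.mp levelOne_weight_two_rank_zero f
  obtain ⟨a, b, hab⟩ := exists_four_six hm h2
  have hk' : (a : ℤ) * 4 + (b : ℤ) * 6 = k := by
    rw [hk, ← hab]
    push_cast
    ring
  set a₀ : ℂ := (qExpansion 1 f).coeff 0 with ha₀
  have ha₀mem : a₀ ∈ 𝒪 := hf 0
  set f' : ModularForm 𝒮ℒ k := f - a₀ • monoForm a b k hk' with hf'
  have hq' : qExpansion 1 f' = qExpansion 1 f -
      a₀ • (qExpansion 1 E₄ ^ a * qExpansion 1 E₆ ^ b) := by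
    rw [hf', FunLike.coe_sub, ModularForm.qExpansion_sub one_pos one_mem_strictPeriods_SL,
      FunLike.coe_smul, ModularForm.qExpansion_smul one_pos one_mem_strictPeriods_SL,
      qExpansion_monoForm]
  have hq'int : qExpansion 1 f' = qExpansion 1 f -
      (PowerSeries.C (⟨a₀, ha₀mem⟩ : 𝒪) * (qE4.map (Int.castRingHom 𝒪)) ^ a *
        (qE6.map (Int.castRingHom 𝒪)) ^ b).map 𝒪.subtype := by
    rw [hq', map_mul, map_mul, map_pow, map_pow, map_map_int, map_map_int, qE4_spec, qE6_spec,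
      PowerSeries.map_C, mul_assoc, ← PowerSeries.smul_eq_C_mul]
    rfl
  have hkey : (PowerSeries.coeff 0) (qExpansion 1 E₄ ^ a * qExpansion 1 E₆ ^ b) = 1 := by
    have hE4 : PowerSeries.constantCoeff (qExpansion 1 E₄) = 1 := by
      rw [← PowerSeries.coeff_zero_eq_constantCoeff_apply]
      exact E_qExpansion_coeff_zero _ ⟨2, rfl⟩
    have hE6 : PowerSeries.constantCoeff (qExpansion 1 E₆) = 1 := by
      rw [← PowerSeries.coeff_zero_eq_constantCoeff_apply]
      exact E_qExpansion_coeff_zero _ ⟨3, rfl⟩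
    rw [PowerSeries.coeff_zero_eq_constantCoeff_apply, map_mul, map_pow, map_pow, hE4, hE6]
    simp
  have h0 : (qExpansion 1 f').coeff 0 = 0 := by
    rw [hq', map_sub, PowerSeries.coeff_smul, hkey]
    simp [ha₀]
  have hf'int : ∀ n, (qExpansion 1 f').coeff n ∈ 𝒪 := by
    intro n
    rw [hq'int, map_sub, PowerSeries.coeff_map]
    exact 𝒪.sub_mem (hf n) (SetLike.coe_mem _)
  set g : ModularForm 𝒮ℒ (k - 12) := CuspForm.discriminantEquiv (toCuspForm f' h0) with hg
  have hfg : qExpansion 1 f' = qExpansion 1 Δ * qExpansion 1 g :=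
    qExpansion_eq_qExpansion_discriminant_mul f' h0
  have hfgz : ∀ z : ℍ, f' z = Δ z * g z := fun z =>
    (discriminant_mul_discriminantEquiv_apply (toCuspForm f' h0) z).symm
  obtain ⟨gq, hgq⟩ := coeff_mem_of_discriminant_mul 𝒪 _ _ hfg hf'int
  have hgint : ∀ n, (qExpansion 1 g).coeff n ∈ 𝒪 := by
    intro n
    rw [hgq, PowerSeries.coeff_map]
    exact SetLike.coe_mem _
  have hfz : ∀ z : ℍ, f z = a₀ * (E₄ z ^ a * E₆ z ^ b) + Δ z * g z := by
    intro z
    rw [← hfgz z, hf']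
    simp [monoForm_apply]
  have hfq : qExpansion 1 f = (PowerSeries.C (⟨a₀, ha₀mem⟩ : 𝒪) *
      (qE4.map (Int.castRingHom 𝒪)) ^ a * (qE6.map (Int.castRingHom 𝒪)) ^ b).map 𝒪.subtype +
      qExpansion 1 Δ * qExpansion 1 g := by
    rw [← hfg, hq'int]
    ring
  have hmono : (MvPolynomial.C (⟨a₀, ha₀mem⟩ : 𝒪) * MvPolynomial.X 0 ^ a * MvPolynomial.X 1 ^ b :
      MvPolynomial (Fin 3) 𝒪).IsWeightedHomogeneous wt m := by
    have h1 := ((MvPolynomial.isWeightedHomogeneous_C wt (⟨a₀, ha₀mem⟩ : 𝒪)).mul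
      ((MvPolynomial.isWeightedHomogeneous_X 𝒪 wt 0).pow a)).mul
      ((MvPolynomial.isWeightedHomogeneous_X 𝒪 wt 1).pow b)
    have h2 : 0 + a • wt 0 + b • wt 1 = m := by
      simp only [wt, Matrix.cons_val_zero, Matrix.cons_val_one, smul_eq_mul]
      omega
    rw [h2] at h1
    exact h1
  rcases lt_or_ge m 12 with hlt | hge
  · -- weight `< 12`: `g = 0`
    have hg0 : g = 0 :=
      rank_zero_iff_forall_zero.mp (levelOne_neg_weight_rank_zero (by omega)) g
    refine ⟨_, hmono, fun z => ?_, ?_⟩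
    · rw [hfz z, hg0]
      simp only [map_mul, map_pow, fEval_X0, fEval_X1]
      simp only [fEval, MvPolynomial.aeval_C, FunLike.coe_zero, Pi.zero_apply, mul_zero,
        add_zero]
      rw [show (algebraMap 𝒪 ℂ) ⟨a₀, ha₀mem⟩ = a₀ from rfl]
      ring
    · rw [hfq, hg0]
      simp only [map_mul, map_pow, qEval_X0, qEval_X1]
      simp [qEval, qExpansion_zero]
  · obtain ⟨P', hP'w, hP'z, hP'q⟩ := ih (m - 12) (by omega) (k - 12) (by omega) g hgint
    refine ⟨MvPolynomial.C (⟨a₀, ha₀mem⟩ : 𝒪) * MvPolynomial.X 0 ^ a * MvPolynomial.X 1 ^ b +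
      MvPolynomial.X 2 * P', ?_, fun z => ?_, ?_⟩
    · refine hmono.add ?_
      have h1 := (MvPolynomial.isWeightedHomogeneous_X 𝒪 wt 2).mul hP'w
      have h2 : wt 2 + (m - 12) = m := by
        simp only [wt, Matrix.cons_val_two, Matrix.tail_cons, Matrix.head_cons]
        omega
      rw [h2] at h1
      exact h1
    · rw [hfz z, hP'z z]
      simp only [map_add, map_mul, map_pow, fEval_X0, fEval_X1, fEval_X2]
      simp only [fEval, MvPolynomial.aeval_C]
      rw [show (algebraMap 𝒪 ℂ) ⟨a₀, ha₀mem⟩ = a₀ from rfl]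
      ring
    · rw [hfq, hP'q]
      simp only [map_add, map_mul, map_pow, qEval_X0, qEval_X1, qEval_X2, map_map_int, qDelta_spec]
      simp [qEval]

/-- **Structure theorem (W3)**: a level one modular form of weight `k` whose `q`-expansion has
all coefficients in a subring `𝒪 ⊆ ℂ` is an isobaric `𝒪`-polynomial in `E₄, E₆, Δ`
(weights `4, 6, 12`), both as a function on `ℍ` and on `q`-expansions. -/
theorem exists_isobaric (𝒪 : Subring ℂ) {k : ℕ} (f : ModularForm 𝒮ℒ (k : ℤ))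
    (hf : ∀ n, (qExpansion 1 f).coeff n ∈ 𝒪) :
    ∃ P : MvPolynomial (Fin 3) 𝒪, P.IsWeightedHomogeneous wt k ∧
      (∀ z : ℍ, f z = fEval 𝒪 z P) ∧ qExpansion 1 f = (qEval 𝒪 P).map 𝒪.subtype :=
  core 𝒪 k k rfl f hf

end Fermat.Agent.S16.LevelOneW3
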