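/-
S16, block [L2b] (owner: helper19): lifting homomorphisms that kill a set.

For a finitely generated group `G` and a set `K ⊆ G`, suppose that the homomorphisms `G → ℂ`
killing `K` contain `d` linearly independent ones, while for every prime `ℓ` any linearly
independent family of homomorphisms `G → 𝔽_ℓ` killing `K` has at most `d` members.  Then
`G^ab / ⟨K⟩` is free, hence every homomorphism `G → A` killing `K` is an `A`-combination of
homomorphisms `G → ℤ` killing `K`; in particular homomorphisms to `ZMod n` lift to `ℤ`.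
-/
import Mathlib
import Fermat.Agent.S16.FreeCrit

set_option autoImplicit false

namespace Fermat.Agent.S16.Lift

open Module

section Quo

variable (G : Type*) [Group G] (K : Set G)

/-- The abelianisation map, written additively. -/
def abMap : Additive G →+ Additive (Abelianization G) :=
  MonoidHom.toAdditive Abelianization.of

/-- The relations: the images of the elements of `K`. -/
def relSub : Submodule ℤ (Additive (Abelianization G)) :=
  Submodule.span ℤ ((fun g : G => abMap G (Additive.ofMul g)) '' K)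

/-- `G^ab / ⟨K⟩`. -/
abbrev Quo : Type _ := Additive (Abelianization G) ⧸ relSub G K

/-- The projection `G → G^ab / ⟨K⟩`. -/
def proj : Additive G →+ Quo G K :=
  (relSub G K).mkQ.toAddMonoidHom.comp (abMap G)

lemma abMap_surjective : Function.Surjective (abMap G) := by
  intro x
  obtain ⟨g, hg⟩ := QuotientGroup.mk_surjective (Additive.toMul x)
  exact ⟨Additive.ofMul g, congrArg Additive.ofMul hg⟩

lemma proj_surjective : Function.Surjective (proj G K) := by
  intro x
  obtain ⟨y, rfl⟩ := Submodule.Quotient.mk_surjective _ x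
  obtain ⟨g, rfl⟩ := abMap_surjective G y
  exact ⟨g, rfl⟩

lemma proj_of_mem {g : G} (hg : g ∈ K) : proj G K (Additive.ofMul g) = 0 := by
  change Submodule.Quotient.mk (abMap G (Additive.ofMul g)) = 0
  rw [Submodule.Quotient.mk_eq_zero]
  exact Submodule.subset_span ⟨g, hg, rfl⟩

instance finite_quo [Group.FG G] : Module.Finite ℤ (Quo G K) := by
  have h1 : Group.FG (Abelianization G) :=
    Group.fg_of_surjective (f := Abelianization.of) (QuotientGroup.mk_surjective)
  have h2 : AddGroup.FG (Additive (Abelianization G)) := inferInstance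
  have h3 : Module.Finite ℤ (Additive (Abelianization G)) := Module.Finite.iff_addGroup_fg.mpr h2
  infer_instance

variable {G K}

/-- A homomorphism killing `K` factors through `G^ab / ⟨K⟩`. -/
lemma exists_factor {A : Type*} [AddCommGroup A] (φ : Additive G →+ A)
    (hφ : ∀ g ∈ K, φ (Additive.ofMul g) = 0) :
    ∃ f : Quo G K →+ A, ∀ x, f (proj G K x) = φ x := by
  let φ₁ : G →* Multiplicative A := AddMonoidHom.toMultiplicativeRight φ
  let φ₂ : Abelianization G →* Multiplicative A := Abelianization.lift φ₁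
  let φ₃ : Additive (Abelianization G) →+ A := MonoidHom.toAdditiveLeft φ₂
  have h3 : ∀ x : Additive G, φ₃ (abMap G x) = φ x := by
    intro x
    have h : φ₂ (Abelianization.of (Additive.toMul x)) = φ₁ (Additive.toMul x) :=
      Abelianization.lift_apply_of φ₁ _
    exact congrArg Multiplicative.toAdd h
  have hle : relSub G K ≤ LinearMap.ker φ₃.toIntLinearMap := by
    apply Submodule.span_le.mpr
    rintro _ ⟨g, hg, rfl⟩
    change φ₃ (abMap G (Additive.ofMul g)) = 0
    rw [h3]
    exact hφ g hg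
  refine ⟨((relSub G K).liftQ φ₃.toIntLinearMap hle).toAddMonoidHom, fun x => ?_⟩
  change (relSub G K).liftQ φ₃.toIntLinearMap hle (Submodule.Quotient.mk (abMap G x)) = φ x
  rw [Submodule.liftQ_apply]
  exact h3 x

variable (G K)

/-- Precomposition with the projection, as a linear map. -/
def compProj (R : Type*) [Semiring R] (A : Type*) [AddCommGroup A] [Module R A] :
    (Quo G K →+ A) →ₗ[R] (Additive G →+ A) where
  toFun f := f.comp (proj G K)
  map_add' _ _ := rfl
  map_smul' _ _ := rfl

lemma compProj_injective (R : Type*) [Semiring R] (A : Type*) [AddCommGroup A] [Module R A] :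
    Function.Injective (compProj G K R A) := by
  intro f g hfg
  ext x
  obtain ⟨y, rfl⟩ := proj_surjective G K x
  exact DFunLike.congr_fun hfg y

lemma compProj_apply_of_mem (R : Type*) [Semiring R] (A : Type*) [AddCommGroup A] [Module R A]
    (f : Quo G K →+ A) {g : G} (hg : g ∈ K) : compProj G K R A f (Additive.ofMul g) = 0 := by
  change f (proj G K (Additive.ofMul g)) = 0
  rw [proj_of_mem G K hg, map_zero]

end Quo

section Main

variable {G : Type*} [Group G] [Group.FG G] (K : Set G) (d : ℕ)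

/-- `G^ab / ⟨K⟩` is free under the two dimension hypotheses. -/
theorem free_quo
    (hC : ∃ v : Fin d → (Additive G →+ ℂ), LinearIndependent ℂ v ∧
      ∀ i, ∀ g ∈ K, v i (Additive.ofMul g) = 0)
    (hℓ : ∀ ℓ : ℕ, ℓ.Prime → ∀ (m : ℕ) (v : Fin m → (Additive G →+ ZMod ℓ)),
      LinearIndependent (ZMod ℓ) v → (∀ i, ∀ g ∈ K, v i (Additive.ofMul g) = 0) → m ≤ d) :
    Module.Free ℤ (Quo G K) := by
  apply FreeCrit.free_of_hom_bounds (Quo G K) d
  · obtain ⟨v, hv, hvK⟩ := hC
    choose f hf using fun i => exists_factor (v i) (hvK i)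
    have hcomp : (compProj G K ℂ ℂ) ∘ f = v := by
      funext i
      ext x
      exact hf i x
    have hlin : LinearIndependent ℂ f := by
      apply LinearIndependent.of_comp (compProj G K ℂ ℂ)
      rw [hcomp]
      exact hv
    have := FreeCrit.finite_hom (Quo G K) ℂ
    have h := hlin.fintype_card_le_finrank
    simpa using h
  · intro ℓ hℓp
    have := FreeCrit.finite_hom (Quo G K) (ZMod ℓ)
    let b := Module.finBasis (ZMod ℓ) (Quo G K →+ ZMod ℓ)
    have hlin : LinearIndependent (ZMod ℓ) ((compProj G K (ZMod ℓ) (ZMod ℓ)) ∘ b) :=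
      b.linearIndependent.map' _ (LinearMap.ker_eq_bot.mpr (compProj_injective G K _ _))
    exact hℓ ℓ hℓp.out _ _ hlin
      (fun i g hg => compProj_apply_of_mem G K (ZMod ℓ) (ZMod ℓ) (b i) hg)

/-- **General coefficients.** Every homomorphism `G → A` killing `K` is an `A`-combination of
homomorphisms `G → ℤ` killing `K`. -/
theorem exists_lift_general
    (hC : ∃ v : Fin d → (Additive G →+ ℂ), LinearIndependent ℂ v ∧
      ∀ i, ∀ g ∈ K, v i (Additive.ofMul g) = 0)
    (hℓ : ∀ ℓ : ℕ, ℓ.Prime → ∀ (m : ℕ) (v : Fin m → (Additive G →+ ZMod ℓ)),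
      LinearIndependent (ZMod ℓ) v → (∀ i, ∀ g ∈ K, v i (Additive.ofMul g) = 0) → m ≤ d)
    {A : Type*} [AddCommGroup A] (φ : Additive G →+ A)
    (hφ : ∀ g ∈ K, φ (Additive.ofMul g) = 0) :
    ∃ (n : ℕ) (Φ : Fin n → (Additive G →+ ℤ)) (a : Fin n → A),
      (∀ i, ∀ g ∈ K, Φ i (Additive.ofMul g) = 0) ∧ ∀ x, φ x = ∑ i, Φ i x • a i := by
  have hfree := free_quo K d hC hℓ
  obtain ⟨f, hf⟩ := exists_factor φ hφ
  obtain ⟨n, F, a, hFa⟩ := FreeCrit.exists_dual_decomp (Quo G K) f
  refine ⟨n, fun i => (F i).comp (proj G K), a, fun i g hg => ?_, fun x => ?_⟩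
  · change F i (proj G K (Additive.ofMul g)) = 0
    rw [proj_of_mem G K hg, map_zero]
  · rw [← hf x, hFa]
    rfl

/-- **Integral lifts.** Every homomorphism `G → ZMod n` killing `K` lifts to a homomorphism
`G → ℤ` killing `K`. -/
theorem exists_int_lift
    (hC : ∃ v : Fin d → (Additive G →+ ℂ), LinearIndependent ℂ v ∧
      ∀ i, ∀ g ∈ K, v i (Additive.ofMul g) = 0)
    (hℓ : ∀ ℓ : ℕ, ℓ.Prime → ∀ (m : ℕ) (v : Fin m → (Additive G →+ ZMod ℓ)),
      LinearIndependent (ZMod ℓ) v → (∀ i, ∀ g ∈ K, v i (Additive.ofMul g) = 0) → m ≤ d)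
    (n : ℕ) (φ : Additive G →+ ZMod n) (hφ : ∀ g ∈ K, φ (Additive.ofMul g) = 0) :
    ∃ φ' : Additive G →+ ℤ, (∀ g ∈ K, φ' (Additive.ofMul g) = 0) ∧
      ∀ x, ((φ' x : ℤ) : ZMod n) = φ x := by
  obtain ⟨k, Φ, a, hΦ, hsum⟩ := exists_lift_general K d hC hℓ φ hφ
  choose a' ha' using fun i => ZMod.intCast_surjective (a i)
  refine ⟨∑ i, a' i • Φ i, fun g hg => ?_, fun x => ?_⟩
  · rw [AddMonoidHom.finsetSum_apply]
    apply Finset.sum_eq_zero
    intro i _
    have : (a' i • Φ i) (Additive.ofMul g) = a' i • Φ i (Additive.ofMul g) := rfl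
    rw [this, hΦ i g hg, smul_zero]
  · rw [AddMonoidHom.finsetSum_apply, hsum x, Int.cast_sum]
    apply Finset.sum_congr rfl
    intro i _
    have : (a' i • Φ i) x = a' i • Φ i x := rfl
    rw [this, smul_eq_mul, Int.cast_mul, ha' i, zsmul_eq_mul, mul_comm]

end Main

end Fermat.Agent.S16.Lift
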