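/-
S16 (U), block [LvlFacts] (helper58): level-one facts in the `LQ` shape of `S16/UDefs.lean`.
`LQ w` = `q`-expansions of level-one modular forms of weight `w`.
All names live in the namespace `Fermat.Agent.S16.LvlFacts`.
-/
import Mathlib
import Fermat.Agent.S16.UDefs
import Fermat.Agent.S24.JFormal
import Fermat.Agent.S24.JFormalE4

set_option autoImplicit false

noncomputable section

namespace Fermat.Agent.S16.LvlFacts

open UpperHalfPlane ModularForm EisensteinSeries
open scoped MatrixGroups ModularForm ArithmeticFunction.sigma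

/-! ### Integral models of the `q`-expansions of `E₄`, `E₆`, `Δ` -/

/-- `1 + 240 ∑ σ₃(n) qⁿ` (the prelude's `eisenstein4`). -/
def e4Z : PowerSeries ℤ := ModularCurve.eisenstein4

/-- `1 - 504 ∑ σ₅(n) qⁿ`. -/
def e6Z : PowerSeries ℤ := PowerSeries.mk fun m => if m = 0 then 1 else -504 * (σ 5 m : ℤ)

/-- `q ∏ (1 - qⁿ)^24`. -/
def deltaZ : PowerSeries ℤ := PowerSeries.X * ModularCurve.dedekindEtaUnit

theorem coeff_e4Z (m : ℕ) :
    PowerSeries.coeff m e4Z = if m = 0 then 1 else 240 * (σ 3 m : ℤ) := by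
  rw [e4Z, ModularCurve.eisenstein4, PowerSeries.coeff_mk, ArithmeticFunction.sigma_apply]
  push_cast
  rfl

theorem coeff_e6Z (m : ℕ) :
    PowerSeries.coeff m e6Z = if m = 0 then 1 else -504 * (σ 5 m : ℤ) := by
  rw [e6Z, PowerSeries.coeff_mk]

theorem coeff_zero_e4Z : PowerSeries.coeff 0 e4Z = 1 := by rw [coeff_e4Z, if_pos rfl]

theorem coeff_zero_e6Z : PowerSeries.coeff 0 e6Z = 1 := by rw [coeff_e6Z, if_pos rfl]

/-- The discriminant as a level-one modular form of weight `12`. -/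
def deltaMF : ModularForm 𝒮ℒ 12 := CuspForm.discriminant

theorem coe_deltaMF : (⇑deltaMF : ℍ → ℂ) = ModularForm.discriminant := rfl

/-! ### `q`-expansions of `E₄`, `E₆`, `Δ` -/

theorem qExpansion_E4 : qExpansion 1 (⇑ModularForm.E₄ : ℍ → ℂ) = e4Z.map (Int.castRingHom ℂ) :=
  S24.JFormalE4.qExpansion_E₄

theorem qExpansion_E6 : qExpansion 1 (⇑ModularForm.E₆ : ℍ → ℂ) = e6Z.map (Int.castRingHom ℂ) := by
  ext m
  rw [E_qExpansion_coeff (by norm_num : 3 ≤ 6) ⟨3, rfl⟩ m, PowerSeries.coeff_map, e6Z,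
    PowerSeries.coeff_mk]
  by_cases hm : m = 0
  · simp [hm]
  · rw [if_neg hm, if_neg hm, show bernoulli 6 = 1 / 42 by decide +kernel, eq_intCast]
    push_cast
    ring

theorem qExpansion_Delta :
    qExpansion 1 (ModularForm.discriminant : ℍ → ℂ) = deltaZ.map (Int.castRingHom ℂ) := by
  rw [S24.JFormal.qExpansion_discriminant, deltaZ, map_mul, PowerSeries.map_X]

theorem coeff_e4 (m : ℕ) :
    PowerSeries.coeff m (e4Z.map (Int.castRingHom ℂ)) = if m = 0 then 1 else 240 * (σ 3 m : ℂ) := by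
  rw [PowerSeries.coeff_map, coeff_e4Z]
  split_ifs <;> simp

theorem coeff_e6 (m : ℕ) :
    PowerSeries.coeff m (e6Z.map (Int.castRingHom ℂ)) = if m = 0 then 1 else -504 * (σ 5 m : ℂ) := by
  rw [PowerSeries.coeff_map, coeff_e6Z]
  split_ifs <;> simp

theorem e4_mem_LQ : e4Z.map (Int.castRingHom ℂ) ∈ LQ 4 := ⟨ModularForm.E₄, qExpansion_E4⟩

theorem e6_mem_LQ : e6Z.map (Int.castRingHom ℂ) ∈ LQ 6 := ⟨ModularForm.E₆, qExpansion_E6⟩

theorem delta_mem_LQ : deltaZ.map (Int.castRingHom ℂ) ∈ LQ 12 := ⟨deltaMF, qExpansion_Delta⟩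

/-! ### Coefficients of `deltaZ` -/

theorem coeff_zero_deltaZ : PowerSeries.coeff 0 deltaZ = 0 := by
  rw [deltaZ, PowerSeries.coeff_zero_eq_constantCoeff_apply, map_mul, PowerSeries.constantCoeff_X,
    zero_mul]

theorem coeff_one_deltaZ : PowerSeries.coeff 1 deltaZ = 1 := by
  rw [deltaZ, show (1 : ℕ) = 0 + 1 from rfl, PowerSeries.coeff_succ_X_mul,
    PowerSeries.coeff_zero_eq_constantCoeff_apply, ModularCurve.constantCoeff_dedekindEtaUnit]

theorem coeff_zero_delta : PowerSeries.coeff 0 (deltaZ.map (Int.castRingHom ℂ)) = 0 := by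
  rw [PowerSeries.coeff_map, coeff_zero_deltaZ, map_zero]

theorem coeff_one_delta : PowerSeries.coeff 1 (deltaZ.map (Int.castRingHom ℂ)) = 1 := by
  rw [PowerSeries.coeff_map, coeff_one_deltaZ, map_one]

theorem delta_ne_zero : deltaZ.map (Int.castRingHom ℂ) ≠ 0 := by
  intro h
  have := coeff_one_delta
  rw [h, map_zero] at this
  exact zero_ne_one this

/-! ### The discriminant identity -/

theorem map_intCast_injective :
    Function.Injective (PowerSeries.map (Int.castRingHom ℂ)) := by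
  intro a b h
  ext n
  have := congrArg (PowerSeries.coeff n) h
  rw [PowerSeries.coeff_map, PowerSeries.coeff_map] at this
  exact Int.cast_injective this

/-- `E₄³ - E₆² = 1728 Δ` on `q`-expansions over `ℂ`. -/
theorem disc_identity_complex :
    (e4Z.map (Int.castRingHom ℂ)) ^ 3 - (e6Z.map (Int.castRingHom ℂ)) ^ 2 =
      (1728 : ℂ) • deltaZ.map (Int.castRingHom ℂ) := by
  have h1 : (1728 : ℂ) • (⇑deltaMF : ℍ → ℂ) =
      ⇑(ModularForm.E₄.pow 3) - ⇑(ModularForm.E₆.pow 2) := by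
    ext z
    have := ModularForm.discriminant_eq_E₄_cube_sub_E₆_sq z
    simp only [Pi.smul_apply, smul_eq_mul, coe_deltaMF, ModularForm.coe_pow, Pi.sub_apply,
      Pi.pow_apply]
    rw [this]
    ring
  have h2 := congrArg (qExpansion 1) h1
  rw [ModularForm.qExpansion_smul one_pos one_mem_strictPeriods_SL, coe_deltaMF,
    qExpansion_Delta, ModularForm.qExpansion_sub one_pos one_mem_strictPeriods_SL,
    ModularForm.qExpansion_pow one_pos one_mem_strictPeriods_SL,
    ModularForm.qExpansion_pow one_pos one_mem_strictPeriods_SL, qExpansion_E4, qExpansion_E6]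
    at h2
  exact h2.symm

/-- `E₄³ - E₆² = 1728 Δ` on the integral models. -/
theorem disc_identity : e4Z ^ 3 - e6Z ^ 2 = (1728 : ℤ) • deltaZ := by
  apply map_intCast_injective
  rw [map_sub, map_pow, map_pow, disc_identity_complex]
  ext n
  rw [PowerSeries.coeff_map, PowerSeries.coeff_smul, PowerSeries.coeff_map, map_zsmul]
  simp

/-! ### Division by `Δ` and low weights -/

/-- A level-one form with vanishing constant term is `Δ` times a form of weight `k - 12`. -/
theorem cusp_div {k : ℤ} {a : PowerSeries ℂ} (ha : a ∈ LQ k) (h0 : PowerSeries.coeff 0 a = 0) :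
    ∃ g ∈ LQ (k - 12), a = deltaZ.map (Int.castRingHom ℂ) * g := by
  obtain ⟨F, rfl⟩ := ha
  refine ⟨_, ⟨CuspForm.discriminantEquiv (toCuspForm F h0), rfl⟩, ?_⟩
  rw [← qExpansion_Delta]
  exact qExpansion_eq_qExpansion_discriminant_mul F h0

/-- There is no nonzero level-one form of weight `2`. -/
theorem LQ_two {a : PowerSeries ℂ} (ha : a ∈ LQ 2) : a = 0 := by
  obtain ⟨F, rfl⟩ := ha
  have hF : F = 0 := by
    have h := ModularForm.levelOne_weight_two_rank_zero
    rw [rank_zero_iff_forall_zero] at h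
    exact h F
  rw [hF]
  exact qExpansion_zero 1

/-- There is no nonzero level-one form of negative weight. -/
theorem LQ_neg {k : ℤ} (hk : k < 0) {a : PowerSeries ℂ} (ha : a ∈ LQ k) : a = 0 := by
  obtain ⟨F, rfl⟩ := ha
  rw [ModularFormClass.levelOne_neg_weight_eq_zero hk F]
  exact qExpansion_zero 1

/-- A level-one cusp form of weight `< 12` vanishes. -/
theorem LQ_cusp_of_lt {k : ℤ} (hk : k < 12) {a : PowerSeries ℂ} (ha : a ∈ LQ k)
    (h0 : PowerSeries.coeff 0 a = 0) : a = 0 := by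
  obtain ⟨g, hg, rfl⟩ := cusp_div ha h0
  rw [LQ_neg (by omega) hg, mul_zero]

/-- A level-one cusp form of weight `14` vanishes. -/
theorem LQ_14_cusp {a : PowerSeries ℂ} (ha : a ∈ LQ 14) (h0 : PowerSeries.coeff 0 a = 0) :
    a = 0 := by
  obtain ⟨g, hg, rfl⟩ := cusp_div ha h0
  have : g = 0 := LQ_two (by simpa using hg)
  rw [this, mul_zero]

/-- A level-one form of weight `0` is constant. -/
theorem LQ_zero {a : PowerSeries ℂ} (ha : a ∈ LQ 0) : a = PowerSeries.C (PowerSeries.coeff 0 a) := by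
  obtain ⟨F, rfl⟩ := ha
  obtain ⟨c, hc⟩ := ModularFormClass.levelOne_weight_zero_const F
  have h1 : (⇑F : ℍ → ℂ) = c • ⇑(1 : ModularForm 𝒮ℒ 0) := by
    rw [hc]
    ext z
    simp
  have h2 : qExpansion 1 (⇑F : ℍ → ℂ) = PowerSeries.C c := by
    rw [h1, ModularForm.qExpansion_smul one_pos one_mem_strictPeriods_SL,
      ModularForm.qExpansion_one]
    ext n
    simp [PowerSeries.coeff_C, PowerSeries.coeff_one]
  rw [h2]
  simp

/-- A level-one cusp form of weight `12` is a multiple of `Δ`. -/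
theorem LQ_12_cusp {a : PowerSeries ℂ} (ha : a ∈ LQ 12) (h0 : PowerSeries.coeff 0 a = 0) :
    a = PowerSeries.coeff 1 a • deltaZ.map (Int.castRingHom ℂ) := by
  obtain ⟨g, hg, rfl⟩ := cusp_div ha h0
  have hg' : g = PowerSeries.C (PowerSeries.coeff 0 g) := LQ_zero (by simpa using hg)
  have h1 : PowerSeries.coeff 1 (deltaZ.map (Int.castRingHom ℂ) * g) = PowerSeries.coeff 0 g := by
    rw [hg', PowerSeries.coeff_mul_C, coeff_one_delta, one_mul, PowerSeries.coeff_C, if_pos rfl]
  rw [h1]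
  conv_lhs => rw [hg']
  ext n
  simp [mul_comm]

/-! ### `σ₃ ≡ σ₅ mod 8` -/

theorem eight_dvd_pow_five_sub_pow_three (d : ℤ) : (8 : ℤ) ∣ d ^ 5 - d ^ 3 := by
  have h : ∀ r : ZMod 8, r ^ 5 - r ^ 3 = 0 := by decide
  have := h (d : ZMod 8)
  exact (ZMod.intCast_zmod_eq_zero_iff_dvd (d ^ 5 - d ^ 3) 8).mp (by push_cast; exact this)

/-- `σ₅(n) ≡ σ₃(n) mod 8`. -/
theorem sigma_five_sub_sigma_three (n : ℕ) : (8 : ℤ) ∣ (σ 5 n : ℤ) - (σ 3 n : ℤ) := by
  rw [ArithmeticFunction.sigma_apply, ArithmeticFunction.sigma_apply]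
  push_cast
  rw [← Finset.sum_sub_distrib]
  exact Finset.dvd_sum fun d _ => eight_dvd_pow_five_sub_pow_three d

end Fermat.Agent.S16.LvlFacts
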