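/-
S16, block (L)/[L2] wiring (helper21): every character `Γ₀(N) → ℤ/n` killing the parabolic
elements and the elements of order dividing `12` lifts to a parabolic character `Γ₀(N) → ℤ`.

Inputs: the abstract lifting lemma (`LiftLemma.exists_int_lift`), the characteristic-free bound
(`HomCircBound.finrank_circHoms_Gamma0_le_two_mul`), `dim S₂(Γ₀(N)) = g(N)` (S20) and the
Eichler–Shimura isomorphism (S21).
-/
import Fermat.Agent.S16.LiftLemma
import Fermat.Agent.S16.HomCircBound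
import Fermat.Agent.S16.LDefs
import Fermat.Agent.S20
import Fermat.Agent.S21
import Fermat.Agent.S22.GammaFG

set_option autoImplicit false

open scoped MatrixGroups
open ModularCurve ModularCurve.Period CongruenceSubgroup

namespace Fermat.Agent.S16.ParLift

/-- `dim Hom_par(Γ₀(N), ℂ) = 2 dim S₂(Γ₀(N))` (Eichler–Shimura). -/
theorem finrank_parabolicHoms_eq (N : ℕ) [NeZero N] :
    Module.finrank ℂ (parabolicHoms ℂ (Gamma0 N) ℂ)
      = 2 * Module.finrank ℂ (CuspForm (Gamma0 N) 2) := by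
  have hfin : Module.Finite ℂ (CuspForm (Gamma0 N) 2) := Fermat.Agent.S21.finite_cuspForm_Gamma0 N
  obtain ⟨hinj, hrange⟩ := Fermat.Agent.S21.result N
  rw [← hrange, LinearMap.finrank_range_of_inj hinj, Module.finrank_prod]
  ring

/-- **Lifting of circ characters.** -/
theorem exists_parabolic_lift (N : ℕ) [NeZero N] (n : ℕ) [NeZero n]
    (ψ : Additive (Gamma0 N) →+ ZMod n) (hψ : IsCircHom (Gamma0 N) ψ) :
    ∃ φ : Additive (Gamma0 N) →+ ℤ, IsParabolicHom (Gamma0 N) φ ∧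
      ∀ γ, ((φ γ : ℤ) : ZMod n) = ψ γ := by
  classical
  have hfg : Group.FG ↥(Gamma0 N) := Fermat.Agent.S22.gamma0_fg N
  set g := Module.finrank ℂ (CuspForm (Gamma0 N) 2) with hg
  let K : Set (Gamma0 N) :=
    {γ | ((γ : SL(2, ℤ)) : Matrix (Fin 2) (Fin 2) ℤ).trace ^ 2 = 4 ∨ γ ^ 12 = 1}
  -- the complex side
  have hC : ∃ v : Fin (2 * g) → (Additive (Gamma0 N) →+ ℂ), LinearIndependent ℂ v ∧
      ∀ i, ∀ γ ∈ K, v i (Additive.ofMul γ) = 0 := by
    have hfin : Module.Finite ℂ (parabolicHoms ℂ (Gamma0 N) ℂ) :=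
      Fermat.Agent.S21.finite_parabolicHoms_Gamma0 N
    let b := Module.finBasisOfFinrankEq ℂ (parabolicHoms ℂ (Gamma0 N) ℂ)
      (finrank_parabolicHoms_eq N)
    refine ⟨fun i => (b i : Additive (Gamma0 N) →+ ℂ), ?_, ?_⟩
    · exact b.linearIndependent.map' (Submodule.subtype _) (Submodule.ker_subtype _)
    · intro i γ hγ
      have hmem : (b i : Additive (Gamma0 N) →+ ℂ) ∈ circHoms ℂ (Gamma0 N) ℂ := by
        rw [circHoms_complex_eq]
        exact (b i).2
      exact hmem γ hγ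
  -- the mod `ℓ` side
  have hℓ : ∀ ℓ : ℕ, ℓ.Prime → ∀ (m : ℕ) (v : Fin m → (Additive (Gamma0 N) →+ ZMod ℓ)),
      LinearIndependent (ZMod ℓ) v → (∀ i, ∀ γ ∈ K, v i (Additive.ofMul γ) = 0) →
        m ≤ 2 * g := by
    intro ℓ hp m v hv hvK
    have : Fact ℓ.Prime := ⟨hp⟩
    have hfin : Module.Finite (ZMod ℓ) (circHoms (ZMod ℓ) (Gamma0 N) (ZMod ℓ)) :=
      HomCircBound.finite_circHoms_Gamma0 (ZMod ℓ) N
    let v' : Fin m → circHoms (ZMod ℓ) (Gamma0 N) (ZMod ℓ) := fun i => ⟨v i, fun γ hγ => hvK i γ hγ⟩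
    have hv' : LinearIndependent (ZMod ℓ) v' :=
      LinearIndependent.of_comp (circHoms (ZMod ℓ) (Gamma0 N) (ZMod ℓ)).subtype hv
    have h1 := hv'.fintype_card_le_finrank
    have h2 := HomCircBound.finrank_circHoms_Gamma0_le_two_mul (ZMod ℓ) N g
      (Fermat.Agent.S20.result N)
    rw [Fintype.card_fin] at h1
    exact h1.trans h2
  obtain ⟨φ', h1, h2⟩ :=
    LiftLemma.exists_int_lift K (2 * g) hC hℓ n (NeZero.ne n) ψ (fun γ hγ => hψ γ hγ)
  have hcirc : IsCircHom (Gamma0 N) φ' := fun γ hγ => h1 γ hγ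
  exact ⟨φ', hcirc.isParabolicHom, h2⟩

end Fermat.Agent.S16.ParLift
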