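/-
S16 (Eisenstein ideal index), block [R]: the abstract duality reduction.  Mathlib only.
Owner: helper27.

`T` a commutative ring acting on an abelian group `L` (`ρ : T →+* End_ℤ L`), `a₁ : L → ℤ` linear
with the pairing `(t, f) ↦ a₁ (t f)` perfect ((P1) nondegenerate in `f`, (P2) every functional on
`T` is represented), `T` free over `ℤ`, `I` an ideal with `T = ℤ·1 + I`.
`RAlgCong ρ a₁ I m` : there is `f` with `a₁ f ≡ 1 (mod m)` and `I·f ⊆ m·L`.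
Then `RAlgCong m ↔ m ∣ #(T/I)` and therefore
  `(∀ m ≥ 1, RAlgCong m → m ∣ n) ∧ RAlgCong n ∧ 0 < n  ⟹  Nat.card (T ⧸ I) = n`.
-/
import Mathlib

set_option autoImplicit false

namespace Fermat.Agent.S16

section RAlg

variable {T : Type*} [CommRing T] {L : Type*} [AddCommGroup L]

/-- `E(m)`: an `I`-eigenvector modulo `m`, normalised by `a₁ ≡ 1 (mod m)`. -/
def RAlgCong (ρ : T →+* Module.End ℤ L) (a₁ : L →ₗ[ℤ] ℤ) (I : Ideal T) (m : ℕ) : Prop :=
  ∃ f : L, (m : ℤ) ∣ a₁ f - 1 ∧ ∀ t ∈ I, ∃ g : L, ρ t f = (m : ℤ) • g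

variable (ρ : T →+* Module.End ℤ L) (a₁ : L →ₗ[ℤ] ℤ) (I : Ideal T)

/-- If the integer `d` lies in `I` and `E(m)` holds, then `m ∣ d`. -/
theorem ralg_dvd_of_cong {d : ℤ} (hd : (d : T) ∈ I) {m : ℕ} (h : RAlgCong ρ a₁ I m) :
    (m : ℤ) ∣ d := by
  obtain ⟨f, hf1, hfI⟩ := h
  obtain ⟨g, hg⟩ := hfI _ hd
  have h1 : ρ (d : T) f = d • f := by
    rw [map_intCast]
    rfl
  have h2 : d * a₁ f = (m : ℤ) * a₁ g := by
    have h3 := congrArg a₁ (h1.symm.trans hg)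
    rw [map_zsmul, map_zsmul] at h3
    simpa using h3
  have h4 : d = d * a₁ f - d * (a₁ f - 1) := by ring
  rw [h4, h2]
  exact dvd_sub (dvd_mul_right _ _) (Dvd.dvd.mul_left hf1 _)

/-- `T ⧸ I` is cyclic: its cardinality `d` generates `I ∩ ℤ`. -/
theorem ralg_card_quotient (hI : ∀ t : T, ∃ c : ℤ, t - (c : T) ∈ I) :
    ∃ d : ℕ, Nat.card (T ⧸ I) = d ∧ ∀ c : ℤ, (c : T) ∈ I ↔ (d : ℤ) ∣ c := by
  classical
  set g : ℤ →+* T ⧸ I := (Ideal.Quotient.mk I).comp (Int.castRingHom T) with hg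
  have hsurj : Function.Surjective g := by
    intro x
    obtain ⟨t, rfl⟩ := Ideal.Quotient.mk_surjective x
    obtain ⟨c, hc⟩ := hI t
    exact ⟨c, (Ideal.Quotient.eq.mpr hc).symm⟩
  have hker : ∀ c : ℤ, c ∈ RingHom.ker g ↔ (c : T) ∈ I := by
    intro c
    rw [RingHom.mem_ker, hg, RingHom.comp_apply, Ideal.Quotient.eq_zero_iff_mem]
    rfl
  obtain ⟨a, ha⟩ : ∃ a : ℤ, RingHom.ker g = Ideal.span {a} :=
    ⟨_, (Ideal.span_singleton_generator _).symm⟩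
  refine ⟨a.natAbs, ?_, ?_⟩
  · have e1 : (T ⧸ I) ≃+* (ℤ ⧸ RingHom.ker g) :=
      (RingHom.quotientKerEquivOfSurjective hsurj).symm
    rw [ha] at e1
    have e2 := e1.trans (Int.quotientSpanEquivZMod a)
    rw [Nat.card_congr e2.toEquiv, Nat.card_zmod]
  · intro c
    rw [← hker, ha, Ideal.mem_span_singleton, Int.natAbs_dvd]

/-- If every integer of `I` is divisible by `m ≥ 1`, then `E(m)` holds. -/
theorem ralg_cong_of_dvd [Module.Free ℤ T]
    (hP1 : ∀ f : L, (∀ t : T, a₁ (ρ t f) = 0) → f = 0)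
    (hP2 : ∀ φ : T →ₗ[ℤ] ℤ, ∃ f : L, ∀ t : T, a₁ (ρ t f) = φ t)
    (hI : ∀ t : T, ∃ c : ℤ, t - (c : T) ∈ I)
    {m : ℕ} (hm : 0 < m) (hmI : ∀ c : ℤ, (c : T) ∈ I → (m : ℤ) ∣ c) : RAlgCong ρ a₁ I m := by
  classical
  have : NeZero m := ⟨hm.ne'⟩
  set g : ℤ →+* T ⧸ I := (Ideal.Quotient.mk I).comp (Int.castRingHom T) with hg
  have hsurj : Function.Surjective g := by
    intro x
    obtain ⟨t, rfl⟩ := Ideal.Quotient.mk_surjective x
    obtain ⟨c, hc⟩ := hI t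
    exact ⟨c, (Ideal.Quotient.eq.mpr hc).symm⟩
  have hker : ∀ c ∈ RingHom.ker g, Int.castRingHom (ZMod m) c = 0 := by
    intro c hc
    have hcI : (c : T) ∈ I := by
      rw [RingHom.mem_ker, hg, RingHom.comp_apply, Ideal.Quotient.eq_zero_iff_mem] at hc
      exact hc
    exact (ZMod.intCast_zmod_eq_zero_iff_dvd c m).mpr (hmI c hcI)
  let χ : T →+* ZMod m :=
    (Ideal.Quotient.lift (RingHom.ker g) (Int.castRingHom (ZMod m)) hker).comp
      (((RingHom.quotientKerEquivOfSurjective hsurj).symm :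
        (T ⧸ I) →+* (ℤ ⧸ RingHom.ker g)).comp (Ideal.Quotient.mk I))
  have hχI : ∀ t ∈ I, χ t = 0 := by
    intro t ht
    show (Ideal.Quotient.lift _ _ hker)
      ((RingHom.quotientKerEquivOfSurjective hsurj).symm (Ideal.Quotient.mk I t)) = 0
    rw [Ideal.Quotient.eq_zero_iff_mem.mpr ht, map_zero, map_zero]
  -- lift `χ` to a `ℤ`-linear functional
  obtain ⟨φ, hφ⟩ := Module.projective_lifting_property
    (Int.castAddHom (ZMod m)).toIntLinearMap χ.toAddMonoidHom.toIntLinearMap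
    ZMod.intCast_surjective
  have hφ' : ∀ t, ((φ t : ℤ) : ZMod m) = χ t := fun t => LinearMap.congr_fun hφ t
  obtain ⟨f, hf⟩ := hP2 φ
  refine ⟨f, ?_, ?_⟩
  · have h1 : a₁ f = φ 1 := by
      rw [← hf 1, map_one]
      rfl
    have h2 : ((φ 1 : ℤ) : ZMod m) = 1 := by rw [hφ', map_one]
    rw [h1]
    have h3 : ((φ 1 - 1 : ℤ) : ZMod m) = 0 := by
      push_cast
      rw [h2, sub_self]
    exact (ZMod.intCast_zmod_eq_zero_iff_dvd _ m).mp h3
  · intro t ht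
    have hdiv : ∀ s : T, (m : ℤ) ∣ φ (s * t) := by
      intro s
      apply (ZMod.intCast_zmod_eq_zero_iff_dvd _ m).mp
      rw [hφ', map_mul, hχI t ht, mul_zero]
    let φ' : T →ₗ[ℤ] ℤ := AddMonoidHom.toIntLinearMap
      { toFun := fun s => φ (s * t) / (m : ℤ)
        map_zero' := by simp
        map_add' := fun s s' => by
          rw [add_mul, map_add]
          exact Int.add_ediv_of_dvd_left (hdiv s) }
    obtain ⟨g', hg'⟩ := hP2 φ'
    refine ⟨g', ?_⟩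
    have hz : ρ t f - (m : ℤ) • g' = 0 := by
      apply hP1
      intro s
      have h3 : ρ s (ρ t f) = ρ (s * t) f := by
        rw [map_mul]
        rfl
      rw [map_sub, map_sub, map_zsmul, map_zsmul, hg', h3, hf]
      show φ (s * t) - (m : ℤ) • (φ (s * t) / (m : ℤ)) = 0
      rw [smul_eq_mul, Int.mul_ediv_cancel' (hdiv s), sub_self]
    exact sub_eq_zero.mp hz

/-- **Abstract reduction [R].** -/
theorem ralg_card_eq [Module.Free ℤ T]
    (hP1 : ∀ f : L, (∀ t : T, a₁ (ρ t f) = 0) → f = 0)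
    (hP2 : ∀ φ : T →ₗ[ℤ] ℤ, ∃ f : L, ∀ t : T, a₁ (ρ t f) = φ t)
    (hI : ∀ t : T, ∃ c : ℤ, t - (c : T) ∈ I)
    {n : ℕ} (hn : 0 < n)
    (hU : ∀ m : ℕ, 0 < m → RAlgCong ρ a₁ I m → m ∣ n) (hL : RAlgCong ρ a₁ I n) :
    Nat.card (T ⧸ I) = n := by
  obtain ⟨d, hcard, hd⟩ := ralg_card_quotient I hI
  rw [hcard]
  have hdI : ((d : ℤ) : T) ∈ I := (hd d).mpr dvd_rfl
  have hnd : (n : ℤ) ∣ (d : ℤ) := ralg_dvd_of_cong ρ a₁ I hdI hL
  have hE : ∀ m : ℕ, 0 < m → (m : ℤ) ∣ (d : ℤ) → RAlgCong ρ a₁ I m := fun m hm hmd =>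
    ralg_cong_of_dvd ρ a₁ I hP1 hP2 hI hm (fun c hc => hmd.trans ((hd c).mp hc))
  rcases Nat.eq_zero_or_pos d with h0 | hpos
  · exfalso
    subst h0
    have h1 : n + 1 ∣ n := hU (n + 1) (Nat.succ_pos n) (hE (n + 1) (Nat.succ_pos n) (dvd_zero _))
    have h2 := Nat.le_of_dvd hn h1
    omega
  · have h1 : d ∣ n := hU d hpos (hE d hpos dvd_rfl)
    exact Nat.dvd_antisymm h1 (by exact_mod_cast hnd)

end RAlg

end Fermat.Agent.S16
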