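/-
S16 block [R] (owner: helper76): the duality half of the reduction.

`exists_mem_ker_eval_eq` : from the upper-bound interface `UpperInput p`, a polynomial `P` in the
Hecke operators which kills the integral lattice and takes the value `(p-1)/gcd(p-1,12)` at the
Eisenstein system.
`lowerInput_of_form` : `LowerInputForm p → LowerInput p`.

Method: `T/I·T ≅ ℤ/K`; additive lift `χ` of `T → ℤ/K`; the pairing `(t, f) ↦ a₁(t f)` between
`T` and the integral lattice `L` is injective on both sides, so by a rank count `d·χ` is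
represented by some `f₀ ∈ L`; a strong induction on `k` computes `a_k(t f₀)`, and `f₀/d ∈ L`
is congruent to the Eisenstein series modulo `K`.
-/
import Mathlib
import Fermat.Agent.S16.Defs
import Fermat.Agent.S16.SigmaP
import Fermat.Agent.S49.QCoeff

set_option autoImplicit false

namespace Fermat.Agent.S16.Reduce

open Module

section Abstract

/-- Rank count: a `ℤ`-bilinear pairing of finite free `ℤ`-modules which is injective on both sides
has an image of finite index. -/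
theorem exists_smul_eq_of_pairing {T L : Type*} [AddCommGroup T] [AddCommGroup L]
    [Module.Free ℤ T] [Module.Finite ℤ T] [Module.Free ℤ L] [Module.Finite ℤ L]
    (B : T →ₗ[ℤ] L →ₗ[ℤ] ℤ) (hB : Function.Injective B) (hB' : Function.Injective B.flip)
    (χ : T →ₗ[ℤ] ℤ) : ∃ (d : ℕ) (f : L), 0 < d ∧ ∀ t, B t f = d * χ t := by
  have h1 : finrank ℤ T ≤ finrank ℤ L := by
    have := LinearMap.finrank_le_finrank_of_injective hB
    rwa [Module.finrank_linearMap_self] at this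
  have h2 : finrank ℤ L ≤ finrank ℤ T := by
    have := LinearMap.finrank_le_finrank_of_injective hB'
    rwa [Module.finrank_linearMap_self] at this
  have h3 : finrank ℤ (LinearMap.range B.flip) = finrank ℤ (T →ₗ[ℤ] ℤ) := by
    rw [LinearMap.finrank_range_of_inj hB', Module.finrank_linearMap_self]
    exact le_antisymm h2 h1
  have := Submodule.finiteQuotientOfFreeOfRankEq _ h3
  refine ⟨Nat.card ((T →ₗ[ℤ] ℤ) ⧸ LinearMap.range B.flip), ?_⟩
  have hmem : (Nat.card ((T →ₗ[ℤ] ℤ) ⧸ LinearMap.range B.flip)) • χ ∈ LinearMap.range B.flip := by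
    rw [← Submodule.Quotient.mk_eq_zero, Submodule.Quotient.mk_smul]
    exact card_nsmul_eq_zero'
  obtain ⟨f, hf⟩ := hmem
  refine ⟨f, Nat.card_pos, fun t => ?_⟩
  have := congrArg (fun g : T →ₗ[ℤ] ℤ => g t) hf
  simpa using this

/-- `φ P ≡ ev P` modulo the image of `ker ev`. -/
theorem map_sub_intCast_mem {R T : Type*} [CommRing R] [CommRing T] (φ : R →+* T)
    (ev : R →+* ℤ) (P : R) :
    φ P - ((ev P : ℤ) : T) ∈ Ideal.map φ (RingHom.ker ev) := by
  have : φ P - ((ev P : ℤ) : T) = φ (P - ((ev P : ℤ) : R)) := by simp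
  rw [this]
  apply Ideal.mem_map_of_mem
  simp [RingHom.mem_ker]

/-- Additive lift of the character `T → T/I ≅ ℤ/K`. -/
theorem exists_lift {R T : Type*} [CommRing R] [CommRing T] [Module.Free ℤ T] (φ : R →+* T)
    (hφ : Function.Surjective φ) (ev : R →+* ℤ) :
    ∃ χ : T →ₗ[ℤ] ℤ, ∀ t : T, t - ((χ t : ℤ) : T) ∈ Ideal.map φ (RingHom.ker ev) := by
  set I := Ideal.map φ (RingHom.ker ev) with hI
  have hA : ∀ t : T, ∃ c : ℤ, t - (c : T) ∈ I := by
    intro t
    obtain ⟨P, rfl⟩ := hφ t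
    exact ⟨ev P, map_sub_intCast_mem φ ev P⟩
  choose c hc using hA
  let b := Module.Free.chooseBasis ℤ T
  refine ⟨b.constr ℤ (fun i => c (b i)), fun t => ?_⟩
  have key : ∀ t ∈ Submodule.span ℤ (Set.range b),
      t - (((b.constr ℤ (fun i => c (b i))) t : ℤ) : T) ∈ I := by
    intro t ht
    induction ht using Submodule.span_induction with
    | mem x hx =>
      obtain ⟨i, rfl⟩ := hx
      rw [Basis.constr_basis]
      exact hc _
    | zero => simp
    | add x y _ _ hx hy =>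
      have := I.add_mem hx hy
      convert this using 1
      rw [map_add]
      push_cast
      ring
    | smul a x _ hx =>
      have := I.mul_mem_left (a : T) hx
      convert this using 1
      rw [map_smul, zsmul_eq_mul, smul_eq_mul]
      push_cast
      ring
  exact key t (by rw [b.span_eq]; exact Submodule.mem_top)

/-- The key induction: the coefficients `c k (t f₀)` from the values `c 1 (t f₀) = d χ(t)` of
an (almost) Eisenstein functional `χ`. -/
theorem coeff_congr_abs {T L : Type*} [CommRing T] [AddCommGroup L]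
    (ρ : T →+* Module.End ℤ L) (c : ℕ → L →ₗ[ℤ] ℤ) {p : ℕ} (hp : p.Prime) (U : T) (Tl : ℕ → T)
    (hcU : ∀ k f, c k (ρ U f) = c (k * p) f)
    (hcT : ∀ ℓ : ℕ, ℓ.Prime → ℓ ≠ p → ∀ k f,
      c k (ρ (Tl ℓ) f) = c (k * ℓ) f + if ℓ ∣ k then (ℓ : ℤ) * c (k / ℓ) f else 0)
    (K : Ideal ℤ) (χ : T →ₗ[ℤ] ℤ) (d : ℤ) (f₀ : L) (s : ℕ → ℤ) (hs1 : s 1 = 1)
    (hsp : ∀ m, s (m * p) = s m)
    (hsl : ∀ ℓ : ℕ, ℓ.Prime → ℓ ≠ p → ∀ m, 0 < m →
      s (m * ℓ) = (1 + (ℓ : ℤ)) * s m - if ℓ ∣ m then (ℓ : ℤ) * s (m / ℓ) else 0)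
    (h1 : ∀ t : T, c 1 (ρ t f₀) = d * χ t)
    (hU : ∀ t, χ (U * t) - χ t ∈ K)
    (hT : ∀ ℓ : ℕ, ℓ.Prime → ℓ ≠ p → ∀ t, χ (Tl ℓ * t) - (1 + (ℓ : ℤ)) * χ t ∈ K) :
    ∀ k, 0 < k → ∀ t : T, ∃ κ ∈ K, c k (ρ t f₀) = d * (χ t * s k + κ) := by
  have hmul : ∀ (a b : T) (f : L), ρ (a * b) f = ρ a (ρ b f) := by
    intro a b f
    rw [map_mul]
    rfl
  intro k
  induction k using Nat.strong_induction_on with
  | _ k ih =>
    intro hk t
    rcases Nat.lt_or_ge 1 k with hk1 | hk1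
    · -- k > 1
      obtain ⟨ℓ, hℓ, m, rfl⟩ : ∃ ℓ : ℕ, ℓ.Prime ∧ ∃ m, k = m * ℓ := by
        refine ⟨k.minFac, Nat.minFac_prime (by omega), ?_⟩
        obtain ⟨m, hm⟩ := Nat.minFac_dvd k
        exact ⟨m, by rw [mul_comm]; exact hm⟩
      have hm0 : 0 < m := by
        rcases Nat.eq_zero_or_pos m with h | h
        · rw [h] at hk; omega
        · exact h
      have hmk : m < m * ℓ := (Nat.lt_mul_iff_one_lt_right hm0).mpr hℓ.one_lt
      by_cases hℓp : ℓ = p
      · -- ℓ = p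
        subst hℓp
        obtain ⟨κ₁, hκ₁, e₁⟩ := ih m hmk hm0 (U * t)
        refine ⟨κ₁ + (χ (U * t) - χ t) * s m, K.add_mem hκ₁ (K.mul_mem_right _ (hU t)), ?_⟩
        rw [hmul, hcU] at e₁
        rw [e₁, hsp]
        ring
      · -- ℓ ≠ p
        obtain ⟨κ₁, hκ₁, e₁⟩ := ih m hmk hm0 (Tl ℓ * t)
        rw [hmul, hcT ℓ hℓ hℓp] at e₁
        by_cases hd : ℓ ∣ m
        · have hml : 0 < m / ℓ := Nat.div_pos (Nat.le_of_dvd hm0 hd) hℓ.pos
          have hmlk : m / ℓ < m * ℓ := lt_of_le_of_lt (Nat.div_le_self _ _) hmk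
          obtain ⟨κ₂, hκ₂, e₃⟩ := ih (m / ℓ) hmlk hml t
          refine ⟨κ₁ + (χ (Tl ℓ * t) - (1 + (ℓ : ℤ)) * χ t) * s m - (ℓ : ℤ) * κ₂,
            K.sub_mem (K.add_mem hκ₁ (K.mul_mem_right _ (hT ℓ hℓ hℓp t)))
              (K.mul_mem_left _ hκ₂), ?_⟩
          rw [if_pos hd, e₃] at e₁
          rw [hsl ℓ hℓ hℓp m hm0, if_pos hd]
          linear_combination e₁
        · refine ⟨κ₁ + (χ (Tl ℓ * t) - (1 + (ℓ : ℤ)) * χ t) * s m,
            K.add_mem hκ₁ (K.mul_mem_right _ (hT ℓ hℓ hℓp t)), ?_⟩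
          rw [if_neg hd, add_zero] at e₁
          rw [hsl ℓ hℓ hℓp m hm0, if_neg hd]
          linear_combination e₁
    · -- k = 1
      have : k = 1 := by omega
      subst this
      exact ⟨0, K.zero_mem, by rw [h1 t, hs1]; ring⟩

/-- Abstract duality: an element `f` of the lattice whose coefficients are congruent to the
Eisenstein coefficients `s k` modulo `K ⊇ {z | (z : T) ∈ I·T}`. -/
theorem exists_congr_abs {R T L : Type*} [CommRing R] [CommRing T] [Module.Free ℤ T]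
    [Module.Finite ℤ T] [AddCommGroup L] [Module.Free ℤ L] [Module.Finite ℤ L]
    (φ : R →+* T) (hφ : Function.Surjective φ) (ev : R →+* ℤ)
    (ρ : T →+* Module.End ℤ L) (hρ : Function.Injective ρ) (c : ℕ → L →ₗ[ℤ] ℤ)
    {p : ℕ} (hp : p.Prime) (XU : R) (XT : ℕ → R)
    (hevU : ev XU = 1) (hevT : ∀ ℓ : ℕ, ℓ.Prime → ℓ ≠ p → ev (XT ℓ) = 1 + (ℓ : ℤ))
    (hcU : ∀ k f, c k (ρ (φ XU) f) = c (k * p) f)
    (hcT : ∀ ℓ : ℕ, ℓ.Prime → ℓ ≠ p → ∀ k f,
      c k (ρ (φ (XT ℓ)) f) = c (k * ℓ) f + if ℓ ∣ k then (ℓ : ℤ) * c (k / ℓ) f else 0)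
    (hc0 : ∀ f, (∀ k, 0 < k → c k f = 0) → f = 0)
    (hsat : ∀ (d : ℕ) (f₀ : L), 0 < d → (∀ k, 0 < k → (d : ℤ) ∣ c k f₀) → ∃ f : L, d • f = f₀)
    (s : ℕ → ℤ) (hs1 : s 1 = 1) (hsp : ∀ m, s (m * p) = s m)
    (hsl : ∀ ℓ : ℕ, ℓ.Prime → ℓ ≠ p → ∀ m, 0 < m →
      s (m * ℓ) = (1 + (ℓ : ℤ)) * s m - if ℓ ∣ m then (ℓ : ℤ) * s (m / ℓ) else 0)
    (K : Ideal ℤ) (hK : ∀ z : ℤ, (z : T) ∈ Ideal.map φ (RingHom.ker ev) → z ∈ K) :
    ∃ f : L, ∀ k, 0 < k → c k f - s k ∈ K := by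
  set I := Ideal.map φ (RingHom.ker ev) with hI
  obtain ⟨χ, hχ⟩ := exists_lift φ hφ ev
  have hmulχ : ∀ (P : R) (t : T), χ (φ P * t) - ev P * χ t ∈ K := by
    intro P t
    apply hK
    have e1 := hχ (φ P * t)
    have e2 := hχ t
    have e3 := map_sub_intCast_mem φ ev P
    have : ((χ (φ P * t) - ev P * χ t : ℤ) : T) =
        φ P * (t - ((χ t : ℤ) : T)) + ((χ t : ℤ) : T) * (φ P - ((ev P : ℤ) : T)) -
          (φ P * t - ((χ (φ P * t) : ℤ) : T)) := by
      push_cast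
      ring
    rw [this]
    exact I.sub_mem (I.add_mem (I.mul_mem_left _ e2) (I.mul_mem_left _ e3)) e1
  have hone : χ 1 - 1 ∈ K := by
    apply hK
    have e1 := hχ 1
    have : ((χ 1 - 1 : ℤ) : T) = -(1 - ((χ 1 : ℤ) : T)) := by
      push_cast
      ring
    rw [this]
    exact I.neg_mem e1
  let B : T →ₗ[ℤ] L →ₗ[ℤ] ℤ := LinearMap.mk₂ ℤ (fun t f => c 1 (ρ t f))
    (fun t t' f => by simp [map_add])
    (fun a t f => by simp)
    (fun t f f' => by simp [map_add])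
    (fun a t f => by simp)
  have hBapp : ∀ t f, B t f = c 1 (ρ t f) := fun _ _ => rfl
  have hone_apply : ∀ f : L, ρ 1 f = f := by
    intro f
    rw [map_one]
    rfl
  have hBflip : Function.Injective B.flip := by
    rw [injective_iff_map_eq_zero]
    intro f hf
    apply hc0
    intro k hk
    obtain ⟨κ, hκ, e⟩ := coeff_congr_abs ρ c hp (φ XU) (fun ℓ => φ (XT ℓ)) hcU hcT ⊥ 0 0 f s
      hs1 hsp hsl
      (fun t => by
        have := congrArg (fun g : T →ₗ[ℤ] ℤ => g t) hf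
        simpa [hBapp] using this)
      (by simp) (by simp) k hk 1
    simp at e
    exact e
  have hB : Function.Injective B := by
    rw [injective_iff_map_eq_zero]
    intro t ht
    apply hρ
    rw [map_zero]
    refine LinearMap.ext fun f => ?_
    have h0 : B.flip (ρ t f) = 0 := by
      refine LinearMap.ext fun t' => ?_
      have h2 : ρ t' (ρ t f) = ρ t (ρ t' f) := by
        have e1 : ρ (t' * t) f = ρ t' (ρ t f) := by rw [map_mul]; rfl
        have e2 : ρ (t * t') f = ρ t (ρ t' f) := by rw [map_mul]; rfl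
        rw [← e1, ← e2, mul_comm]
      have h3 := congrArg (fun g : L →ₗ[ℤ] ℤ => g (ρ t' f)) ht
      simp only [LinearMap.flip_apply, hBapp, LinearMap.zero_apply] at h3 ⊢
      rw [h2]
      exact h3
    exact (injective_iff_map_eq_zero _).mp hBflip _ h0
  obtain ⟨d, f₀, hd, hf₀⟩ := exists_smul_eq_of_pairing B hB hBflip χ
  have key := coeff_congr_abs ρ c hp (φ XU) (fun ℓ => φ (XT ℓ)) hcU hcT K χ d f₀ s hs1 hsp hsl
    (fun t => hf₀ t)
    (fun t => by
      have := hmulχ XU t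
      rwa [hevU, one_mul] at this)
    (fun ℓ hℓ hℓp t => by
      have := hmulχ (XT ℓ) t
      rwa [hevT ℓ hℓ hℓp] at this)
  have hdvd : ∀ k, 0 < k → (d : ℤ) ∣ c k f₀ := by
    intro k hk
    obtain ⟨κ, -, e⟩ := key k hk 1
    rw [hone_apply] at e
    exact ⟨_, e⟩
  obtain ⟨f, rfl⟩ := hsat d f₀ hd hdvd
  refine ⟨f, fun k hk => ?_⟩
  obtain ⟨κ, hκ, e⟩ := key k hk 1
  rw [hone_apply, map_nsmul, nsmul_eq_mul] at e
  have hd' : (d : ℤ) ≠ 0 := by exact_mod_cast hd.ne'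
  have e' : c k f = χ 1 * s k + κ := mul_left_cancel₀ hd' e
  have : c k f - s k = (χ 1 - 1) * s k + κ := by rw [e']; ring
  rw [this]
  exact K.add_mem (K.mul_mem_right _ hone) hκ

/-- Abstract form of `LowerInputForm → LowerInput`: induction on the polynomial. -/
theorem lower_abs {σ T L : Type*} [CommRing T] [AddCommGroup L]
    (φ : MvPolynomial σ ℤ →+* T) (a : σ → ℤ) (ρ : T →+* Module.End ℤ L) (c : ℕ → L →ₗ[ℤ] ℤ)
    (n : ℤ) (s : ℕ → ℤ) (f : L) (hf : ∀ k, 0 < k → n ∣ c k f - s k)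
    (hX : ∀ (i : σ) (g : L) (e : ℤ), (∀ k, 0 < k → n ∣ c k g - e * s k) →
      ∀ k, 0 < k → n ∣ c k (ρ (φ (MvPolynomial.X i)) g) - a i * e * s k) :
    ∀ P : MvPolynomial σ ℤ, ∀ k, 0 < k →
      n ∣ c k (ρ (φ P) f) - MvPolynomial.aeval a P * s k := by
  intro P
  induction P using MvPolynomial.induction_on with
  | C z =>
    intro k hk
    have h1 : φ (MvPolynomial.C z) = (z : T) :=
      eq_intCast (φ.comp MvPolynomial.C) z
    have h2 : ρ (z : T) f = z • f := by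
      rw [map_intCast]
      simp
    rw [h1, h2, map_zsmul, MvPolynomial.aeval_C, smul_eq_mul]
    have e : z * c k f - (algebraMap ℤ ℤ z) * s k = z * (c k f - s k) := by
      simp [mul_sub]
    rw [e]
    exact dvd_mul_of_dvd_right (hf k hk) z
  | add P Q hP hQ =>
    intro k hk
    rw [map_add, map_add, LinearMap.add_apply, map_add, map_add, add_mul]
    have e : c k (ρ (φ P) f) + c k (ρ (φ Q) f) -
        (MvPolynomial.aeval a P * s k + MvPolynomial.aeval a Q * s k) =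
        (c k (ρ (φ P) f) - MvPolynomial.aeval a P * s k) +
          (c k (ρ (φ Q) f) - MvPolynomial.aeval a Q * s k) := by ring
    rw [e]
    exact dvd_add (hP k hk) (hQ k hk)
  | mul_X P i hP =>
    intro k hk
    have h1 : ρ (φ (P * MvPolynomial.X i)) f = ρ (φ (MvPolynomial.X i)) (ρ (φ P) f) := by
      rw [mul_comm, map_mul, map_mul]
      rfl
    have := hX i (ρ (φ P) f) (MvPolynomial.aeval a P) hP k hk
    rw [h1, map_mul, MvPolynomial.aeval_X]
    have e : MvPolynomial.aeval a P * a i * s k = a i * MvPolynomial.aeval a P * s k := by ring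
    rw [e]
    exact this

end Abstract

section Concrete

open CuspForm ModularCurve CongruenceSubgroup ModularFormClass

variable (p : ℕ) [NeZero p]

/-- The `k`-th `q`-coefficient of an element of the integral lattice, as an integer. -/
noncomputable def coeffZ (k : ℕ) : ↥(intLattice p 2) →ₗ[ℤ] ℤ where
  toFun f := Classical.choose ((S49.mem_intLattice_iff (f : CuspForm (Gamma0 p) 2)).mp f.2 k)
  map_add' f g := by
    apply Int.cast_injective (α := ℂ)
    push_cast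
    rw [← Classical.choose_spec ((S49.mem_intLattice_iff _).mp f.2 k),
      ← Classical.choose_spec ((S49.mem_intLattice_iff _).mp g.2 k),
      ← Classical.choose_spec ((S49.mem_intLattice_iff _).mp (f + g).2 k)]
    exact S49.qCoeff_add _ _ _
  map_smul' c f := by
    apply Int.cast_injective (α := ℂ)
    simp only [RingHom.id_apply, smul_eq_mul]
    push_cast
    rw [← Classical.choose_spec ((S49.mem_intLattice_iff _).mp f.2 k),
      ← Classical.choose_spec ((S49.mem_intLattice_iff _).mp (c • f).2 k)]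
    exact S49.qCoeff_zsmul _ _ _

omit [NeZero p] in
theorem coeffZ_spec (k : ℕ) (f : ↥(intLattice p 2)) :
    ((coeffZ p k f : ℤ) : ℂ) = qCoeff ⇑(f : CuspForm (Gamma0 p) 2) k :=
  (Classical.choose_spec ((S49.mem_intLattice_iff (f : CuspForm (Gamma0 p) 2)).mp f.2 k)).symm

omit [NeZero p] in
/-- An element of the lattice all of whose positive coefficients vanish is zero. -/
theorem eq_zero_of_coeffZ (f : ↥(intLattice p 2)) (h : ∀ k, 0 < k → coeffZ p k f = 0) :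
    f = 0 := by
  apply Subtype.ext
  apply S49.eq_zero_of_forall_qCoeff_eq_zero
  intro n
  rcases Nat.eq_zero_or_pos n with rfl | hn
  · exact S49.qCoeff_zero_eq_zero _
  · rw [← coeffZ_spec, h n hn, Int.cast_zero]

omit [NeZero p] in
/-- Saturation of the integral lattice. -/
theorem saturated (d : ℕ) (f₀ : ↥(intLattice p 2)) (hd : 0 < d)
    (h : ∀ k, 0 < k → (d : ℤ) ∣ coeffZ p k f₀) : ∃ f : ↥(intLattice p 2), d • f = f₀ := by
  have hd' : (d : ℂ) ≠ 0 := by exact_mod_cast hd.ne'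
  have hmem : ((d : ℂ)⁻¹ • (f₀ : CuspForm (Gamma0 p) 2)) ∈ intLattice p 2 := by
    rw [S49.mem_intLattice_iff]
    intro n
    rcases Nat.eq_zero_or_pos n with rfl | hn
    · exact ⟨0, by rw [S49.qCoeff_zero_eq_zero]; simp⟩
    · obtain ⟨e, he⟩ := h n hn
      refine ⟨e, ?_⟩
      rw [S49.qCoeff_smul, ← coeffZ_spec, he]
      push_cast
      field_simp
  refine ⟨⟨_, hmem⟩, ?_⟩
  apply Subtype.ext
  change d • ((d : ℂ)⁻¹ • (f₀ : CuspForm (Gamma0 p) 2)) = f₀
  rw [← Nat.cast_smul_eq_nsmul ℂ, smul_smul, mul_inv_cancel₀ hd', one_smul]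

/-- The map `HeckeAlg → T` of the frozen statement. -/
noncomputable abbrev phi : HeckeAlg →+* ↥(heckeLatticeAlgebra p ∅) :=
  (latticeRestrictHom p ∅).toRingHom.comp (heckeEvalForms p 2)

theorem heckeEvalForms_surjective : Function.Surjective (heckeEvalForms p 2) := by
  have h1 : Algebra.adjoin ℤ (Set.range (heckeFormsGen p 2)) = ⊤ := by
    have h2 : Algebra.adjoin ℤ ((↑) ⁻¹' (heckeGenerators p 2 ∅) :
        Set ↥(Algebra.adjoin ℤ (heckeGenerators p 2 ∅))) = ⊤ :=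
      Algebra.adjoin_adjoin_coe_preimage
    rw [eq_top_iff]
    refine le_trans (le_of_eq h2.symm) (Algebra.adjoin_mono ?_)
    rintro x hx
    rcases hx with ⟨ℓ, hℓ, hℓN, -, hx⟩ | ⟨q, hqN, hq, -, hx⟩
    · refine ⟨⟨ℓ, hℓ⟩, ?_⟩
      apply Subtype.ext
      rw [heckeFormsGen_of_not_dvd (show ¬ ((⟨ℓ, hℓ⟩ : Nat.Primes) : ℕ) ∣ p from hℓN)]
      exact hx.symm
    · refine ⟨⟨q, hq⟩, ?_⟩
      apply Subtype.ext
      rw [heckeFormsGen_of_dvd (show ((⟨q, hq⟩ : Nat.Primes) : ℕ) ∣ p from hqN)]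
      exact hx.symm
  intro x
  have hx : x ∈ (MvPolynomial.aeval (R := ℤ) (heckeFormsGen p 2)).range := by
    rw [← Algebra.adjoin_range_eq_range_aeval, h1]
    exact Algebra.mem_top
  obtain ⟨P, hP⟩ := hx
  exact ⟨P, hP⟩

theorem phi_surjective : Function.Surjective (phi p) :=
  (latticeRestrictHom_surjective p ∅).comp (heckeEvalForms_surjective p)

variable {p}

theorem coeffZ_phi_U (hp : p.Prime) (k : ℕ) (f : ↥(intLattice p 2)) :
    coeffZ p k (((heckeLatticeAlgebra p ∅).val.toRingHom (phi p (heckeGen ⟨p, hp⟩))) f) =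
      coeffZ p (k * p) f := by
  apply Int.cast_injective (α := ℂ)
  rw [coeffZ_spec, coeffZ_spec]
  have h := S49.qCoeff_heckeULin (k := 2) hp (dvd_refl p) (f : CuspForm (Gamma0 p) 2) k
  have e : phi p (heckeGen ⟨p, hp⟩) =
      latticeRestrictHom p ∅ (heckeAlgebra.U hp (dvd_refl p) (Set.notMem_empty _)) := by
    change latticeRestrictHom p ∅ (heckeEvalForms p 2 (heckeGen ⟨p, hp⟩)) = _
    rw [heckeEvalForms_heckeGen_of_dvd (show ((⟨p, hp⟩ : Nat.Primes) : ℕ) ∣ p from dvd_refl p)]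
  rw [e]
  exact h

theorem coeffZ_phi_T {ℓ : ℕ} (hℓ : ℓ.Prime) (hℓp : ¬ ℓ ∣ p) (k : ℕ) (f : ↥(intLattice p 2)) :
    coeffZ p k (((heckeLatticeAlgebra p ∅).val.toRingHom (phi p (heckeGen ⟨ℓ, hℓ⟩))) f) =
      coeffZ p (k * ℓ) f + if ℓ ∣ k then (ℓ : ℤ) * coeffZ p (k / ℓ) f else 0 := by
  apply Int.cast_injective (α := ℂ)
  have h := S49.qCoeff_heckeTLin (k := 2) hℓ hℓp (f : CuspForm (Gamma0 p) 2) k
  have e : phi p (heckeGen ⟨ℓ, hℓ⟩) =
      latticeRestrictHom p ∅ (heckeAlgebra.T hℓ hℓp (Set.notMem_empty _)) := by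
    change latticeRestrictHom p ∅ (heckeEvalForms p 2 (heckeGen ⟨ℓ, hℓ⟩)) = _
    rw [heckeEvalForms_heckeGen_of_not_dvd (show ¬ ((⟨ℓ, hℓ⟩ : Nat.Primes) : ℕ) ∣ p from hℓp)]
  rw [e, coeffZ_spec]
  push_cast
  rw [coeffZ_spec]
  refine Eq.trans h ?_
  congr 1
  split_ifs with hd
  · rw [coeffZ_spec]
    norm_num
  · simp

omit [NeZero p] in
theorem sigmaP_rec_one (hp : p.Prime) : ((sigmaP p 1 : ℕ) : ℤ) = 1 := by
  rw [sigmaP_one hp]
  rfl

omit [NeZero p] in
theorem sigmaP_rec_self (hp : p.Prime) (m : ℕ) :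
    ((sigmaP p (m * p) : ℕ) : ℤ) = ((sigmaP p m : ℕ) : ℤ) := by
  rw [sigmaP_mul_self hp]

omit [NeZero p] in
theorem sigmaP_rec_prime (hp : p.Prime) (ℓ : ℕ) (hℓ : ℓ.Prime) (hℓp : ℓ ≠ p) (m : ℕ)
    (hm : 0 < m) :
    ((sigmaP p (m * ℓ) : ℕ) : ℤ) = (1 + (ℓ : ℤ)) * ((sigmaP p m : ℕ) : ℤ) -
      if ℓ ∣ m then (ℓ : ℤ) * ((sigmaP p (m / ℓ) : ℕ) : ℤ) else 0 := by
  have h := sigmaP_mul_prime hp hℓ hℓp hm
  have h' : ((sigmaP p (m * ℓ) : ℕ) : ℤ) +
      (((if ℓ ∣ m then ℓ * sigmaP p (m / ℓ) else 0 : ℕ)) : ℤ) =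
      (1 + (ℓ : ℤ)) * ((sigmaP p m : ℕ) : ℤ) := by
    exact_mod_cast h
  split_ifs at h' ⊢ with hd
  · push_cast at h'
    linarith
  · push_cast at h'
    linarith

end Concrete

open CuspForm ModularCurve CongruenceSubgroup ModularFormClass

theorem eisensteinNumerator_pos {p : ℕ} (hp : p.Prime) : 0 < eisensteinNumerator p := by
  unfold eisensteinNumerator
  have h1 : 0 < p - 1 := by have := hp.two_le; omega
  exact Nat.div_pos (Nat.le_of_dvd h1 (Nat.gcd_dvd_left _ _)) (Nat.gcd_pos_of_pos_left _ h1)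

set_option maxHeartbeats 1000000 in
/-- **Upper half of the reduction.** From the upper-bound interface: a polynomial in the Hecke
operators which acts as zero on the integral lattice and takes the value `(p-1)/gcd(p-1,12)` at
the Eisenstein system. -/
theorem exists_mem_ker_eval_eq (p : ℕ) [Fact p.Prime] (hU : UpperInput p) :
    ∃ P : ModularCurve.HeckeAlg,
      ((CuspForm.latticeRestrictHom p ∅).toRingHom.comp (CuspForm.heckeEvalForms p 2)) P = 0 ∧
        MvPolynomial.aeval (ModularCurve.eisensteinSystem p) P =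
          (ModularCurve.eisensteinNumerator p : ℤ) := by
  have hp : p.Prime := Fact.out
  set ev : HeckeAlg →+* ℤ := (MvPolynomial.aeval (R := ℤ) (eisensteinSystem p)).toRingHom with hev
  set I := Ideal.map (phi p) (RingHom.ker ev) with hI
  set K : Ideal ℤ := Ideal.comap (Int.castRingHom ↥(heckeLatticeAlgebra p ∅)) I with hKdef
  have := intLattice.moduleFinite p
  have := intLattice.moduleFree p
  have hevU : ev (heckeGen ⟨p, hp⟩) = 1 :=
    (aeval_heckeGen (eisensteinSystem p) (⟨p, hp⟩ : Nat.Primes)).trans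
      (eisensteinSystem_of_dvd (show ((⟨p, hp⟩ : Nat.Primes) : ℕ) ∣ p from dvd_refl p))
  have hevT : ∀ ℓ : ℕ, ℓ.Prime → ℓ ≠ p →
      ev (if h : ℓ.Prime then heckeGen ⟨ℓ, h⟩ else 0) = 1 + (ℓ : ℤ) := by
    intro ℓ hℓ hℓp
    rw [dif_pos hℓ]
    have hnd : ¬ ((⟨ℓ, hℓ⟩ : Nat.Primes) : ℕ) ∣ p :=
      fun h => hℓp ((Nat.prime_dvd_prime_iff_eq hℓ hp).mp h)
    exact (aeval_heckeGen (eisensteinSystem p) (⟨ℓ, hℓ⟩ : Nat.Primes)).trans
      (eisensteinSystem_of_not_dvd hnd)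
  have hcT : ∀ ℓ : ℕ, ℓ.Prime → ℓ ≠ p → ∀ (k : ℕ) (f : ↥(intLattice p 2)),
      coeffZ p k (((heckeLatticeAlgebra p ∅).val.toRingHom
        (phi p (if h : ℓ.Prime then heckeGen ⟨ℓ, h⟩ else 0))) f) =
        coeffZ p (k * ℓ) f + if ℓ ∣ k then (ℓ : ℤ) * coeffZ p (k / ℓ) f else 0 := by
    intro ℓ hℓ hℓp k f
    rw [dif_pos hℓ]
    exact coeffZ_phi_T hℓ (fun h => hℓp ((Nat.prime_dvd_prime_iff_eq hℓ hp).mp h)) k f
  obtain ⟨f, hf⟩ := exists_congr_abs (phi p) (phi_surjective p) ev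
    ((heckeLatticeAlgebra p ∅).val.toRingHom) Subtype.val_injective (coeffZ p) hp
    (heckeGen ⟨p, hp⟩) (fun ℓ => if h : ℓ.Prime then heckeGen ⟨ℓ, h⟩ else 0) hevU hevT
    (coeffZ_phi_U hp) hcT (eq_zero_of_coeffZ p) (saturated p)
    (fun k => ((sigmaP p k : ℕ) : ℤ)) (sigmaP_rec_one hp) (sigmaP_rec_self hp)
    (sigmaP_rec_prime hp) K (fun z hz => hz)
  obtain ⟨m₀, hm₀⟩ : ∃ m₀ : ℕ, K = Ideal.span {(m₀ : ℤ)} :=
    ⟨(Submodule.IsPrincipal.generator K).natAbs, by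
      rw [Int.span_natAbs, Ideal.span_singleton_generator]⟩
  have hn : 0 < eisensteinNumerator p := eisensteinNumerator_pos hp
  have hdiv : ∀ k : ℕ, 1 ≤ k → (m₀ : ℤ) ∣ coeffZ p k f - (sigmaP p k : ℤ) := by
    intro k hk
    have := hf k hk
    rwa [hm₀, Ideal.mem_span_singleton] at this
  have hmem : (eisensteinNumerator p : ℤ) ∈ K := by
    rw [hm₀, Ideal.mem_span_singleton]
    rcases Nat.eq_zero_or_pos m₀ with h0 | hpos
    · exfalso
      subst h0
      have h2 := hU (2 * eisensteinNumerator p) (f : CuspForm (Gamma0 p) 2)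
        (fun k => coeffZ p k f) (by positivity) (fun k => (coeffZ_spec p k f).symm)
        (fun k hk => by
          have := hdiv k hk
          rw [Nat.cast_zero, zero_dvd_iff] at this
          rw [this]
          exact dvd_zero _)
      have := Nat.le_of_dvd hn h2
      omega
    · exact Int.natCast_dvd_natCast.mpr
        (hU m₀ (f : CuspForm (Gamma0 p) 2) (fun k => coeffZ p k f) hpos
          (fun k => (coeffZ_spec p k f).symm) hdiv)
  have hmem' : (((eisensteinNumerator p : ℕ) : ℤ) : ↥(heckeLatticeAlgebra p ∅)) ∈ I := hmem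
  obtain ⟨Q, hQ, hQn⟩ := (Ideal.mem_map_iff_of_surjective (phi p) (phi_surjective p)).mp hmem'
  refine ⟨(((eisensteinNumerator p : ℕ) : ℤ) : HeckeAlg) - Q, ?_, ?_⟩
  · change phi p ((((eisensteinNumerator p : ℕ) : ℤ) : HeckeAlg) - Q) = 0
    rw [map_sub, map_intCast, hQn, sub_self]
  · have hQ0 : MvPolynomial.aeval (R := ℤ) (eisensteinSystem p) Q = 0 := hQ
    rw [map_sub, hQ0, sub_zero, map_intCast]
    rfl

set_option maxHeartbeats 1000000 in
/-- **Lower half of the reduction** in its alternative form: a cusp form congruent to the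
Eisenstein series modulo `n` gives the polynomial statement. -/
theorem lowerInput_of_form (p : ℕ) [Fact p.Prime] (h : LowerInputForm p) : LowerInput p := by
  have hp : p.Prime := Fact.out
  obtain ⟨f, a, hfa, hcong⟩ := h
  have hfmem : f ∈ intLattice p 2 := by
    rw [S49.mem_intLattice_iff]
    exact fun n => ⟨a n, hfa n⟩
  have hca : ∀ k, coeffZ p k ⟨f, hfmem⟩ = a k := by
    intro k
    apply Int.cast_injective (α := ℂ)
    rw [coeffZ_spec]
    exact hfa k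
  intro P hP
  have hX : ∀ (i : Nat.Primes) (g : ↥(intLattice p 2)) (e : ℤ),
      (∀ k, 0 < k → ((eisensteinNumerator p : ℕ) : ℤ) ∣
        coeffZ p k g - e * ((sigmaP p k : ℕ) : ℤ)) →
      ∀ k, 0 < k → ((eisensteinNumerator p : ℕ) : ℤ) ∣
        coeffZ p k (((heckeLatticeAlgebra p ∅).val.toRingHom (phi p (MvPolynomial.X i))) g) -
          eisensteinSystem p i * e * ((sigmaP p k : ℕ) : ℤ) := by
    intro i g e hg k hk
    obtain ⟨ℓ, hℓ⟩ := i
    by_cases hℓp : ℓ = p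
    · subst hℓp
      have e1 := coeffZ_phi_U hℓ k g
      have e2 : eisensteinSystem ℓ ⟨ℓ, hℓ⟩ = 1 :=
        eisensteinSystem_of_dvd (show ((⟨ℓ, hℓ⟩ : Nat.Primes) : ℕ) ∣ ℓ from dvd_refl ℓ)
      have e3 := hg (k * ℓ) (Nat.mul_pos hk hℓ.pos)
      rw [sigmaP_rec_self hℓ] at e3
      change ((eisensteinNumerator ℓ : ℕ) : ℤ) ∣
        coeffZ ℓ k (((heckeLatticeAlgebra ℓ ∅).val.toRingHom (phi ℓ (heckeGen ⟨ℓ, hℓ⟩))) g) -
          eisensteinSystem ℓ ⟨ℓ, hℓ⟩ * e * ((sigmaP ℓ k : ℕ) : ℤ)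
      rw [e1, e2, one_mul]
      exact e3
    · have hnd : ¬ ℓ ∣ p := fun h => hℓp ((Nat.prime_dvd_prime_iff_eq hℓ hp).mp h)
      have e1 := coeffZ_phi_T hℓ hnd k g
      have e2 : eisensteinSystem p ⟨ℓ, hℓ⟩ = 1 + (ℓ : ℤ) :=
        eisensteinSystem_of_not_dvd (show ¬ ((⟨ℓ, hℓ⟩ : Nat.Primes) : ℕ) ∣ p from hnd)
      have e3 := hg (k * ℓ) (Nat.mul_pos hk hℓ.pos)
      rw [sigmaP_rec_prime hp ℓ hℓ hℓp k hk] at e3
      change ((eisensteinNumerator p : ℕ) : ℤ) ∣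
        coeffZ p k (((heckeLatticeAlgebra p ∅).val.toRingHom (phi p (heckeGen ⟨ℓ, hℓ⟩))) g) -
          eisensteinSystem p ⟨ℓ, hℓ⟩ * e * ((sigmaP p k : ℕ) : ℤ)
      rw [e1, e2]
      by_cases hd : ℓ ∣ k
      · have e4 := hg (k / ℓ) (Nat.div_pos (Nat.le_of_dvd hk hd) hℓ.pos)
        rw [if_pos hd] at e3 ⊢
        have h5 := dvd_add e3 (dvd_mul_of_dvd_right e4 (ℓ : ℤ))
        have h6 : coeffZ p (k * ℓ) g + (ℓ : ℤ) * coeffZ p (k / ℓ) g -
            (1 + (ℓ : ℤ)) * e * ((sigmaP p k : ℕ) : ℤ) =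
            coeffZ p (k * ℓ) g - e * ((1 + (ℓ : ℤ)) * ((sigmaP p k : ℕ) : ℤ) -
              (ℓ : ℤ) * ((sigmaP p (k / ℓ) : ℕ) : ℤ)) +
              (ℓ : ℤ) * (coeffZ p (k / ℓ) g - e * ((sigmaP p (k / ℓ) : ℕ) : ℤ)) := by ring
        rw [h6]
        exact h5
      · rw [if_neg hd] at e3 ⊢
        have h6 : coeffZ p (k * ℓ) g + 0 - (1 + (ℓ : ℤ)) * e * ((sigmaP p k : ℕ) : ℤ) =
            coeffZ p (k * ℓ) g - e * ((1 + (ℓ : ℤ)) * ((sigmaP p k : ℕ) : ℤ) - 0) := by ring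
        rw [h6]
        exact e3
  have key := lower_abs (phi p) (eisensteinSystem p) ((heckeLatticeAlgebra p ∅).val.toRingHom)
    (coeffZ p) ((eisensteinNumerator p : ℕ) : ℤ) (fun k => ((sigmaP p k : ℕ) : ℤ)) ⟨f, hfmem⟩
    (fun k hk => by rw [hca]; exact hcong k hk) hX P 1 Nat.one_pos
  have hφP : phi p P = 0 := by
    change latticeRestrictHom p ∅ (heckeEvalForms p 2 P) = 0
    rw [hP, map_zero]
  rw [hφP, map_zero, LinearMap.zero_apply, map_zero, sigmaP_rec_one hp, mul_one, zero_sub,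
    dvd_neg] at key
  exact key


end Fermat.Agent.S16.Reduce
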