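/-
S16, block (L), leaf for the Shimura character (requested by helper75; owner: helper64).
Mathlib only.

`pow_twelve_eq_one_of_isOfFinOrder` : an element of finite order of `SL(2, ℤ)` satisfies
`γ ^ 12 = 1`.

Proof: with `t` the trace, Cayley–Hamilton gives `γ² = t γ - 1`.  If `|t| ≥ 3` the traces of the
powers of `γ` strictly increase in absolute value, so no positive power is `1`.  If `t = ±2`,
`γ ^ k = ±(1 + k (±γ - 1))` and finite order forces `γ = ±1`.  If `|t| ≤ 1` a direct computation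
gives `γ ^ 4 = 1`, `γ ^ 6 = 1` or `γ ^ 3 = 1`.
-/
import Mathlib

set_option autoImplicit false

open scoped MatrixGroups

namespace Fermat.Agent.S16.SL2FinOrder

/-- Cayley–Hamilton for `2 × 2` integer matrices of determinant one. -/
theorem mul_self_eq (M : Matrix (Fin 2) (Fin 2) ℤ) (hdet : M.det = 1) :
    M * M = M.trace • M - 1 := by
  rw [Matrix.det_fin_two] at hdet
  ext i j
  fin_cases i <;> fin_cases j <;>
    simp only [Matrix.mul_apply, Fin.sum_univ_two, Matrix.trace_fin_two, Matrix.sub_apply,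
      Matrix.smul_apply, smul_eq_mul, Matrix.one_apply, Fin.zero_eta, Fin.mk_one, Fin.isValue,
      if_true, if_false, one_ne_zero, zero_ne_one] <;>
    first | linear_combination hdet | linear_combination -hdet | ring

theorem pow_add_two_eq (M : Matrix (Fin 2) (Fin 2) ℤ) (hdet : M.det = 1) (k : ℕ) :
    M ^ (k + 2) = M.trace • M ^ (k + 1) - M ^ k := by
  rw [pow_add, pow_two, mul_self_eq M hdet, mul_sub, mul_one, Matrix.mul_smul, ← pow_succ]

theorem trace_pow_add_two (M : Matrix (Fin 2) (Fin 2) ℤ) (hdet : M.det = 1) (k : ℕ) :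
    (M ^ (k + 2)).trace = M.trace * (M ^ (k + 1)).trace - (M ^ k).trace := by
  rw [pow_add_two_eq M hdet, Matrix.trace_sub, Matrix.trace_smul, smul_eq_mul]

/-- If `|trace| ≥ 3`, the traces of the powers grow strictly in absolute value. -/
theorem abs_trace_pow_lt (M : Matrix (Fin 2) (Fin 2) ℤ) (hdet : M.det = 1)
    (ht : 3 ≤ |M.trace|) (k : ℕ) :
    |(M ^ k).trace| < |(M ^ (k + 1)).trace| ∧ 2 ≤ |(M ^ k).trace| := by
  induction k with
  | zero =>
    have h0 : (M ^ 0).trace = 2 := by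
      rw [pow_zero, Matrix.trace_one]; rfl
    rw [h0, zero_add, pow_one]
    refine ⟨?_, by norm_num⟩
    have : |(2 : ℤ)| = 2 := by norm_num
    omega
  | succ k ih =>
    obtain ⟨ih1, ih2⟩ := ih
    refine ⟨?_, by omega⟩
    rw [trace_pow_add_two M hdet k]
    have h1 : |M.trace * (M ^ (k + 1)).trace| - |(M ^ k).trace| ≤
        |M.trace * (M ^ (k + 1)).trace - (M ^ k).trace| := abs_sub_abs_le_abs_sub _ _
    rw [abs_mul] at h1
    have h2 : 3 * |(M ^ (k + 1)).trace| ≤ |M.trace| * |(M ^ (k + 1)).trace| :=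
      mul_le_mul_of_nonneg_right ht (abs_nonneg _)
    have h3 : 0 ≤ |(M ^ k).trace| := abs_nonneg _
    omega

theorem pow_ne_one_of_three_le (M : Matrix (Fin 2) (Fin 2) ℤ) (hdet : M.det = 1)
    (ht : 3 ≤ |M.trace|) {m : ℕ} (hm : 0 < m) : M ^ m ≠ 1 := by
  intro h
  obtain ⟨k, rfl⟩ : ∃ k, m = k + 1 := ⟨m - 1, by omega⟩
  have h1 := abs_trace_pow_lt M hdet ht k
  rw [h, Matrix.trace_one] at h1
  have : |((Fintype.card (Fin 2) : ℕ) : ℤ)| = 2 := by
    simp
  omega

/-- Trace `2`: unipotent. -/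
theorem pow_eq_of_trace_two (M : Matrix (Fin 2) (Fin 2) ℤ) (hdet : M.det = 1)
    (ht : M.trace = 2) (k : ℕ) : M ^ k = 1 + (k : ℤ) • (M - 1) := by
  have hsq := mul_self_eq M hdet
  rw [ht] at hsq
  induction k with
  | zero => simp
  | succ k ih =>
    rw [pow_succ, ih, add_mul, one_mul, Matrix.smul_mul, sub_mul, one_mul, hsq]
    push_cast
    module

theorem eq_one_of_trace_two (M : Matrix (Fin 2) (Fin 2) ℤ) (hdet : M.det = 1)
    (ht : M.trace = 2) {m : ℕ} (hm : 0 < m) (h : M ^ m = 1) : M = 1 := by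
  rw [pow_eq_of_trace_two M hdet ht m] at h
  have h2 : (m : ℤ) • (M - 1) = 0 := by
    have := congrArg (fun X => X - 1) h
    simpa using this
  have hm' : (m : ℤ) ≠ 0 := by exact_mod_cast hm.ne'
  have h3 : M - 1 = 0 := by
    ext i j
    have := congrFun (congrFun h2 i) j
    simp only [Matrix.smul_apply, smul_eq_mul, Matrix.zero_apply, mul_eq_zero] at this
    rcases this with h | h
    · exact absurd h hm'
    · simpa using h
  exact sub_eq_zero.mp h3

theorem pow_twelve_eq_one_mat (M : Matrix (Fin 2) (Fin 2) ℤ) (hdet : M.det = 1)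
    {m : ℕ} (hm : 0 < m) (h : M ^ m = 1) : M ^ 12 = 1 := by
  have hsq := mul_self_eq M hdet
  by_cases ht3 : 3 ≤ |M.trace|
  · exact absurd h (pow_ne_one_of_three_le M hdet ht3 hm)
  · have hlt : |M.trace| < 3 := not_le.mp ht3
    rw [abs_lt] at hlt
    obtain ⟨hl, hu⟩ := hlt
    have hcases : M.trace = -2 ∨ M.trace = -1 ∨ M.trace = 0 ∨ M.trace = 1 ∨ M.trace = 2 := by
      omega
    rcases hcases with ht | ht | ht | ht | ht
    · -- trace `-2`: apply the unipotent case to `-M`
      have hdet' : (-M).det = 1 := by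
        rw [Matrix.det_neg, hdet]; simp
      have ht' : (-M).trace = 2 := by
        rw [Matrix.trace_neg, ht]; rfl
      have hpow : (-M) ^ (2 * m) = 1 := by
        rw [pow_mul, neg_sq, ← pow_mul, mul_comm, pow_mul, h, one_pow]
      have hneg : -M = 1 := eq_one_of_trace_two (-M) hdet' ht' (by omega) hpow
      have hM : M = -1 := by rw [← hneg, neg_neg]
      rw [hM]
      have : (12 : ℕ) = 2 * 6 := rfl
      rw [this, pow_mul, neg_sq, one_pow, one_pow]
    · -- trace `-1`: `M ^ 3 = 1`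
      rw [ht] at hsq
      have h3 : M ^ 3 = 1 := by
        have e : M ^ 3 = M * M * M := by rw [pow_succ, pow_two]
        rw [e, hsq, sub_mul, Matrix.smul_mul, hsq, one_mul]
        module
      have : (12 : ℕ) = 3 * 4 := rfl
      rw [this, pow_mul, h3, one_pow]
    · -- trace `0`: `M ^ 2 = -1`
      rw [ht] at hsq
      have h2 : M ^ 2 = -1 := by
        rw [pow_two, hsq]; simp
      have : (12 : ℕ) = 2 * 6 := rfl
      rw [this, pow_mul, h2]
      have : (6 : ℕ) = 2 * 3 := rfl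
      rw [this, pow_mul, neg_sq, one_pow, one_pow]
    · -- trace `1`: `M ^ 3 = -1`
      rw [ht] at hsq
      have h3 : M ^ 3 = -1 := by
        have e : M ^ 3 = M * M * M := by rw [pow_succ, pow_two]
        rw [e, hsq, sub_mul, Matrix.smul_mul, hsq, one_mul]
        module
      have : (12 : ℕ) = 3 * 4 := rfl
      rw [this, pow_mul, h3]
      have : (4 : ℕ) = 2 * 2 := rfl
      rw [this, pow_mul, neg_sq, one_pow, one_pow]
    · -- trace `2`
      rw [eq_one_of_trace_two M hdet ht hm h, one_pow]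

/-- An element of finite order of `SL(2, ℤ)` has order dividing `12`. -/
theorem pow_twelve_eq_one_of_isOfFinOrder (γ : Matrix.SpecialLinearGroup (Fin 2) ℤ)
    (h : IsOfFinOrder γ) : γ ^ 12 = 1 := by
  obtain ⟨m, hm, hγ⟩ := isOfFinOrder_iff_pow_eq_one.mp h
  have hM : (γ : Matrix (Fin 2) (Fin 2) ℤ) ^ m = 1 := by
    rw [← Matrix.SpecialLinearGroup.coe_pow, hγ, Matrix.SpecialLinearGroup.coe_one]
  apply Subtype.ext
  rw [Matrix.SpecialLinearGroup.coe_pow, Matrix.SpecialLinearGroup.coe_one]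
  exact pow_twelve_eq_one_mat _ γ.2 hm hM

/-- Trace of an element of finite order: `|tr| ≤ 2`. -/
theorem abs_trace_le_two_of_isOfFinOrder (γ : Matrix.SpecialLinearGroup (Fin 2) ℤ)
    (h : IsOfFinOrder γ) : |(γ : Matrix (Fin 2) (Fin 2) ℤ).trace| ≤ 2 := by
  obtain ⟨m, hm, hγ⟩ := isOfFinOrder_iff_pow_eq_one.mp h
  have hM : (γ : Matrix (Fin 2) (Fin 2) ℤ) ^ m = 1 := by
    rw [← Matrix.SpecialLinearGroup.coe_pow, hγ, Matrix.SpecialLinearGroup.coe_one]
  by_contra hlt
  exact pow_ne_one_of_three_le _ γ.2 (by omega) hm hM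

/-- An element of finite order and trace `2` is the identity. -/
theorem eq_one_of_isOfFinOrder_of_trace (γ : Matrix.SpecialLinearGroup (Fin 2) ℤ)
    (h : IsOfFinOrder γ) (ht : (γ : Matrix (Fin 2) (Fin 2) ℤ).trace = 2) : γ = 1 := by
  obtain ⟨m, hm, hγ⟩ := isOfFinOrder_iff_pow_eq_one.mp h
  have hM : (γ : Matrix (Fin 2) (Fin 2) ℤ) ^ m = 1 := by
    rw [← Matrix.SpecialLinearGroup.coe_pow, hγ, Matrix.SpecialLinearGroup.coe_one]
  apply Subtype.ext
  rw [Matrix.SpecialLinearGroup.coe_one]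
  exact eq_one_of_trace_two _ γ.2 ht hm hM

end Fermat.Agent.S16.SL2FinOrder
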