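/-
S16 block [Small] (owner: helper47): the upper-bound interface `UpperInput p` for `p = 2, 3`.

For `p ∈ {2, 3}` the index of `Γ₀(p)` in `SL(2, ℤ)` is `p + 1 < 6`, so by the Sturm bound every
weight-2 cusp form on `Γ₀(p)` vanishes.  Hence the coefficient `a 1` is `0`, and the congruence
`m ∣ a 1 - σ'(1) = -1` forces `m = 1`.
-/
import Fermat.Agent.S16.Defs
import Fermat.Agent.S20.Cosets
import Fermat.Prelude.Thm_ModularForm_sturm_bound_Gamma0
import Fermat.Prelude.Thm_CongruenceSubgroup_one_mem_strictPeriods_Gamma0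

set_option autoImplicit false

namespace Fermat.Agent.S16.SmallP

open CongruenceSubgroup ModularFormClass UpperHalfPlane

/-- If `Γ₀(N)` has index `< 6` then every weight-2 cusp form on `Γ₀(N)` vanishes (Sturm). -/
theorem cuspForm_eq_zero_of_index_lt (N : ℕ) [NeZero N] (hidx : (Gamma0 N).index < 6)
    (f : CuspForm (Gamma0 N) 2) : f = 0 := by
  have hg : ModularFormClass.modularForm f = 0 :=
    ModularForm.sturm_bound_Gamma0 N (ModularFormClass.modularForm f) (by
      intro n hn
      have hn0 : n = 0 := by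
        have h2 : ((2 : ℤ) * ((Gamma0 N).index : ℤ)).toNat / 12 = 0 := by
          apply Nat.div_eq_of_lt
          omega
        omega
      subst hn0
      exact CuspFormClass.qExpansion_coeff_zero f one_pos
        (CongruenceSubgroup.one_mem_strictPeriods_Gamma0 N))
  ext z
  have := DFunLike.congr_fun hg z
  simpa using this

/-- The `q`-coefficients of the zero cusp form vanish. -/
theorem qCoeff_zero (N : ℕ) (k : ℕ) :
    qCoeff (0 : CuspForm (Gamma0 N) 2) k = 0 := by
  have hcoe : ((0 : CuspForm (Gamma0 N) 2) : ℍ → ℂ) = (0 : ℍ → ℂ) := rfl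
  rw [qCoeff, hcoe, qExpansion_zero]
  simp

/-- `σ'(1) = 1` for `p ≠ 1`. -/
theorem sigmaP_one_eq {p : ℕ} (hp : p ≠ 1) : sigmaP p 1 = 1 := by
  have h1 : ¬ p ∣ 1 := fun h => hp (Nat.dvd_one.mp h)
  simp [sigmaP, Finset.filter_singleton, h1]

/-- If `S₂(Γ₀(p)) = 0` (and `p ≠ 1`) then the upper-bound interface holds trivially. -/
theorem upperInput_of_forall_eq_zero (p : ℕ) (hp : p ≠ 1)
    (h0 : ∀ f : CuspForm (Gamma0 p) 2, f = 0) : UpperInput p := by
  intro m f a _ hq hcong
  have ha1 : a 1 = 0 := by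
    have h1 := hq 1
    rw [h0 f, qCoeff_zero] at h1
    exact_mod_cast h1.symm
  have h2 := hcong 1 le_rfl
  rw [ha1, sigmaP_one_eq hp] at h2
  have h3 : (m : ℤ) ∣ 1 := by
    have h4 : (m : ℤ) ∣ -(1 : ℤ) := by simpa using h2
    exact (dvd_neg.mp h4)
  have hm1 : m = 1 := by
    have h5 : m ∣ 1 := by exact_mod_cast h3
    exact Nat.dvd_one.mp h5
  rw [hm1]
  exact one_dvd _

/-- `ψ(p) = p + 1` for a prime `p`. -/
theorem dedekindPsi_prime {p : ℕ} (hp : p.Prime) : ModularCurve.dedekindPsi p = p + 1 := by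
  have h := Fermat.Agent.S20.CosetModel.dedekindPsi_prime_mul_of_not_dvd p 1 hp one_ne_zero
    (fun h => hp.one_lt.ne' (Nat.dvd_one.mp h))
  rwa [mul_one, ModularCurve.dedekindPsi_one, mul_one] at h

theorem dedekindPsi_two : ModularCurve.dedekindPsi 2 = 3 := dedekindPsi_prime Nat.prime_two

theorem dedekindPsi_three : ModularCurve.dedekindPsi 3 = 4 := dedekindPsi_prime Nat.prime_three

/-- Every weight-2 cusp form on `Γ₀(2)` vanishes. -/
theorem cuspForm_two_eq_zero (f : CuspForm (Gamma0 2) 2) : f = 0 :=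
  cuspForm_eq_zero_of_index_lt 2
    (by rw [Fermat.Agent.S20.CosetModel.index_Gamma0_eq_dedekindPsi 2 (by norm_num),
      dedekindPsi_two]; norm_num) f

/-- Every weight-2 cusp form on `Γ₀(3)` vanishes. -/
theorem cuspForm_three_eq_zero (f : CuspForm (Gamma0 3) 2) : f = 0 :=
  cuspForm_eq_zero_of_index_lt 3
    (by rw [Fermat.Agent.S20.CosetModel.index_Gamma0_eq_dedekindPsi 3 (by norm_num),
      dedekindPsi_three]; norm_num) f

/-- **(U) for `p = 2`.** -/
theorem upperInput_two : UpperInput 2 :=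
  upperInput_of_forall_eq_zero 2 (by norm_num) cuspForm_two_eq_zero

/-- **(U) for `p = 3`.** -/
theorem upperInput_three : UpperInput 3 :=
  upperInput_of_forall_eq_zero 3 (by norm_num) cuspForm_three_eq_zero

/-- **(U) for primes `p < 5`** (one-stop form for the wiring). -/
theorem upperInput_of_lt_five {p : ℕ} (hp : p.Prime) (h5 : p < 5) : UpperInput p := by
  have h2 := hp.two_le
  interval_cases p
  · exact upperInput_two
  · exact upperInput_three
  · exact absurd hp (by decide)

end Fermat.Agent.S16.SmallP
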