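/-
S16 team, block [S] (algebra core), owner: helper44.

Swinnerton-Dyer's fact as PURE ALGEBRA: let `F` be a field of characteristic `ℓ ≥ 5`,
`A = F[Q, R]` (`Q = X 0`, `R = X 1`, weights `4`, `6`) and `qe : A → F⟦q⟧` an `F`-algebra map such
that the images of `Q`, `R` have constant term `1`, `qe (Q ^ 3 - R ^ 2) ≠ 0`, and such that, with
a series `P`, the reductions of Ramanujan's identities hold
(`3 θ Q = P Q - R`, `2 θ R = P R - Q ^ 2`, `12 θ P = P ^ 2 - Q`, `θ = q d/dq`).  If there is an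
isobaric `At` of weight `ℓ - 1` with `qe At = 1`, then every isobaric `G` of weight `k` whose
image is a nonzero constant has `(ℓ - 1) ∣ k`.
-/
import Mathlib

set_option autoImplicit false

namespace Fermat.Agent.S16.SwDAlg

open MvPolynomial

variable {F : Type*} [Field F]

/-- The weights of `Q = X 0` and `R = X 1`. -/
def wt : Fin 2 → ℕ := ![4, 6]

@[simp] theorem wt_zero : wt 0 = 4 := rfl
@[simp] theorem wt_one : wt 1 = 6 := rfl

theorem weight_wt (s : Fin 2 →₀ ℕ) : Finsupp.weight wt s = 4 * s 0 + 6 * s 1 := by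
  rw [Finsupp.weight_apply, Finsupp.sum_fintype _ _ (fun i => by simp), Fin.sum_univ_two]
  simp [mul_comm]

/-! ### The grading homomorphism `Ψ : A → A[t]`, `Q ↦ Q t⁴`, `R ↦ R t⁶` -/

/-- `Ψ G = ∑ₙ Gₙ tⁿ`, where `Gₙ` is the component of weight `n`. -/
noncomputable def Psi : MvPolynomial (Fin 2) F →ₐ[F] Polynomial (MvPolynomial (Fin 2) F) :=
  aeval (fun i : Fin 2 => Polynomial.C (X i) * Polynomial.X ^ wt i)

theorem Psi_monomial (s : Fin 2 →₀ ℕ) (a : F) :
    Psi (monomial s a) = Polynomial.C (monomial s a) * Polynomial.X ^ (Finsupp.weight wt s) := by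
  rw [Psi, aeval_monomial, weight_wt, Finsupp.prod_fintype _ _ (fun i => by simp),
    Fin.prod_univ_two, monomial_eq, Finsupp.prod_fintype _ _ (fun i => by simp), Fin.prod_univ_two]
  simp only [wt_zero, wt_one, mul_pow, map_mul, map_pow, Polynomial.algebraMap_apply,
    MvPolynomial.algebraMap_eq]
  ring

theorem Psi_coeff (G : MvPolynomial (Fin 2) F) (n : ℕ) :
    (Psi G).coeff n = weightedHomogeneousComponent wt n G := by
  classical
  conv_lhs => rw [G.as_sum]
  rw [map_sum, Polynomial.finsetSum_coeff, weightedHomogeneousComponent_apply,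
    Finset.sum_filter]
  refine Finset.sum_congr rfl fun s _ => ?_
  rw [Psi_monomial, Polynomial.coeff_C_mul_X_pow]
  by_cases h : Finsupp.weight wt s = n
  · rw [if_pos h, if_pos h.symm]
  · rw [if_neg h, if_neg (fun h' => h h'.symm)]

theorem Psi_of_isWH {G : MvPolynomial (Fin 2) F} {k : ℕ} (hG : IsWeightedHomogeneous wt G k) :
    Psi G = Polynomial.C G * Polynomial.X ^ k := by
  ext1 n
  rw [Psi_coeff, Polynomial.coeff_C_mul_X_pow]
  by_cases h : n = k
  · rw [if_pos h, h, hG.weightedHomogeneousComponent_same]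
  · rw [if_neg h, hG.weightedHomogeneousComponent_ne n h]

theorem isWH_of_Psi_coeff {G : MvPolynomial (Fin 2) F} {k : ℕ}
    (h : ∀ n, n ≠ k → (Psi G).coeff n = 0) : IsWeightedHomogeneous wt G k := by
  classical
  intro d hd
  by_contra hne
  have h1 := h (Finsupp.weight wt d) hne
  rw [Psi_coeff] at h1
  have h2 := congrArg (coeff d) h1
  rw [coeff_weightedHomogeneousComponent, if_pos rfl, coeff_zero] at h2
  exact hd h2

theorem Psi_ne_zero {G : MvPolynomial (Fin 2) F} (hG : G ≠ 0) : Psi G ≠ 0 := by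
  classical
  intro h
  apply hG
  ext d
  have h1 : (Psi G).coeff (Finsupp.weight wt d) = 0 := by rw [h]; simp
  rw [Psi_coeff] at h1
  have h2 := congrArg (coeff d) h1
  rwa [coeff_weightedHomogeneousComponent, if_pos rfl] at h2

/-- **Factor lemma**: a factor of a nonzero isobaric polynomial is isobaric. -/
theorem isWH_of_mul {a b G : MvPolynomial (Fin 2) F} {k : ℕ} (hG : IsWeightedHomogeneous wt G k)
    (hG0 : G ≠ 0) (hab : a * b = G) :
    ∃ i j : ℕ, i + j = k ∧ IsWeightedHomogeneous wt a i ∧ IsWeightedHomogeneous wt b j := by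
  have ha0 : a ≠ 0 := by rintro rfl; exact hG0 (by rw [← hab, zero_mul])
  have hb0 : b ≠ 0 := by rintro rfl; exact hG0 (by rw [← hab, mul_zero])
  have hA := Psi_ne_zero ha0
  have hB := Psi_ne_zero hb0
  have hP : Psi a * Psi b = Polynomial.C G * Polynomial.X ^ k := by
    rw [← map_mul, hab, Psi_of_isWH hG]
  have hd : (Psi a).natDegree + (Psi b).natDegree = k := by
    rw [← Polynomial.natDegree_mul hA hB, hP, Polynomial.natDegree_C_mul_X_pow _ _ hG0]
  have ht : (Psi a).natTrailingDegree + (Psi b).natTrailingDegree = k := by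
    rw [← Polynomial.natTrailingDegree_mul hA hB, hP, Polynomial.C_mul_X_pow_eq_monomial,
      Polynomial.natTrailingDegree_monomial hG0]
  have h1 := Polynomial.natTrailingDegree_le_natDegree (p := Psi a)
  have h2 := Polynomial.natTrailingDegree_le_natDegree (p := Psi b)
  have e1 : (Psi a).natTrailingDegree = (Psi a).natDegree := by omega
  have e2 : (Psi b).natTrailingDegree = (Psi b).natDegree := by omega
  refine ⟨(Psi a).natDegree, (Psi b).natDegree, hd, isWH_of_Psi_coeff fun n hn => ?_,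
    isWH_of_Psi_coeff fun n hn => ?_⟩
  · rcases lt_or_gt_of_ne hn with h | h
    · exact Polynomial.coeff_eq_zero_of_lt_natTrailingDegree (by rw [e1]; exact h)
    · exact Polynomial.coeff_eq_zero_of_natDegree_lt h
  · rcases lt_or_gt_of_ne hn with h | h
    · exact Polynomial.coeff_eq_zero_of_lt_natTrailingDegree (by rw [e2]; exact h)
    · exact Polynomial.coeff_eq_zero_of_natDegree_lt h

/-! ### Division by `Q³ - R²` -/

theorem mono_div : ∀ (a b : ℕ), ∃ M : MvPolynomial (Fin 2) F,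
    IsWeightedHomogeneous wt M (4 * a + 6 * b - 12) ∧ (4 * a + 6 * b < 12 → M = 0) ∧
      (X 0 ^ a * X 1 ^ b : MvPolynomial (Fin 2) F) =
        X 0 ^ (a % 3) * X 1 ^ (b + 2 * (a / 3)) + (X 0 ^ 3 - X 1 ^ 2) * M := by
  intro a
  induction a using Nat.strong_induction_on with
  | _ a ih =>
    intro b
    by_cases ha : a < 3
    · refine ⟨0, isWeightedHomogeneous_zero _ _ _, fun _ => rfl, ?_⟩
      rw [Nat.mod_eq_of_lt ha, Nat.div_eq_of_lt ha]
      simp
    · obtain ⟨M', hM', -, hM'e⟩ := ih (a - 3) (by omega) (b + 2)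
      have hX0 : IsWeightedHomogeneous wt (X 0 : MvPolynomial (Fin 2) F) 4 :=
        isWeightedHomogeneous_X F wt 0
      have hX1 : IsWeightedHomogeneous wt (X 1 : MvPolynomial (Fin 2) F) 6 :=
        isWeightedHomogeneous_X F wt 1
      have hm : IsWeightedHomogeneous wt (X 0 ^ (a - 3) * X 1 ^ b : MvPolynomial (Fin 2) F)
          (4 * a + 6 * b - 12) := by
        have := (hX0.pow (a - 3)).mul (hX1.pow b)
        convert this using 1
        simp only [smul_eq_mul]
        omega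
      refine ⟨X 0 ^ (a - 3) * X 1 ^ b + M', hm.add ?_, fun h => absurd h (by omega), ?_⟩
      · convert hM' using 1
        omega
      · have e1 : (a - 3) % 3 = a % 3 := by omega
        have e2 : b + 2 + 2 * ((a - 3) / 3) = b + 2 * (a / 3) := by omega
        rw [e1, e2] at hM'e
        have e3 : (X 0 : MvPolynomial (Fin 2) F) ^ a = X 0 ^ (a - 3) * X 0 ^ 3 := by
          rw [← pow_add]; congr 1; omega
        rw [e3]
        linear_combination hM'e

theorem div_disc {k : ℕ} {G : MvPolynomial (Fin 2) F} (hG : IsWeightedHomogeneous wt G k)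
    (a₀ b₀ : ℕ) (h₀ : a₀ < 3) (hk : 4 * a₀ + 6 * b₀ = k) :
    ∃ (c : F) (G' : MvPolynomial (Fin 2) F), IsWeightedHomogeneous wt G' (k - 12) ∧
      (k < 12 → G' = 0) ∧ G = C c * (X 0 ^ a₀ * X 1 ^ b₀) + (X 0 ^ 3 - X 1 ^ 2) * G' := by
  refine hG.induction_on (motive := fun p _ => ∃ (c : F) (G' : MvPolynomial (Fin 2) F),
    IsWeightedHomogeneous wt G' (k - 12) ∧ (k < 12 → G' = 0) ∧
      p = C c * (X 0 ^ a₀ * X 1 ^ b₀) + (X 0 ^ 3 - X 1 ^ 2) * G') ?_ ?_ ?_
  · exact ⟨0, 0, isWeightedHomogeneous_zero _ _ _, fun _ => rfl, by simp⟩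
  · rintro p q - - ⟨c₁, G₁, h₁, h₁', e₁⟩ ⟨c₂, G₂, h₂, h₂', e₂⟩
    refine ⟨c₁ + c₂, G₁ + G₂, h₁.add h₂, fun h => by rw [h₁' h, h₂' h, add_zero], ?_⟩
    rw [e₁, e₂, map_add]
    ring
  · intro d r hr
    rw [weight_wt] at hr
    obtain ⟨M, hM, hM0, hMe⟩ := mono_div (F := F) (d 0) (d 1)
    have e1 : d 0 % 3 = a₀ := by omega
    have e2 : d 1 + 2 * (d 0 / 3) = b₀ := by omega
    rw [e1, e2] at hMe
    refine ⟨r, C r * M, ?_, fun h => by rw [hM0 (by omega), mul_zero], ?_⟩
    · have := hM.C_mul r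
      convert this using 1
      omega
    · rw [monomial_eq, Finsupp.prod_fintype _ _ (fun i => by simp), Fin.prod_univ_two, hMe]
      ring

/-! ### The derivations and the `q`-expansion map -/

/-- `12` times the Serre derivation: `D Q = -4 R`, `D R = -6 Q²`. -/
noncomputable def dS : Derivation F (MvPolynomial (Fin 2) F) (MvPolynomial (Fin 2) F) :=
  (-(4 * X 1 : MvPolynomial (Fin 2) F)) • pderiv 0 + (-(6 * X 0 ^ 2 : MvPolynomial (Fin 2) F)) • pderiv 1

/-- The weighted Euler derivation: `eul Q = 4 Q`, `eul R = 6 R`. -/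
noncomputable def eul : Derivation F (MvPolynomial (Fin 2) F) (MvPolynomial (Fin 2) F) :=
  ((4 * X 0 : MvPolynomial (Fin 2) F)) • pderiv 0 + ((6 * X 1 : MvPolynomial (Fin 2) F)) • pderiv 1

theorem dS_apply (G : MvPolynomial (Fin 2) F) :
    dS G = -(4 * X 1) * pderiv 0 G + -(6 * X 0 ^ 2) * pderiv 1 G := rfl

theorem eul_apply (G : MvPolynomial (Fin 2) F) :
    eul G = 4 * X 0 * pderiv 0 G + 6 * X 1 * pderiv 1 G := rfl

theorem dS_X0 : dS (X 0 : MvPolynomial (Fin 2) F) = -(4 * X 1) := by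
  rw [dS_apply, pderiv_X_self, pderiv_X_of_ne (by decide)]; ring

theorem dS_X1 : dS (X 1 : MvPolynomial (Fin 2) F) = -(6 * X 0 ^ 2) := by
  rw [dS_apply, pderiv_X_self, pderiv_X_of_ne (by decide)]; ring

theorem eul_X0 : eul (X 0 : MvPolynomial (Fin 2) F) = 4 * X 0 := by
  rw [eul_apply, pderiv_X_self, pderiv_X_of_ne (by decide)]; ring

theorem eul_X1 : eul (X 1 : MvPolynomial (Fin 2) F) = 6 * X 1 := by
  rw [eul_apply, pderiv_X_self, pderiv_X_of_ne (by decide)]; ring

theorem eul_of_isWH {G : MvPolynomial (Fin 2) F} {k : ℕ} (hG : IsWeightedHomogeneous wt G k) :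
    eul G = (k : MvPolynomial (Fin 2) F) * G := by
  have h := hG.sum_weight_X_mul_pderiv
  rw [Fin.sum_univ_two] at h
  simp only [wt_zero, wt_one, nsmul_eq_mul] at h
  rw [eul_apply, ← h]
  push_cast
  ring

theorem pderiv_eq_zero_of_lt {G : MvPolynomial (Fin 2) F} {k : ℕ}
    (hG : IsWeightedHomogeneous wt G k) (i : Fin 2) (h : k < wt i) : pderiv i G = 0 := by
  apply pderiv_eq_zero_of_notMem_vars
  intro hi
  rw [mem_vars_iff_mem_support] at hi
  obtain ⟨d, hd, hdi⟩ := hi
  have h1 := hG (mem_support_iff.mp hd)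
  rw [weight_wt] at h1
  have h2 : d i ≠ 0 := Finsupp.mem_support_iff.mp hdi
  fin_cases i
  · simp only [Fin.zero_eta, wt_zero] at h h2; omega
  · simp only [Fin.mk_one, wt_one] at h h2; omega

theorem isWH_mul_pderiv {G : MvPolynomial (Fin 2) F} {k : ℕ} (hG : IsWeightedHomogeneous wt G k)
    (i : Fin 2) {M : MvPolynomial (Fin 2) F} {m : ℕ} (hM : IsWeightedHomogeneous wt M m)
    (hm : m = wt i + 2) : IsWeightedHomogeneous wt (M * pderiv i G) (k + 2) := by
  by_cases h : wt i ≤ k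
  · have h1 := hG.pderiv (i := i) (n' := k - wt i) (Nat.sub_add_cancel h)
    have := hM.mul h1
    convert this using 1
    omega
  · rw [pderiv_eq_zero_of_lt hG i (by omega), mul_zero]
    exact isWeightedHomogeneous_zero _ _ _

theorem isWH_X0 : IsWeightedHomogeneous wt (X 0 : MvPolynomial (Fin 2) F) 4 :=
  isWeightedHomogeneous_X F wt 0

theorem isWH_X1 : IsWeightedHomogeneous wt (X 1 : MvPolynomial (Fin 2) F) 6 :=
  isWeightedHomogeneous_X F wt 1

theorem isWH_dS {G : MvPolynomial (Fin 2) F} {k : ℕ} (hG : IsWeightedHomogeneous wt G k) :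
    IsWeightedHomogeneous wt (dS G) (k + 2) := by
  rw [dS_apply]
  refine (isWH_mul_pderiv hG 0 (m := 6) ?_ rfl).add (isWH_mul_pderiv hG 1 (m := 8) ?_ rfl)
  · have : (-(4 * X 1) : MvPolynomial (Fin 2) F) = C (-4) * X 1 := by
      simp only [map_neg, map_ofNat]; ring
    rw [this]
    exact isWH_X1.C_mul _
  · have : (-(6 * X 0 ^ 2) : MvPolynomial (Fin 2) F) = C (-6) * X 0 ^ 2 := by
      simp only [map_neg, map_ofNat]; ring
    rw [this]
    exact (isWH_X0.pow 2).C_mul _

/-- `θ = q d/dq` on power series. -/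
noncomputable def theta (f : PowerSeries F) : PowerSeries F :=
  PowerSeries.X * PowerSeries.derivative F f

theorem theta_add (f g : PowerSeries F) : theta (f + g) = theta f + theta g := by
  simp only [theta, map_add, mul_add]

theorem theta_mul (f g : PowerSeries F) : theta (f * g) = f * theta g + g * theta f := by
  simp only [theta, Derivation.leibniz, smul_eq_mul]
  ring

theorem theta_C (a : F) : theta (PowerSeries.C a) = 0 := by
  simp [theta]

theorem constantCoeff_theta (f : PowerSeries F) : PowerSeries.constantCoeff (theta f) = 0 := by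
  simp [theta]

/-- The hypotheses on the `q`-expansion map: constant terms, `Δ ≠ 0`, and the (reductions of the)
three Ramanujan identities. -/
structure Hyp (qe : MvPolynomial (Fin 2) F →ₐ[F] PowerSeries F) (P : PowerSeries F) : Prop where
  constQ : PowerSeries.constantCoeff (qe (X 0)) = 1
  constR : PowerSeries.constantCoeff (qe (X 1)) = 1
  disc_ne : qe (X 0 ^ 3 - X 1 ^ 2) ≠ 0
  thetaQ : 3 * theta (qe (X 0)) = P * qe (X 0) - qe (X 1)
  thetaR : 2 * theta (qe (X 1)) = P * qe (X 1) - qe (X 0) ^ 2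
  thetaP : 12 * theta P = P ^ 2 - qe (X 0)

variable {qe : MvPolynomial (Fin 2) F →ₐ[F] PowerSeries F} {P : PowerSeries F}

/-- (I2) `qe (D G) = 12 θ (qe G) - P · qe (eul G)`. -/
theorem Hyp.qe_dS (h : Hyp qe P) (G : MvPolynomial (Fin 2) F) :
    qe (dS G) = 12 * theta (qe G) - P * qe (eul G) := by
  induction G using MvPolynomial.induction_on with
  | C a =>
    have : qe (C a) = PowerSeries.C a := by
      rw [← MvPolynomial.algebraMap_eq, AlgHom.commutes]; rfl
    rw [derivation_C, derivation_C, map_zero, this, theta_C]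
    ring
  | add p q hp hq =>
    simp only [map_add, theta_add, hp, hq]
    ring
  | mul_X p i hp =>
    have hi : qe (dS (X i)) = 12 * theta (qe (X i)) - P * qe (eul (X i)) := by
      fin_cases i
      · show qe (dS (X 0)) = 12 * theta (qe (X 0)) - P * qe (eul (X 0))
        rw [dS_X0, eul_X0]
        simp only [map_neg, map_mul, map_ofNat]
        linear_combination (-4 : PowerSeries F) * h.thetaQ
      · show qe (dS (X 1)) = 12 * theta (qe (X 1)) - P * qe (eul (X 1))
        rw [dS_X1, eul_X1]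
        simp only [map_neg, map_mul, map_ofNat, map_pow]
        linear_combination (-6 : PowerSeries F) * h.thetaR
    rw [Derivation.leibniz, Derivation.leibniz, map_mul]
    simp only [smul_eq_mul, map_add, map_mul]
    rw [theta_mul, hp, hi]
    ring

/-- (I1) `qe` is injective on isobaric polynomials. -/
theorem Hyp.qe_inj (h : Hyp qe P) : ∀ (k : ℕ) (G : MvPolynomial (Fin 2) F),
    IsWeightedHomogeneous wt G k → qe G = 0 → G = 0 := by
  intro k
  induction k using Nat.strong_induction_on with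
  | _ k ih =>
    intro G hG hq
    by_contra hG0
    obtain ⟨d, hd⟩ : ∃ d, coeff d G ≠ 0 := by
      by_contra hne
      push Not at hne
      exact hG0 (MvPolynomial.ext _ _ fun d => by rw [hne d, coeff_zero])
    have hw := hG hd
    rw [weight_wt] at hw
    obtain ⟨c, G', hG', hG'0, hGe⟩ :=
      div_disc hG (d 0 % 3) (d 1 + 2 * (d 0 / 3)) (Nat.mod_lt _ (by norm_num)) (by omega)
    have hc0 : PowerSeries.constantCoeff (qe (X 0 ^ 3 - X 1 ^ 2)) = 0 := by
      rw [map_sub, map_pow, map_pow, map_sub, map_pow, map_pow, h.constQ, h.constR]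
      norm_num
    have hqC : qe (C c) = PowerSeries.C c := by
      rw [← MvPolynomial.algebraMap_eq, AlgHom.commutes]; rfl
    have hq' : PowerSeries.C c * (qe (X 0) ^ (d 0 % 3) * qe (X 1) ^ (d 1 + 2 * (d 0 / 3))) +
        qe (X 0 ^ 3 - X 1 ^ 2) * qe G' = 0 := by
      rw [← hq, hGe]
      simp only [map_add, map_mul, map_pow, hqC]
    have hc : c = 0 := by
      have := congrArg PowerSeries.constantCoeff hq'
      simpa [hc0, h.constQ, h.constR] using this
    rw [hc, map_zero, zero_mul, zero_add] at hq'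
    have hqG' : qe G' = 0 := (mul_eq_zero.mp hq').resolve_left h.disc_ne
    have hG'z : G' = 0 := by
      by_cases hk : k < 12
      · exact hG'0 hk
      · exact ih (k - 12) (by omega) G' hG' hqG'
    apply hG0
    rw [hGe, hc, hG'z]
    simp

/-! ### Small facts about isobaric polynomials -/

theorem isUnit_of_isWH_zero {G : MvPolynomial (Fin 2) F} (hG : IsWeightedHomogeneous wt G 0)
    (hG0 : G ≠ 0) : IsUnit G := by
  have hC : G = C (coeff 0 G) := by
    ext d
    by_cases hd : d = 0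
    · rw [hd, coeff_zero_C]
    · rw [coeff_C, if_neg (fun h' => hd h'.symm)]
      by_contra hne
      have hw := hG hne
      rw [weight_wt] at hw
      apply hd
      ext i
      fin_cases i
      · simp only [Fin.zero_eta, Finsupp.coe_zero, Pi.zero_apply]; omega
      · simp only [Fin.mk_one, Finsupp.coe_zero, Pi.zero_apply]; omega
  have hc : coeff 0 G ≠ 0 := by
    intro h0
    apply hG0
    rw [hC, h0, map_zero]
  rw [hC]
  exact (IsUnit.mk0 _ hc).map C

theorem not_isUnit_of_isWH {G : MvPolynomial (Fin 2) F} {k : ℕ}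
    (hG : IsWeightedHomogeneous wt G k) (hG0 : G ≠ 0) (hk : 0 < k) : ¬ IsUnit G := by
  intro hu
  obtain ⟨b, hb⟩ := hu.exists_right_inv
  obtain ⟨i, j, hij, hi, -⟩ := isWH_of_mul (isWeightedHomogeneous_one F wt) one_ne_zero hb
  have : k = i := hG.inj_right hG0 hi
  omega

theorem eq_zero_of_isWH_two {G : MvPolynomial (Fin 2) F} (hG : IsWeightedHomogeneous wt G 2) :
    G = 0 := by
  refine hG.eq_zero_of_no_monomials fun d => ?_
  rw [weight_wt]
  omega

theorem pow_cancel_aux {π u v : MvPolynomial (Fin 2) F} (hπ : π ≠ 0) (hu : ¬ π ∣ u)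
    (hv : ¬ π ∣ v) {a b : ℕ} (h : π ^ a * u = π ^ b * v) : a = b := by
  rcases lt_trichotomy a b with hab | hab | hab
  · exfalso
    obtain ⟨d, rfl⟩ : ∃ d, b = a + (d + 1) := ⟨b - a - 1, by omega⟩
    apply hu
    have : π ^ a * u = π ^ a * (π * (π ^ d * v)) := by rw [h]; ring
    exact ⟨π ^ d * v, mul_left_cancel₀ (pow_ne_zero a hπ) this⟩
  · exact hab
  · exfalso
    obtain ⟨d, rfl⟩ : ∃ d, a = b + (d + 1) := ⟨a - b - 1, by omega⟩
    apply hv
    have : π ^ b * v = π ^ b * (π * (π ^ d * u)) := by rw [← h]; ring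
    exact ⟨π ^ d * u, mul_left_cancel₀ (pow_ne_zero b hπ) this⟩

/-! ### The main argument -/

section Main

variable (ℓ : ℕ) [CharP F ℓ]

include ℓ in
theorem natCast_ne_zero_of_lt {n : ℕ} (h0 : 0 < n) (h : n < ℓ) : (n : F) ≠ 0 := by
  rw [Ne, CharP.cast_eq_zero_iff F ℓ]
  exact Nat.not_dvd_of_pos_of_lt h0 h

include ℓ in
theorem not_dvd_natCast {π : MvPolynomial (Fin 2) F} (hπ : Irreducible π) {n : ℕ} (h0 : 0 < n)
    (h : n < ℓ) : ¬ π ∣ ((n : ℕ) : MvPolynomial (Fin 2) F) := by
  intro hd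
  have hu : IsUnit ((n : ℕ) : MvPolynomial (Fin 2) F) := by
    rw [← map_natCast (C (R := F) (σ := Fin 2))]
    exact (IsUnit.mk0 _ (natCast_ne_zero_of_lt ℓ h0 h)).map C
  exact hπ.not_isUnit (isUnit_of_dvd_unit hd hu)

theorem natCast_ps (n : ℕ) : ((n : ℕ) : PowerSeries F) = PowerSeries.C (n : F) :=
  (map_natCast (PowerSeries.C (R := F)) n).symm

/-- With `B = D At`: `qe B = P` and `D B = -Q At`. -/
theorem Hyp.dS_dS_At (h : Hyp qe P) (hℓ : 5 ≤ ℓ) {At : MvPolynomial (Fin 2) F}
    (hAt : IsWeightedHomogeneous wt At (ℓ - 1)) (hAt1 : qe At = 1) :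
    dS (dS At) = -(X 0 * At) := by
  have hcast1 : ((ℓ - 1 : ℕ) : F) = -1 := by
    rw [Nat.cast_sub (by omega), CharP.cast_eq_zero, Nat.cast_one, zero_sub]
  have hcast2 : ((ℓ - 1 + 2 : ℕ) : F) = 1 := by
    have : ℓ - 1 + 2 = ℓ + 1 := by omega
    rw [this, Nat.cast_add, CharP.cast_eq_zero, Nat.cast_one, zero_add]
  have hB : IsWeightedHomogeneous wt (dS At) (ℓ - 1 + 2) := isWH_dS hAt
  have hth1 : theta (1 : PowerSeries F) = 0 := by simp [theta]
  have hqB : qe (dS At) = P := by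
    rw [h.qe_dS, eul_of_isWH hAt, map_mul, map_natCast, hAt1, hth1, natCast_ps, hcast1]
    simp
  have hw1 : IsWeightedHomogeneous wt (dS (dS At)) (ℓ - 1 + 2 + 2) := isWH_dS hB
  have hw2 : IsWeightedHomogeneous wt (-(X 0 * At)) (ℓ - 1 + 2 + 2) := by
    have e : ℓ - 1 + 2 + 2 = 4 + (ℓ - 1) := by omega
    rw [e]
    exact (isWH_X0.mul hAt).neg
  refine sub_eq_zero.mp (h.qe_inj _ _ (hw1.sub hw2) ?_)
  rw [map_sub, h.qe_dS, eul_of_isWH hB, map_mul, map_natCast, hqB, map_neg, map_mul, hAt1,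
    natCast_ps, hcast2]
  simp only [map_one, one_mul, mul_one]
  linear_combination h.thetaP

/-- `At` is squarefree: every irreducible factor has multiplicity one. -/
theorem Hyp.At_eq (h : Hyp qe P) (hℓ : 5 ≤ ℓ) {At : MvPolynomial (Fin 2) F}
    (hAt : IsWeightedHomogeneous wt At (ℓ - 1)) (hAt1 : qe At = 1)
    {π : MvPolynomial (Fin 2) F} (hπ : Irreducible π) (hπd : π ∣ At) :
    ∃ g, ¬ π ∣ g ∧ At = π * g := by
  have hAt0 : At ≠ 0 := by
    rintro rfl
    rw [map_zero] at hAt1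
    exact zero_ne_one hAt1
  have hπp : Prime π := hπ.prime
  have hπ0 : π ≠ 0 := hπ.ne_zero
  obtain ⟨n, g, hg, hAtg⟩ := WfDvdMonoid.max_power_factor hAt0 hπ
  have hn1 : 1 ≤ n := by
    by_contra hn
    have : n = 0 := by omega
    rw [this, pow_zero, one_mul] at hAtg
    exact hg (hAtg ▸ hπd)
  -- `π` is isobaric
  obtain ⟨i, j, hij, hπni, -⟩ := isWH_of_mul hAt hAt0 hAtg.symm
  have hpow : π * π ^ (n - 1) = π ^ n := by
    rw [← pow_succ']; congr 1; omega
  obtain ⟨kπ, j', -, hπwh, -⟩ := isWH_of_mul hπni (pow_ne_zero n hπ0) hpow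
  have hkπ0 : kπ ≠ 0 := by
    rintro rfl
    exact hπ.not_isUnit (isUnit_of_isWH_zero hπwh hπ0)
  have hni : n * kπ = i := by
    have := (hπwh.pow n).inj_right (pow_ne_zero n hπ0) hπni
    simpa using this
  have hkπ1 : 1 ≤ kπ := Nat.one_le_iff_ne_zero.mpr hkπ0
  have hle1 : n ≤ n * kπ := Nat.le_mul_of_pos_right n hkπ1
  have hle2 : kπ ≤ n * kπ := Nat.le_mul_of_pos_left kπ hn1
  have hkπlt : kπ < ℓ := by omega
  have hnlt : n < ℓ := by omega
  -- constant terms
  have hP0 : PowerSeries.constantCoeff P ≠ 0 := by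
    have := congrArg PowerSeries.constantCoeff h.thetaP
    rw [map_mul, constantCoeff_theta, mul_zero, map_sub, map_pow, h.constQ] at this
    intro h0
    rw [h0] at this
    norm_num at this
  have hπc : PowerSeries.constantCoeff (qe π) ≠ 0 := by
    intro h0
    have := congrArg PowerSeries.constantCoeff hAt1
    rw [hAtg, map_mul, map_pow, map_mul, map_pow, h0, zero_pow (by omega), zero_mul, map_one]
      at this
    exact zero_ne_one this
  -- `π ∤ D π`
  have hπD : ¬ π ∣ dS π := by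
    intro hdvd
    have hDπ0 : dS π = 0 := by
      by_contra hne
      obtain ⟨L, hL⟩ := hdvd
      obtain ⟨i', j'', hij', hπi', hLj'⟩ := isWH_of_mul (isWH_dS hπwh) hne hL.symm
      have hi' : i' = kπ := hπi'.inj_right hπ0 hπwh
      have hj'' : j'' = 2 := by omega
      rw [hj''] at hLj'
      exact hne (by rw [hL, eq_zero_of_isWH_two hLj', mul_zero])
    have hq0 := h.qe_dS π
    rw [hDπ0, map_zero, eul_of_isWH hπwh, map_mul, map_natCast, natCast_ps] at hq0
    have hc := congrArg PowerSeries.constantCoeff hq0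
    rw [map_zero, map_sub, map_mul, constantCoeff_theta, mul_zero, zero_sub, map_mul, map_mul,
      PowerSeries.constantCoeff_C] at hc
    have hk : (kπ : F) ≠ 0 := natCast_ne_zero_of_lt ℓ (by omega) hkπlt
    have : PowerSeries.constantCoeff P * ((kπ : F) * PowerSeries.constantCoeff (qe π)) ≠ 0 :=
      mul_ne_zero hP0 (mul_ne_zero hk hπc)
    exact this (neg_eq_zero.mp hc.symm)
  -- `n = 1`
  have hn : n = 1 := by
    by_contra hne
    obtain ⟨m, rfl⟩ : ∃ m, n = m + 2 := ⟨n - 2, by omega⟩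
    have hDD := h.dS_dS_At ℓ hℓ hAt hAt1
    have e1 : dS At = π ^ (m + 1) *
        (π * dS g + ((m + 2 : ℕ) : MvPolynomial (Fin 2) F) * g * dS π) := by
      rw [hAtg, Derivation.leibniz, Derivation.leibniz_pow]
      simp only [smul_eq_mul, nsmul_eq_mul, show m + 2 - 1 = m + 1 from rfl]
      ring
    set U := π * dS g + ((m + 2 : ℕ) : MvPolynomial (Fin 2) F) * g * dS π with hU
    have e2 : dS (dS At) = π ^ m *
        (π * dS U + ((m + 1 : ℕ) : MvPolynomial (Fin 2) F) * U * dS π) := by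
      rw [e1, Derivation.leibniz, Derivation.leibniz_pow]
      simp only [smul_eq_mul, nsmul_eq_mul, Nat.add_sub_cancel]
      ring
    rw [hDD, hAtg] at e2
    have e3 : π * dS U + ((m + 1 : ℕ) : MvPolynomial (Fin 2) F) * U * dS π =
        -(X 0 * (π ^ 2 * g)) := by
      apply mul_left_cancel₀ (pow_ne_zero m hπ0)
      rw [← e2]
      ring
    have e4 : π ∣ ((m + 1 : ℕ) : MvPolynomial (Fin 2) F) *
        (((m + 2 : ℕ) : MvPolynomial (Fin 2) F) * (g * (dS π * dS π))) := by
      refine ⟨-(X 0 * (π * g)) - dS U - ((m + 1 : ℕ) : MvPolynomial (Fin 2) F) * dS g * dS π, ?_⟩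
      rw [hU] at e3 ⊢
      linear_combination e3
    rcases hπp.dvd_or_dvd e4 with h1 | h1
    · exact not_dvd_natCast ℓ hπ (by omega) (by omega) h1
    rcases hπp.dvd_or_dvd h1 with h2 | h2
    · exact not_dvd_natCast ℓ hπ (by omega) (by omega) h2
    rcases hπp.dvd_or_dvd h2 with h3 | h3
    · exact hg h3
    rcases hπp.dvd_or_dvd h3 with h4 | h4
    · exact hπD h4
    · exact hπD h4
  refine ⟨g, hg, ?_⟩
  rw [hAtg, hn, pow_one]

/-- **Swinnerton-Dyer's fact** (algebraic core): if `qe G` is a nonzero constant and `G` is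
isobaric of weight `k`, then `(ℓ - 1) ∣ k`. -/
theorem swd (h : Hyp qe P) (hℓ : 5 ≤ ℓ) {At : MvPolynomial (Fin 2) F}
    (hAt : IsWeightedHomogeneous wt At (ℓ - 1)) (hAt1 : qe At = 1)
    {k : ℕ} {G : MvPolynomial (Fin 2) F} (hG : IsWeightedHomogeneous wt G k) {c : F}
    (hc : c ≠ 0) (hq : qe G = PowerSeries.C c) : (ℓ - 1) ∣ k := by
  have hAt0 : At ≠ 0 := by
    rintro rfl
    rw [map_zero] at hAt1
    exact zero_ne_one hAt1
  have hG0 : G ≠ 0 := by
    rintro rfl
    rw [map_zero] at hq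
    have := congrArg PowerSeries.constantCoeff hq
    rw [map_zero, PowerSeries.constantCoeff_C] at this
    exact hc this.symm
  obtain ⟨π, hπ, hπd⟩ :=
    WfDvdMonoid.exists_irreducible_factor (not_isUnit_of_isWH hAt hAt0 (by omega)) hAt0
  have hπp : Prime π := hπ.prime
  obtain ⟨g, hg, hAtg⟩ := h.At_eq ℓ hℓ hAt hAt1 hπ hπd
  have hqC : qe (C (c ^ (ℓ - 1))) = PowerSeries.C (c ^ (ℓ - 1)) := by
    rw [← MvPolynomial.algebraMap_eq, AlgHom.commutes]; rfl
  have hpow : G ^ (ℓ - 1) = C (c ^ (ℓ - 1)) * At ^ k := by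
    have hw1 : IsWeightedHomogeneous wt (G ^ (ℓ - 1)) ((ℓ - 1) * k) := by
      simpa using hG.pow (ℓ - 1)
    have hw2 : IsWeightedHomogeneous wt (C (c ^ (ℓ - 1)) * At ^ k) ((ℓ - 1) * k) := by
      have := (hAt.pow k).C_mul (c ^ (ℓ - 1))
      convert this using 1
      simp [mul_comm]
    have e : qe (G ^ (ℓ - 1)) = qe (C (c ^ (ℓ - 1)) * At ^ k) := by
      rw [map_mul, hqC, map_pow qe, map_pow qe, hq, hAt1, one_pow, mul_one, map_pow]
    refine sub_eq_zero.mp (h.qe_inj _ _ (hw1.sub hw2) ?_)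
    rw [map_sub, e, sub_self]
  obtain ⟨e, G', hG', hGe⟩ := WfDvdMonoid.max_power_factor hG0 hπ
  have key : π ^ (e * (ℓ - 1)) * G' ^ (ℓ - 1) = π ^ k * (C (c ^ (ℓ - 1)) * g ^ k) := by
    rw [hGe, hAtg, mul_pow, ← pow_mul, mul_pow] at hpow
    linear_combination hpow
  have hu : ¬ π ∣ G' ^ (ℓ - 1) := fun hd => hG' (hπp.dvd_of_dvd_pow hd)
  have hv : ¬ π ∣ C (c ^ (ℓ - 1)) * g ^ k := by
    intro hd
    rcases hπp.dvd_or_dvd hd with h1 | h1
    · exact hπ.not_isUnit (isUnit_of_dvd_unit h1 ((IsUnit.mk0 _ (pow_ne_zero _ hc)).map C))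
    · exact hg (hπp.dvd_of_dvd_pow h1)
  have := pow_cancel_aux hπ.ne_zero hu hv key
  exact ⟨e, by rw [← this, mul_comm]⟩

end Main

end Fermat.Agent.S16.SwDAlg
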