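/-
S16 block [S] (helper58): weak Swinnerton-Dyer core. Mathlib only.

If the constant `1` is the reduction of a weight-`N` form (`N > 0`) and of a weight-`k` form,
both written as linear combinations of `e4 ^ a * e6 ^ b` (`4 a + 6 b =` weight), then
`4 ≤ gcd N k`.  No derivations, no unique factorisation: `e4 ^ a * e6 ^ b = ρ ^ h * τ ^ (a + b)`
with `τ = e4 ^ 3 / e6 ^ 2`, `ρ = e6 / e4`, `2 h = 4 a + 6 b`, and `τ` is transcendental.
-/
import Mathlib

namespace Fermat.Agent.S16.SwDCore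

open Polynomial

section Field

variable {F : Type*} [Field F]

/-- The constant coefficient of `aeval u g` is `g` evaluated at the constant coefficient. -/
theorem constantCoeff_aeval (u : PowerSeries F) (g : F[X]) :
    PowerSeries.constantCoeff (aeval u g) = g.eval (PowerSeries.constantCoeff u) := by
  rw [aeval_def, hom_eval₂]
  have h : (PowerSeries.constantCoeff (R := F)).comp (algebraMap F (PowerSeries F)) =
      RingHom.id F := by
    ext x
    simp
  rw [h, eval₂_id]

/-- A nonzero power series without constant term is transcendental. -/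
theorem eq_zero_of_aeval_eq_zero (u : PowerSeries F) (hu0 : PowerSeries.constantCoeff u = 0)
    (hu : u ≠ 0) (g : F[X]) (hg : aeval u g = 0) : g = 0 := by
  by_contra hne
  obtain ⟨q, hq, hnd⟩ := exists_eq_pow_rootMultiplicity_mul_and_not_dvd g hne 0
  rw [C_0, sub_zero] at hq hnd
  have hq0 : q.coeff 0 ≠ 0 := fun h => hnd (X_dvd_iff.mpr h)
  have h1 : aeval u g = u ^ g.rootMultiplicity 0 * aeval u q := by
    conv_lhs => rw [hq]
    simp
  rw [h1] at hg
  rcases mul_eq_zero.mp hg with h | h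
  · exact hu (eq_zero_of_pow_eq_zero h)
  · have h2 := congrArg PowerSeries.constantCoeff h
    rw [constantCoeff_aeval, hu0, map_zero, ← coeff_zero_eq_eval_zero] at h2
    exact hq0 h2

/-- A power series different from its constant term is transcendental. -/
theorem eq_zero_of_aeval_eq_zero' (t : PowerSeries F) (c : F)
    (ht0 : PowerSeries.constantCoeff t = c) (ht : t ≠ PowerSeries.C c) (g : F[X])
    (hg : aeval t g = 0) : g = 0 := by
  have h1 : aeval (t - PowerSeries.C c) (g.comp (X + C c)) = 0 := by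
    rw [aeval_comp]
    have : aeval (t - PowerSeries.C c) (X + C c : F[X]) = t := by
      simp [Polynomial.aeval_C]
    rw [this, hg]
  have h2 := eq_zero_of_aeval_eq_zero (t - PowerSeries.C c) (by simp [ht0])
    (sub_ne_zero.mpr ht) _ h1
  have h3 : (g.comp (X + C c)).comp (X - C c) = g := by
    rw [comp_assoc]
    simp
  rw [← h3, h2, zero_comp]

theorem natTrailingDegree_pow' (g : F[X]) (hg : g ≠ 0) (n : ℕ) :
    (g ^ n).natTrailingDegree = n * g.natTrailingDegree := by
  induction n with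
  | zero => simp
  | succ n ih =>
    rw [pow_succ, natTrailingDegree_mul (pow_ne_zero n hg) hg, ih]
    ring

/-- Representation of the weight-`N` span: `x = ρ ^ (N / 2) * g(τ)` with `g` supported in the
window `N ≤ 6 n`, `4 n ≤ N`. -/
theorem rep_of_mem_span (e4 e6 i4 i6 : PowerSeries F) (h4 : e4 * i4 = 1) (h6 : e6 * i6 = 1)
    (N : ℕ) (x : PowerSeries F)
    (hx : x ∈ Submodule.span F {x | ∃ a b : ℕ, 4 * a + 6 * b = N ∧ x = e4 ^ a * e6 ^ b}) :
    ∃ g : F[X], (∀ n, g.coeff n ≠ 0 → N ≤ 6 * n ∧ 4 * n ≤ N) ∧ (g ≠ 0 → 2 ∣ N) ∧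
      x = (e6 * i4) ^ (N / 2) * aeval (e4 ^ 3 * i6 ^ 2) g := by
  induction hx using Submodule.span_induction with
  | mem x hx =>
    obtain ⟨a, b, hab, rfl⟩ := hx
    refine ⟨X ^ (a + b), ?_, ?_, ?_⟩
    · intro n hn
      rw [coeff_X_pow] at hn
      have : n = a + b := by
        by_contra h
        exact hn (if_neg h)
      omega
    · intro _
      omega
    · have hN : N / 2 = 2 * a + 3 * b := by omega
      rw [hN, aeval_X_pow]
      have : (e6 * i4) ^ (2 * a + 3 * b) * (e4 ^ 3 * i6 ^ 2) ^ (a + b) =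
          e4 ^ a * e6 ^ b * (e4 * i4) ^ (2 * a + 3 * b) * (e6 * i6) ^ (2 * a + 2 * b) := by
        ring
      rw [this, h4, h6, one_pow, one_pow, mul_one, mul_one]
  | zero =>
    exact ⟨0, by simp, by simp, by simp⟩
  | add x y _ _ ihx ihy =>
    obtain ⟨g, hg1, hg2, hg3⟩ := ihx
    obtain ⟨g', hg1', hg2', hg3'⟩ := ihy
    refine ⟨g + g', ?_, ?_, ?_⟩
    · intro n hn
      rw [coeff_add] at hn
      by_cases h : g.coeff n = 0
      · rw [h, zero_add] at hn
        exact hg1' n hn
      · exact hg1 n h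
    · intro hne
      by_cases h : g = 0
      · rw [h, zero_add] at hne
        exact hg2' hne
      · exact hg2 h
    · rw [hg3, hg3', map_add, mul_add]
  | smul c x _ ihx =>
    obtain ⟨g, hg1, hg2, hg3⟩ := ihx
    refine ⟨c • g, ?_, ?_, ?_⟩
    · intro n hn
      rw [coeff_smul, smul_eq_mul] at hn
      exact hg1 n (right_ne_zero_of_mul hn)
    · intro hne
      exact hg2 (fun h => hne (by rw [h, smul_zero]))
    · rw [hg3, map_smul, mul_smul_comm]

/-- **Weak Swinnerton-Dyer.** If `1` lies in the weight-`N` span (`N > 0`) and in the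
weight-`k` span of the monomials `e4 ^ a * e6 ^ b`, then `4 ≤ gcd N k`. -/
theorem one_mem_span_gcd (e4 e6 : PowerSeries F) (h4 : PowerSeries.constantCoeff e4 = 1)
    (h6 : PowerSeries.constantCoeff e6 = 1) (hne : e4 ^ 3 ≠ e6 ^ 2) {N k : ℕ} (hN : 0 < N)
    (h1 : (1 : PowerSeries F) ∈
      Submodule.span F {x | ∃ a b : ℕ, 4 * a + 6 * b = N ∧ x = e4 ^ a * e6 ^ b})
    (h2 : (1 : PowerSeries F) ∈
      Submodule.span F {x | ∃ a b : ℕ, 4 * a + 6 * b = k ∧ x = e4 ^ a * e6 ^ b}) :
    4 ≤ Nat.gcd N k := by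
  have hu4 : IsUnit e4 := PowerSeries.isUnit_iff_constantCoeff.mpr (by rw [h4]; exact isUnit_one)
  have hu6 : IsUnit e6 := PowerSeries.isUnit_iff_constantCoeff.mpr (by rw [h6]; exact isUnit_one)
  obtain ⟨i4, hi4⟩ := hu4.exists_right_inv
  obtain ⟨i6, hi6⟩ := hu6.exists_right_inv
  obtain ⟨α, hα1, hα2, hα3⟩ := rep_of_mem_span e4 e6 i4 i6 hi4 hi6 N 1 h1
  obtain ⟨f, hf1, hf2, hf3⟩ := rep_of_mem_span e4 e6 i4 i6 hi4 hi6 k 1 h2
  set τ : PowerSeries F := e4 ^ 3 * i6 ^ 2 with hτ
  set ρ : PowerSeries F := e6 * i4 with hρ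
  have hα0 : α ≠ 0 := by
    rintro rfl
    simp at hα3
  have hf0 : f ≠ 0 := by
    rintro rfl
    simp at hf3
  -- constant coefficient of `τ` and `τ ≠ 1`
  have hc6 : PowerSeries.constantCoeff i6 = 1 := by
    have := congrArg PowerSeries.constantCoeff hi6
    rwa [map_mul, h6, one_mul, map_one] at this
  have hτc : PowerSeries.constantCoeff τ = 1 := by
    rw [hτ, map_mul, map_pow, map_pow, h4, hc6]
    simp
  have hτ1 : τ ≠ PowerSeries.C 1 := by
    intro h
    apply hne
    have h' : e4 ^ 3 * i6 ^ 2 = 1 := by rw [← hτ, h, map_one]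
    calc e4 ^ 3 = e4 ^ 3 * (e6 * i6) ^ 2 := by rw [hi6, one_pow, mul_one]
      _ = (e4 ^ 3 * i6 ^ 2) * e6 ^ 2 := by ring
      _ = e6 ^ 2 := by rw [h', one_mul]
  have hρ0 : ρ ≠ 0 := by
    intro h
    have h' : e6 * i4 * (e4 * i6) = 1 := by
      calc e6 * i4 * (e4 * i6) = (e4 * i4) * (e6 * i6) := by ring
        _ = 1 := by rw [hi4, hi6, one_mul]
    rw [← hρ, h, zero_mul] at h'
    exact zero_ne_one h'
  -- the polynomial identity
  have hpoly : α ^ (k / 2) = f ^ (N / 2) := by
    have h0 : aeval τ (α ^ (k / 2) - f ^ (N / 2)) = 0 := by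
      have e1 : ρ ^ (N / 2 * (k / 2)) * aeval τ (α ^ (k / 2)) = 1 := by
        rw [map_pow, pow_mul, ← mul_pow, ← hα3, one_pow]
      have e2 : ρ ^ (N / 2 * (k / 2)) * aeval τ (f ^ (N / 2)) = 1 := by
        rw [map_pow, mul_comm (N / 2) (k / 2), pow_mul, ← mul_pow, ← hf3, one_pow]
      have e3 : ρ ^ (N / 2 * (k / 2)) * aeval τ (α ^ (k / 2) - f ^ (N / 2)) = 0 := by
        rw [map_sub, mul_sub, e1, e2, sub_self]
      rcases mul_eq_zero.mp e3 with h | h
      · exact absurd (eq_zero_of_pow_eq_zero h) hρ0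
      · exact h
    exact sub_eq_zero.mp (eq_zero_of_aeval_eq_zero' τ 1 hτc hτ1 _ h0)
  have htd := congrArg natTrailingDegree hpoly
  rw [natTrailingDegree_pow' α hα0, natTrailingDegree_pow' f hf0] at htd
  have hα_mem := natTrailingDegree_mem_support_of_nonzero hα0
  have hα_w := hα1 _ (mem_support_iff.mp hα_mem)
  have hN2 := hα2 hα0
  have hk2 := hf2 hf0
  obtain ⟨hN', rfl⟩ := hN2
  obtain ⟨hk', rfl⟩ := hk2
  rw [Nat.gcd_mul_left]
  simp only [Nat.mul_div_cancel_left _ (by norm_num : 0 < 2)] at htd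
  set a₀ := α.natTrailingDegree
  by_contra hlt
  have hg : Nat.gcd hN' hk' ≤ 1 := by omega
  have hN'pos : 0 < hN' := by omega
  have hg1 : Nat.Coprime hN' hk' := by
    have : 0 < Nat.gcd hN' hk' := Nat.gcd_pos_of_pos_left _ hN'pos
    unfold Nat.Coprime
    omega
  have hdvd : hN' ∣ a₀ := by
    apply hg1.dvd_of_dvd_mul_left
    rw [htd]
    exact dvd_mul_right _ _
  have ha₀ : 0 < a₀ := by omega
  have := Nat.le_of_dvd ha₀ hdvd
  omega

end Field

/-- **Weak Swinnerton-Dyer, integral form.** `φ : O →+* F` a ring hom to a field (reduction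
modulo a prime), `E4 E6 : O⟦X⟧` with constant coefficient `1` and `E4 ^ 3 ≠ E6 ^ 2` after
reduction. If `A` is in the weight-`N` span (`N > 0`) and reduces to `1`, and `G` is in the
weight-`k` span and reduces to a nonzero constant, then `4 ≤ gcd N k`. -/
theorem gcd_of_map_eq_C {O F : Type*} [CommRing O] [Field F] (φ : O →+* F)
    (E4 E6 : PowerSeries O) (h4 : PowerSeries.constantCoeff E4 = 1)
    (h6 : PowerSeries.constantCoeff E6 = 1)
    (hne : (E4 ^ 3).map φ ≠ (E6 ^ 2).map φ) {N k : ℕ} (hN : 0 < N) {A G : PowerSeries O}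
    (hA : A ∈ Submodule.span O {x | ∃ a b : ℕ, 4 * a + 6 * b = N ∧ x = E4 ^ a * E6 ^ b})
    (hA1 : A.map φ = 1)
    (hG : G ∈ Submodule.span O {x | ∃ a b : ℕ, 4 * a + 6 * b = k ∧ x = E4 ^ a * E6 ^ b})
    {c : F} (hc : c ≠ 0) (hGc : G.map φ = PowerSeries.C c) : 4 ≤ Nat.gcd N k := by
  have key : ∀ (w : ℕ) (x : PowerSeries O),
      x ∈ Submodule.span O {x | ∃ a b : ℕ, 4 * a + 6 * b = w ∧ x = E4 ^ a * E6 ^ b} →
      x.map φ ∈ Submodule.span F
        {x | ∃ a b : ℕ, 4 * a + 6 * b = w ∧ x = (E4.map φ) ^ a * (E6.map φ) ^ b} := by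
    intro w x hx
    induction hx using Submodule.span_induction with
    | mem x hx =>
      obtain ⟨a, b, hab, rfl⟩ := hx
      apply Submodule.subset_span
      exact ⟨a, b, hab, by simp⟩
    | zero => simp
    | add x y _ _ ihx ihy =>
      rw [map_add]
      exact Submodule.add_mem _ ihx ihy
    | smul r x _ ihx =>
      have : (r • x).map φ = φ r • x.map φ := by
        ext n
        simp
      rw [this]
      exact Submodule.smul_mem _ _ ihx
  have hA' := key N A hA
  have hG' := key k G hG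
  rw [hA1] at hA'
  rw [hGc] at hG'
  have hG'' : (1 : PowerSeries F) ∈ Submodule.span F
      {x | ∃ a b : ℕ, 4 * a + 6 * b = k ∧ x = (E4.map φ) ^ a * (E6.map φ) ^ b} := by
    have := Submodule.smul_mem _ c⁻¹ hG'
    have h1 : c⁻¹ • (PowerSeries.C c : PowerSeries F) = 1 := by
      ext n
      simp [PowerSeries.coeff_C, PowerSeries.coeff_one]
      split_ifs <;> simp [hc]
    rwa [h1] at this
  refine one_mem_span_gcd (E4.map φ) (E6.map φ) ?_ ?_ ?_ hN hA' hG''
  · rw [← PowerSeries.coeff_zero_eq_constantCoeff_apply, PowerSeries.coeff_map,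
      PowerSeries.coeff_zero_eq_constantCoeff_apply, h4, map_one]
  · rw [← PowerSeries.coeff_zero_eq_constantCoeff_apply, PowerSeries.coeff_map,
      PowerSeries.coeff_zero_eq_constantCoeff_apply, h6, map_one]
  · simpa using hne

end Fermat.Agent.S16.SwDCore
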