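/-
S16 (U): the trace identity `TraceId p` (input (Q4) of the leaves (B), (B3), (C)) from the
pair calculus `PairQ` (general trace formula).  Hedge of the `WTraceQ` route.
OWNER: helper80 (only the owner edits this file).
-/
import Mathlib
import Fermat.Agent.S16.PairQ
import Fermat.Agent.S16.UBCong

set_option autoImplicit false

namespace Fermat.Agent.S16.TraceIdP

open UpperHalfPlane ModularForm PowerSeries
open scoped MatrixGroups ModularForm
open Fermat.Agent.S16 Fermat.Agent.S16.TrTrick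
open Fermat.Agent.S16.Lvl1 (lvl1)

theorem map_uOp' {R S : Type*} [CommRing R] [CommRing S] (φ : R →+* S) (r : ℕ) (f : R⟦X⟧) :
    (uOp r f).map φ = uOp r (f.map φ) := by
  ext n
  simp

theorem map_vOp' {R S : Type*} [CommRing R] [CommRing S] (φ : R →+* S) (r : ℕ) (f : R⟦X⟧) :
    (vOp r f).map φ = vOp r (f.map φ) := by
  ext n
  simp only [coeff_map, coeff_vOp]
  split_ifs <;> simp

theorem map_smul' {R S : Type*} [CommRing R] [CommRing S] (φ : R →+* S) (c : R) (f : R⟦X⟧) :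
    (c • f).map φ = φ c • f.map φ := by
  ext n
  simp

/-- The trace identity (Q4) in the general subring form, from the pair calculus. -/
theorem traceId (p : ℕ) (hp : p.Prime) : TraceId p := by
  intro 𝒪 H h hh k F hF
  have : NeZero p := ⟨hp.ne_zero⟩
  obtain ⟨F', hF'⟩ := hF
  have hHmem : (⇑H : ℍ → ℂ) ∈ S20.MF p 2 := ⟨H, rfl⟩
  have hq : HasQ (⇑H) (h.map 𝒪.subtype) := by
    rw [hh]
    exact hasQ_of_mem_MF hHmem
  have hpair := isPair_two p hp hHmem hq
  have ha : F.map 𝒪.subtype ∈ LQ (k : ℤ) := ⟨F', hF'⟩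
  have h1 := trace_identity hp hpair ha
  have e : ((k + 2 : ℕ) : ℤ) = (k : ℤ) + 2 := by push_cast; rfl
  rw [← e] at h1
  obtain ⟨G, hG⟩ := h1
  refine ⟨G, ?_⟩
  have key : ((p : 𝒪) ^ k • (h * vOp p F) - uOp p (uOp p h * F)).map 𝒪.subtype =
      ((p : ℂ) ^ (k : ℤ)) • (h.map 𝒪.subtype * vOp p (F.map 𝒪.subtype)) -
        uOp p (uOp p (h.map 𝒪.subtype) * F.map 𝒪.subtype) := by
    rw [zpow_natCast, (PowerSeries.map 𝒪.subtype).map_sub, map_smul',
      (PowerSeries.map 𝒪.subtype).map_mul, map_vOp', map_uOp',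
      (PowerSeries.map 𝒪.subtype).map_mul, map_uOp']
    simp
  rw [hG, key]

/-- Leaf (B) (no `H ≡ 1 (mod ℓ)`, `ℓ ≥ 5`), for odd primes `p`. -/
theorem leafB (p : ℕ) (hp : p.Prime) (hp2 : p ≠ 2) : LeafB p :=
  leafB_of_traceId hp hp2 (traceId p hp)

/-- Leaf (B3) (no `H ≡ 1 (mod 9)`), for odd primes `p`. -/
theorem leafB3 (p : ℕ) (hp : p.Prime) (hp2 : p ≠ 2) : LeafB3 p :=
  leafB3_of_traceId hp hp2 (traceId p hp)

end Fermat.Agent.S16.TraceIdP
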