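import Mathlib

/-!
# S16, block [23a]: the formal (integer-sequence) part of the `ℓ = 2, 3` upper bounds

Setting (see the S16 route): `H ∈ M₂(Γ₀(p))` with `b • H = b + M • g` (`g ∈ q ℤ⟦q⟧`, `ℓ ∤ b`,
`M` a power of `ℓ`), `b • (U H) = b + M • g'`, `U² = 1`.  The identity
`p • (b H)² + U ((b • U H)²) = (p + 1) • b² • E₄` reads, on the coefficient of `qⁿ` (`n ≥ 1`),

`2 b M (p + 1) gₙ + M² (p (g * g)ₙ + (g' * g')_{p n}) = 240 (p + 1) b² σ₃(n)`

and symmetrically with `g ↔ g'`.  This file derives the contradictions from these identities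
alone; everything is a statement about integer sequences.
-/

set_option autoImplicit false

namespace Fermat.Agent.S16.U23

open Finset

/-- Cauchy product coefficient of two integer sequences. -/
def conv (g h : ℕ → ℤ) (n : ℕ) : ℤ := ∑ x ∈ antidiagonal n, g x.1 * h x.2

/-- The coefficient relations coming from `P₂ = c₂ E₄` for `H` and for `U H`. -/
structure Rel (p : ℕ) (M b : ℤ) (s g g' : ℕ → ℤ) : Prop where
  U1 : ∀ n, g' n = g (p * n)
  U2 : ∀ n, g n = g' (p * n)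
  id1 : ∀ n, 1 ≤ n → 2 * b * M * ((p : ℤ) + 1) * g n
      + M ^ 2 * ((p : ℤ) * conv g g n + conv g' g' (p * n)) = 240 * ((p : ℤ) + 1) * b ^ 2 * s n
  id2 : ∀ n, 1 ≤ n → 2 * b * M * ((p : ℤ) + 1) * g' n
      + M ^ 2 * ((p : ℤ) * conv g' g' n + conv g g (p * n)) = 240 * ((p : ℤ) + 1) * b ^ 2 * s n

theorem Rel.symm {p : ℕ} {M b : ℤ} {s g g' : ℕ → ℤ} (h : Rel p M b s g g') :
    Rel p M b s g' g :=
  ⟨h.U2, h.U1, h.id2, h.id1⟩

/-- Mod 2, the self-convolution only sees the diagonal term. -/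
theorem conv_self_zmod_two (g : ℕ → ℤ) (m : ℕ) :
    ((conv g g m : ℤ) : ZMod 2) = if Even m then ((g (m / 2) : ℤ) : ZMod 2) else 0 := by
  classical
  unfold conv
  push_cast
  by_cases hm : Even m
  · rw [if_pos hm]
    obtain ⟨k, rfl⟩ := hm
    have hk : (k + k) / 2 = k := by omega
    rw [hk]
    have hmem : (k, k) ∈ antidiagonal (k + k) := by simp
    rw [← Finset.add_sum_erase _ _ hmem]
    have hz : ∑ x ∈ (antidiagonal (k + k)).erase (k, k),
        ((g x.1 : ℤ) : ZMod 2) * ((g x.2 : ℤ) : ZMod 2) = 0 := by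
      refine Finset.sum_involution (fun x _ => x.swap) ?_ ?_ ?_ ?_
      · intro x _
        simp only [Prod.fst_swap, Prod.snd_swap]
        rw [mul_comm, ← two_mul]
        have : (2 : ZMod 2) = 0 := by decide
        rw [this, zero_mul]
      · intro x hx _ hfix
        have hx' := Finset.mem_erase.1 hx
        have h1 : x.1 = x.2 := by
          have := congrArg Prod.fst hfix
          simpa using this.symm
        have h2 : x.1 + x.2 = k + k := by simpa using hx'.2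
        apply hx'.1
        ext <;> simp <;> omega
      · intro x hx
        have hx' := Finset.mem_erase.1 hx
        refine Finset.mem_erase.2 ⟨?_, ?_⟩
        · intro h
          apply hx'.1
          have := congrArg Prod.swap h
          simpa using this
        · have h2 : x.1 + x.2 = k + k := by simpa using hx'.2
          simp only [Finset.HasAntidiagonal.mem_antidiagonal, Prod.fst_swap, Prod.snd_swap]
          omega
      · intro x _
        simp
    rw [hz, add_zero]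
    have hsq : ∀ a : ZMod 2, a * a = a := by decide
    exact hsq _
  · rw [if_neg hm]
    refine Finset.sum_involution (fun x _ => x.swap) ?_ ?_ ?_ ?_
    · intro x _
      simp only [Prod.fst_swap, Prod.snd_swap]
      rw [mul_comm, ← two_mul]
      have : (2 : ZMod 2) = 0 := by decide
      rw [this, zero_mul]
    · intro x hx _ hfix
      have h1 : x.1 = x.2 := by
        have := congrArg Prod.fst hfix
        simpa using this.symm
      have h2 : x.1 + x.2 = m := by simpa using hx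
      exact hm ⟨x.1, by omega⟩
    · intro x hx
      have h2 : x.1 + x.2 = m := by simpa using hx
      simp only [Finset.HasAntidiagonal.mem_antidiagonal, Prod.fst_swap, Prod.snd_swap]
      omega
    · intro x _
      simp

theorem two_dvd_conv_self_of_odd (g : ℕ → ℤ) {m : ℕ} (hm : Odd m) : (2 : ℤ) ∣ conv g g m := by
  have h := conv_self_zmod_two g m
  rw [if_neg (Nat.not_even_iff_odd.2 hm)] at h
  exact (ZMod.intCast_zmod_eq_zero_iff_dvd _ 2).1 h

/-! ### `ℓ = 3`, `M = 3`, `p ≡ 1 mod 3` -/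

theorem false_of_rel_three {p : ℕ} (hp1 : 1 ≤ p) (hp3 : p % 3 = 1) {b : ℤ} (hb : ¬ (3 : ℤ) ∣ b)
    {s g g' : ℕ → ℤ} (hs1 : s 1 = 1) (hsp : s p = 1 + (p : ℤ) ^ 3)
    (h : Rel p 3 b s g g') : False := by
  have e1 := h.id1 p hp1
  have e2 := h.id2 1 le_rfl
  have hU : g' 1 = g p := by simpa using h.U1 1
  rw [hsp] at e1
  rw [hs1, hU] at e2
  obtain ⟨k, hk⟩ : ∃ k : ℤ, (p : ℤ) = 3 * k + 1 := ⟨(p / 3 : ℕ), by omega⟩
  set X := (p : ℤ) * conv g g p + conv g' g' (p * p) with hX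
  set Y := (p : ℤ) * conv g' g' 1 + conv g g (p * 1) with hY
  rw [hk] at e1 e2
  have h3 : (3 : ℤ) * (3 * (X - Y)) = 3 * (80 * (3 * k + 2) * b ^ 2 * (3 * k + 1) ^ 3) := by
    linear_combination e1 - e2
  have h3' : 3 * (X - Y) = 80 * (3 * k + 2) * b ^ 2 * (3 * k + 1) ^ 3 :=
    mul_left_cancel₀ (by norm_num) h3
  have hd : (3 : ℤ) ∣ 80 * (3 * k + 2) * b ^ 2 * (3 * k + 1) ^ 3 := ⟨X - Y, h3'.symm⟩
  have p3 : Prime (3 : ℤ) := Int.prime_three
  rcases p3.dvd_or_dvd hd with hd | hd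
  · rcases p3.dvd_or_dvd hd with hd | hd
    · rcases p3.dvd_or_dvd hd with hd | hd
      · norm_num at hd
      · omega
    · exact hb (p3.dvd_of_dvd_pow hd)
  · have := p3.dvd_of_dvd_pow hd
    omega

/-! ### `ℓ = 3`, `M = 9`, `27 ∤ p + 1` -/

theorem false_of_rel_nine {p : ℕ} (hp27 : ¬ (27 : ℤ) ∣ (p : ℤ) + 1) {b : ℤ} (hb : ¬ (3 : ℤ) ∣ b)
    {s g g' : ℕ → ℤ} (hs1 : s 1 = 1) (h : Rel p 9 b s g g') : False := by
  have e1 := h.id1 1 le_rfl
  rw [hs1] at e1
  set X := (p : ℤ) * conv g g 1 + conv g' g' (p * 1) with hX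
  have h3 : (3 : ℤ) * (27 * X) = 3 * (((p : ℤ) + 1) * (2 * b * (40 * b - 3 * g 1))) := by
    linear_combination e1
  have h3' : 27 * X = ((p : ℤ) + 1) * (2 * b * (40 * b - 3 * g 1)) :=
    mul_left_cancel₀ (by norm_num) h3
  have hd : (27 : ℤ) ∣ ((p : ℤ) + 1) * (2 * b * (40 * b - 3 * g 1)) := ⟨X, h3'.symm⟩
  have p3 : Prime (3 : ℤ) := Int.prime_three
  have hcop : IsCoprime (27 : ℤ) (2 * b * (40 * b - 3 * g 1)) := by
    have h27 : (27 : ℤ) = 3 ^ 3 := by norm_num
    rw [h27]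
    apply IsCoprime.pow_left
    rw [Prime.coprime_iff_not_dvd p3]
    intro hd
    rcases p3.dvd_or_dvd hd with hd | hd
    · rcases p3.dvd_or_dvd hd with hd | hd
      · norm_num at hd
      · exact hb hd
    · apply hb
      have h40 : (3 : ℤ) ∣ 40 * b := by
        have : 40 * b = (40 * b - 3 * g 1) + 3 * g 1 := by ring
        rw [this]
        exact dvd_add hd (dvd_mul_right _ _)
      rcases p3.dvd_or_dvd h40 with h | h
      · norm_num at h
      · exact h
  exact hp27 (hcop.dvd_of_dvd_mul_right hd)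

/-! ### `ℓ = 2`, `M = 8`, `8 ∤ p + 1` -/

/-- Key parity statement in the case `M = 8`: for odd `n` we get `gₙ ≡ s(n) mod 2`. -/
theorem rel_eight_parity {p : ℕ} (hpodd : Odd p) (hp8 : ¬ (8 : ℤ) ∣ (p : ℤ) + 1) {b : ℤ}
    (hb : ¬ (2 : ℤ) ∣ b) {s g g' : ℕ → ℤ} (h : Rel p 8 b s g g') {n : ℕ} (hn : Odd n) :
    (2 : ℤ) ∣ g n - s n := by
  have hn1 : 1 ≤ n := hn.pos
  have e1 := h.id1 n hn1
  obtain ⟨c1, hc1⟩ := two_dvd_conv_self_of_odd g hn
  obtain ⟨c2, hc2⟩ := two_dvd_conv_self_of_odd g' (hpodd.mul hn)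
  rw [hc1, hc2] at e1
  -- b (p+1) g_n + 8 (p c1 + c2) = 15 (p+1) b² s_n
  have h8 : (8 : ℤ) ∣ ((p : ℤ) + 1) * (b * (g n - 15 * b * s n)) := by
    refine ⟨-((p : ℤ) * c1 + c2), ?_⟩
    have : (16 : ℤ) * (((p : ℤ) + 1) * (b * (g n - 15 * b * s n))) =
        16 * (8 * -((p : ℤ) * c1 + c2)) := by linear_combination e1
    exact mul_left_cancel₀ (by norm_num) this
  by_contra hodd
  apply hp8
  have p2 : Prime (2 : ℤ) := Int.prime_two
  have hcop : IsCoprime (8 : ℤ) (b * (g n - 15 * b * s n)) := by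
    have h8' : (8 : ℤ) = 2 ^ 3 := by norm_num
    rw [h8']
    apply IsCoprime.pow_left
    rw [Prime.coprime_iff_not_dvd p2]
    intro hd
    rcases p2.dvd_or_dvd hd with hd | hd
    · exact hb hd
    · apply hodd
      have : g n - s n = (g n - 15 * b * s n) + 2 * (7 * b * s n) + (b - 1) * s n := by ring
      rw [this]
      have hb1 : (2 : ℤ) ∣ b - 1 := by omega
      exact dvd_add (dvd_add hd (dvd_mul_right _ _)) (Dvd.dvd.mul_right hb1 _)
  exact hcop.dvd_of_dvd_mul_right h8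

theorem false_of_rel_eight {p : ℕ} (hpodd : Odd p) (hp8 : ¬ (8 : ℤ) ∣ (p : ℤ) + 1) {b : ℤ}
    (hb : ¬ (2 : ℤ) ∣ b) {s g g' : ℕ → ℤ} (hs1 : s 1 = 1) (hsp : s p = 1 + (p : ℤ) ^ 3)
    (h : Rel p 8 b s g g') : False := by
  have h1 := rel_eight_parity hpodd hp8 hb h hpodd
  have h2 := rel_eight_parity hpodd hp8 hb h.symm odd_one
  have hU : g' 1 = g p := by simpa using h.U1 1
  rw [hsp] at h1
  rw [hs1, hU] at h2
  obtain ⟨k, hk⟩ := hpodd
  have hk' : (p : ℤ) = 2 * k + 1 := by exact_mod_cast hk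
  rw [hk'] at h1
  have h3 : (2 : ℤ) ∣ (1 + (2 * (k : ℤ) + 1) ^ 3) - 1 + 1 := by
    refine ⟨4 * (k : ℤ) ^ 3 + 6 * k ^ 2 + 3 * k + 1, by ring⟩
  have h4 : (2 : ℤ) ∣ (g p - 1) - (g p - (1 + (2 * (k : ℤ) + 1) ^ 3)) := dvd_sub h2 h1
  have h5 : (2 : ℤ) ∣ 1 := by
    have := dvd_sub h3 h4
    have e : (1 + (2 * (k : ℤ) + 1) ^ 3) - 1 + 1 - ((g p - 1) - (g p - (1 + (2 * (k : ℤ) + 1) ^ 3)))
        = 1 := by ring
    rwa [e] at this
  norm_num at h5

/-! ### `ℓ = 2`, `M = 4`, `p ≡ 1 mod 4` -/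

theorem rel_four_even {p : ℕ} (hp4 : p % 4 = 1) {b : ℤ} (hb : ¬ (2 : ℤ) ∣ b)
    {s g g' : ℕ → ℤ} (h : Rel p 4 b s g g') {n : ℕ} (hn : 1 ≤ n) : (2 : ℤ) ∣ g n := by
  have e1 := h.id1 n hn
  obtain ⟨w, hw⟩ : ∃ w : ℤ, (p : ℤ) = 4 * w + 1 := ⟨(p / 4 : ℕ), by omega⟩
  have hpodd : Odd p := Nat.odd_iff.2 (by omega)
  -- b (2w+1) g_n + X_n = 30 (2w+1) b² s_n
  have e2 : b * (2 * w + 1) * g n + ((p : ℤ) * conv g g n + conv g' g' (p * n)) =
      30 * (2 * w + 1) * b ^ 2 * s n := by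
    have : (16 : ℤ) * (b * (2 * w + 1) * g n + ((p : ℤ) * conv g g n + conv g' g' (p * n))) =
        16 * (30 * (2 * w + 1) * b ^ 2 * s n) := by
      rw [hw] at e1 ⊢
      linear_combination e1
    exact mul_left_cancel₀ (by norm_num) this
  have e3 := congrArg (Int.cast : ℤ → ZMod 2) e2
  push_cast at e3
  rw [conv_self_zmod_two, conv_self_zmod_two] at e3
  have hpn : Even (p * n) ↔ Even n := by
    rw [Nat.even_mul]
    constructor
    · rintro (h | h)
      · exact absurd h (Nat.not_even_iff_odd.2 hpodd)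
      · exact h
    · exact Or.inr
  have hb1 : ((b : ℤ) : ZMod 2) = 1 := by
    have : b % 2 = 1 := by omega
    have h2 : (b : ZMod 2) = ((b % 2 : ℤ) : ZMod 2) := by
      rw [← ZMod.intCast_mod b 2]; rfl
    rw [h2, this]; simp
  have hp1 : ((p : ℕ) : ZMod 2) = 1 := by
    have : p % 2 = 1 := by omega
    rw [← ZMod.natCast_mod, this]; simp
  have h2z : (2 : ZMod 2) = 0 := by decide
  have h30 : (30 : ZMod 2) = 0 := by decide
  refine (ZMod.intCast_zmod_eq_zero_iff_dvd _ 2).1 ?_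
  by_cases hne : Even n
  · rw [if_pos hne, if_pos (hpn.2 hne)] at e3
    have hdiv : p * n / 2 = p * (n / 2) := by
      obtain ⟨m, rfl⟩ := hne
      have : (m + m) / 2 = m := by omega
      rw [this]
      have : p * (m + m) = (p * m) * 2 := by ring
      rw [this, Nat.mul_div_cancel _ (by norm_num)]
    rw [hdiv, ← h.U2 (n / 2)] at e3
    rw [hb1, hp1, h2z, h30] at e3
    have hx : ∀ x y : ZMod 2, 1 * (0 * 0 + 1) * x + (1 * y + y) = 0 * (0 * 0 + 1) * 1 ^ 2 * 0 → x = 0 := by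
      decide
    have e4 : (1 : ZMod 2) * (0 * (w : ZMod 2) + 1) * (g n : ZMod 2) +
        (1 * ((g (n / 2) : ℤ) : ZMod 2) + ((g (n / 2) : ℤ) : ZMod 2)) = 0 := by
      rw [e3]; ring
    have e5 : ((g n : ℤ) : ZMod 2) + (((g (n / 2) : ℤ) : ZMod 2) + ((g (n / 2) : ℤ) : ZMod 2)) = 0 := by
      linear_combination e4
    have hdd : ∀ y : ZMod 2, y + y = 0 := by decide
    rw [hdd, add_zero] at e5
    exact e5
  · rw [if_neg hne, if_neg (fun h => hne (hpn.1 h))] at e3
    rw [hb1, hp1, h2z, h30] at e3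
    linear_combination e3

theorem false_of_rel_four {p : ℕ} (hp4 : p % 4 = 1) {b : ℤ} (hb : ¬ (2 : ℤ) ∣ b)
    {s g g' : ℕ → ℤ} (hs1 : s 1 = 1) (hsp : s p = 1 + (p : ℤ) ^ 3)
    (hg0 : g 0 = 0) (hg0' : g' 0 = 0)
    (h : Rel p 4 b s g g') : False := by
  have hpodd : Odd p := Nat.odd_iff.2 (by omega)
  have hev : ∀ n, (2 : ℤ) ∣ g n := by
    intro n
    rcases Nat.eq_zero_or_pos n with rfl | hn
    · rw [hg0]; exact dvd_zero _
    · exact rel_four_even hp4 hb h hn
  have hev' : ∀ n, (2 : ℤ) ∣ g' n := by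
    intro n
    rcases Nat.eq_zero_or_pos n with rfl | hn
    · rw [hg0']; exact dvd_zero _
    · exact rel_four_even hp4 hb h.symm hn
  choose γ hγ using hev
  choose γ' hγ' using hev'
  have hconv : ∀ m, conv g g m = 4 * conv γ γ m := by
    intro m
    unfold conv
    rw [Finset.mul_sum]
    refine Finset.sum_congr rfl fun x _ => ?_
    rw [hγ, hγ]; ring
  have hconv' : ∀ m, conv g' g' m = 4 * conv γ' γ' m := by
    intro m
    unfold conv
    rw [Finset.mul_sum]
    refine Finset.sum_congr rfl fun x _ => ?_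
    rw [hγ', hγ']; ring
  have h8 : Rel p 8 b s γ γ' := by
    refine ⟨fun n => ?_, fun n => ?_, fun n hn => ?_, fun n hn => ?_⟩
    · have := h.U1 n
      rw [hγ, hγ'] at this
      exact mul_left_cancel₀ (by norm_num) this
    · have := h.U2 n
      rw [hγ, hγ'] at this
      exact mul_left_cancel₀ (by norm_num) this
    · have := h.id1 n hn
      rw [hconv, hconv', hγ n] at this
      linear_combination this
    · have := h.id2 n hn
      rw [hconv, hconv', hγ' n] at this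
      linear_combination this
  refine false_of_rel_eight hpodd ?_ hb hs1 hsp h8
  intro hd
  obtain ⟨c, hc⟩ := hd
  omega

end Fermat.Agent.S16.U23
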