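/-
S16 (lead route v1), block (U5), combinatorial core (owner: helper98).  Mathlib only.

Let `𝔽` be a field of characteristic `ℓ ≥ 5`, `m = (ℓ - 1) / 2`, `a : 𝔽`, `p ≥ 2`.  Then the
polynomial `(1 + t) (1 + a t) ^ p` is not a polynomial in `t ^ m`: it has a nonzero coefficient
in a degree not divisible by `m`.

Proof: a polynomial in `t ^ m` is invariant under `t ↦ 4 t` (as `4 ^ m = 2 ^ (ℓ - 1) = 1`), and
`(1 + ζ t) (1 + a ζ t) ^ p = (1 + t) (1 + a t) ^ p` is impossible for `ζ ≠ 0, 1` and `p ≥ 2`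
(evaluate at `t = -ζ⁻¹`, cancel, evaluate at `t = -1`, cancel, evaluate at `t = 1`).
-/
import Mathlib

set_option autoImplicit false

namespace Fermat.Agent.S16.U5Comb

open Polynomial

variable {𝔽 : Type*} [Field 𝔽]

/-- The polynomial `(1 + t) (1 + a t) ^ p`. -/
noncomputable def fpoly (a : 𝔽) (p : ℕ) : 𝔽[X] := (1 + X) * (1 + C a * X) ^ p

theorem fpoly_comp (a ζ : 𝔽) (p : ℕ) :
    (fpoly a p).comp (C ζ * X) = (1 + C ζ * X) * (1 + C (a * ζ) * X) ^ p := by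
  unfold fpoly
  simp only [mul_comp, add_comp, one_comp, X_comp, pow_comp, C_comp, map_mul]
  ring

/-- `(1 + ζ t) (1 + a ζ t) ^ p ≠ (1 + t) (1 + a t) ^ p` for `ζ ≠ 0, 1` and `p ≥ 2`. -/
theorem fpoly_comp_ne (a ζ : 𝔽) (hζ0 : ζ ≠ 0) (hζ1 : ζ ≠ 1) (p : ℕ) (hp : 2 ≤ p) :
    (fpoly a p).comp (C ζ * X) ≠ fpoly a p := by
  intro h
  rw [fpoly_comp] at h
  unfold fpoly at h
  have hp0 : p ≠ 0 := by omega
  -- Step 1: evaluate at `-ζ⁻¹`: `a = ζ`.
  have h1 := congrArg (eval (-ζ⁻¹)) h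
  simp only [eval_mul, eval_add, eval_one, eval_C, eval_X, eval_pow] at h1
  have e1 : (1 : 𝔽) + ζ * -ζ⁻¹ = 0 := by field_simp; ring
  rw [e1, zero_mul] at h1
  have h1' := mul_eq_zero.mp h1.symm
  have haζ : a = ζ := by
    rcases h1' with h1' | h1'
    · exfalso
      apply hζ1
      have : ζ * (1 + -ζ⁻¹) = 0 := by rw [h1', mul_zero]
      have e : ζ * (1 + -ζ⁻¹) = ζ - 1 := by field_simp; ring
      rw [e] at this
      exact sub_eq_zero.mp this
    · have h2 := pow_eq_zero_iff hp0 |>.mp h1'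
      have : ζ * (1 + a * -ζ⁻¹) = 0 := by rw [h2, mul_zero]
      have e : ζ * (1 + a * -ζ⁻¹) = ζ - a := by field_simp; ring
      rw [e] at this
      exact (sub_eq_zero.mp this).symm
  subst haζ
  -- Step 2: cancel `1 + a t`.
  have hlin : (1 + C a * X : 𝔽[X]) ≠ 0 := by
    intro h0
    have := congrArg (eval 0) h0
    simp at this
  obtain ⟨n, rfl⟩ : ∃ n, p = n + 1 := ⟨p - 1, by omega⟩
  have hn : n ≠ 0 := by omega
  have h2 : (1 + C (a * a) * X : 𝔽[X]) ^ (n + 1) = (1 + X) * (1 + C a * X) ^ n := by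
    apply mul_left_cancel₀ hlin
    rw [h, pow_succ]
    ring
  -- Step 3: evaluate at `-1`: `a² = 1`, so `a = -1`.
  have h3 := congrArg (eval (-1)) h2
  simp only [eval_mul, eval_add, eval_one, eval_C, eval_X, eval_pow] at h3
  have e3 : (1 : 𝔽) + -1 = 0 := by ring
  rw [e3, zero_mul] at h3
  have h3' := pow_eq_zero_iff (by omega : n + 1 ≠ 0) |>.mp h3
  have haa : a * a = 1 := by linear_combination -h3'
  have ham : a = -1 := by
    have : (a - 1) * (a + 1) = 0 := by linear_combination haa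
    rcases mul_eq_zero.mp this with h' | h'
    · exact absurd (sub_eq_zero.mp h') hζ1
    · linear_combination h'
  subst ham
  -- Step 4: cancel `1 + t`, evaluate at `1`.
  have hlin' : (1 + X : 𝔽[X]) ≠ 0 := by
    intro h0
    have := congrArg (eval 0) h0
    simp at this
  have h4 : (1 + X : 𝔽[X]) ^ n = (1 + C (-1) * X) ^ n := by
    apply mul_left_cancel₀ hlin'
    have e : (1 + C ((-1 : 𝔽) * -1) * X : 𝔽[X]) = 1 + X := by simp
    rw [e] at h2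
    rw [← pow_succ', h2]
  have h5 := congrArg (eval 1) h4
  simp only [eval_add, eval_one, eval_C, eval_X, eval_pow, eval_mul] at h5
  have e5 : (1 : 𝔽) + -1 * 1 = 0 := by ring
  rw [e5, zero_pow hn] at h5
  have h6 := pow_eq_zero_iff hn |>.mp h5
  apply hζ1
  linear_combination -h6

/-- A polynomial all of whose nonzero coefficients sit in degrees divisible by `m` is invariant
under `t ↦ ζ t` when `ζ ^ m = 1`. -/
theorem comp_eq_self_of_coeff (f : 𝔽[X]) (m : ℕ) (ζ : 𝔽) (hζ : ζ ^ m = 1)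
    (hf : ∀ i, ¬ m ∣ i → f.coeff i = 0) : f.comp (C ζ * X) = f := by
  ext i
  rw [comp_C_mul_X_coeff]
  by_cases hi : m ∣ i
  · obtain ⟨j, rfl⟩ := hi
    rw [pow_mul, hζ, one_pow, mul_one]
  · rw [hf i hi, zero_mul]

/-- In characteristic `ℓ`, `4 ^ ((ℓ - 1) / 2) = 1`. -/
theorem four_pow_eq_one (ℓ : ℕ) [Fact ℓ.Prime] [CharP 𝔽 ℓ] (hℓ : ℓ ≠ 2) :
    (4 : 𝔽) ^ ((ℓ - 1) / 2) = 1 := by
  have hodd : ℓ % 2 = 1 := (Fact.out : ℓ.Prime).eq_two_or_odd.resolve_left hℓ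
  have h2 : (2 : ZMod ℓ) ≠ 0 := by
    intro h
    have h' : ((2 : ℕ) : ZMod ℓ) = 0 := by exact_mod_cast h
    rw [ZMod.natCast_eq_zero_iff] at h'
    have := Nat.le_of_dvd (by norm_num) h'
    have h5 := (Fact.out : ℓ.Prime).two_le
    omega
  have h1 : (2 : ZMod ℓ) ^ (ℓ - 1) = 1 := ZMod.pow_card_sub_one_eq_one h2
  have h3 : (2 : 𝔽) ^ (ℓ - 1) = 1 := by
    have := congrArg (ZMod.castHom (dvd_refl ℓ) 𝔽) h1
    rw [map_pow, map_ofNat, map_one] at this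
    exact this
  have e : (4 : 𝔽) = 2 ^ 2 := by norm_num
  rw [e, ← pow_mul]
  have : 2 * ((ℓ - 1) / 2) = ℓ - 1 := by omega
  rw [this, h3]

/-- **(U5), combinatorial core.** In characteristic `ℓ ≥ 5`, for `p ≥ 2` the polynomial
`(1 + t) (1 + a t) ^ p` has a nonzero coefficient in some degree not divisible by
`(ℓ - 1) / 2`. -/
theorem exists_coeff_ne_zero (ℓ : ℕ) [Fact ℓ.Prime] [CharP 𝔽 ℓ] (hℓ : 5 ≤ ℓ) (a : 𝔽)
    (p : ℕ) (hp : 2 ≤ p) :
    ∃ i, ¬ ((ℓ - 1) / 2 ∣ i) ∧ ((1 + X) * (1 + C a * X) ^ p : 𝔽[X]).coeff i ≠ 0 := by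
  by_contra hcon
  have hcon : ∀ i, ¬ ((ℓ - 1) / 2 ∣ i) → (fpoly a p).coeff i = 0 := by
    intro i hi
    by_contra h
    exact hcon ⟨i, hi, h⟩
  have h4 : (4 : 𝔽) ^ ((ℓ - 1) / 2) = 1 := four_pow_eq_one ℓ (by omega)
  have hinv := comp_eq_self_of_coeff (fpoly a p) ((ℓ - 1) / 2) 4 h4 hcon
  have h40 : (4 : 𝔽) ≠ 0 := by
    intro h
    rw [h, zero_pow (by omega : (ℓ - 1) / 2 ≠ 0)] at h4
    exact zero_ne_one h4
  have h41 : (4 : 𝔽) ≠ 1 := by
    intro h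
    -- then `3 = 0`, so `ℓ ∣ 3`
    have h3 : ((3 : ℕ) : 𝔽) = 0 := by
      push_cast
      linear_combination h
    rw [CharP.cast_eq_zero_iff 𝔽 ℓ] at h3
    have := Nat.le_of_dvd (by norm_num) h3
    omega
  exact fpoly_comp_ne a 4 h40 h41 p hp hinv

end Fermat.Agent.S16.U5Comb
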