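/-
S16 (U): the case table of the upper bound and the shape of the non-existence statements.
OWNER: helper45 (only the owner edits).  Tiny and FROZEN once landed.

For a prime `p ≥ 5` and `m ∤ (p-1)/gcd(p-1,12)` there are a prime `ℓ` and an exponent `s`
with `UCase p ℓ s` such that `H = 24 (E - f) / (p - 1)` is `≡ 1` modulo `ℓ^s`;
`NoH p ℓ s` says that no such `H` exists.
-/
import Fermat.Agent.S16.UDefs

set_option autoImplicit false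

namespace Fermat.Agent.S16

/-- The six cases: (B1) `ℓ ≥ 5`, `s = 1`; (B2) `ℓ = 3`, `s = 2`; (C1) `ℓ = 3`, `s = 1`,
`p ≡ 1 mod 3`; (C2) `ℓ = 2`, `s = 2`, `p ≡ 1 mod 4`; (C3) `ℓ = 2`, `s = 3`, `p ≡ 3 mod 8`;
(D') `ℓ = 2`, `s = 3`, `p ≡ 7 mod 8`. -/
def UCase (p ℓ s : ℕ) : Prop :=
  (5 ≤ ℓ ∧ s = 1) ∨ (ℓ = 3 ∧ s = 2) ∨ (ℓ = 3 ∧ s = 1 ∧ p % 3 = 1) ∨
    (ℓ = 2 ∧ s = 2 ∧ p % 4 = 1) ∨ (ℓ = 2 ∧ s = 3 ∧ p % 8 = 3) ∨ (ℓ = 2 ∧ s = 3 ∧ p % 8 = 7)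

/-- There is no weight-2 modular form `H` on `Γ₀(p)` whose `q`-expansion `h` has constant term
`1` and all higher coefficients in `ℓ^s ℤ_(ℓ)`.  (The form enters through the pair
`(h, -p⁻¹ U_p h)` of its expansions at the two cusps.) -/
def NoH (p : ℕ) [NeZero p] (ℓ s : ℕ) : Prop :=
  ∀ h : PowerSeries ℂ, IsPair p 2 h (-(p : ℂ)⁻¹ • TrTrick.uOp p h) →
    PowerSeries.coeff 0 h = 1 →
    (∀ n : ℕ, 1 ≤ n → ∃ y ∈ Zl ℓ, PowerSeries.coeff n h = (ℓ : ℂ) ^ s * y) → False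

end Fermat.Agent.S16
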