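import Mathlib
import Fermat.Agent.S16.ULeaf
import Fermat.Prelude.Thm_CongruenceSubgroup_one_mem_strictPeriods_Gamma0

/-!
# S16, upper bound (U): normalising the constant term in `CongOne` (owner: helper83)

`CongOne p ℓ s H` only says `a₀(H) ≡ 1 (mod ℓ^s)`.  Dividing by the `ℓ`-adic unit `a₀(H)` gives a
form with constant term exactly `1` and all higher coefficients in `ℓ^s • Zl ℓ`
(the "common shape" `h0`/`hc` used by the leaf (D) and the case files).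
-/

set_option autoImplicit false

namespace Fermat.Agent.S16

open UpperHalfPlane PowerSeries

/-- An element of `ℤ_(ℓ)` congruent to `1` modulo `ℓ` has its inverse in `ℤ_(ℓ)`. -/
theorem inv_mem_Zl_of_cong_one {ℓ : ℕ} (hℓ : ℓ.Prime) {a c : ℂ} (hc : c ∈ Zl ℓ)
    (ha : a = 1 + (ℓ : ℂ) * c) : a ≠ 0 ∧ a⁻¹ ∈ Zl ℓ := by
  obtain ⟨x, d, hd, hx⟩ := hc
  have hd0 : d ≠ 0 := by
    rintro rfl
    rw [Nat.coprime_zero_left] at hd
    exact hℓ.one_lt.ne' hd
  have hd0' : (d : ℂ) ≠ 0 := by exact_mod_cast hd0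
  -- `d * a = N := d + ℓ x`
  set N : ℤ := (d : ℤ) + (ℓ : ℤ) * x with hN
  have hNa : (d : ℂ) * a = (N : ℂ) := by
    rw [ha, hN]
    push_cast
    rw [← hx]
    ring
  have hcop : IsCoprime N (ℓ : ℤ) := by
    have h1 : IsCoprime (d : ℤ) (ℓ : ℤ) := Nat.isCoprime_iff_coprime.mpr hd
    rw [hN]
    exact (IsCoprime.add_mul_left_left_iff (x := (d : ℤ)) (y := (ℓ : ℤ)) (z := x)).mpr h1
  have hN0 : N ≠ 0 := by
    intro h0
    rw [h0] at hcop
    have := (isCoprime_zero_left.mp hcop)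
    have h2 : ((ℓ : ℤ)).natAbs = 1 := Int.isUnit_iff_natAbs_eq.mp this
    simp only [Int.natAbs_natCast] at h2
    exact hℓ.one_lt.ne' h2
  have hN0' : (N : ℂ) ≠ 0 := by exact_mod_cast hN0
  have ha0 : a ≠ 0 := by
    intro h0
    rw [h0, mul_zero] at hNa
    exact hN0' hNa.symm
  refine ⟨ha0, ?_⟩
  -- `a⁻¹ = d / N`
  have hcopabs : (N.natAbs).Coprime ℓ := by
    have := Int.isCoprime_iff_gcd_eq_one.mp hcop
    simpa [Int.gcd] using this
  have hainv : (N : ℂ) * a⁻¹ = (d : ℂ) := by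
    rw [← hNa]
    field_simp
  obtain ⟨m, hm⟩ : ∃ m : ℕ, N.natAbs = m := ⟨_, rfl⟩
  rw [hm] at hcopabs
  rcases Int.natAbs_eq N with h | h <;> rw [hm] at h
  · refine ⟨(d : ℤ), m, hcopabs, ?_⟩
    have : (m : ℂ) = (N : ℂ) := by
      rw [h]
      simp
    rw [this, hainv]
    simp
  · refine ⟨-(d : ℤ), m, hcopabs, ?_⟩
    have : (m : ℂ) = -(N : ℂ) := by
      rw [h]
      simp
    rw [this, neg_mul, hainv]
    simp

/-- From `CongOne` to the normalised common shape: constant term exactly `1`, higher coefficients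
in `ℓ^s • Zl ℓ`. -/
theorem CongOne.exists_normalized {p ℓ s : ℕ} (hℓ : ℓ.Prime) (hs : 1 ≤ s)
    {H : ModularForm (CongruenceSubgroup.Gamma0 p) 2} (hH : CongOne p ℓ s H) :
    ∃ H' : ModularForm (CongruenceSubgroup.Gamma0 p) 2,
      (qExpansion 1 H').coeff 0 = 1 ∧
      ∀ n : ℕ, 1 ≤ n → ∃ y ∈ Zl ℓ, (qExpansion 1 H').coeff n = (ℓ : ℂ) ^ s * y := by
  obtain ⟨h, hh, hcong⟩ := hH
  have hcoeff : ∀ n, (qExpansion 1 H).coeff n = ((coeff n h : Zl ℓ) : ℂ) := by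
    intro n
    rw [← hh]
    simp
  -- the constant term
  obtain ⟨c0, hc0⟩ := hcong 0
  have ha0 : (qExpansion 1 H).coeff 0 = 1 + (ℓ : ℂ) * ((ℓ : ℂ) ^ (s - 1) * (c0 : ℂ)) := by
    rw [hcoeff 0]
    have := congrArg (Subtype.val) hc0
    rw [map_sub, coeff_one, if_pos rfl] at this
    push_cast at this
    have e : (ℓ : ℂ) * (ℓ : ℂ) ^ (s - 1) = (ℓ : ℂ) ^ s := by
      rw [← pow_succ']
      congr 1
      omega
    rw [← mul_assoc, e, ← this]
    ring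
  have hmem0 : (ℓ : ℂ) ^ (s - 1) * (c0 : ℂ) ∈ Zl ℓ :=
    (Zl ℓ).mul_mem ((Zl ℓ).pow_mem (natCast_mem_Zl ℓ ℓ) _) c0.2
  obtain ⟨hne, hinv⟩ := inv_mem_Zl_of_cong_one hℓ hmem0 ha0
  refine ⟨((qExpansion 1 H).coeff 0)⁻¹ • H, ?_, ?_⟩
  · have h1 := CongruenceSubgroup.one_mem_strictPeriods_Gamma0 p
    have e1 : ((((qExpansion 1 H).coeff 0)⁻¹ • H : ModularForm (CongruenceSubgroup.Gamma0 p) 2) :
        ℍ → ℂ) = ((qExpansion 1 H).coeff 0)⁻¹ • (H : ℍ → ℂ) := rfl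
    rw [e1, ModularForm.qExpansion_smul one_pos h1, PowerSeries.coeff_smul, smul_eq_mul,
      inv_mul_cancel₀ hne]
  · intro n hn
    have h1 := CongruenceSubgroup.one_mem_strictPeriods_Gamma0 p
    have e1 : ((((qExpansion 1 H).coeff 0)⁻¹ • H : ModularForm (CongruenceSubgroup.Gamma0 p) 2) :
        ℍ → ℂ) = ((qExpansion 1 H).coeff 0)⁻¹ • (H : ℍ → ℂ) := rfl
    obtain ⟨cn, hcn⟩ := hcong n
    have hn' : (qExpansion 1 H).coeff n = (ℓ : ℂ) ^ s * (cn : ℂ) := by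
      rw [hcoeff n]
      have := congrArg (Subtype.val) hcn
      rw [map_sub, coeff_one, if_neg (by omega : ¬ n = 0), sub_zero] at this
      push_cast at this
      exact this
    refine ⟨((qExpansion 1 H).coeff 0)⁻¹ * (cn : ℂ), (Zl ℓ).mul_mem hinv cn.2, ?_⟩
    rw [e1, ModularForm.qExpansion_smul one_pos h1, PowerSeries.coeff_smul, smul_eq_mul, hn']
    ring

end Fermat.Agent.S16
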