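/-
S16 (U), slice of block [W]: the coset representatives `1`, `(S T^j)⁻¹` (`j < p`) of
`SL(2, ℤ) ⧸ Γ₀(p)` for `p` prime.  Owner: helper45.
-/
import Mathlib
import Fermat.Agent.S20.Defs
import Fermat.Agent.S20.Cosets
import Fermat.Agent.S28.ECosetPts

set_option autoImplicit false

namespace Fermat.Agent.S16.WCoset

open scoped MatrixGroups
open Fermat.Agent.S20

/-- The matrix `S T^j = [[0, -1], [1, j]]`. -/
def srep (j : ℤ) : SL(2, ℤ) := ⟨!![0, -1; 1, j], by simp [Matrix.det_fin_two_of]⟩

theorem srep_not_mem (p : ℕ) (hp : p.Prime) (j : ℤ) : srep j ∉ CongruenceSubgroup.Gamma0 p := by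
  rw [CongruenceSubgroup.Gamma0_mem]
  have : ((srep j) 1 0 : ℤ) = 1 := by simp [srep]
  rw [this]
  haveI : Fact (1 < p) := ⟨hp.one_lt⟩
  simp

theorem srep_mul_inv_mem_iff (p : ℕ) (i j : ℤ) :
    srep i * (srep j)⁻¹ ∈ CongruenceSubgroup.Gamma0 p ↔ (p : ℤ) ∣ j - i := by
  rw [CongruenceSubgroup.Gamma0_mem]
  have : ((srep i * (srep j)⁻¹) 1 0 : ℤ) = j - i := by
    simp [srep, Matrix.SpecialLinearGroup.coe_inv, Matrix.adjugate_fin_two, Matrix.mul_apply,
      Fin.sum_univ_two]
    ring
  rw [this, ZMod.intCast_zmod_eq_zero_iff_dvd]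

/-- The map `Option (Fin p) → SL(2, ℤ) ⧸ Γ₀(p)`: `none ↦ [1]`, `some j ↦ [(S T^j)⁻¹]`. -/
def repMap (p : ℕ) : Option (Fin p) → Q p
  | none => QuotientGroup.mk 1
  | some j => QuotientGroup.mk (srep ((j : ℕ) : ℤ))⁻¹

theorem repMap_injective (p : ℕ) (hp : p.Prime) : Function.Injective (repMap p) := by
  intro a b hab
  cases a with
  | none =>
    cases b with
    | none => rfl
    | some j =>
      exfalso
      simp only [repMap] at hab
      rw [QuotientGroup.eq] at hab
      rw [inv_one, one_mul] at hab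
      exact srep_not_mem p hp _ ((Subgroup.inv_mem_iff _).mp hab)
  | some i =>
    cases b with
    | none =>
      exfalso
      simp only [repMap] at hab
      rw [QuotientGroup.eq] at hab
      rw [inv_inv, mul_one] at hab
      exact srep_not_mem p hp _ hab
    | some j =>
      simp only [repMap] at hab
      rw [QuotientGroup.eq, inv_inv, srep_mul_inv_mem_iff] at hab
      congr 1
      apply Fin.ext
      have hi := i.isLt
      have hj := j.isLt
      obtain ⟨c, hc⟩ := hab
      have : c = 0 := by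
        by_contra hc0
        have h1 : (1 : ℤ) ≤ |c| := Int.one_le_abs hc0
        have h2 : |((j : ℕ) : ℤ) - ((i : ℕ) : ℤ)| < p := by
          rw [abs_lt]; constructor <;> omega
        rw [hc, abs_mul] at h2
        have h3 : |(p : ℤ)| = p := abs_of_nonneg (by positivity)
        rw [h3] at h2
        nlinarith
      rw [this, mul_zero] at hc
      omega

theorem repMap_bijective (p : ℕ) [NeZero p] (hp : p.Prime) : Function.Bijective (repMap p) := by
  rw [Fintype.bijective_iff_injective_and_card]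
  refine ⟨repMap_injective p hp, ?_⟩
  have h1 : Fintype.card (Q p) = p + 1 := by
    rw [← Nat.card_eq_fintype_card]
    exact Fermat.Agent.S28.ECosetPts.card_QN p hp
  rw [h1, Fintype.card_option, Fintype.card_fin]

/-- Summation over `SL(2, ℤ) ⧸ Γ₀(p)` along the representatives `1`, `(S T^j)⁻¹`. -/
theorem sum_Q_eq (p : ℕ) [NeZero p] (hp : p.Prime) {M : Type*} [AddCommMonoid M]
    (φ : Q p → M) :
    ∑ q : Q p, φ q = φ (QuotientGroup.mk 1) +
      ∑ j : Fin p, φ (QuotientGroup.mk (srep ((j : ℕ) : ℤ))⁻¹) := by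
  rw [← (Equiv.ofBijective _ (repMap_bijective p hp)).sum_comp, Fintype.sum_option]
  rfl

/-- Products over `SL(2, ℤ) ⧸ Γ₀(p)` along the representatives `1`, `(S T^j)⁻¹`. -/
theorem prod_Q_eq (p : ℕ) [NeZero p] (hp : p.Prime) {M : Type*} [CommMonoid M]
    (φ : Q p → M) :
    ∏ q : Q p, φ q = φ (QuotientGroup.mk 1) *
      ∏ j : Fin p, φ (QuotientGroup.mk (srep ((j : ℕ) : ℤ))⁻¹) := by
  rw [← (Equiv.ofBijective _ (repMap_bijective p hp)).prod_comp, Fintype.prod_option]
  rfl

end Fermat.Agent.S16.WCoset
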