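/-
S16, upper bound, block [W] (hedge of helper94's `S16/WTrace.lean`, independent proofs).
Owner: helper79.

For `G` of weight `k` on `Γ₀(p)` (`p` prime) put `wFun p k G z = (G ∣[k] S) (p z)`.  The cosets
of `SL(2, ℤ) ⧸ Γ₀(p)` are represented by `1` and `(S T^j)⁻¹`, `j < p`, so the trace to level one
is `G + p • heckeU k p (wFun p k G)`; in weight `2` it vanishes, which gives
`wFun p 2 H = -p⁻¹ • heckeU 2 p H` and `U_p² = 1`.
-/
import Mathlib
import Fermat.Prelude.Def_ModularForm_HeckeOperator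
import Fermat.Agent.S20.Basic
import Fermat.Agent.S20.Sym
import Fermat.Agent.S20.LevelOne
import Fermat.Agent.S23.LevelN

set_option autoImplicit false

namespace Fermat.Agent.S16.WTraceB

open UpperHalfPlane ModularForm
open scoped MatrixGroups ModularForm Manifold
open Fermat.Agent.S20 Fermat.Agent.S23

/-- The Fricke-type transform `z ↦ (G ∣[k] S) (p z)`. -/
noncomputable def wFun (p : ℕ) [NeZero p] (k : ℤ) (G : ℍ → ℂ) : ℍ → ℂ :=
  fun z => (G ∣[k] ModularGroup.S) (mulN p z)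

theorem wFun_apply (p : ℕ) [NeZero p] (k : ℤ) (G : ℍ → ℂ) (z : ℍ) :
    wFun p k G z = (G ∣[k] ModularGroup.S) (mulN p z) := rfl

/-! ### The coset representatives `S T^j` -/

/-- The matrix `S T^j = [[0, -1], [1, j]]`. -/
def cosetRep (j : ℤ) : SL(2, ℤ) := ⟨!![0, -1; 1, j], by simp [Matrix.det_fin_two_of]⟩

theorem cosetRep_10 (j : ℤ) : (cosetRep j) 1 0 = 1 := rfl

theorem cosetRep_11 (j : ℤ) : (cosetRep j) 1 1 = j := rfl

theorem cosetRep_00 (j : ℤ) : (cosetRep j) 0 0 = 0 := rfl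

theorem cosetRep_01 (j : ℤ) : (cosetRep j) 0 1 = -1 := rfl

theorem denom_cosetRep (j : ℤ) (z : ℍ) : denom (cosetRep j) z = (z : ℂ) + j := by
  rw [ModularGroup.denom_apply, cosetRep_10, cosetRep_11]
  simp

theorem coe_cosetRep_smul (j : ℤ) (z : ℍ) : ((cosetRep j • z : ℍ) : ℂ) = -((z : ℂ) + j)⁻¹ := by
  rw [UpperHalfPlane.coe_specialLinearGroup_apply, cosetRep_10, cosetRep_11, cosetRep_00,
    cosetRep_01]
  simp [div_eq_mul_inv]

theorem coe_mulN_heckeMatrix_smul (p : ℕ) [NeZero p] (j : ℕ) (z : ℍ) :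
    ((mulN p (heckeMatrix p j • z) : ℍ) : ℂ) = (z : ℂ) + j := by
  have hp : (p : ℂ) ≠ 0 := Nat.cast_ne_zero.mpr (NeZero.ne p)
  rw [coe_mulN, coe_heckeMatrix_smul (NeZero.ne p)]
  field_simp

/-- (W1) The conjugate of `G` by `S T^j` is `z ↦ wFun p k G ((z + j) / p)`. -/
theorem slash_cosetRep (p : ℕ) [NeZero p] (k : ℤ) (G : ℍ → ℂ) (j : ℕ) (z : ℍ) :
    (G ∣[k] cosetRep (j : ℤ)) z = wFun p k G (heckeMatrix p j • z) := by
  have hw := coe_mulN_heckeMatrix_smul p j z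
  have hpt : cosetRep (j : ℤ) • z = ModularGroup.S • mulN p (heckeMatrix p j • z) := by
    apply UpperHalfPlane.ext
    rw [coe_cosetRep_smul, UpperHalfPlane.modular_S_smul]
    show _ = (-((mulN p (heckeMatrix p j • z) : ℍ) : ℂ))⁻¹
    rw [hw, neg_inv]
    simp
  rw [wFun_apply, SL_slash_apply, SL_slash_apply, hpt, denom_cosetRep, ModularGroup.denom_S, hw]
  simp

/-! ### Enumeration of `SL(2, ℤ) ⧸ Γ₀(p)` -/

theorem cosetRep_mul_10 (j : ℤ) (g : SL(2, ℤ)) :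
    (cosetRep j * g) 1 0 = g 0 0 + j * g 1 0 := by
  rw [Matrix.SpecialLinearGroup.coe_mul, Matrix.mul_apply, Fin.sum_univ_two, cosetRep_10,
    cosetRep_11]
  ring

theorem cosetRep_mul_inv_10 (i j : ℤ) :
    (cosetRep i * (cosetRep j)⁻¹) 1 0 = j - i := by
  rw [cosetRep_mul_10, Matrix.SpecialLinearGroup.SL2_inv_expl]
  simp [cosetRep]
  ring

/-- The enumeration of the cosets: `1` and `(S T^j)⁻¹`, `j < p`. -/
noncomputable def cosetEnum (p : ℕ) : Option (Fin p) → Q p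
  | none => QuotientGroup.mk 1
  | some j => QuotientGroup.mk (cosetRep ((j : ℕ) : ℤ))⁻¹

theorem cosetEnum_bijective (p : ℕ) [NeZero p] (hp : p.Prime) :
    Function.Bijective (cosetEnum p) := by
  have : Fact p.Prime := ⟨hp⟩
  have hp1 : ¬ (p : ℤ) ∣ 1 := by
    intro h
    have := Int.eq_one_of_dvd_one (by positivity) h
    have h2 : p = 1 := by exact_mod_cast this
    exact hp.one_lt.ne' h2
  constructor
  · rintro (_ | i) (_ | j) h
    · rfl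
    · exfalso
      have h1 : (1 : SL(2, ℤ))⁻¹ * (cosetRep ((j : ℕ) : ℤ))⁻¹ ∈ CongruenceSubgroup.Gamma0 p :=
        QuotientGroup.eq.mp h
      rw [inv_one, one_mul, inv_mem_iff, CongruenceSubgroup.Gamma0_mem, cosetRep_10] at h1
      exact hp1 ((ZMod.intCast_zmod_eq_zero_iff_dvd _ _).mp h1)
    · exfalso
      have h1 : ((cosetRep ((i : ℕ) : ℤ))⁻¹)⁻¹ * (1 : SL(2, ℤ)) ∈ CongruenceSubgroup.Gamma0 p :=
        QuotientGroup.eq.mp h
      rw [inv_inv, mul_one, CongruenceSubgroup.Gamma0_mem, cosetRep_10] at h1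
      exact hp1 ((ZMod.intCast_zmod_eq_zero_iff_dvd _ _).mp h1)
    · have h1 : ((cosetRep ((i : ℕ) : ℤ))⁻¹)⁻¹ * (cosetRep ((j : ℕ) : ℤ))⁻¹ ∈
          CongruenceSubgroup.Gamma0 p := QuotientGroup.eq.mp h
      rw [inv_inv, CongruenceSubgroup.Gamma0_mem, cosetRep_mul_inv_10] at h1
      have h2 : (((j : ℕ) : ℤ) : ZMod p) = (((i : ℕ) : ℤ) : ZMod p) := by
        have := h1
        push_cast at this ⊢
        exact sub_eq_zero.mp this
      have h3 : ((j : ℕ) : ZMod p) = ((i : ℕ) : ZMod p) := by exact_mod_cast h2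
      have h4 : (j : ℕ) = (i : ℕ) := by
        have := congrArg ZMod.val h3
        rwa [ZMod.val_natCast_of_lt j.isLt, ZMod.val_natCast_of_lt i.isLt] at this
      exact congrArg some (Fin.ext h4.symm)
  · intro q
    induction q using QuotientGroup.induction_on with
    | H g =>
      by_cases hc : ((g 1 0 : ℤ) : ZMod p) = 0
      · refine ⟨none, ?_⟩
        show (QuotientGroup.mk 1 : Q p) = QuotientGroup.mk g
        rw [QuotientGroup.eq, inv_one, one_mul, CongruenceSubgroup.Gamma0_mem]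
        exact hc
      · let t : ZMod p := -((g 0 0 : ℤ) : ZMod p) * ((g 1 0 : ℤ) : ZMod p)⁻¹
        refine ⟨some ⟨t.val, ZMod.val_lt t⟩, ?_⟩
        show (QuotientGroup.mk (cosetRep ((t.val : ℕ) : ℤ))⁻¹ : Q p) = QuotientGroup.mk g
        rw [QuotientGroup.eq, inv_inv, CongruenceSubgroup.Gamma0_mem, cosetRep_mul_10]
        push_cast
        rw [ZMod.natCast_zmod_val]
        show ((g 0 0 : ℤ) : ZMod p) +
          -((g 0 0 : ℤ) : ZMod p) * ((g 1 0 : ℤ) : ZMod p)⁻¹ * ((g 1 0 : ℤ) : ZMod p) = 0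
        rw [mul_assoc, inv_mul_cancel₀ hc]
        ring

/-- Summation over `SL(2, ℤ) ⧸ Γ₀(p)` along the representatives `1`, `(S T^j)⁻¹`. -/
theorem sum_Q_eq (p : ℕ) [NeZero p] (hp : p.Prime) {M : Type*} [AddCommMonoid M]
    (φ : Q p → M) :
    ∑ q : Q p, φ q = φ (QuotientGroup.mk 1) +
      ∑ j : Fin p, φ (QuotientGroup.mk (cosetRep ((j : ℕ) : ℤ))⁻¹) := by
  rw [← (cosetEnum_bijective p hp).sum_comp φ, Fintype.sum_option]
  rfl

/-! ### The trace -/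

/-- (W3) The trace of `G` in terms of `heckeU` and `wFun`. -/
theorem trQ_eq (p : ℕ) [NeZero p] (hp : p.Prime) {k : ℤ} {G : ℍ → ℂ} (hG : IsInv p k G) :
    trQ p k G = G + (p : ℂ) • heckeU k p (wFun p k G) := by
  have hp0 : (p : ℂ) ≠ 0 := Nat.cast_ne_zero.mpr (NeZero.ne p)
  rw [trQ, sum_Q_eq p hp, cj_one hG]
  congr 1
  funext z
  rw [Finset.sum_apply, Pi.smul_apply, heckeU_apply k (NeZero.ne p), smul_eq_mul, ← mul_assoc,
    mul_inv_cancel₀ hp0, one_mul, ← Fin.sum_univ_eq_sum_range]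
  refine Finset.sum_congr rfl fun j _ => ?_
  rw [cj_mk hG, inv_inv, slash_cosetRep p]

/-- (W3) The trace is a level-one form. -/
theorem trace_mem_LF (p : ℕ) [NeZero p] (hp : p.Prime) {k : ℤ} {G : ℍ → ℂ} (hG : G ∈ MF p k) :
    G + (p : ℂ) • heckeU k p (wFun p k G) ∈ LF k := by
  rw [← trQ_eq p hp (mem_MF_iff'.mp hG).2.1]
  exact trQ_mem_LF hG

/-! ### `wFun` is an involution up to a scalar and preserves level `Γ₀(p)` -/

/-- (W2) `wFun` is an involution up to the scalar `(-1)^k p^(-k)`. -/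
theorem wFun_wFun (p : ℕ) [NeZero p] (k : ℤ) (G : ℍ → ℂ) :
    wFun p k (wFun p k G) = ((-1 : ℂ) ^ k * (p : ℂ) ^ (-k)) • G := by
  funext z
  have hp : (p : ℂ) ≠ 0 := Nat.cast_ne_zero.mpr (NeZero.ne p)
  have hz : (z : ℂ) ≠ 0 := UpperHalfPlane.ne_zero z
  have hw : ((ModularGroup.S • mulN p z : ℍ) : ℂ) = (-((p : ℂ) * z))⁻¹ := by
    rw [UpperHalfPlane.modular_S_smul]
    rfl
  have hpt : ModularGroup.S • mulN p (ModularGroup.S • mulN p z) = z := by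
    apply UpperHalfPlane.ext
    rw [UpperHalfPlane.modular_S_smul]
    show (-((mulN p (ModularGroup.S • mulN p z) : ℍ) : ℂ))⁻¹ = _
    rw [coe_mulN, hw]
    field_simp
  rw [wFun_apply, SL_slash_apply, wFun_apply, SL_slash_apply, hpt, ModularGroup.denom_S,
    ModularGroup.denom_S, coe_mulN, hw, coe_mulN, Pi.smul_apply, smul_eq_mul, mul_assoc,
    ← mul_zpow]
  have e : (p : ℂ) * (-((p : ℂ) * z))⁻¹ * ((p : ℂ) * z) = -(p : ℂ) := by
    field_simp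
  have e2 : (-(p : ℂ)) ^ (-k) = (-1 : ℂ) ^ k * (p : ℂ) ^ (-k) := by
    rw [neg_eq_neg_one_mul, mul_zpow]
    congr 1
    rw [zpow_neg, ← inv_zpow]
    norm_num
  rw [e, e2]
  ring

/-- The Fricke matrix `S · diag(p, 1) = [[0, -1], [p, 0]]`. -/
noncomputable def frickeMat (p : ℕ) : GL (Fin 2) ℝ :=
  Matrix.SpecialLinearGroup.mapGL ℝ ModularGroup.S * heckeDiagMatrix p

theorem slash_frickeMat (p : ℕ) [NeZero p] (k : ℤ) (G : ℍ → ℂ) :
    G ∣[k] frickeMat p = ((p : ℂ) ^ (k - 1)) • wFun p k G := by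
  funext z
  rw [frickeMat, SlashAction.slash_mul, slash_heckeDiagMatrix_apply k (NeZero.ne p),
    heckeDiagMatrix_smul_eq_mulN]
  rfl

/-- The Fricke matrix normalises `Γ₀(p)`. -/
theorem exists_conj_frickeMat (p : ℕ) [NeZero p] (γ : SL(2, ℤ))
    (hγ : γ ∈ CongruenceSubgroup.Gamma0 p) :
    ∃ γ' ∈ CongruenceSubgroup.Gamma0 p, frickeMat p * Matrix.SpecialLinearGroup.mapGL ℝ γ =
      Matrix.SpecialLinearGroup.mapGL ℝ γ' * frickeMat p := by
  have hN : p ≠ 0 := NeZero.ne p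
  rw [CongruenceSubgroup.Gamma0_mem] at hγ
  obtain ⟨c, hc⟩ := (ZMod.intCast_zmod_eq_zero_iff_dvd _ _).mp hγ
  have hdet := γ.det_coe
  rw [Matrix.det_fin_two] at hdet
  have hdet' : (!![γ 1 1, -c; -((p : ℤ) * γ 0 1), γ 0 0] : Matrix (Fin 2) (Fin 2) ℤ).det = 1 := by
    rw [Matrix.det_fin_two_of]
    rw [hc] at hdet
    linarith
  obtain ⟨γ', h00, h01, h10, h11⟩ : ∃ γ' : SL(2, ℤ), γ' 0 0 = γ 1 1 ∧ γ' 0 1 = -c ∧
      γ' 1 0 = -((p : ℤ) * γ 0 1) ∧ γ' 1 1 = γ 0 0 :=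
    ⟨⟨!![γ 1 1, -c; -((p : ℤ) * γ 0 1), γ 0 0], hdet'⟩, rfl, rfl, rfl, rfl⟩
  refine ⟨γ', ?_, ?_⟩
  · rw [CongruenceSubgroup.Gamma0_mem, h10]
    simp
  · apply Matrix.GeneralLinearGroup.ext
    intro i j
    have hc' : ((γ 1 0 : ℤ) : ℝ) = (p : ℝ) * (c : ℝ) := by exact_mod_cast hc
    simp only [frickeMat, Matrix.GeneralLinearGroup.coe_mul, val_heckeDiagMatrix hN,
      Matrix.SpecialLinearGroup.mapGL_coe_matrix]
    fin_cases i <;> fin_cases j <;>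
      simp [Matrix.mul_apply, Fin.sum_univ_two, hc', h00, h01, h10, h11, mul_comm]

open ConjAct Pointwise in
theorem Gamma0_le_conj_fricke (p : ℕ) [NeZero p] :
    ((CongruenceSubgroup.Gamma0 p : Subgroup SL(2, ℤ)) : Subgroup (GL (Fin 2) ℝ)) ≤
      toConjAct (frickeMat p)⁻¹ •
        ((CongruenceSubgroup.Gamma0 p : Subgroup SL(2, ℤ)) : Subgroup (GL (Fin 2) ℝ)) := by
  rintro _ ⟨γ, hγ, rfl⟩
  rw [map_inv, Subgroup.mem_inv_pointwise_smul_iff, toConjAct_smul]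
  obtain ⟨γ', hγ'mem, hγ'⟩ := exists_conj_frickeMat p γ hγ
  refine ⟨γ', hγ'mem, ?_⟩
  rw [hγ']
  simp

/-- (W2) `wFun` preserves modular forms of level `Γ₀(p)`. -/
theorem wFun_mem_MF (p : ℕ) [NeZero p] {k : ℤ} {G : ℍ → ℂ} (hG : G ∈ MF p k) :
    wFun p k G ∈ MF p k := by
  obtain ⟨F, rfl⟩ := hG
  have hp : ((p : ℂ) ^ (k - 1)) ≠ 0 := zpow_ne_zero _ (Nat.cast_ne_zero.mpr (NeZero.ne p))
  have h1 : ((p : ℂ) ^ (k - 1)) • wFun p k ⇑F ∈ MF p k :=
    ⟨restrictLE (Gamma0_le_conj_fricke p) (ModularForm.translate F (frickeMat p)), by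
      rw [coe_restrictLE, ModularForm.coe_translate, slash_frickeMat]⟩
  have h2 := (MF p k).smul_mem ((p : ℂ) ^ (k - 1))⁻¹ h1
  rwa [smul_smul, inv_mul_cancel₀ hp, one_smul] at h2

/-! ### Weight two -/

/-- In weight `2` the trace vanishes: `H = -p • U_p (wFun p 2 H)`. -/
theorem eq_neg_smul_heckeU_wFun (p : ℕ) [NeZero p] (hp : p.Prime) {H : ℍ → ℂ}
    (hH : H ∈ MF p 2) : H = (-(p : ℂ)) • heckeU 2 p (wFun p 2 H) := by
  have h := trace_mem_LF p hp hH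
  rw [lo_weight_two, Submodule.mem_bot] at h
  funext z
  have hz := congrFun h z
  simp only [Pi.add_apply, Pi.smul_apply, smul_eq_mul, Pi.zero_apply] at hz
  simp only [Pi.smul_apply, smul_eq_mul]
  linear_combination hz

/-- (W4) In weight `2`: `wFun p 2 H = -p⁻¹ • U_p H`. -/
theorem wFun_two (p : ℕ) [NeZero p] (hp : p.Prime) {H : ℍ → ℂ} (hH : H ∈ MF p 2) :
    wFun p 2 H = (-(p : ℂ)⁻¹) • heckeU 2 p H := by
  have hp0 : (p : ℂ) ≠ 0 := Nat.cast_ne_zero.mpr (NeZero.ne p)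
  have h := eq_neg_smul_heckeU_wFun p hp (wFun_mem_MF p hH)
  rw [wFun_wFun, heckeU_smul, smul_smul] at h
  rw [h]
  congr 1
  rw [zpow_neg]
  norm_num
  field_simp

theorem heckeU_eq_smul_wFun_two (p : ℕ) [NeZero p] (hp : p.Prime) {H : ℍ → ℂ}
    (hH : H ∈ MF p 2) : heckeU 2 p H = (-(p : ℂ)) • wFun p 2 H := by
  have hp0 : (p : ℂ) ≠ 0 := Nat.cast_ne_zero.mpr (NeZero.ne p)
  rw [wFun_two p hp hH, smul_smul]
  have e : -(p : ℂ) * -(p : ℂ)⁻¹ = 1 := by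
    field_simp
  rw [e, one_smul]

/-- (W4) `U_p` preserves `M₂(Γ₀(p))`. -/
theorem heckeU_mem_MF_two (p : ℕ) [NeZero p] (hp : p.Prime) {H : ℍ → ℂ} (hH : H ∈ MF p 2) :
    heckeU 2 p H ∈ MF p 2 := by
  rw [heckeU_eq_smul_wFun_two p hp hH]
  exact (MF p 2).smul_mem _ (wFun_mem_MF p hH)

/-- (W4) `U_p² = 1` on `M₂(Γ₀(p))`. -/
theorem heckeU_heckeU_two (p : ℕ) [NeZero p] (hp : p.Prime) {H : ℍ → ℂ} (hH : H ∈ MF p 2) :
    heckeU 2 p (heckeU 2 p H) = H := by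
  rw [heckeU_eq_smul_wFun_two p hp hH, heckeU_smul]
  exact (eq_neg_smul_heckeU_wFun p hp hH).symm

/-- (W4) Pointwise: `(H ∣[2] S) (p z) = -p⁻¹ (U_p H) z`. -/
theorem slash_S_mulN_two (p : ℕ) [NeZero p] (hp : p.Prime) {H : ℍ → ℂ} (hH : H ∈ MF p 2)
    (z : ℍ) : (H ∣[(2 : ℤ)] ModularGroup.S) (mulN p z) = -(p : ℂ)⁻¹ * heckeU 2 p H z :=
  congrFun (wFun_two p hp hH) z

/-- (W4) Pointwise: the conjugates of `H` are `z ↦ -p⁻¹ (U_p H) ((z + j) / p)`. -/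
theorem slash_cosetRep_two (p : ℕ) [NeZero p] (hp : p.Prime) {H : ℍ → ℂ} (hH : H ∈ MF p 2)
    (j : ℕ) (z : ℍ) :
    (H ∣[(2 : ℤ)] cosetRep (j : ℤ)) z = -(p : ℂ)⁻¹ * heckeU 2 p H (heckeMatrix p j • z) := by
  rw [slash_cosetRep p, wFun_two p hp hH]
  rfl

end Fermat.Agent.S16.WTraceB
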