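/-
S16, upper bound, block [W] (support file for helper94's `WTrace.lean`; owner: helper30).

Statements use the definitions of `WTrace.lean` unfolded:
* `cosetRep j = S * T ^ j`,
* `wFun p k G = fun z => (G ∣[k] S) (mulN p z)`.

Contents: the coset representatives `1`, `(S T^j)⁻¹` (`j < p`) of `SL(2, ℤ) ⧸ Γ₀(p)`, the trace
formula `trQ p k G = G + p • heckeU k p (wFun p k G)`.
-/
import Mathlib
import Fermat.Prelude.Def_ModularForm_HeckeOperator
import Fermat.Agent.S20.Basic
import Fermat.Agent.S20.Sym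
import Fermat.Agent.S20.LevelOne
import Fermat.Agent.S20.Cosets
import Fermat.Agent.S23.LevelN

set_option autoImplicit false

namespace Fermat.Agent.S16.WTraceC

open UpperHalfPlane ModularForm
open scoped MatrixGroups ModularForm Manifold
open Fermat.Agent.S20 Fermat.Agent.S23

/-! ### The coset representatives -/

/-- `[SL(2, ℤ) : Γ₀(p)] = p + 1` for `p` prime. -/
theorem card_Q_prime (p : ℕ) [NeZero p] (hp : p.Prime) : Nat.card (Q p) = p + 1 := by
  rw [Fermat.Agent.S20.card_Q p]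
  have h := Fermat.Agent.S20.CosetModel.dedekindPsi_prime_mul_of_not_dvd p 1 hp one_ne_zero
    (by simpa using hp.one_lt.ne')
  rwa [mul_one, ModularCurve.dedekindPsi_one, mul_one] at h

/-- The entries of `S T^j`. -/
theorem coe_S_mul_T_zpow (j : ℤ) :
    ((ModularGroup.S * ModularGroup.T ^ j : SL(2, ℤ)) : Matrix (Fin 2) (Fin 2) ℤ) =
      !![0, -1; 1, j] := by
  rw [Matrix.SpecialLinearGroup.coe_mul, ModularGroup.coe_T_zpow, ModularGroup.coe_S]
  ext a b
  fin_cases a <;> fin_cases b <;> simp [Matrix.mul_apply, Fin.sum_univ_two]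

/-- The coset representatives `1`, `(S T^j)⁻¹`. -/
noncomputable def rep (p : ℕ) : Option (Fin p) → Q p
  | none => QuotientGroup.mk 1
  | some j => QuotientGroup.mk (ModularGroup.S * ModularGroup.T ^ ((j : ℕ) : ℤ))⁻¹

theorem S_mul_T_zpow_not_mem (p : ℕ) (hp : p.Prime) (j : ℤ) :
    (ModularGroup.S * ModularGroup.T ^ j : SL(2, ℤ)) ∉ CongruenceSubgroup.Gamma0 p := by
  rw [Fermat.Agent.S20.CosetModel.Gamma0_mem_iff_dvd]
  have h : (ModularGroup.S * ModularGroup.T ^ j : SL(2, ℤ)) 1 0 = 1 := by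
    have := congrFun (congrFun (coe_S_mul_T_zpow j) 1) 0
    simpa using this
  rw [h]
  intro hdvd
  have := Int.eq_one_of_dvd_one (by positivity) hdvd
  have hp1 := hp.one_lt
  omega

theorem conj_lower_left (i j : ℤ) :
    ((ModularGroup.S * ModularGroup.T ^ i) * (ModularGroup.S * ModularGroup.T ^ j)⁻¹ : SL(2, ℤ))
      1 0 = j - i := by
  have h1 := coe_S_mul_T_zpow i
  have h2 : (((ModularGroup.S * ModularGroup.T ^ j)⁻¹ : SL(2, ℤ)) : Matrix (Fin 2) (Fin 2) ℤ) =
      !![j, 1; -1, 0] := by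
    rw [Matrix.SpecialLinearGroup.coe_inv, coe_S_mul_T_zpow, Matrix.adjugate_fin_two_of]
    simp
  show (((ModularGroup.S * ModularGroup.T ^ i) * (ModularGroup.S * ModularGroup.T ^ j)⁻¹ :
      SL(2, ℤ)) : Matrix (Fin 2) (Fin 2) ℤ) 1 0 = j - i
  rw [Matrix.SpecialLinearGroup.coe_mul, h1, h2]
  simp [Matrix.mul_apply, Fin.sum_univ_two]
  ring

theorem rep_injective (p : ℕ) (hp : p.Prime) : Function.Injective (rep p) := by
  rintro (_ | i) (_ | j) h
  · rfl
  · exfalso
    simp only [rep] at h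
    rw [QuotientGroup.eq, inv_one, one_mul] at h
    exact S_mul_T_zpow_not_mem p hp _ ((Subgroup.inv_mem_iff _).1 h)
  · exfalso
    simp only [rep] at h
    rw [QuotientGroup.eq, inv_inv, mul_one] at h
    exact S_mul_T_zpow_not_mem p hp _ h
  · simp only [rep] at h
    rw [QuotientGroup.eq, inv_inv, Fermat.Agent.S20.CosetModel.Gamma0_mem_iff_dvd,
      conj_lower_left] at h
    have hi := i.2
    have hj := j.2
    obtain ⟨c, hc⟩ := h
    have hij : ((j : ℕ) : ℤ) = ((i : ℕ) : ℤ) := by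
      have h1 : (p : ℤ) * c < p := by
        have : ((j : ℕ) : ℤ) < p := by exact_mod_cast hj
        have : (0 : ℤ) ≤ ((i : ℕ) : ℤ) := by positivity
        linarith
      have h2 : -(p : ℤ) < p * c := by
        have : ((i : ℕ) : ℤ) < p := by exact_mod_cast hi
        have : (0 : ℤ) ≤ ((j : ℕ) : ℤ) := by positivity
        linarith
      have hp0 : (0 : ℤ) < p := by exact_mod_cast hp.pos
      have hc0 : c = 0 := by
        have h3 : c < 1 := by
          by_contra hcon
          have hcon' : 1 ≤ c := not_lt.mp hcon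
          nlinarith
        have h4 : -1 < c := by
          by_contra hcon
          have hcon' : c ≤ -1 := not_lt.mp hcon
          nlinarith
        omega
      rw [hc0, mul_zero] at hc
      linarith
    have : (i : ℕ) = (j : ℕ) := by exact_mod_cast hij.symm
    exact congrArg some (Fin.ext this)

theorem rep_bijective (p : ℕ) [NeZero p] (hp : p.Prime) : Function.Bijective (rep p) := by
  rw [Fintype.bijective_iff_injective_and_card]
  refine ⟨rep_injective p hp, ?_⟩
  rw [Fintype.card_option, Fintype.card_fin, ← Nat.card_eq_fintype_card, card_Q_prime p hp]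

/-- Summation over `SL(2, ℤ) ⧸ Γ₀(p)` along the representatives `1`, `(S T^j)⁻¹`. -/
theorem sum_Q_eq' (p : ℕ) [NeZero p] (hp : p.Prime) {M : Type*} [AddCommMonoid M]
    (φ : Q p → M) :
    ∑ q : Q p, φ q = φ (QuotientGroup.mk 1) +
      ∑ j : Fin p, φ (QuotientGroup.mk (ModularGroup.S * ModularGroup.T ^ ((j : ℕ) : ℤ))⁻¹) := by
  rw [← (Equiv.ofBijective (rep p) (rep_bijective p hp)).sum_comp φ, Fintype.sum_option]
  rfl

/-! ### The conjugates and the trace -/

theorem denom_T_zpow (j : ℤ) (z : ℍ) :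
    denom ((ModularGroup.T ^ j : SL(2, ℤ)) : GL (Fin 2) ℝ) z = 1 := by
  rw [ModularGroup.denom_apply]
  have h : ((ModularGroup.T ^ j : SL(2, ℤ)) : Matrix (Fin 2) (Fin 2) ℤ) = !![1, j; 0, 1] :=
    ModularGroup.coe_T_zpow j
  have h10 : (ModularGroup.T ^ j : SL(2, ℤ)) 1 0 = 0 := by
    have := congrFun (congrFun h 1) 0
    simpa using this
  have h11 : (ModularGroup.T ^ j : SL(2, ℤ)) 1 1 = 1 := by
    have := congrFun (congrFun h 1) 1
    simpa using this
  rw [h10, h11]
  simp

/-- `T^j z = p · ((z + j) / p)`. -/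
theorem T_zpow_smul_eq_mulN (p : ℕ) [NeZero p] (j : ℕ) (z : ℍ) :
    ModularGroup.T ^ (j : ℤ) • z = mulN p (heckeMatrix p j • z) := by
  apply UpperHalfPlane.ext
  rw [ModularGroup.coe_T_zpow_smul_eq, coe_mulN, coe_heckeMatrix_smul (NeZero.ne p)]
  have hp : (p : ℂ) ≠ 0 := Nat.cast_ne_zero.mpr (NeZero.ne p)
  push_cast
  field_simp

/-- (W1) The conjugate of `G` by `S T^j` is `z ↦ (G ∣[k] S) (p · ((z + j) / p))`. -/
theorem slash_S_mul_T_zpow (p : ℕ) [NeZero p] (k : ℤ) (G : ℍ → ℂ) (j : ℕ) (z : ℍ) :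
    (G ∣[k] (ModularGroup.S * ModularGroup.T ^ (j : ℤ))) z =
      (G ∣[k] ModularGroup.S) (mulN p (heckeMatrix p j • z)) := by
  rw [SlashAction.slash_mul, ModularForm.SL_slash_apply, denom_T_zpow, one_zpow, mul_one,
    T_zpow_smul_eq_mulN p j z]

/-- (W3) The trace of `G` in terms of `heckeU` and the Fricke-type transform
`z ↦ (G ∣[k] S) (p z)` (`wFun p k G` of `WTrace.lean`). -/
theorem trQ_eq' (p : ℕ) [NeZero p] (hp : p.Prime) {k : ℤ} {G : ℍ → ℂ} (hG : IsInv p k G) :
    trQ p k G = G + (p : ℂ) • heckeU k p (fun z => (G ∣[k] ModularGroup.S) (mulN p z)) := by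
  have hp0 : (p : ℂ) ≠ 0 := Nat.cast_ne_zero.mpr (NeZero.ne p)
  unfold trQ
  rw [sum_Q_eq' p hp (fun q => cj p k G q), cj_one hG]
  congr 1
  funext z
  rw [Finset.sum_apply, Pi.smul_apply, heckeU_apply k (NeZero.ne p), smul_eq_mul, ← mul_assoc,
    mul_inv_cancel₀ hp0, one_mul, ← Fin.sum_univ_eq_sum_range
      (fun j => (G ∣[k] ModularGroup.S) (mulN p (heckeMatrix p j • z))) p]
  refine Finset.sum_congr rfl fun j _ => ?_
  rw [cj_mk hG, inv_inv, slash_S_mul_T_zpow p k G j z]

end Fermat.Agent.S16.WTraceC
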