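/-
S16, upper bound (U), leaf (D'): the traces of the powers of the weight-8 form
`b8n H E₄ E₆ = H⁴ - 6 H² E₄ + 8 H E₆ - 3 E₄²` (`H ∈ M₂(Γ₀(p))`) are level-one forms, on
`q`-expansions.  Direct path through `S16/WTrace.lean` and `S16/WTraceQ.lean` (no `HasQ`, no
`PairQ`).  Owner: helper41.
-/
import Mathlib
import Fermat.Agent.S16.WTraceQ
import Fermat.Agent.S16.DPrime
import Fermat.Agent.S16.UDefs
import Fermat.Agent.S16.LevelOneInt

set_option autoImplicit false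

namespace Fermat.Agent.S16.WTraceD

open UpperHalfPlane ModularForm PowerSeries EisensteinSeries
open scoped MatrixGroups ModularForm Manifold
open Fermat.Agent.S16.TrTrick (uOp vOp)
open Fermat.Agent.S16.DPrime (b8n)
open Fermat.Agent.S16.WTrace (wFun)
open Fermat.Agent.S20 (MF LF)

/-! ### Function level -/

/-- `wFun` of a level-one form `F` is `z ↦ F (p z)`. -/
theorem wFun_levelOne (p : ℕ) [NeZero p] {k : ℤ} {F : ℍ → ℂ} (hF : F ∈ LF k) :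
    wFun p k F = fun z => F (S23.mulN p z) := by
  funext z
  rw [WTrace.wFun_apply, (S20.mem_LF_iff.mp hF).2.1 ModularGroup.S]

/-- `b8n` in terms of the module operations. -/
theorem b8n_eq_smul (H A B : ℍ → ℂ) :
    b8n H A B = H ^ 4 + ((-6 : ℂ) • (H ^ 2 * A) + ((8 : ℂ) • (H * B) + (-3 : ℂ) • A ^ 2)) := by
  funext z
  simp only [DPrime.b8n, Pi.add_apply, Pi.sub_apply, Pi.mul_apply, Pi.pow_apply, Pi.smul_apply,
    Pi.ofNat_apply, smul_eq_mul]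
  ring

/-- `wFun` is compatible with the weight-8 polynomial `b8n`. -/
theorem wFun_b8n (p : ℕ) [NeZero p] (H A B : ℍ → ℂ) :
    wFun p 8 (b8n H A B) = b8n (wFun p 2 H) (wFun p 4 A) (wFun p 6 B) := by
  have h1 : wFun p 8 (H ^ 4) = wFun p 2 H ^ 4 := by
    have := WTrace.wFun_pow p 2 H 4
    norm_num at this
    exact this
  have h2 : wFun p 4 (H ^ 2) = wFun p 2 H ^ 2 := by
    have := WTrace.wFun_pow p 2 H 2
    norm_num at this
    exact this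
  have h3 : wFun p 8 (H ^ 2 * A) = wFun p 2 H ^ 2 * wFun p 4 A := by
    have := WTrace.wFun_mul p 4 4 (H ^ 2) A
    norm_num at this
    rw [this, h2]
  have h4 : wFun p 8 (H * B) = wFun p 2 H * wFun p 6 B := by
    have := WTrace.wFun_mul p 2 6 H B
    norm_num at this
    exact this
  have h5 : wFun p 8 (A ^ 2) = wFun p 4 A ^ 2 := by
    have := WTrace.wFun_pow p 4 A 2
    norm_num at this
    exact this
  rw [b8n_eq_smul, b8n_eq_smul, WTrace.wFun_add, WTrace.wFun_add, WTrace.wFun_add,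
    WTrace.wFun_smul, WTrace.wFun_smul, WTrace.wFun_smul, h1, h3, h4, h5]

/-- `b8n H A B` has weight `8` and level `Γ₀(p)`. -/
theorem b8n_mem_MF (p : ℕ) [NeZero p] {H A B : ℍ → ℂ} (hH : H ∈ MF p 2) (hA : A ∈ MF p 4)
    (hB : B ∈ MF p 6) : b8n H A B ∈ MF p 8 := by
  have h1 : H ^ 4 ∈ MF p 8 := by
    have := S20.pow_mem_MF hH 4
    norm_num at this
    exact this
  have h2 : H ^ 2 ∈ MF p 4 := by
    have := S20.pow_mem_MF hH 2
    norm_num at this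
    exact this
  have h3 : H ^ 2 * A ∈ MF p 8 := by
    have := S20.mul_mem_MF h2 hA
    norm_num at this
    exact this
  have h4 : H * B ∈ MF p 8 := by
    have := S20.mul_mem_MF hH hB
    norm_num at this
    exact this
  have h5 : A ^ 2 ∈ MF p 8 := by
    have := S20.pow_mem_MF hA 2
    norm_num at this
    exact this
  rw [b8n_eq_smul]
  exact (MF p 8).add_mem h1 ((MF p 8).add_mem ((MF p 8).smul_mem _ h3)
    ((MF p 8).add_mem ((MF p 8).smul_mem _ h4) ((MF p 8).smul_mem _ h5)))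

/-- The trace of `(b8n H A B)^m`, function level. -/
theorem trace_b8n_fun (p : ℕ) [NeZero p] (hp : p.Prime) {H A B : ℍ → ℂ} (hH : H ∈ MF p 2)
    (hA : A ∈ LF 4) (hB : B ∈ LF 6) (m : ℕ) :
    b8n H A B ^ m + (p : ℂ) • heckeU ((m : ℤ) * 8) p
      (b8n ((-(p : ℂ)⁻¹) • heckeU 2 p H) (fun z => A (S23.mulN p z))
        (fun z => B (S23.mulN p z)) ^ m) ∈ LF ((m : ℤ) * 8) := by
  have hG := b8n_mem_MF p hH (S20.LF_le_MF p 4 hA) (S20.LF_le_MF p 6 hB)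
  have h1 := WTrace.trace_mem_LF p hp (S20.pow_mem_MF hG m)
  rwa [WTrace.wFun_pow, wFun_b8n, WTrace.wFun_two p hp hH, wFun_levelOne p hA,
    wFun_levelOne p hB] at h1

/-! ### `q`-expansions -/

theorem qExpansion_add_nice {F G : ℍ → ℂ} (hF : F ∈ S23.niceSub) (hG : G ∈ S23.niceSub) :
    qExpansion 1 (F + G) = qExpansion 1 F + qExpansion 1 G :=
  qExpansion_add (S23.analyticAt_cuspFunction_of_mem_niceSub hF)
    (S23.analyticAt_cuspFunction_of_mem_niceSub hG)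

theorem qExpansion_pow_nice {F : ℍ → ℂ} (hF : F ∈ S23.niceSub) (m : ℕ) :
    qExpansion 1 (F ^ m) = qExpansion 1 F ^ m := by
  induction m with
  | zero =>
    rw [pow_zero, pow_zero]
    exact qExpansion_one 1
  | succ n ih =>
    rw [pow_succ, pow_succ, WTraceQ.qExpansion_mul_nice (pow_mem hF n) hF, ih]

/-- `b8n` of nice functions, as the value of `b8n` in the algebra of nice functions. -/
theorem b8n_coe {F₁ F₂ F₃ : ℍ → ℂ} (h₁ : F₁ ∈ S23.niceSub) (h₂ : F₂ ∈ S23.niceSub)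
    (h₃ : F₃ ∈ S23.niceSub) :
    b8n F₁ F₂ F₃ = ((b8n (⟨F₁, h₁⟩ : S23.niceSub) ⟨F₂, h₂⟩ ⟨F₃, h₃⟩ : S23.niceSub) : ℍ → ℂ) :=
  (DPrime.map_b8n (S23.niceSub.val : S23.niceSub →+* (ℍ → ℂ)) ⟨F₁, h₁⟩ ⟨F₂, h₂⟩ ⟨F₃, h₃⟩).symm

theorem nice_b8n {F₁ F₂ F₃ : ℍ → ℂ} (h₁ : F₁ ∈ S23.niceSub) (h₂ : F₂ ∈ S23.niceSub)
    (h₃ : F₃ ∈ S23.niceSub) : b8n F₁ F₂ F₃ ∈ S23.niceSub := by
  rw [b8n_coe h₁ h₂ h₃]
  exact Subtype.property _

theorem qExpansion_b8n {F₁ F₂ F₃ : ℍ → ℂ} (h₁ : F₁ ∈ S23.niceSub) (h₂ : F₂ ∈ S23.niceSub)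
    (h₃ : F₃ ∈ S23.niceSub) :
    qExpansion 1 (b8n F₁ F₂ F₃) =
      b8n (qExpansion 1 F₁) (qExpansion 1 F₂) (qExpansion 1 F₃) := by
  rw [b8n_coe h₁ h₂ h₃]
  exact DPrime.map_b8n (S23.qHom : S23.niceSub →+* PowerSeries ℂ) ⟨F₁, h₁⟩ ⟨F₂, h₂⟩ ⟨F₃, h₃⟩

/-- **Trace of the powers of `b8n H E₄ E₆`** on `q`-expansions: the hypothesis `htr` of the leaf
(D'). -/
theorem trace_b8n_mem {p : ℕ} (hp : p.Prime) (H : ModularForm (CongruenceSubgroup.Gamma0 p) 2)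
    (m : ℕ) :
    b8n (qExpansion 1 H) (qExpansion 1 E₄) (qExpansion 1 E₆) ^ m +
      (p : ℂ) • uOp p (b8n ((-(p : ℂ)⁻¹) • uOp p (qExpansion 1 H)) (vOp p (qExpansion 1 E₄))
        (vOp p (qExpansion 1 E₆)) ^ m) ∈ LQ ((m : ℤ) * 8) := by
  have : NeZero p := ⟨hp.ne_zero⟩
  have hH : (H : ℍ → ℂ) ∈ MF p 2 := ⟨H, rfl⟩
  have hA : (E₄ : ℍ → ℂ) ∈ LF 4 := ⟨E₄, rfl⟩
  have hB : (E₆ : ℍ → ℂ) ∈ LF 6 := ⟨E₆, rfl⟩
  obtain ⟨T, hT⟩ := trace_b8n_fun p hp hH hA hB m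
  refine ⟨T, ?_⟩
  have nH := WTraceQ.nice_of_mem_MF hH
  have nA := WTraceQ.nice_of_mem_LF hA
  have nB := WTraceQ.nice_of_mem_LF hB
  have nU : (-(p : ℂ)⁻¹) • heckeU 2 p (H : ℍ → ℂ) ∈ S23.niceSub :=
    S23.niceSub.smul_mem (WTraceQ.nice_heckeU nH 2 p) _
  have nVA := S24.AnBridge.scale_mem_niceSub p nA
  have nVB := S24.AnBridge.scale_mem_niceSub p nB
  have nG := nice_b8n nH nA nB
  have nG' := nice_b8n nU nVA nVB
  have nG'm := pow_mem nG' m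
  have nUG := WTraceQ.nice_heckeU nG'm ((m : ℤ) * 8) p
  rw [hT, qExpansion_add_nice (pow_mem nG m) (S23.niceSub.smul_mem nUG _),
    WTraceQ.qExpansion_smul_nice _ nUG, WTraceQ.qExpansion_heckeU nG'm _ hp.ne_zero,
    qExpansion_pow_nice nG, qExpansion_pow_nice nG', qExpansion_b8n nH nA nB,
    qExpansion_b8n nU nVA nVB, WTraceQ.qExpansion_smul_nice _ (WTraceQ.nice_heckeU nH 2 p),
    WTraceQ.qExpansion_heckeU nH 2 hp.ne_zero, WTraceQ.qExpansion_comp_mulN p nA,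
    WTraceQ.qExpansion_comp_mulN p nB]

/-- The same with the integral models `E4Z`, `E6Z` of the `q`-expansions of `E₄`, `E₆`, for an
arbitrary power series `h` over a subring with `h.map = qExpansion 1 H`. -/
theorem trace_b8n_mem_int {p : ℕ} (hp : p.Prime) (H : ModularForm (CongruenceSubgroup.Gamma0 p) 2)
    {𝒪 : Subring ℂ} (h : PowerSeries 𝒪) (hh : h.map 𝒪.subtype = qExpansion 1 H) (m : ℕ) :
    b8n (h.map 𝒪.subtype) (LevelOneInt.E4Z.map (Int.castRingHom ℂ))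
        (LevelOneInt.E6Z.map (Int.castRingHom ℂ)) ^ m +
      (p : ℂ) • uOp p (b8n ((-(p : ℂ)⁻¹) • uOp p (h.map 𝒪.subtype))
        (vOp p (LevelOneInt.E4Z.map (Int.castRingHom ℂ)))
        (vOp p (LevelOneInt.E6Z.map (Int.castRingHom ℂ))) ^ m) ∈ LQ ((m : ℤ) * 8) := by
  rw [hh, ← LevelOneInt.qExpansion_E4, ← LevelOneInt.qExpansion_E6]
  exact trace_b8n_mem hp H m

end Fermat.Agent.S16.WTraceD
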